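/-
S33, `moonshots` row 61, (NEW-J): THE KUMMER-DICTIONARY TOP (helper12).

For `x ∈ J_0(N q)[p^k]` in the `q`-new part (`α_* x = 0 = β_* x`) and two Galois elements `τ σ'`
(in the application: elements of an inertia group over `q = p`, `τ = (·)^a` on `μ_{p^k}`) the relation
      `(τ − a)(σ' − 1) x = 0`
(possibly up to a fixed power `p^c`, helper10's slack) is reduced to a statement about FUNCTIONS only:

* `newOps M τ σ' a = [(gal M τ, a), (gal M σ', 1)]`, so that `twFnL (newOps …) f = τ h / h ^ a` with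
  `h = σ' f / f`, and `twPicL (newOps …) x = (τ − a)(σ' − 1) x` (`twNew_eq_twPicL`);
* `NewRootAt N q p c τ σ' a k` : the ROOT FORM — for every `f ≠ 0` of level `N q` with `p ^ k ∣ div f`
  whose two norms to level `N` are constants times `p ^ k`-th powers, the `p ^ c`-th power of
  `τ h / h ^ a` is a constant times a `p ^ k`-th power.  This is a clone of `P4.FrobStep.FrobRootAt`
  WITHOUT the inner binder `p ≠ q`, without Frobenius lifts, and with the slack `p ^ c`;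
* `relation_of_newRoot` : `NewRootAt ⇒ p ^ c • (τ − a)(σ' − 1) x = 0` for `x` in the `q`-new part,
  `p ^ k • x = 0`; `relation_of_newRoot_newPart` with `P4.Push.newPart`;
* `NewRoot N q p c τ σ' a := ∀ k, NewRootAt … k` and the all-`k` form `relation_of_newRoot_all`;
* `newRootAt_of_norms` : the form with the `P4.Push` norms (the two `normAlpha` agree by `rfl`).
-/
import Mathlib
import Fermat.Agent.P4.FrobStep
import Fermat.Agent.P4.Push

set_option autoImplicit false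
set_option linter.unusedSectionVars false
set_option linter.dupNamespace false
set_option linter.style.haveILetI false

open ModularCurve AlgebraicCurve

noncomputable section

namespace Fermat.Agent.S33.New.NewStep

open Fermat.Agent.P3G.GammaDict Fermat.Agent.P3G.GeomStep Fermat.Agent.P3G.AuxPrime
  Fermat.Agent.N4F.C Fermat.Agent.N4F.C.Galois Fermat.Agent.P4.FrobStep

local notation "Qbar" => AlgebraicClosure ℚ
local notation "Γ" => (AlgebraicClosure ℚ ≃ₐ[ℚ] AlgebraicClosure ℚ)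

/-! ### The operator `(τ − a)(σ' − 1)` -/

section Ops

variable (M : ℕ) [NeZero M]

/-- The list of operators `[(τ, a), (σ', 1)]` on the function field of level `M`
(the LAST entry is applied FIRST). -/
def newOps (τ σ' : Γ) (a : ℤ) : List (SemilinearAut Qb (Fb M) × ℤ) :=
  [(gal M τ, a), (gal M σ', 1)]

/-- `(τ − a)(σ' − 1) x` on `J_0(M)`. -/
def twNew (τ σ' : Γ) (a : ℤ) (x : JZero M) : JZero M :=
  τ • (σ' • x - x) - a • (σ' • x - x)

theorem twNew_def (τ σ' : Γ) (a : ℤ) (x : JZero M) :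
    twNew M τ σ' a x = τ • (σ' • x - x) - a • (σ' • x - x) := rfl

theorem twNew_eq_twPicL (τ σ' : Γ) (a : ℤ) (x : JZero M) :
    twNew M τ σ' a x = twPicL (newOps M τ σ' a) x := by
  have h1 : twPicL (newOps M τ σ' a) x =
      τ • (σ' • x - (1 : ℤ) • x) - a • (σ' • x - (1 : ℤ) • x) := rfl
  rw [h1, one_zsmul, twNew_def]

/-- The function `τ h / h ^ a`, `h = σ' f / f`. -/
theorem twFnL_newOps (τ σ' : Γ) (a : ℤ) (f : Fb M) :
    twFnL (newOps M τ σ' a) f =
      (gal M τ • ((gal M σ' • f) / f)) / ((gal M σ' • f) / f) ^ a := by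
  show twFn (gal M τ) a (twFn (gal M σ') 1 f) = _
  rw [twFn_def, twFn_def, zpow_one]

end Ops

/-! ### The root form -/

section Root

variable (N q : ℕ) [NeZero N] [NeZero q]

/-- **(NEW-J), root form with slack `p ^ c`, at one level `N`, one prime `q`, one exponent `k`**:
only functions occur.  For `f ≠ 0` of level `N q` with `p ^ k ∣ div f` whose norms along `α` and `β`
are constants times `p ^ k`-th powers, `(τ h / h ^ a) ^ (p ^ c)` (`h = σ' f / f`) is a constant times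
a `p ^ k`-th power. -/
def NewRootAt (p c : ℕ) (τ σ' : Γ) (a : ℤ) (k : ℕ) : Prop :=
  ∀ (f : Fb (N * q)) (hA hB : Fb N) (cA cB : Qb), f ≠ 0 → cA ≠ 0 → cB ≠ 0 →
    (∀ P : Place Qb (Fb (N * q)), ((p ^ k : ℕ) : ℤ) ∣ P.ord f) →
    normAlpha N q f = algebraMap Qb (Fb N) cA * hA ^ (p ^ k) →
    normBeta N q f = algebraMap Qb (Fb N) cB * hB ^ (p ^ k) →
      ∃ (c' : Qb) (w : Fb (N * q)), c' ≠ 0 ∧
        twFnL (newOps (N * q) τ σ' a) f ^ (p ^ c) =
          algebraMap Qb (Fb (N * q)) c' * w ^ (p ^ k)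

/-- All exponents `k` at once (the slack `c` does not depend on `k`). -/
def NewRoot (p c : ℕ) (τ σ' : Γ) (a : ℕ → ℤ) : Prop :=
  ∀ k : ℕ, NewRootAt N q p c τ σ' (a k) k

variable {N q}

/-- The two norms `P4.FrobStep.normAlpha` and `P4.Push.normAlpha` agree. -/
theorem normAlpha_eq (f : Fb (N * q)) :
    Fermat.Agent.P4.FrobStep.normAlpha N q f = Fermat.Agent.P4.Push.normAlpha N q f := rfl

theorem normBeta_eq (f : Fb (N * q)) :
    Fermat.Agent.P4.FrobStep.normBeta N q f = Fermat.Agent.P4.Push.normBeta N q f := rfl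

/-- `NewRootAt` from the same statement with the `P4.Push` norms. -/
theorem newRootAt_of_norms {p c : ℕ} {τ σ' : Γ} {a : ℤ} {k : ℕ}
    (h : ∀ (f : Fb (N * q)) (hA hB : Fb N) (cA cB : Qb), f ≠ 0 → cA ≠ 0 → cB ≠ 0 →
      (∀ P : Place Qb (Fb (N * q)), ((p ^ k : ℕ) : ℤ) ∣ P.ord f) →
      Fermat.Agent.P4.Push.normAlpha N q f = algebraMap Qb (Fb N) cA * hA ^ (p ^ k) →
      Fermat.Agent.P4.Push.normBeta N q f = algebraMap Qb (Fb N) cB * hB ^ (p ^ k) →
        ∃ (c' : Qb) (w : Fb (N * q)), c' ≠ 0 ∧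
          twFnL (newOps (N * q) τ σ' a) f ^ (p ^ c) =
            algebraMap Qb (Fb (N * q)) c' * w ^ (p ^ k)) :
    NewRootAt N q p c τ σ' a k :=
  fun f hA hB cA cB hf hcA hcB hdiv hnA hnB =>
    h f hA hB cA cB hf hcA hcB hdiv hnA hnB

/-- Slack is monotone: a larger power `p ^ c'` also works. -/
theorem NewRootAt.mono {p c c' : ℕ} {τ σ' : Γ} {a : ℤ} {k : ℕ}
    (h : NewRootAt N q p c τ σ' a k) (hcc : c ≤ c') : NewRootAt N q p c' τ σ' a k := by
  intro f hA hB cA cB hf hcA hcB hdiv hnA hnB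
  obtain ⟨c₁, w, hc₁, hw⟩ := h f hA hB cA cB hf hcA hcB hdiv hnA hnB
  obtain ⟨d, rfl⟩ := Nat.exists_eq_add_of_le hcc
  refine ⟨c₁ ^ (p ^ d), w ^ (p ^ d), pow_ne_zero _ hc₁, ?_⟩
  rw [pow_add, pow_mul, hw, mul_pow, map_pow, ← pow_mul, ← pow_mul, mul_comm (p ^ k)]

/-- **The relation on `J_0(N q)` from the root form (divisor-level hypotheses)**: for
`x ∈ J_0(N q)[p^k]` such that both push-forwards of every representing divisor are principal,
`p ^ c • (τ − a)(σ' − 1) x = 0`. -/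
theorem relation_of_newRoot_div {p c : ℕ} {τ σ' : Γ} {a : ℤ} {k : ℕ} (hp : p ≠ 0)
    (h : NewRootAt N q p c τ σ' a k) (x : JZero (N * q)) (hx : p ^ k • x = 0)
    (hα : ∀ D : Divisor.degZero (K := Qb) (F := Fb (N * q)), Pic0.mk D = x →
      ∃ hA : Fb N, IsDivOf hA (pushAlpha N q (D : Divisor Qb (Fb (N * q)))))
    (hβ : ∀ D : Divisor.degZero (K := Qb) (F := Fb (N * q)), Pic0.mk D = x →
      ∃ hB : Fb N, IsDivOf hB (pushBeta N q (D : Divisor Qb (Fb (N * q))))) :
    p ^ c • twNew (N * q) τ σ' a x = 0 := by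
  have hpk : p ^ k ≠ 0 := pow_ne_zero k hp
  obtain ⟨D, f, hDx, hf⟩ := exists_isDivOf_of_torsion (N * q) x (p ^ k) hx
  obtain ⟨hA', hhA⟩ := hα D hDx
  obtain ⟨hB', hhB⟩ := hβ D hDx
  have hdiv : ∀ P : Place Qb (Fb (N * q)), ((p ^ k : ℕ) : ℤ) ∣ P.ord f := by
    intro P
    rw [← hf.2 P, Finsupp.smul_apply, nsmul_eq_mul]
    exact Dvd.intro _ rfl
  have h1 := isDivOf_normAlpha N q hf
  rw [map_nsmul] at h1
  obtain ⟨cA, hcA, hnA⟩ := IsDivOf.eq_const_mul N h1 (hhA.pow (p ^ k))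
  have h2 := isDivOf_normBeta N q hf
  rw [map_nsmul] at h2
  obtain ⟨cB, hcB, hnB⟩ := IsDivOf.eq_const_mul N h2 (hhB.pow (p ^ k))
  obtain ⟨c', w, hc', hw⟩ := h f hA' hB' cA cB hf.1 hcA hcB hdiv hnA hnB
  rw [twNew_eq_twPicL, ← hDx, twPicL_mk]
  -- the divisor of the `p ^ c`-th power
  have h3 : IsDivOf (twFnL (newOps (N * q) τ σ' a) f ^ (p ^ c))
      (p ^ k • ((p ^ c • twDivL (newOps (N * q) τ σ' a) D :
        Divisor.degZero (K := Qb) (F := Fb (N * q))) : Divisor Qb (Fb (N * q)))) := by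
    have h4 := (IsDivOf.twL (newOps (N * q) τ σ' a) hf).pow (p ^ c)
    have h5 : ((p ^ c • twDivL (newOps (N * q) τ σ' a) D :
        Divisor.degZero (K := Qb) (F := Fb (N * q))) : Divisor Qb (Fb (N * q))) =
        p ^ c • (twDivL (newOps (N * q) τ σ' a) D : Divisor Qb (Fb (N * q))) := rfl
    rw [h5, smul_comm]
    exact h4
  have h6 := mk_eq_zero_of_isDivOf_nsmul_of_pow hpk _ h3 hc' hw
  have h7 : (Pic0.mk (p ^ c • twDivL (newOps (N * q) τ σ' a) D) : Pic0 Qb (Fb (N * q))) =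
      p ^ c • Pic0.mk (twDivL (newOps (N * q) τ σ' a) D) :=
    QuotientAddGroup.mk_nsmul _ _ _
  rw [← h7]
  exact h6

/-- **(NEW-J) from the root form**: for `x ∈ J_0(N q)[p^k]` with `α_* x = 0 = β_* x`,
`p ^ c • (τ − a)(σ' − 1) x = 0`. -/
theorem relation_of_newRoot {p c : ℕ} {τ σ' : Γ} {a : ℤ} {k : ℕ} (hp : p ≠ 0)
    (h : NewRootAt N q p c τ σ' a k) (x : JZero (N * q)) (hx : p ^ k • x = 0)
    (hα : alphaPush N q x = 0) (hβ : Fermat.Agent.P4.Push.betaPush N q x = 0) :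
    p ^ c • (τ • (σ' • x - x) - a • (σ' • x - x)) = 0 := by
  refine relation_of_newRoot_div hp h x hx (fun D hD => ?_) (fun D hD => ?_)
  · rw [← hD] at hα
    exact (Fermat.Agent.P4.Push.alphaPush_mk_eq_zero_iff D).mp hα
  · rw [← hD] at hβ
    exact (Fermat.Agent.P4.Push.betaPush_mk_eq_zero_iff D).mp hβ

/-- The same with `P4.Push.newPart`. -/
theorem relation_of_newRoot_newPart {p c : ℕ} {τ σ' : Γ} {a : ℤ} {k : ℕ} (hp : p ≠ 0)
    (h : NewRootAt N q p c τ σ' a k) {x : JZero (N * q)}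
    (hxn : x ∈ Fermat.Agent.P4.Push.newPart N q) (hx : p ^ k • x = 0) :
    p ^ c • (τ • (σ' • x - x) - a • (σ' • x - x)) = 0 :=
  relation_of_newRoot hp h x hx (Fermat.Agent.P4.Push.mem_newPart_iff.mp hxn).1
    (Fermat.Agent.P4.Push.mem_newPart_iff.mp hxn).2

/-- The slack-free form (`c = 0`). -/
theorem relation_of_newRoot_zero {p : ℕ} {τ σ' : Γ} {a : ℤ} {k : ℕ} (hp : p ≠ 0)
    (h : NewRootAt N q p 0 τ σ' a k) {x : JZero (N * q)}
    (hxn : x ∈ Fermat.Agent.P4.Push.newPart N q) (hx : p ^ k • x = 0) :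
    τ • (σ' • x - x) - a • (σ' • x - x) = 0 := by
  have h1 := relation_of_newRoot_newPart hp h hxn hx
  rwa [pow_zero, one_smul] at h1

/-- All exponents at once. -/
theorem relation_of_newRoot_all {p c : ℕ} {τ σ' : Γ} {a : ℕ → ℤ} (hp : p ≠ 0)
    (h : NewRoot N q p c τ σ' a) (k : ℕ) {x : JZero (N * q)}
    (hxn : x ∈ Fermat.Agent.P4.Push.newPart N q) (hx : p ^ k • x = 0) :
    p ^ c • (τ • (σ' • x - x) - a k • (σ' • x - x)) = 0 :=
  relation_of_newRoot_newPart hp (h k) hxn hx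

end Root

end Fermat.Agent.S33.New.NewStep
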