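/-
S33, row 61, seam (NEW-J) → (NEW′): from the function-level root form `NewStep.NewRootAt` for all
inertia elements (the single target of STEPS B/K/T/G/L) to the torsion-level statement consumed by the
Galois-annihilator transfer (`NewJ` of helper27's re-cut #2812): equivariant additive maps
`α β : Tors (N' * p) p m →+ Tors N' p m` with `p ^ c • (τ − a)(σ' − 1) x = 0` on their common kernel.
-/
import Mathlib
import Fermat.Prelude.Def_GaloisRep_LocalConditions
import Fermat.Agent.S33.New.EqvPush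
import Fermat.Agent.S33.New.NewStep

set_option autoImplicit false
set_option linter.unusedSectionVars false

open ModularCurve GaloisRep

noncomputable section

namespace Fermat.Agent.S33.New.NewJOfRoot

open Fermat.Agent.S19.Abs Fermat.Agent.S33.New.EqvPush Fermat.Agent.S33.New.NewStep

local notation "Qbar" => AlgebraicClosure ℚ
local notation "Γ" => (AlgebraicClosure ℚ ≃ₐ[ℚ] AlgebraicClosure ℚ)

variable (N' p : ℕ) [NeZero N'] [NeZero p]

/-- **THE TARGET OF STEP L**: the root form of (NEW-J), slack `p ^ c`, for all exponents `m`, all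
places `P ∣ p`, all `σ', τ ∈ I_P`, and every `a` with `τ = (·)^a` on `μ_{p^m}`. -/
def NewRootInertia (c : ℕ) : Prop :=
  ∀ (m : ℕ) (P : ValuationSubring Qbar), P.LiesOverPrime p →
    ∀ σ' ∈ P.inertiaSubgroupIn ℚ, ∀ τ ∈ P.inertiaSubgroupIn ℚ, ∀ a : ℕ,
      (∀ μ : Qbar, μ ^ p ^ m = 1 → τ μ = μ ^ a) → NewRootAt N' p p c τ σ' (a : ℤ) m

/-- **(NEW-J) at the torsion level**, in the shape of the re-cut (#2812): the two degeneracy
push-forwards are Galois-equivariant on `p^m`-torsion and `p ^ c (τ − a)(σ' − 1)` kills their common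
kernel. -/
theorem newJ_of_newRootInertia {c : ℕ} (h : NewRootInertia N' p c) (m : ℕ) :
    ∃ α β : Tors (N' * p) p m →+ Tors N' p m,
      (∀ σ x, α (torsAct (N' * p) p m σ x) = torsAct N' p m σ (α x)) ∧
      (∀ σ x, β (torsAct (N' * p) p m σ x) = torsAct N' p m σ (β x)) ∧
      ∀ x, α x = 0 → β x = 0 → ∀ P : ValuationSubring Qbar, P.LiesOverPrime p →
        ∀ σ' ∈ P.inertiaSubgroupIn ℚ, ∀ τ ∈ P.inertiaSubgroupIn ℚ, ∀ a : ℕ,
          (∀ μ : Qbar, μ ^ p ^ m = 1 → τ μ = μ ^ a) →
            (((p ^ c : ℕ) : ℤ)) • (torsAct (N' * p) p m τ (torsAct (N' * p) p m σ' x - x)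
              - a • (torsAct (N' * p) p m σ' x - x)) = 0 := by
  refine ⟨alphaTors N' p p m, betaTors N' p p m, alphaTors_torsAct N' p p m,
    betaTors_torsAct N' p p m, ?_⟩
  intro x hα hβ P hP σ' hσ' τ hτ a ha
  have hroot := h m P hP σ' hσ' τ hτ a ha
  have hrel := relation_of_newRoot (NeZero.ne p) hroot (x : JZero (N' * p))
    (tors_nsmul_eq_zero N' p p m x) ((alphaTors_eq_zero_iff N' p p m x).1 hα)
    ((betaTors_eq_zero_iff N' p p m x).1 hβ)
  apply Subtype.ext
  rw [natCast_zsmul]
  simpa using hrel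

end Fermat.Agent.S33.New.NewJOfRoot
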