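/-
S33, `moonshots` row 61 (helper8), input (LG) of STEP K / STEP T (helper5): **local principal parts of
a `σ`-difference** — the first-difference companion of `P3G/SecondDiff` (same abstract vocabulary:
places `Pl` with a multiplicative `ord`, a permutation `τ` of the places compatible with the field
automorphism `σ`, the set `C` of places centred at a closed point `𝔫`, local equations `b P` (Loc-P)
at the finitely many places `P ∈ S` of the support of `D` in `C`, the unit criterion `hcrit`).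

`fd σ b := σ b / b`.

* VERTICAL (`valuation_fd`): if `σ` preserves the valuation of `V`, then `fd σ b` is a unit of `V` for
  EVERY `b ≠ 0`.
* HORIZONTAL (`ord_prod_fd`): `β := ∏_{P ∈ S} fd σ (b P) ^ D P` has divisor `(τ − 1) D` on `C`.
* (LG) (`exists_localGen`): if `h` has divisor `e · (τ − 1) D` on `C` and is a unit of every `V i`, then
  `h = u · β ^ e` with `u` a unit at `𝔫` (`∃ a r ∉ 𝔫, h a = β ^ e r`).
* TWIST (`tw σ₂ a β := σ₂ β / β ^ a`): `ord`, valuation, and the factorisation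
  `tw σ₂ a h = u' · (tw σ₂ a β) ^ e` with `u'` a unit at `𝔫`, for `σ₂` stabilising the chart and `𝔫`
  (`exists_factor_tw`).
* `exists_unit_of_factor`: the unit `u` as an element of `Aˣ`, `A` the localisation of the chart
  at `𝔫`.
* `exists_localGen_at`: (LG) on a chart with the unit criterion discharged by `P3G/UCrit`.
-/
import Mathlib
import Fermat.Agent.P3G.SecondDiff
import Fermat.Agent.P3G.UCrit

set_option autoImplicit false
set_option linter.unusedSectionVars false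

namespace Fermat.Agent.S33.New.FirstDiff

open Fermat.Agent.P3G.SecondDiff Fermat.Agent.P3G.Cover.OfValuations

variable {F : Type*} [Field F]

/-- The first multiplicative difference `σ b / b`. -/
def fd (σ : F ≃+* F) (b : F) : F := σ b / b

theorem fd_ne_zero (σ : F ≃+* F) {b : F} (hb : b ≠ 0) : fd σ b ≠ 0 :=
  div_ne_zero ((map_ne_zero σ).2 hb) hb

/-- The twist `σ β / β ^ a`. -/
def tw (σ : F ≃+* F) (a : ℕ) (β : F) : F := σ β / β ^ a

theorem tw_ne_zero (σ : F ≃+* F) (a : ℕ) {β : F} (hβ : β ≠ 0) : tw σ a β ≠ 0 :=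
  div_ne_zero ((map_ne_zero σ).2 hβ) (pow_ne_zero a hβ)

theorem tw_mul (σ : F ≃+* F) (a : ℕ) (x y : F) : tw σ a (x * y) = tw σ a x * tw σ a y := by
  unfold tw
  rw [map_mul, mul_pow, mul_div_mul_comm]

theorem tw_pow (σ : F ≃+* F) (a : ℕ) (x : F) (e : ℕ) : tw σ a (x ^ e) = tw σ a x ^ e := by
  unfold tw
  rw [map_pow, div_pow, ← pow_mul, ← pow_mul, mul_comm]

section Vertical

variable {V : ValuationSubring F}

/-- **Vertical part of the first difference**: a unit of `V`, whatever the valuation of `b`. -/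
theorem valuation_fd (σ : F ≃+* F) (hval : ∀ b, V.valuation (σ b) = V.valuation b) {b : F}
    (hb : b ≠ 0) : V.valuation (fd σ b) = 1 := by
  unfold fd
  rw [map_div₀, hval]
  exact div_self ((map_ne_zero _).2 hb)

theorem valuation_prod_zpow_eq_one {α : Type*} (S : Finset α) (x : α → F) (n : α → ℤ)
    (h : ∀ a ∈ S, V.valuation (x a) = 1) : V.valuation (∏ a ∈ S, x a ^ n a) = 1 := by
  rw [map_prod]
  refine Finset.prod_eq_one fun a ha => ?_
  rw [map_zpow₀, h a ha, one_zpow]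

theorem valuation_tw (σ : F ≃+* F) (hval : ∀ b, V.valuation (σ b) = V.valuation b) (a : ℕ) {β : F}
    (hβ : V.valuation β = 1) : V.valuation (tw σ a β) = 1 := by
  unfold tw
  rw [map_div₀, hval, map_pow, hβ, one_pow, div_one]

end Vertical

section Horizontal

variable {Pl : Type*} {ord : Pl → F → ℤ}

/-- `ord_Q (σ b / b) = ord_{τ⁻¹ Q} b − ord_Q b`. -/
theorem ord_fd (h : OrdMul ord) {σ : F ≃+* F} {τ : Equiv.Perm Pl} (hτ : Compat ord σ τ) (Q : Pl)
    {b : F} (hb : b ≠ 0) : ord Q (fd σ b) = ord (τ.symm Q) b - ord Q b := by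
  unfold fd
  rw [h.div Q ((map_ne_zero σ).2 hb) hb, hτ.ord_map]

/-- `ord_Q (σ β / β ^ a) = ord_{τ⁻¹ Q} β − a · ord_Q β`. -/
theorem ord_tw (h : OrdMul ord) {σ : F ≃+* F} {τ : Equiv.Perm Pl} (hτ : Compat ord σ τ) (Q : Pl)
    (a : ℕ) {β : F} (hβ : β ≠ 0) : ord Q (tw σ a β) = ord (τ.symm Q) β - a * ord Q β := by
  unfold tw
  rw [h.div Q ((map_ne_zero σ).2 hβ) (pow_ne_zero a hβ), hτ.ord_map, h.pow Q hβ]

/-- **Horizontal bookkeeping.**  `C` a `τ⁻¹`-stable set of places (those centred at a closed point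
`𝔫`), `S ⊆ C` finite containing the support of `D` in `C`, `b P` (`P ∈ S`) local equations:
`ord_Q (b P) = [Q = P]` for `Q ∈ C`.  Then `β := ∏_{P ∈ S} (σ b_P / b_P) ^ {D P}` has divisor
`(τ − 1) D` on `C`. -/
theorem ord_prod_fd (h : OrdMul ord) {σ : F ≃+* F} {τ : Equiv.Perm Pl} (hτ : Compat ord σ τ)
    (C : Set Pl) (hC : ∀ Q ∈ C, τ.symm Q ∈ C) (S : Finset Pl) (D : Pl → ℤ)
    (hD : ∀ P ∈ C, P ∉ S → D P = 0) (b : Pl → F) (hb0 : ∀ P ∈ S, b P ≠ 0)
    (hb1 : ∀ P ∈ S, ord P (b P) = 1) (hb2 : ∀ P ∈ S, ∀ Q ∈ C, Q ≠ P → ord Q (b P) = 0)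
    {Q : Pl} (hQ : Q ∈ C) :
    ord Q (∏ P ∈ S, fd σ (b P) ^ D P) = D (τ.symm Q) - D Q := by
  classical
  have key : ∀ Q' ∈ C, ∑ P ∈ S, D P * ord Q' (b P) = D Q' := by
    intro Q' hQ'
    have h1 : ∑ P ∈ S, D P * ord Q' (b P) = ∑ P ∈ S, if Q' = P then D P else 0 := by
      refine Finset.sum_congr rfl fun P hP => ?_
      split_ifs with hQP
      · rw [hQP, hb1 P hP, mul_one]
      · rw [hb2 P hP Q' hQ' hQP, mul_zero]
    rw [h1, Finset.sum_ite_eq]
    split_ifs with hmem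
    · rfl
    · exact (hD Q' hQ' hmem).symm
  rw [h.prod_zpow Q S _ _ fun P hP => fd_ne_zero σ (hb0 P hP)]
  have h2 : ∑ P ∈ S, D P * ord Q (fd σ (b P)) =
      ∑ P ∈ S, D P * ord (τ.symm Q) (b P) - ∑ P ∈ S, D P * ord Q (b P) := by
    rw [← Finset.sum_sub_distrib]
    refine Finset.sum_congr rfl fun P hP => ?_
    rw [ord_fd h hτ Q (hb0 P hP)]
    ring
  rw [h2, key _ (hC _ hQ), key _ hQ]

end Horizontal

section LG

variable {R : Type*} [CommRing R] [Algebra R F] {ι : Type*} (V : ι → ValuationSubring F)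
  {Pl : Type*} {ord : Pl → F → ℤ}

/-- **(LG): the local principal part of a `σ`-difference.**

* `V i`: the vertical (Gauss) valuation rings, preserved by `σ`;
* `ord`, `τ`: the places of `F`, permuted by `τ` compatibly with `σ`;
* `C`: the places centred at the closed point `𝔫`, `b P` (`P ∈ S`): local equations (Loc-P);
* `hcrit`: the unit criterion at `𝔫`;
* `h` has horizontal divisor `e · (τ − 1) D` on `C` and is a unit of every `V i`.

Then `β := ∏_{P ∈ S} (σ b_P / b_P) ^ {D P}` is a unit of every `V i`, has divisor `(τ − 1) D` on `C`,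
and `h = u β ^ e` with `u` a unit at `𝔫`. -/
theorem exists_localGen (𝔫 : Ideal R)
    (σ : F ≃+* F) (hval : ∀ i b, (V i).valuation (σ b) = (V i).valuation b)
    (hord : OrdMul ord) {τ : Equiv.Perm Pl} (hτ : Compat ord σ τ)
    (C : Set Pl) (hC : ∀ Q ∈ C, τ.symm Q ∈ C) (S : Finset Pl) (D : Pl → ℤ)
    (hD : ∀ P ∈ C, P ∉ S → D P = 0) (b : Pl → F) (hb0 : ∀ P ∈ S, b P ≠ 0)
    (hb1 : ∀ P ∈ S, ord P (b P) = 1) (hb2 : ∀ P ∈ S, ∀ Q ∈ C, Q ≠ P → ord Q (b P) = 0)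
    (hcrit : ∀ x : F, x ≠ 0 → (∀ Q ∈ C, ord Q x = 0) → (∀ i, (V i).valuation x = 1) →
      ∃ a r : R, a ∉ 𝔫 ∧ r ∉ 𝔫 ∧ x * algebraMap R F a = algebraMap R F r)
    {e : ℕ} {h : F} (hh0 : h ≠ 0)
    (hhC : ∀ Q ∈ C, ord Q h = e * (D (τ.symm Q) - D Q))
    (hhV : ∀ i, (V i).valuation h = 1) :
    ∃ β : F, β ≠ 0 ∧ (∀ i, (V i).valuation β = 1) ∧ (∀ Q ∈ C, ord Q β = D (τ.symm Q) - D Q) ∧
      ∃ a r : R, a ∉ 𝔫 ∧ r ∉ 𝔫 ∧ h * algebraMap R F a = β ^ e * algebraMap R F r := by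
  classical
  set β : F := ∏ P ∈ S, fd σ (b P) ^ D P with hβ
  have hβ0 : β ≠ 0 := Finset.prod_ne_zero_iff.2 fun P hP =>
    zpow_ne_zero _ (fd_ne_zero σ (hb0 P hP))
  have hβV : ∀ i, (V i).valuation β = 1 := fun i =>
    valuation_prod_zpow_eq_one S _ _ fun P hP => valuation_fd σ (hval i) (hb0 P hP)
  have hβC : ∀ Q ∈ C, ord Q β = D (τ.symm Q) - D Q := fun Q hQ =>
    ord_prod_fd hord hτ C hC S D hD b hb0 hb1 hb2 hQ
  refine ⟨β, hβ0, hβV, hβC, ?_⟩
  have hβe0 : β ^ e ≠ 0 := pow_ne_zero e hβ0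
  obtain ⟨a, r, ha, hr, har⟩ := hcrit (h / β ^ e) (div_ne_zero hh0 hβe0)
    (fun Q hQ => by
      rw [hord.div Q hh0 hβe0, hord.pow Q hβ0, hβC Q hQ, hhC Q hQ]
      ring)
    (fun i => by
      rw [map_div₀, map_pow, hβV i, one_pow, div_one, hhV i])
  refine ⟨a, r, ha, hr, ?_⟩
  rw [← har]
  field_simp

/-- **The twisted factorisation.**  If `h = u β ^ e` with `u` a unit at `𝔫` and `σ₂` stabilises the
chart `R` (through `σR`) and the complement of `𝔫`, then `σ₂ h / h ^ a = u' (σ₂ β / β ^ a) ^ e` with `u'`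
a unit at `𝔫`. -/
theorem exists_factor_tw (𝔫 : Ideal R) [h𝔫 : 𝔫.IsPrime] (σ₂ : F ≃+* F) (σR : R →+* R)
    (hσR : ∀ x : R, σ₂ (algebraMap R F x) = algebraMap R F (σR x))
    (hσ𝔫 : ∀ x : R, x ∉ 𝔫 → σR x ∉ 𝔫) (k : ℕ) {e : ℕ} {h β : F} (hh0 : h ≠ 0) (hβ0 : β ≠ 0)
    (hfac : ∃ a r : R, a ∉ 𝔫 ∧ r ∉ 𝔫 ∧ h * algebraMap R F a = β ^ e * algebraMap R F r) :
    ∃ a r : R, a ∉ 𝔫 ∧ r ∉ 𝔫 ∧
      tw σ₂ k h * algebraMap R F a = tw σ₂ k β ^ e * algebraMap R F r := by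
  obtain ⟨a, r, ha, hr, har⟩ := hfac
  refine ⟨σR a * r ^ k, σR r * a ^ k, ?_, ?_, ?_⟩
  · intro hmem
    rcases h𝔫.mem_or_mem hmem with h1 | h1
    · exact hσ𝔫 a ha h1
    · exact hr (h𝔫.mem_of_pow_mem k h1)
  · intro hmem
    rcases h𝔫.mem_or_mem hmem with h1 | h1
    · exact hσ𝔫 r hr h1
    · exact ha (h𝔫.mem_of_pow_mem k h1)
  · have h1 : σ₂ h * algebraMap R F (σR a) = σ₂ β ^ e * algebraMap R F (σR r) := by
      rw [← hσR, ← hσR, ← map_mul, har, map_mul, map_pow]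
    have h2 : h ^ k * algebraMap R F a ^ k = (β ^ k) ^ e * algebraMap R F r ^ k := by
      rw [← mul_pow, har, mul_pow, ← pow_mul, ← pow_mul, mul_comm e k]
    have hhk : h ^ k ≠ 0 := pow_ne_zero k hh0
    have hβk : β ^ k ≠ 0 := pow_ne_zero k hβ0
    unfold tw
    rw [map_mul, map_mul, map_pow, map_pow, div_pow]
    rw [div_mul_eq_mul_div, div_mul_eq_mul_div, div_eq_div_iff hhk (pow_ne_zero e hβk)]
    calc σ₂ h * (algebraMap R F (σR a) * algebraMap R F r ^ k) * (β ^ k) ^ e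
        = (σ₂ h * algebraMap R F (σR a)) * ((β ^ k) ^ e * algebraMap R F r ^ k) := by ring
      _ = (σ₂ β ^ e * algebraMap R F (σR r)) * (h ^ k * algebraMap R F a ^ k) := by rw [h1, h2]
      _ = σ₂ β ^ e * (algebraMap R F (σR r) * algebraMap R F a ^ k) * h ^ k := by ring

/-- The unit of a local factorisation as an element of `Aˣ`, `A` the localisation of the chart at
`𝔫`. -/
theorem exists_unit_of_factor (𝔫 : Ideal R) [h𝔫 : 𝔫.IsPrime] {A : Type*} [CommRing A] [Algebra R A]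
    [Algebra A F] [IsScalarTower R A F] [IsLocalization.AtPrime A 𝔫] {h γ : F}
    (hfac : ∃ a r : R, a ∉ 𝔫 ∧ r ∉ 𝔫 ∧ h * algebraMap R F a = γ * algebraMap R F r) :
    ∃ u : Aˣ, h * algebraMap A F ((u⁻¹ : Aˣ) : A) = γ ∧ h = γ * algebraMap A F (u : A) := by
  obtain ⟨a, r, ha, hr, har⟩ := hfac
  have hua : IsUnit (algebraMap R A a) :=
    IsLocalization.map_units A (⟨a, ha⟩ : 𝔫.primeCompl)
  have hur : IsUnit (algebraMap R A r) :=
    IsLocalization.map_units A (⟨r, hr⟩ : 𝔫.primeCompl)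
  obtain ⟨ua, hua'⟩ := hua
  obtain ⟨ur, hur'⟩ := hur
  have e1 : algebraMap R F a = algebraMap A F (ua : A) := by
    rw [hua', ← IsScalarTower.algebraMap_apply]
  have e2 : algebraMap R F r = algebraMap A F (ur : A) := by
    rw [hur', ← IsScalarTower.algebraMap_apply]
  have hinv : ∀ w : Aˣ, algebraMap A F (w : A) * algebraMap A F ((w⁻¹ : Aˣ) : A) = 1 := by
    intro w
    rw [← map_mul, Units.mul_inv, map_one]
  rw [e1, e2] at har
  refine ⟨ur * ua⁻¹, ?_, ?_⟩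
  · have : ((ur * ua⁻¹)⁻¹ : Aˣ) = ua * ur⁻¹ := by
      rw [mul_inv, inv_inv, mul_comm]
    rw [this, Units.val_mul, map_mul, ← mul_assoc, har, mul_assoc, hinv, mul_one]
  · rw [Units.val_mul, map_mul, ← mul_assoc, ← har, mul_assoc, hinv, mul_one]

end LG

section Chart

open Fermat.Agent.P3G.UCrit AlgebraicCurve

variable {O K F' R : Type*}
  [CommRing O] [IsDomain O] [IsDiscreteValuationRing O]
  [Field K] [Algebra O K] [IsFractionRing O K]
  [Field F'] [Algebra K F'] [Algebra O F'] [IsScalarTower O K F']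
  [CommRing R] [IsDomain R] [IsNoetherianRing R]
  [Algebra R F'] [IsFractionRing R F'] [Algebra O R] [IsScalarTower O R F']
  {ι : Type*} (V : ι → ValuationSubring F') (hV : ∀ i (r : R), algebraMap R F' r ∈ V i)
  [Finite ι] {ϖ : O} (hϖ : Irreducible ϖ)
  (hϖV : ∀ i, algebraMap R F' (algebraMap O R ϖ) ∈ (V i).nonunits)
  (hsat : ∀ r : R, (∀ i, algebraMap R F' r ∈ (V i).nonunits) → algebraMap O R ϖ ∣ r)
  (𝔫 : Ideal R) [h𝔫 : 𝔫.IsPrime]

include hV hϖ hϖV hsat in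
/-- **(LG) at a point `𝔫` of a chart**, with the unit criterion discharged (`P3G/UCrit`). -/
theorem exists_localGen_at [IsIntegrallyClosed R]
    (σ : F' ≃+* F') (hval : ∀ i b, (V i).valuation (σ b) = (V i).valuation b)
    (hord : OrdMul (fun (Q : Place K F') (x : F') => Q.ord x)) {τ : Equiv.Perm (Place K F')}
    (hτ : Compat (fun (Q : Place K F') (x : F') => Q.ord x) σ τ)
    (hC : ∀ Q ∈ centredSet K 𝔫, τ.symm Q ∈ centredSet K 𝔫) (S : Finset (Place K F'))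
    (D : Place K F' → ℤ)
    (hD : ∀ P ∈ centredSet K 𝔫, P ∉ S → D P = 0) (b : Place K F' → F') (hb0 : ∀ P ∈ S, b P ≠ 0)
    (hb1 : ∀ P ∈ S, P.ord (b P) = 1)
    (hb2 : ∀ P ∈ S, ∀ Q ∈ centredSet K 𝔫, Q ≠ P → Q.ord (b P) = 0)
    {e : ℕ} {h : F'} (hh0 : h ≠ 0)
    (hhC : ∀ Q ∈ centredSet K 𝔫, Q.ord h = e * (D (τ.symm Q) - D Q))
    (hhV : ∀ i, (V i).valuation h = 1) :
    ∃ β : F', β ≠ 0 ∧ (∀ i, (V i).valuation β = 1) ∧
      (∀ Q ∈ centredSet K 𝔫, Q.ord β = D (τ.symm Q) - D Q) ∧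
      ∃ a r : R, a ∉ 𝔫 ∧ r ∉ 𝔫 ∧ h * algebraMap R F' a = β ^ e * algebraMap R F' r :=
  exists_localGen (ord := fun (Q : Place K F') (x : F') => Q.ord x) V 𝔫 σ hval hord hτ
    (centredSet K 𝔫) hC S D hD b hb0 hb1 hb2
    (hcrit_strong (K := K) V hV hϖ hϖV hsat 𝔫) hh0 hhC hhV

end Chart

end Fermat.Agent.S33.New.FirstDiff
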