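/-
S33, `moonshots` row 61, [LG] at a level (helper5): **the local principal part of `σ_K f / f` at every
closed point of a chart of a good level**, from the vertical data `VertLevel` and (Loc-P) `LocPChart`
of `P3G/Assembly/LevelGeomOfPoints` — the first-difference analogue of `localRoots_sdK`.

* `exists_localGen_chart` : `FirstDiff.exists_localGen_at` in the `TwoVal`/`IsSemiGaussRing` language of
  `P3G/LocalRootsAt` (the family `fam V₁ V₂`);
* `fdK K hK N σ f := σ_K • f / f`, `levK_fdK` (it is `diffFn (gal N σ)` over `Q̄`);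
* `exists_localGen_fdK` : for `f ≠ 0` with `e ∣ ord_Q f` for every place `Q` and rational support,
  at every closed point `𝔫` of the special fibre of the chart there is `β ≠ 0`, a unit of `V₁` and
  `V₂`, with `ord_Q β = D(σ_K⁻¹ Q) − D(Q)` (`D := div f / e`) at the places centred at `𝔫`, such that
  `σ_K f / f = u β ^ e`, `u` a unit at `𝔫`.
-/
import Mathlib
import Fermat.Agent.S33.New.FirstDiff
import Fermat.Agent.P3G.Assembly.LevelGeomOfPoints

set_option autoImplicit false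
set_option linter.unusedSectionVars false
set_option linter.dupNamespace false
set_option linter.style.haveILetI false

open ModularCurve AlgebraicCurve IntermediateField

noncomputable section

namespace Fermat.Agent.S33.New.FirstDiffLevel

open Fermat.Agent.N4.Setting Fermat.Agent.N4.Chart Fermat.Agent.N4.S18Glue Fermat.Agent.N4.BigDVR
  Fermat.Agent.P3G.Cover.Lift Fermat.Agent.P3G.Assembly.PowCover
  Fermat.Agent.P3G.Assembly.StepOfLevel Fermat.Agent.P3G.Assembly.LevelStep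
  Fermat.Agent.P3G.Assembly.LevelGeomOfPoints
  Fermat.Agent.P3G.GammaDict Fermat.Agent.P3G.GeomStep
  Fermat.Agent.P3G.Gamma Fermat.Agent.P3G.GammaAut
  Fermat.Agent.P3G.SecondDiff Fermat.Agent.P3G.UCrit Fermat.Agent.P3G.LocalRootsAt
  Fermat.Agent.N4F.C Fermat.Agent.N4F.C.Levels Fermat.Agent.N4F.C.Galois
  Fermat.Agent.S33.New.FirstDiff
open Fermat.Agent.S24.PlaceDeriv (ResidueTrivial)

local notation "Qbar" => AlgebraicClosure ℚ
local notation "Γ" => (AlgebraicClosure ℚ ≃ₐ[ℚ] AlgebraicClosure ℚ)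

/-! ### (LG) on a chart, in the `TwoVal` language -/

section Chart

universe u

variable {O K₀ : Type*} [CommRing O] [IsDomain O] [IsDiscreteValuationRing O]
  [Field K₀] [Algebra O K₀] [IsFractionRing O K₀]
variable {F₀ : Type u} [Field F₀] [Algebra K₀ F₀] [Algebra O F₀] [IsScalarTower O K₀ F₀]
variable {π : O} {W : Subring F₀} {V₁ V₂ : ValuationSubring F₀}
variable (s : F₀)
  [IsNoetherianRing (chartAlg O F₀ {s})] [IsFractionRing (chartAlg O F₀ {s}) F₀]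
  [IsIntegrallyClosed (chartAlg O F₀ {s})]

/-- **(LG) at a point of a chart** with two vertical valuations. -/
theorem exists_localGen_chart (hπ : Irreducible π) (hT : TwoVal π W V₁ V₂)
    (hW : IsSemiGaussRing W (algebraMap O (chartAlg O F₀ {s}) π))
    (σ : F₀ ≃+* F₀)
    (hval₁ : ∀ x, V₁.valuation (σ x) = V₁.valuation x)
    (hval₂ : ∀ x, V₂.valuation (σ x) = V₂.valuation x)
    {τ : Equiv.Perm (Place K₀ F₀)}
    (hτ : Compat (fun (Q : Place K₀ F₀) (x : F₀) => Q.ord x) σ τ)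
    (e : ℕ) {h : F₀} (hh0 : h ≠ 0) (hhV₁ : V₁.valuation h = 1) (hhV₂ : V₂.valuation h = 1)
    (𝔫 : Ideal (chartAlg O F₀ {s})) [h𝔫 : 𝔫.IsPrime]
    (hC : ∀ Q ∈ centredSet K₀ 𝔫, τ.symm Q ∈ centredSet K₀ 𝔫)
    (S : Finset (Place K₀ F₀)) (D : Place K₀ F₀ → ℤ) (b : Place K₀ F₀ → F₀)
    (hD : ∀ P ∈ centredSet K₀ 𝔫, P ∉ S → D P = 0) (hb0 : ∀ P ∈ S, b P ≠ 0)
    (hb1 : ∀ P ∈ S, P.ord (b P) = 1)
    (hb2 : ∀ P ∈ S, ∀ Q ∈ centredSet K₀ 𝔫, Q ≠ P → Q.ord (b P) = 0)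
    (hhC : ∀ Q ∈ centredSet K₀ 𝔫, Q.ord h = e * (D (τ.symm Q) - D Q)) :
    ∃ β : F₀, β ≠ 0 ∧ V₁.valuation β = 1 ∧ V₂.valuation β = 1 ∧
      (∀ Q ∈ centredSet K₀ 𝔫, Q.ord β = D (τ.symm Q) - D Q) ∧
      ∃ a r : chartAlg O F₀ {s}, a ∉ 𝔫 ∧ r ∉ 𝔫 ∧
        h * algebraMap (chartAlg O F₀ {s}) F₀ a = β ^ e * algebraMap (chartAlg O F₀ {s}) F₀ r := by
  have hord : OrdMul (fun (Q : Place K₀ F₀) (x : F₀) => Q.ord x) := fun Q f g hf hg =>
    Q.ord_mul hf hg
  obtain ⟨β, hβ0, hβV, hβC, hfac⟩ := exists_localGen_at (K := K₀)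
    (fam V₁ V₂) (algebraMap_chart_mem s hT hW) hπ (pi_mem_nonunits s hT) (sat_chart s hT hW) 𝔫
    σ
    (fun b x => by cases b; exacts [hval₂ x, hval₁ x])
    hord hτ hC S D hD b hb0 hb1 hb2 (e := e) (h := h) hh0 hhC
    (fun b => by cases b; exacts [hhV₂, hhV₁])
  exact ⟨β, hβ0, hβV true, hβV false, hβC, hfac⟩

end Chart

/-! ### The first difference at a stable level -/

section FirstDiffK

variable (K : IntermediateField ℚ Qbar) (hK : ∀ (τ : Γ) (x : Qbar), x ∈ K → τ x ∈ K)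
  (N : ℕ) [NeZero N]

/-- The first difference `σ_K f / f` at a stable level, `σ_K = levelFF K hK N σ`. -/
def fdK (σ : Γ) (f : FF (Lvl K) N) : FF (Lvl K) N := levelFF K hK N σ • f / f

theorem fdK_def (σ : Γ) (f : FF (Lvl K) N) : fdK K hK N σ f = levelFF K hK N σ • f / f := rfl

theorem fdK_eq_fd (σ : Γ) (f : FF (Lvl K) N) :
    fdK K hK N σ f = fd (SemilinearAut.toRingAut (levelFF K hK N σ)) f := rfl

theorem fdK_ne_zero (σ : Γ) {f : FF (Lvl K) N} (hf : f ≠ 0) : fdK K hK N σ f ≠ 0 := by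
  rw [fdK_eq_fd]
  exact fd_ne_zero _ hf

/-- The level map carries the first difference at level `K` to `σ f / f` over `Q̄`. -/
theorem levK_fdK (σ : Γ) (f : FF (Lvl K) N) :
    levK N K (fdK K hK N σ f) = gal N σ • levK N K f / levK N K f := by
  rw [fdK_def, map_div₀, levK_levelFF_smul]

end FirstDiffK

/-! ### (LG) at a level -/

section Level

variable {A : ValuationSubring Qbar} {K : IntermediateField ℚ Qbar}
  {hKs : ∀ (τ : Γ) (x : Qbar), x ∈ K → τ x ∈ K} {N : ℕ} [NeZero N] {σ : Γ}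

/-- The first difference is a unit at both vertical valuation rings. -/
theorem VertLevel.valuation_fdK₁ {ϖ : ↥(baseRing A K)} {W : Subring (FF (Lvl K) N)}
    {V₁ V₂ : ValuationSubring (FF (Lvl K) N)} (hV : VertLevel A K hKs N σ ϖ W V₁ V₂)
    {f : FF (Lvl K) N} (hf : f ≠ 0) : V₁.valuation (fdK K hKs N σ f) = 1 := by
  rw [fdK_eq_fd]
  exact valuation_fd _ hV.val₁ hf

theorem VertLevel.valuation_fdK₂ {ϖ : ↥(baseRing A K)} {W : Subring (FF (Lvl K) N)}
    {V₁ V₂ : ValuationSubring (FF (Lvl K) N)} (hV : VertLevel A K hKs N σ ϖ W V₁ V₂)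
    {f : FF (Lvl K) N} (hf : f ≠ 0) : V₂.valuation (fdK K hKs N σ f) = 1 := by
  rw [fdK_eq_fd]
  exact valuation_fd _ hV.val₂ hf

/-- **(LG) at a level**: the local principal part of `σ_K f / f` at a closed point `𝔫` of the special
fibre of a chart, from the vertical data and (Loc-P).  `D := div f / e`. -/
theorem exists_localGen_fdK [IsDiscreteValuationRing ↥(baseRing A K)]
    [IsFractionRing ↥(baseRing A K) (Lvl K)]
    {ϖ : ↥(baseRing A K)} {W : Subring (FF (Lvl K) N)}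
    {V₁ V₂ : ValuationSubring (FF (Lvl K) N)} (hV : VertLevel A K hKs N σ ϖ W V₁ V₂)
    (s : FF (Lvl K) N)
    [IsNoetherianRing (chartAlg ↥(baseRing A K) (FF (Lvl K) N) {s})]
    [IsFractionRing (chartAlg ↥(baseRing A K) (FF (Lvl K) N) {s}) (FF (Lvl K) N)]
    [IsIntegrallyClosed (chartAlg ↥(baseRing A K) (FF (Lvl K) N) {s})]
    (hsemi : IsSemiGaussRing W
      (algebraMap ↥(baseRing A K) (chartAlg ↥(baseRing A K) (FF (Lvl K) N) {s}) ϖ))
    (hP : LocPChart A K hKs N σ ϖ s)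
    {f : FF (Lvl K) N} (hf : f ≠ 0) {e : ℕ} (he : e ≠ 0)
    (hdiv : ∀ Q : Place (Lvl K) (FF (Lvl K) N), (e : ℤ) ∣ Q.ord f)
    (S : Finset (Place (Lvl K) (FF (Lvl K) N)))
    (hS : ∀ Q : Place (Lvl K) (FF (Lvl K) N), Q.ord f ≠ 0 → Q ∈ S)
    (hSrat : ∀ Q ∈ S, ResidueTrivial Q)
    (𝔫 : Ideal (chartAlg ↥(baseRing A K) (FF (Lvl K) N) {s})) (h𝔫 : 𝔫.IsMaximal)
    (hϖ𝔫 : algebraMap ↥(baseRing A K) (chartAlg ↥(baseRing A K) (FF (Lvl K) N) {s}) ϖ ∈ 𝔫) :
    ∃ β : FF (Lvl K) N, β ≠ 0 ∧ V₁.valuation β = 1 ∧ V₂.valuation β = 1 ∧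
      (∀ Q ∈ centredSet (F := FF (Lvl K) N) (Lvl K) 𝔫,
        Q.ord β = ((levelFF K hKs N σ)⁻¹ • Q).ord f / (e : ℤ) - Q.ord f / (e : ℤ)) ∧
      ∃ a r : chartAlg ↥(baseRing A K) (FF (Lvl K) N) {s}, a ∉ 𝔫 ∧ r ∉ 𝔫 ∧
        fdK K hKs N σ f * algebraMap (chartAlg ↥(baseRing A K) (FF (Lvl K) N) {s}) (FF (Lvl K) N) a =
          β ^ e * algebraMap (chartAlg ↥(baseRing A K) (FF (Lvl K) N) {s}) (FF (Lvl K) N) r := by
  classical
  haveI : 𝔫.IsPrime := h𝔫.isPrime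
  have he' : (e : ℤ) ≠ 0 := Nat.cast_ne_zero.mpr he
  -- the divisor `D = div f / e`
  set D : Place (Lvl K) (FF (Lvl K) N) → ℤ := fun Q => Q.ord f / (e : ℤ) with hD
  have hDmul : ∀ Q : Place (Lvl K) (FF (Lvl K) N), Q.ord f = (e : ℤ) * D Q := fun Q =>
    (Int.mul_ediv_cancel' (hdiv Q)).symm
  obtain ⟨hstab, hloc⟩ := hP 𝔫 h𝔫 hϖ𝔫
  -- local equations, chosen for all places at once
  have hb : ∀ P : Place (Lvl K) (FF (Lvl K) N), ∃ b : FF (Lvl K) N,
      P ∈ centredSet (F := FF (Lvl K) N) (Lvl K) 𝔫 → ResidueTrivial P →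
        b ≠ 0 ∧ P.ord b = 1 ∧
          ∀ Q ∈ centredSet (F := FF (Lvl K) N) (Lvl K) 𝔫, Q ≠ P → Q.ord b = 0 := by
    intro P
    by_cases h1 : P ∈ centredSet (F := FF (Lvl K) N) (Lvl K) 𝔫 ∧ ResidueTrivial P
    · obtain ⟨b, hb⟩ := hloc P h1.1 h1.2
      exact ⟨b, fun _ _ => hb⟩
    · exact ⟨1, fun h2 h3 => absurd ⟨h2, h3⟩ h1⟩
  choose b hb using hb
  have key := exists_localGen_chart (K₀ := Lvl K) s hV.irr hV.twoVal hsemi
    (SemilinearAut.toRingAut (levelFF K hKs N σ)) hV.val₁ hV.val₂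
    (τ := tauPerm (levelFF K hKs N σ)) (compat_tauPerm _) e
    (h := fd (SemilinearAut.toRingAut (levelFF K hKs N σ)) f) (fd_ne_zero _ hf)
    (valuation_fd _ hV.val₁ hf) (valuation_fd _ hV.val₂ hf) 𝔫
    (fun Q hQ => hstab Q hQ)
    (S.filter (fun Q => Q ∈ centredSet (F := FF (Lvl K) N) (Lvl K) 𝔫)) D b
    (by
      intro P hPC hPS
      have h0 : P.ord f = 0 := by
        by_contra hne
        exact hPS (Finset.mem_filter.mpr ⟨hS P hne, hPC⟩)
      rw [hD]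
      simp only [h0, Int.zero_ediv])
    (by
      intro P hP
      obtain ⟨h1, h2⟩ := Finset.mem_filter.mp hP
      exact (hb P h2 (hSrat P h1)).1)
    (by
      intro P hP
      obtain ⟨h1, h2⟩ := Finset.mem_filter.mp hP
      exact (hb P h2 (hSrat P h1)).2.1)
    (by
      intro P hP Q hQ hne
      obtain ⟨h1, h2⟩ := Finset.mem_filter.mp hP
      exact (hb P h2 (hSrat P h1)).2.2 Q hQ hne)
    (by
      intro Q _
      have h := ord_fd (ordMul_place (K₀ := Lvl K) (F₀ := FF (Lvl K) N))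
        (compat_tauPerm (levelFF K hKs N σ)) Q hf
      rw [h, hDmul, hDmul]
      ring)
  obtain ⟨β, hβ0, hβ1, hβ2, hβC, hfac⟩ := key
  exact ⟨β, hβ0, hβ1, hβ2, fun Q hQ => hβC Q hQ, hfac⟩

end Level

end Fermat.Agent.S33.New.FirstDiffLevel
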