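/-
S33 / row 61, STEP B, block (B1) (helper18): **the global half of the contraction estimate (NR-m)**.

`A` a commutative ring, `ϖ : A`, `C` a finite free `A`-algebra, `P Q : Ideal C` coprime with
`ϖ C = P ⊓ Q`, residue degree one at `P` (`C = A + P`), and every element of `P` has trace in `(ϖ)`
(the other residue extension is "traceless": purely inseparable of degree `p`).  Then for `b ∈ C`
with `b ≡ 1 mod Q ^ m`, `m ≥ 1`, and every `L`:

  `N_{C/A}(b) ≡ b · (1 + ϖ^{m+1} w)  mod P ^ L`   for some `w ∈ A`.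

No unit hypothesis on `b` at `P`, no completion, no quotient ring: with a CRT element `e`
(`e ∈ Q^L`, `1 - e ∈ P^L`) and `a ∈ A`, `b ≡ a mod P^L`, one has
`b ≡ (1 + (a - 1) e) (1 + ϖ^m y) mod ϖ^L`, `y ∈ P`; the norm of the second factor is
`1 + ϖ^m tr(y) + ϖ^{2m}(…)`, the norm of the first one is `≡ a` (rank-one determinant lemma).
Mathlib only.
-/
import Mathlib

set_option autoImplicit false
set_option linter.unusedSectionVars false
set_option linter.style.longLine false

namespace Fermat.Agent.S33.New.NormTwoPrimes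

open Ideal Matrix

variable {A C : Type*} [CommRing A] [CommRing C] [Algebra A C]

/-! ### Norms and congruences -/

section Basis

variable {ι : Type*} [Fintype ι] [DecidableEq ι] (bas : Module.Basis ι A C)

include bas in
/-- The norm is unchanged modulo `I` by adding an `I`-multiple. -/
theorem norm_add_smul_sub_mem_of_basis (I : Ideal A) {r : A} (hr : r ∈ I) (x c : C) :
    Algebra.norm A (x + r • c) - Algebra.norm A x ∈ I := by
  rw [← Ideal.Quotient.eq, Algebra.norm_eq_matrix_det bas, Algebra.norm_eq_matrix_det bas,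
    RingHom.map_det, RingHom.map_det]
  congr 1
  ext i j
  have h0 : Ideal.Quotient.mk I r = 0 := Ideal.Quotient.eq_zero_iff_mem.mpr hr
  simp [map_add, map_smul, h0]

/-- **Rank-one determinant lemma for norms.**  If multiplication by `e` is, modulo `I`, the rank-one
operator `c ↦ lam(c) · e` and `lam(e) ≡ 1`, then `N(1 + t e) ≡ 1 + t mod I`. -/
theorem norm_one_add_smul_sub_mem_of_basis (I : Ideal A) {r : A} (hr : r ∈ I) (e : C)
    (lam : ι → A) (hlam : ∀ j, ∃ c : C, e * bas j = lam j • e + r • c)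
    (hone : ∑ j, bas.repr e j * lam j - 1 ∈ I) (t : A) :
    Algebra.norm A (1 + t • e) - (1 + t) ∈ I := by
  rw [← Ideal.Quotient.eq, Algebra.norm_eq_matrix_det bas, RingHom.map_det]
  set φ := Ideal.Quotient.mk I with hφ
  have h0 : φ r = 0 := Ideal.Quotient.eq_zero_iff_mem.mpr hr
  have hM : φ.mapMatrix (Algebra.leftMulMatrix bas (1 + t • e)) =
      1 + Matrix.replicateCol Unit (fun i => φ t * φ (bas.repr e i)) *
        Matrix.replicateRow Unit (fun j => φ (lam j)) := by
    ext i j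
    obtain ⟨c, hc⟩ := hlam j
    rw [RingHom.mapMatrix_apply, Matrix.map_apply, Algebra.leftMulMatrix_eq_repr_mul,
      Matrix.add_apply, Matrix.mul_apply]
    simp only [Finset.univ_unique, Finset.sum_singleton, Matrix.replicateCol_apply,
      Matrix.replicateRow_apply]
    rw [add_mul, one_mul, smul_mul_assoc, hc]
    simp only [map_add, map_smul, Finsupp.coe_add, Finsupp.coe_smul, Pi.add_apply, Pi.smul_apply,
      smul_eq_mul, map_mul, h0, zero_mul, add_zero]
    rw [Module.Basis.repr_self, Matrix.one_apply, Finsupp.single_apply]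
    by_cases hij : i = j
    · subst hij
      simp only [if_true, map_one]
      ring
    · rw [if_neg (Ne.symm hij), if_neg hij, map_zero]
      ring
  rw [hM, Matrix.det_one_add_replicateCol_mul_replicateRow]
  have h1 : φ (∑ j, bas.repr e j * lam j) = 1 := by
    have := Ideal.Quotient.eq.mpr hone
    rwa [map_one] at this
  rw [map_add, map_one]
  congr 1
  rw [dotProduct]
  calc ∑ j, φ (lam j) * (φ t * φ (bas.repr e j))
      = φ t * φ (∑ j, bas.repr e j * lam j) := by
        rw [map_sum, Finset.mul_sum]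
        refine Finset.sum_congr rfl fun j _ => ?_
        rw [map_mul]
        ring
    _ = φ t := by rw [h1, mul_one]

end Basis

/-! ### Two coprime ideals with product `(ϖ)` -/

/-- The standing hypotheses: `P`, `Q` coprime, `ϖ C = P ⊓ Q`, residue degree one at `P`. -/
structure Hyp (ϖ : A) (P Q : Ideal C) : Prop where
  cop : IsCoprime P Q
  span_eq : Ideal.span {algebraMap A C ϖ} = P ⊓ Q
  deg_one : ∀ c : C, ∃ a : A, c - algebraMap A C a ∈ P

namespace Hyp

variable {ϖ : A} {P Q : Ideal C} (H : Hyp ϖ P Q)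

include H

theorem span_eq_mul : Ideal.span {algebraMap A C ϖ} = P * Q := by
  rw [H.span_eq, Ideal.mul_eq_inf_of_isCoprime H.cop]

theorem unif_mem_left : algebraMap A C ϖ ∈ P := by
  have h : algebraMap A C ϖ ∈ P ⊓ Q := H.span_eq ▸ Ideal.mem_span_singleton_self _
  exact h.1

theorem unif_mem_right : algebraMap A C ϖ ∈ Q := by
  have h : algebraMap A C ϖ ∈ P ⊓ Q := H.span_eq ▸ Ideal.mem_span_singleton_self _
  exact h.2

theorem pow_mul_pow (L : ℕ) : P ^ L * Q ^ L = Ideal.span {algebraMap A C ϖ ^ L} := by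
  rw [← mul_pow, ← H.span_eq_mul, Ideal.span_singleton_pow]

theorem pow_inf_pow (L : ℕ) : P ^ L ⊓ Q ^ L = Ideal.span {algebraMap A C ϖ ^ L} := by
  rw [← Ideal.mul_eq_inf_of_isCoprime (H.cop.pow), H.pow_mul_pow]

/-- CRT element: `e ∈ Q ^ n`, `1 - e ∈ P ^ k`. -/
theorem exists_crt (k n : ℕ) : ∃ e : C, e ∈ Q ^ n ∧ 1 - e ∈ P ^ k := by
  have hc : IsCoprime (P ^ k) (Q ^ n) := H.cop.pow
  obtain ⟨i, hi, j, hj, hij⟩ := Ideal.isCoprime_iff_exists.mp hc
  refine ⟨j, hj, ?_⟩
  have : 1 - j = i := by rw [← hij]; ring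
  rw [this]
  exact hi

/-- Residue degree one at every power of `P`. -/
theorem deg_one_pow (L : ℕ) (c : C) : ∃ a : A, c - algebraMap A C a ∈ P ^ L := by
  induction L with
  | zero => exact ⟨0, by rw [pow_zero, Ideal.one_eq_top]; exact Submodule.mem_top⟩
  | succ L ih =>
    obtain ⟨a₀, ha₀⟩ := ih
    obtain ⟨e, heQ, heP⟩ := H.exists_crt 1 L
    rw [pow_one] at heP
    -- `e * (c - a₀) ∈ Q^L * P^L = (ϖ^L)`
    have h1 : e * (c - algebraMap A C a₀) ∈ Ideal.span {algebraMap A C ϖ ^ L} := by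
      rw [← H.pow_mul_pow, mul_comm (P ^ L)]
      exact Ideal.mul_mem_mul heQ ha₀
    obtain ⟨c', hc'⟩ := Ideal.mem_span_singleton'.mp h1
    obtain ⟨a', ha'⟩ := H.deg_one c'
    refine ⟨a₀ + ϖ ^ L * a', ?_⟩
    have e1 : c - algebraMap A C (a₀ + ϖ ^ L * a') =
        (1 - e) * (c - algebraMap A C a₀) + algebraMap A C ϖ ^ L * (c' - algebraMap A C a') := by
      rw [map_add, map_mul, map_pow]
      linear_combination -hc'
    rw [e1, pow_succ']
    refine Ideal.add_mem _ (Ideal.mul_mem_mul heP ha₀) ?_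
    rw [mul_comm P]
    exact Ideal.mul_mem_mul (Ideal.pow_mem_pow H.unif_mem_left L) ha'

/-! ### The norm estimate -/

variable [Module.Free A C] [Module.Finite A C]

/-- **First factor**: for a CRT element `e` (`e ∈ Q^L`, `1 - e ∈ P^L`), `N(1 + t e) ≡ 1 + t` modulo
`P ^ L`. -/
theorem norm_one_add_smul_crt (L : ℕ) {e : C} (heQ : e ∈ Q ^ L) (heP : 1 - e ∈ P ^ L) (t : A) :
    algebraMap A C (Algebra.norm A (1 + t • e) - (1 + t)) ∈ P ^ L := by
  classical
  let bas := Module.Free.chooseBasis A C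
  have hlamspec : ∀ j, bas j - algebraMap A C ((H.deg_one_pow L (bas j)).choose) ∈ P ^ L :=
    fun j => (H.deg_one_pow L (bas j)).choose_spec
  set lam : Module.Free.ChooseBasisIndex A C → A := fun j => (H.deg_one_pow L (bas j)).choose
    with hlam_def
  have hr : ϖ ^ L ∈ (P ^ L).comap (algebraMap A C) := by
    rw [Ideal.mem_comap, map_pow]
    exact Ideal.pow_mem_pow H.unif_mem_left L
  have hlam : ∀ j, ∃ c : C, e * bas j = lam j • e + ϖ ^ L • c := by
    intro j
    have h1 : e * (bas j - algebraMap A C (lam j)) ∈ Ideal.span {algebraMap A C ϖ ^ L} := by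
      rw [← H.pow_mul_pow, mul_comm (P ^ L)]
      exact Ideal.mul_mem_mul heQ (hlamspec j)
    obtain ⟨c, hc⟩ := Ideal.mem_span_singleton'.mp h1
    refine ⟨c, ?_⟩
    rw [Algebra.smul_def, Algebra.smul_def, map_pow]
    linear_combination -hc
  have hone : ∑ j, bas.repr e j * lam j - 1 ∈ (P ^ L).comap (algebraMap A C) := by
    rw [Ideal.mem_comap]
    have he : e = ∑ j, bas.repr e j • bas j := (bas.sum_repr e).symm
    have e1 : algebraMap A C (∑ j, bas.repr e j * lam j - 1) =
        -(∑ j, bas.repr e j • (bas j - algebraMap A C (lam j))) - (1 - e) := by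
      rw [map_sub, map_one, map_sum]
      simp only [smul_sub, Finset.sum_sub_distrib]
      rw [← he]
      have : ∑ j, bas.repr e j • algebraMap A C (lam j) =
          ∑ j, algebraMap A C (bas.repr e j * lam j) := by
        refine Finset.sum_congr rfl fun j _ => ?_
        rw [Algebra.smul_def, map_mul]
      rw [this]
      ring
    rw [e1]
    refine Ideal.sub_mem _ (Ideal.neg_mem_iff _ |>.mpr ?_) heP
    refine Ideal.sum_mem _ fun j _ => ?_
    exact Submodule.smul_of_tower_mem _ _ (hlamspec j)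
  exact norm_one_add_smul_sub_mem_of_basis bas _ hr e lam hlam hone t

/-- **(NR-m), global half.**  If every element of `P` has trace in `(ϖ)`, then for `b ≡ 1` modulo
`Q ^ m`, `m ≥ 1`: `N(b) ≡ b (1 + ϖ^{m+1} w)` modulo `P ^ L`, for every `L`. -/
theorem norm_sub_mul_mem (htr : ∀ y ∈ P, Algebra.trace A C y ∈ Ideal.span {ϖ}) {m : ℕ}
    (hm : 1 ≤ m) {b : C} (hb : b - 1 ∈ Q ^ m) (L : ℕ) :
    ∃ w : A, algebraMap A C (Algebra.norm A b) -
      b * (1 + algebraMap A C (ϖ ^ (m + 1) * w)) ∈ P ^ L := by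
  classical
  -- enlarge `L`
  obtain ⟨L', hL'L, hL'm⟩ : ∃ L', L ≤ L' ∧ m + 1 ≤ L' := ⟨max L (m + 1), le_max_left _ _,
    le_max_right _ _⟩
  suffices h : ∃ w : A, algebraMap A C (Algebra.norm A b) -
      b * (1 + algebraMap A C (ϖ ^ (m + 1) * w)) ∈ P ^ L' by
    obtain ⟨w, hw⟩ := h
    exact ⟨w, Ideal.pow_le_pow_right hL'L hw⟩
  obtain ⟨e, heQ, heP⟩ := H.exists_crt L' L'
  -- the `P`-part of `b - 1` is divisible by `ϖ ^ m`
  have h1 : (1 - e) * (b - 1) ∈ Ideal.span {algebraMap A C ϖ ^ m} * P ^ (L' - m) := by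
    have h2 : (1 - e) * (b - 1) ∈ P ^ L' * Q ^ m := Ideal.mul_mem_mul heP hb
    have h3 : P ^ L' * Q ^ m = Ideal.span {algebraMap A C ϖ ^ m} * P ^ (L' - m) := by
      rw [← H.pow_mul_pow]
      have : L' = m + (L' - m) := by omega
      conv_lhs => rw [this, pow_add]
      ring
    rwa [h3] at h2
  obtain ⟨y, hy, hy'⟩ := Ideal.mem_span_singleton_mul.mp h1
  have hyP : y ∈ P := Ideal.pow_le_self (by omega) hy
  obtain ⟨a, ha⟩ := H.deg_one_pow L' b
  -- the product decomposition modulo `ϖ ^ L'`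
  have h4 : b - (1 + (a - 1) • e) * (1 + ϖ ^ m • y) ∈ Ideal.span {algebraMap A C ϖ ^ L'} := by
    rw [← H.pow_inf_pow]
    have hy2 : ϖ ^ m • y = (1 - e) * (b - 1) := by
      rw [Algebra.smul_def, map_pow, hy']
    rw [hy2, Algebra.smul_def, map_sub, map_one]
    constructor
    · have e1 : b - (1 + (algebraMap A C a - 1) * e) * (1 + (1 - e) * (b - 1)) =
          (b - algebraMap A C a) - (1 - e) * (algebraMap A C a * (b - 1) - (algebraMap A C a - 1)
            - (algebraMap A C a - 1) * (1 - e) * (b - 1)) := by ring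
      rw [e1]
      exact Ideal.sub_mem _ ha (Ideal.mul_mem_right _ _ heP)
    · have e1 : b - (1 + (algebraMap A C a - 1) * e) * (1 + (1 - e) * (b - 1)) =
          e * ((b - 1) - (algebraMap A C a - 1) * (b - e * (b - 1))) := by ring
      rw [e1]
      exact Ideal.mul_mem_right _ _ heQ
  obtain ⟨c, hc⟩ := Ideal.mem_span_singleton'.mp h4
  have hbeq : b = (1 + (a - 1) • e) * (1 + ϖ ^ m • y) + ϖ ^ L' • c := by
    rw [Algebra.smul_def (ϖ ^ L'), map_pow]
    linear_combination -hc
  set I := (P ^ L').comap (algebraMap A C) with hI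
  have hr : ϖ ^ L' ∈ I := by
    rw [hI, Ideal.mem_comap, map_pow]
    exact Ideal.pow_mem_pow H.unif_mem_left L'
  -- the three congruences
  have hN1 : Algebra.norm A b - Algebra.norm A ((1 + (a - 1) • e) * (1 + ϖ ^ m • y)) ∈ I := by
    have h5 := norm_add_smul_sub_mem_of_basis (Module.Free.chooseBasis A C) I hr
      ((1 + (a - 1) • e) * (1 + ϖ ^ m • y)) c
    rwa [← hbeq] at h5
  have hN2 : algebraMap A C (Algebra.norm A (1 + (a - 1) • e) - (1 + (a - 1))) ∈ P ^ L' :=
    H.norm_one_add_smul_crt L' heQ heP (a - 1)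
  obtain ⟨r, hr3⟩ := Algebra.norm_one_add_smul (ϖ ^ m) y
  obtain ⟨t', ht'⟩ := Ideal.mem_span_singleton'.mp (htr y hyP)
  refine ⟨t' + r * ϖ ^ (m - 1), ?_⟩
  have hN3 : Algebra.norm A (1 + ϖ ^ m • y) = 1 + ϖ ^ (m + 1) * (t' + r * ϖ ^ (m - 1)) := by
    rw [hr3, ← ht']
    have : m = (m - 1) + 1 := by omega
    conv_lhs => rw [this]
    conv_rhs => rw [this]
    simp only [Nat.add_sub_cancel]
    ring
  have e1 : algebraMap A C (Algebra.norm A b) -
      b * (1 + algebraMap A C (ϖ ^ (m + 1) * (t' + r * ϖ ^ (m - 1)))) =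
      algebraMap A C (Algebra.norm A b - Algebra.norm A ((1 + (a - 1) • e) * (1 + ϖ ^ m • y))) +
      algebraMap A C (Algebra.norm A (1 + (a - 1) • e) - (1 + (a - 1))) *
        algebraMap A C (Algebra.norm A (1 + ϖ ^ m • y)) -
      (b - algebraMap A C a) * algebraMap A C (Algebra.norm A (1 + ϖ ^ m • y)) := by
    rw [map_mul (Algebra.norm A), hN3]
    simp only [map_sub, map_add, map_mul, map_one]
    ring
  rw [e1]
  refine Ideal.sub_mem _ (Ideal.add_mem _ hN1 (Ideal.mul_mem_right _ _ hN2))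
    (Ideal.mul_mem_right _ _ ha)

end Hyp

end Fermat.Agent.S33.New.NormTwoPrimes
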