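/-
S33 / row 61, STEP B, block (B2-abs) (helper18): **from ideals of `C = V₁ ∩ V₂` to the two valuation
rings**.

`C` the integral closure of `A` in `L`, `P Q : Ideal C` the two primes over `ϖ` (hypotheses
`NormTwoPrimes.Hyp ϖ P Q`), `V₁ V₂ : ValuationSubring L` the valuation rings of `P`, `Q`:
`C ⊆ V₁ ∩ V₂ ⊆ C`, `P ⊆ ϖ V₁`, `Q ⊆ ϖ V₂`, `V₁` discrete with uniformiser `ϖ`.  If the ideal form of
(NR-m) holds on `C`, then for EVERY `x ∈ L^×`:

  `x - 1 ∈ ϖ^m V₂`, `m ≥ 1`   ⟹   `N_{L/F}(x) = x · (1 + ϖ^{m+1} z)`, `z ∈ V₁`.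

(Denominators are cleared by a CRT element `e ∈ P^k`, `e ≡ 1 mod Q^m`.)
-/
import Mathlib
import Fermat.Agent.S33.New.NormTwoPrimes

set_option autoImplicit false
set_option linter.unusedSectionVars false
set_option linter.style.haveILetI false
set_option linter.style.longLine false

namespace Fermat.Agent.S33.New.NormValuation

open Fermat.Agent.S33.New.NormTwoPrimes

/-! ### Principal units of level `n` of a valuation subring -/

section Level

variable {L : Type*} [Field L]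

/-- `y ∈ ϖ ^ n V`. -/
def InLevel (V : ValuationSubring L) (ϖ : L) (n : ℕ) (y : L) : Prop := ∃ z ∈ V, y = ϖ ^ n * z

theorem InLevel.add {V : ValuationSubring L} {ϖ : L} {n : ℕ} {y y' : L}
    (h : InLevel V ϖ n y) (h' : InLevel V ϖ n y') : InLevel V ϖ n (y + y') := by
  obtain ⟨z, hz, rfl⟩ := h
  obtain ⟨z', hz', rfl⟩ := h'
  exact ⟨z + z', V.add_mem _ _ hz hz', by ring⟩

theorem InLevel.sub {V : ValuationSubring L} {ϖ : L} {n : ℕ} {y y' : L}
    (h : InLevel V ϖ n y) (h' : InLevel V ϖ n y') : InLevel V ϖ n (y - y') := by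
  obtain ⟨z, hz, rfl⟩ := h
  obtain ⟨z', hz', rfl⟩ := h'
  exact ⟨z - z', sub_mem hz hz', by ring⟩

theorem InLevel.mul_right {V : ValuationSubring L} {ϖ : L} {n : ℕ} {y c : L}
    (h : InLevel V ϖ n y) (hc : c ∈ V) : InLevel V ϖ n (y * c) := by
  obtain ⟨z, hz, rfl⟩ := h
  exact ⟨z * c, V.mul_mem _ _ hz hc, by ring⟩

theorem InLevel.mul_left {V : ValuationSubring L} {ϖ : L} {n : ℕ} {y c : L}
    (h : InLevel V ϖ n y) (hc : c ∈ V) : InLevel V ϖ n (c * y) := by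
  rw [mul_comm]; exact h.mul_right hc

theorem InLevel.mul {V : ValuationSubring L} {ϖ : L} {n n' : ℕ} {y y' : L}
    (h : InLevel V ϖ n y) (h' : InLevel V ϖ n' y') : InLevel V ϖ (n + n') (y * y') := by
  obtain ⟨z, hz, rfl⟩ := h
  obtain ⟨z', hz', rfl⟩ := h'
  exact ⟨z * z', V.mul_mem _ _ hz hz', by ring⟩

theorem InLevel.mem {V : ValuationSubring L} {ϖ : L} (hϖ : ϖ ∈ V) {n : ℕ} {y : L}
    (h : InLevel V ϖ n y) : y ∈ V := by
  obtain ⟨z, hz, rfl⟩ := h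
  exact V.mul_mem _ _ (pow_mem hϖ n) hz

theorem InLevel.mono {V : ValuationSubring L} {ϖ : L} (hϖ : ϖ ∈ V) {n n' : ℕ} (hn : n' ≤ n)
    {y : L} (h : InLevel V ϖ n y) : InLevel V ϖ n' y := by
  obtain ⟨z, hz, rfl⟩ := h
  refine ⟨ϖ ^ (n - n') * z, V.mul_mem _ _ (pow_mem hϖ _) hz, ?_⟩
  rw [← mul_assoc, ← pow_add, Nat.add_sub_cancel' hn]

theorem inLevel_zero_iff {V : ValuationSubring L} {ϖ : L} {y : L} : InLevel V ϖ 0 y ↔ y ∈ V := by
  constructor
  · rintro ⟨z, hz, rfl⟩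
    rwa [pow_zero, one_mul]
  · intro h
    exact ⟨y, h, by rw [pow_zero, one_mul]⟩

/-- `1 + ϖ ^ n z`, `n ≥ 1`, has valuation one when `ϖ` is a nonunit. -/
theorem valuation_one_add {V : ValuationSubring L} {ϖ : L} (hϖ : ϖ ∈ V.nonunits) {n : ℕ}
    (hn : 1 ≤ n) {z : L} (hz : z ∈ V) : V.valuation (1 + ϖ ^ n * z) = 1 := by
  have h1 : ϖ ^ n * z ∈ V.nonunits := by
    rw [ValuationSubring.mem_nonunits_iff] at hϖ ⊢
    rw [map_mul, map_pow]
    have hz' : V.valuation z ≤ 1 := (V.valuation_le_one_iff z).2 hz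
    have hp : V.valuation ϖ ^ n < 1 := pow_lt_one₀ zero_le hϖ (by omega)
    calc V.valuation ϖ ^ n * V.valuation z ≤ V.valuation ϖ ^ n * 1 := by gcongr
      _ = V.valuation ϖ ^ n := mul_one _
      _ < 1 := hp
  rw [ValuationSubring.mem_nonunits_iff] at h1
  have := Valuation.map_add_eq_of_lt_left V.valuation (x := 1) (y := ϖ ^ n * z)
    (by rw [map_one]; exact h1)
  rw [this, map_one]

/-- `1 + ϖ ^ n z`, `n ≥ 1`, is a unit of `V` (its inverse lies in `V`) when `ϖ` is a nonunit. -/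
theorem inv_one_add_mem {V : ValuationSubring L} {ϖ : L} (hϖ : ϖ ∈ V.nonunits) {n : ℕ}
    (hn : 1 ≤ n) {z : L} (hz : z ∈ V) : (1 + ϖ ^ n * z)⁻¹ ∈ V := by
  rw [← V.valuation_le_one_iff, map_inv₀, valuation_one_add hϖ hn hz, inv_one]

theorem one_add_ne_zero {V : ValuationSubring L} {ϖ : L} (hϖ : ϖ ∈ V.nonunits) {n : ℕ}
    (hn : 1 ≤ n) {z : L} (hz : z ∈ V) : 1 + ϖ ^ n * z ≠ 0 := by
  intro h
  have := valuation_one_add hϖ hn hz
  rw [h, map_zero] at this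
  exact zero_ne_one this

end Level

/-! ### The valuation form of (NR-m) -/

section Main

variable {A F L : Type*} [CommRing A] [Field F] [Field L] [Algebra A F] [Algebra F L]
  [Algebra A L] (htower : IsScalarTower A F L)
  {ϖ : A} {P Q : Ideal (integralClosure A L)}
  (H : NormTwoPrimes.Hyp ϖ P Q)
  (V₁ V₂ : ValuationSubring L)
  (hC₁ : ∀ c : integralClosure A L, (c : L) ∈ V₁)
  (hC₂ : ∀ c : integralClosure A L, (c : L) ∈ V₂)
  (hint : ∀ y : L, y ∈ V₁ → y ∈ V₂ → y ∈ integralClosure A L)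
  (hP : ∀ c ∈ P, InLevel V₁ (algebraMap A L ϖ) 1 ((c : integralClosure A L) : L))
  (hQ : ∀ c ∈ Q, InLevel V₂ (algebraMap A L ϖ) 1 ((c : integralClosure A L) : L))

theorem coe_unif : ((algebraMap A (integralClosure A L) ϖ : integralClosure A L) : L) =
    algebraMap A L ϖ := rfl

include hC₁ hP in
/-- `P ^ n ⊆ ϖ ^ n V₁`. -/
theorem inLevel_of_mem_pow_left (n : ℕ) (c : integralClosure A L) (hc : c ∈ P ^ n) :
    InLevel V₁ (algebraMap A L ϖ) n (c : L) := by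
  induction n generalizing c with
  | zero => exact inLevel_zero_iff.mpr (hC₁ c)
  | succ n ih =>
    rw [pow_succ'] at hc
    refine Submodule.mul_induction_on hc ?_ ?_
    · intro r hr s hs
      have h := (hP r hr).mul (ih s hs)
      rw [add_comm] at h
      exact h
    · intro x y hx hy
      exact hx.add hy

include hC₂ hQ in
/-- `Q ^ n ⊆ ϖ ^ n V₂`. -/
theorem inLevel_of_mem_pow_right (n : ℕ) (c : integralClosure A L) (hc : c ∈ Q ^ n) :
    InLevel V₂ (algebraMap A L ϖ) n (c : L) := by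
  induction n generalizing c with
  | zero => exact inLevel_zero_iff.mpr (hC₂ c)
  | succ n ih =>
    rw [pow_succ'] at hc
    refine Submodule.mul_induction_on hc ?_ ?_
    · intro r hr s hs
      have h := (hQ r hr).mul (ih s hs)
      rw [add_comm] at h
      exact h
    · intro x y hx hy
      exact hx.add hy

variable (hϖ0 : algebraMap A L ϖ ≠ 0)

include H hC₁ hC₂ hint hP hϖ0 in
/-- `C ∩ ϖ ^ m V₂ ⊆ Q ^ m`. -/
theorem mem_pow_of_inLevel (m : ℕ) (c : integralClosure A L)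
    (hc : InLevel V₂ (algebraMap A L ϖ) m (c : L)) : c ∈ Q ^ m := by
  obtain ⟨e, heQ, heP⟩ := H.exists_crt m m
  obtain ⟨z₁, hz₁, hz₁e⟩ := inLevel_of_mem_pow_left V₁ hC₁ hP m (1 - e) heP
  obtain ⟨z, hz, hzc⟩ := hc
  -- `y = (1 - e) z = z₁ c`
  have hy₂ : ((1 - e : integralClosure A L) : L) * z ∈ V₂ := V₂.mul_mem _ _ (hC₂ _) hz
  have hy₁ : ((1 - e : integralClosure A L) : L) * z ∈ V₁ := by
    have : ((1 - e : integralClosure A L) : L) * z = z₁ * (c : L) := by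
      have h1 : algebraMap A L ϖ ^ m * (((1 - e : integralClosure A L) : L) * z) =
          algebraMap A L ϖ ^ m * (z₁ * (c : L)) := by
        rw [hz₁e, hzc]; ring
      exact mul_left_cancel₀ (pow_ne_zero m hϖ0) h1
    rw [this]
    exact V₁.mul_mem _ _ hz₁ (hC₁ c)
  have hyC := hint _ hy₁ hy₂
  have h2 : (1 - e) * c = algebraMap A (integralClosure A L) ϖ ^ m *
      ⟨((1 - e : integralClosure A L) : L) * z, hyC⟩ := by
    apply Subtype.ext
    show ((1 - e : integralClosure A L) : L) * (c : L) =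
      (algebraMap A L ϖ) ^ m * (((1 - e : integralClosure A L) : L) * z)
    rw [hzc]; ring
  have h3 : c = e * c + (1 - e) * c := by ring
  rw [h3]
  refine Ideal.add_mem _ (Ideal.mul_mem_right _ _ heQ) ?_
  rw [h2]
  exact Ideal.mul_mem_right _ _ (Ideal.pow_mem_pow H.unif_mem_right m)

variable
  (hNR : ∀ m : ℕ, 1 ≤ m → ∀ b : integralClosure A L, b - 1 ∈ Q ^ m → ∀ Lv : ℕ, ∃ w : A,
    algebraMap A (integralClosure A L) (Algebra.norm A b) -
      b * (1 + algebraMap A (integralClosure A L) (ϖ ^ (m + 1) * w)) ∈ P ^ Lv)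
  (hnorm : ∀ b : integralClosure A L, algebraMap A F (Algebra.norm A b) = Algebra.norm F (b : L))
  (hdisc : ∀ x ∈ V₁, x ≠ 0 → ∃ (k : ℕ) (u : L), u ∈ V₁ ∧ u⁻¹ ∈ V₁ ∧
    x = algebraMap A L ϖ ^ k * u)
  (hϖ₁ : algebraMap A L ϖ ∈ V₁.nonunits)

include htower hC₁ hP hNR hnorm hdisc in
/-- (NR-m) for nonzero elements of `C`, multiplicative form. -/
theorem norm_eq_mul_of_mem {m : ℕ} (hm : 1 ≤ m) (b : integralClosure A L) (hb0 : b ≠ 0)
    (hb : b - 1 ∈ Q ^ m) :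
    ∃ z ∈ V₁, algebraMap F L (Algebra.norm F (b : L)) =
      (b : L) * (1 + algebraMap A L ϖ ^ (m + 1) * z) := by
  haveI := htower
  have hbL : (b : L) ≠ 0 := fun h => hb0 (Subtype.ext h)
  obtain ⟨k, u, hu, hu', hbu⟩ := hdisc (b : L) (hC₁ b) hbL
  have hu0 : u ≠ 0 := by
    rintro rfl
    rw [mul_zero] at hbu
    exact hbL hbu
  obtain ⟨w, hw⟩ := hNR m hm b hb (m + 1 + k)
  obtain ⟨z', hz', hz'e⟩ := inLevel_of_mem_pow_left V₁ hC₁ hP _ _ hw
  have hcoe : ((algebraMap A (integralClosure A L) (Algebra.norm A b) -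
      b * (1 + algebraMap A (integralClosure A L) (ϖ ^ (m + 1) * w)) : integralClosure A L) : L) =
      algebraMap F L (Algebra.norm F (b : L)) -
        (b : L) * (1 + algebraMap A L ϖ ^ (m + 1) * algebraMap A L w) := by
    rw [← hnorm b, ← IsScalarTower.algebraMap_apply A F L]
    show algebraMap A L (Algebra.norm A b) - (b : L) * (1 + algebraMap A L (ϖ ^ (m + 1) * w)) = _
    rw [map_mul, map_pow]
  rw [hcoe] at hz'e
  refine ⟨algebraMap A L w + u⁻¹ * z', V₁.add_mem _ _ (hC₁ (algebraMap A _ w))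
    (V₁.mul_mem _ _ hu' hz'), ?_⟩
  have h1 : algebraMap A L ϖ ^ (m + 1 + k) * z' =
      (b : L) * (algebraMap A L ϖ ^ (m + 1) * (u⁻¹ * z')) := by
    rw [hbu, pow_add]
    field_simp
  linear_combination hz'e + h1

include htower H hC₁ hC₂ hint hP hQ hϖ0 hNR hnorm hdisc hϖ₁ in
/-- **(NR-m), valuation form, for every `x ∈ L^×`**: `x ≡ 1 mod ϖ^m V₂`, `m ≥ 1` ⟹
`N_{L/F}(x) = x (1 + ϖ^{m+1} z)`, `z ∈ V₁`. -/
theorem norm_eq_mul {m : ℕ} (hm : 1 ≤ m) (hQtop : Q ≠ ⊤) {x : L} (hx0 : x ≠ 0)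
    (hx : InLevel V₂ (algebraMap A L ϖ) m (x - 1)) :
    ∃ z ∈ V₁, algebraMap F L (Algebra.norm F x) =
      x * (1 + algebraMap A L ϖ ^ (m + 1) * z) := by
  have hϖV₁ : algebraMap A L ϖ ∈ V₁ := hC₁ (algebraMap A _ ϖ)
  have hϖV₂ : algebraMap A L ϖ ∈ V₂ := hC₂ (algebraMap A _ ϖ)
  -- clear the denominator at `V₁`
  obtain ⟨k, hk⟩ : ∃ k : ℕ, algebraMap A L ϖ ^ k * x ∈ V₁ := by
    rcases V₁.mem_or_inv_mem x with h | h
    · exact ⟨0, by rwa [pow_zero, one_mul]⟩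
    · obtain ⟨k, u, hu, hu', hxu⟩ := hdisc x⁻¹ h (inv_ne_zero hx0)
      refine ⟨k, ?_⟩
      have hu0 : u ≠ 0 := by
        rintro rfl
        rw [mul_zero] at hxu
        exact inv_ne_zero hx0 hxu
      have : algebraMap A L ϖ ^ k * x = u⁻¹ := by
        have h2 : x = (algebraMap A L ϖ ^ k * u)⁻¹ := by rw [← hxu, inv_inv]
        rw [h2, mul_inv]
        field_simp
      rw [this]
      exact hu'
  obtain ⟨e₀, he₀Q, he₀P⟩ := H.exists_crt k m
  set e : integralClosure A L := 1 - e₀ with he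
  have heQ : e - 1 ∈ Q ^ m := by
    have : e - 1 = -e₀ := by rw [he]; ring
    rw [this]
    exact Ideal.neg_mem_iff _ |>.mpr he₀Q
  have he0 : e ≠ 0 := by
    intro h0
    apply hQtop
    rw [Ideal.eq_top_iff_one]
    have h1 : e₀ = 1 := by
      have : (1 : integralClosure A L) - e₀ = 0 := by rw [← he]; exact h0
      exact (sub_eq_zero.mp this).symm
    rw [← h1]
    exact Ideal.pow_le_self (by omega) he₀Q
  have heL : (e : L) ≠ 0 := fun h => he0 (Subtype.ext h)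
  obtain ⟨z₁, hz₁, hz₁e⟩ := inLevel_of_mem_pow_left V₁ hC₁ hP k e he₀P
  obtain ⟨z, hz, hzx⟩ := hx
  have hxV₂ : x ∈ V₂ := by
    have : x = 1 + algebraMap A L ϖ ^ m * z := by rw [← hzx]; ring
    rw [this]
    exact V₂.add_mem _ _ V₂.one_mem (V₂.mul_mem _ _ (pow_mem hϖV₂ m) hz)
  -- `b₁ = x e ∈ C`
  have hb₁V₁ : x * (e : L) ∈ V₁ := by
    have : x * (e : L) = (algebraMap A L ϖ ^ k * x) * z₁ := by rw [hz₁e]; ring
    rw [this]
    exact V₁.mul_mem _ _ hk hz₁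
  have hb₁V₂ : x * (e : L) ∈ V₂ := V₂.mul_mem _ _ hxV₂ (hC₂ e)
  set b₁ : integralClosure A L := ⟨x * (e : L), hint _ hb₁V₁ hb₁V₂⟩ with hb₁
  have hb₁0 : b₁ ≠ 0 := by
    intro h0
    have : x * (e : L) = 0 := congrArg Subtype.val h0
    exact mul_ne_zero hx0 heL this
  have hb₁Q : b₁ - 1 ∈ Q ^ m := by
    apply mem_pow_of_inLevel H V₁ V₂ hC₁ hC₂ hint hP hϖ0
    show InLevel V₂ (algebraMap A L ϖ) m (x * (e : L) - 1)
    have h1 : x * (e : L) - 1 = (x - 1) * (e : L) + ((e - 1 : integralClosure A L) : L) := by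
      show x * (e : L) - 1 = (x - 1) * (e : L) + ((e : L) - 1)
      ring
    rw [h1]
    exact (InLevel.mul_right ⟨z, hz, hzx⟩ (hC₂ e)).add
      (inLevel_of_mem_pow_right V₂ hC₂ hQ m _ heQ)
  obtain ⟨z₄, hz₄, hN₁⟩ := norm_eq_mul_of_mem htower V₁ hC₁ hP hNR hnorm hdisc hm b₁ hb₁0 hb₁Q
  obtain ⟨z₅, hz₅, hN₂⟩ := norm_eq_mul_of_mem htower V₁ hC₁ hP hNR hnorm hdisc hm e he0 heQ
  have hunit := one_add_ne_zero hϖ₁ (n := m + 1) (by omega) hz₅
  refine ⟨(z₄ - z₅) * (1 + algebraMap A L ϖ ^ (m + 1) * z₅)⁻¹,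
    V₁.mul_mem _ _ (sub_mem hz₄ hz₅) (inv_one_add_mem hϖ₁ (by omega) hz₅), ?_⟩
  have hmul : algebraMap F L (Algebra.norm F x) * algebraMap F L (Algebra.norm F (e : L)) =
      algebraMap F L (Algebra.norm F (b₁ : L)) := by
    rw [← map_mul, ← map_mul]
  rw [hN₁, hN₂] at hmul
  apply mul_right_cancel₀ (mul_ne_zero heL hunit)
  rw [hmul]
  show x * (e : L) * (1 + algebraMap A L ϖ ^ (m + 1) * z₄) = _
  field_simp
  ring

end Main

end Fermat.Agent.S33.New.NormValuation
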