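/-
S33 / row 61, STEP B, block (B2) (helper18): **the contraction estimate (NR-m) at a level `(K, O)` of
block E**, for the two level maps `α, β : FF K N → FF K (N ℓ)` (residue characteristic `ℓ` = level
prime), in valuation-subring form and for EVERY `x ∈ FF K (N ℓ)^×`.

`V₁ = gaussVS K (N ℓ) O` (Gauss valuation), `V₂ = S.V` (second valuation, `S : SecondVal K N ℓ O`),
`ϖ` a uniformiser of `O`, `m ≥ 1`:

* `nr_alpha` : `x - 1 ∈ ϖ^m V₂  ⟹  α (N_α x) = x (1 + ϖ^{m+1} z)`, `z ∈ V₁`;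
* `nr_beta`  : `x - 1 ∈ ϖ^m V₁  ⟹  β (N_β x) = x (1 + ϖ^{m+1} z)`, `z ∈ V₂`
  (needs discreteness of `V₂`, in the shape of `P3G/GammaV2.exists_zpow_valuation_secondVal`).

(Along `α` the Gauss valuation has residue degree one and `V₂` is purely inseparable of degree `ℓ`;
along `β` the roles are swapped: `P4/NormResidue`.)  The norm gains one power of `ϖ`.
-/
import Mathlib
import Fermat.Agent.P4.NormResidue
import Fermat.Agent.P4.FrobStep
import Fermat.Agent.S33.New.NormPlace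
import Fermat.Agent.S33.New.NormValuation

set_option autoImplicit false
set_option linter.unusedSectionVars false
set_option linter.style.haveILetI false
set_option linter.style.longLine false

open ModularCurve AlgebraicCurve Polynomial
open Fermat.Agent.S28.Gauss Fermat.Agent.N4.Setting Fermat.Agent.N4.FibreEmbedding
open Fermat.Agent.N4F.E.DegreeLevelRaise Fermat.Agent.N4F.E.GaussDVR
open Fermat.Agent.N4F.E Fermat.Agent.P3G.SecondValuation
open Fermat.Agent.S33.New.NormValuation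

noncomputable section

namespace Fermat.Agent.S33.New.NormResidueM

/-! ### Discreteness in the two shapes -/

section Disc

variable {L : Type*} [Field L]

/-- From the `zpow` shape of discreteness (`P3G/GammaDisc`) to the factorisation shape. -/
theorem hdisc_of_zpow (V : ValuationSubring L) {ϖ : L} (hϖ0 : ϖ ≠ 0) (hϖ : ϖ ∈ V.nonunits)
    (hdisc : ∀ b : L, b ≠ 0 → ∃ n : ℤ, V.valuation b = V.valuation ϖ ^ n) :
    ∀ x ∈ V, x ≠ 0 → ∃ (k : ℕ) (u : L), u ∈ V ∧ u⁻¹ ∈ V ∧ x = ϖ ^ k * u := by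
  intro x hx hx0
  obtain ⟨n, hn⟩ := hdisc x hx0
  have hv1 : V.valuation ϖ < 1 := (V.mem_nonunits_iff).1 hϖ
  have hv0 : 0 < V.valuation ϖ := by rw [Valuation.pos_iff]; exact hϖ0
  have hn0 : 0 ≤ n := by
    have h1 : V.valuation x ≤ 1 := (V.valuation_le_one_iff x).2 hx
    rw [hn] at h1
    by_contra hneg
    push Not at hneg
    have : 1 < V.valuation ϖ ^ n := by
      have h2 : V.valuation ϖ ^ n = (V.valuation ϖ ^ (-n))⁻¹ := by rw [zpow_neg, inv_inv]
      rw [h2]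
      have h3 : V.valuation ϖ ^ (-n) < 1 := by
        obtain ⟨k, hk⟩ : ∃ k : ℕ, -n = (k : ℤ) := ⟨(-n).toNat, by omega⟩
        rw [hk, zpow_natCast]
        exact pow_lt_one₀ zero_le hv1 (by omega)
      have h4 : 0 < V.valuation ϖ ^ (-n) := zpow_pos hv0 _
      exact (one_lt_inv₀ h4).mpr h3
    exact absurd h1 (not_le.mpr this)
  obtain ⟨k, hk⟩ : ∃ k : ℕ, n = (k : ℤ) := ⟨n.toNat, by omega⟩
  rw [hk, zpow_natCast] at hn
  refine ⟨k, x * (ϖ ^ k)⁻¹, ?_, ?_, ?_⟩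
  · rw [← V.valuation_le_one_iff, map_mul, map_inv₀, map_pow, hn,
      mul_inv_cancel₀ (pow_ne_zero k hv0.ne')]
  · rw [← V.valuation_le_one_iff, map_inv₀, map_mul, map_inv₀, map_pow, hn,
      mul_inv_cancel₀ (pow_ne_zero k hv0.ne'), inv_one]
  · field_simp

end Disc

/-! ### The `α`-side -/

section Alpha

open Fermat.Agent.N4F.E.AlphaSide Fermat.Agent.N4F.E.KummerNorm Fermat.Agent.P4.NormResidue

variable (K : Type) [Field K] [CharZero K] (N : ℕ) [NeZero N] (ℓ : ℕ) [Fact ℓ.Prime]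
  (O : Subring K) [IsDiscreteValuationRing ↥O] [IsFractionRing ↥O K]

set_option quotPrecheck false in
local notation "κ" => IsLocalRing.ResidueField ↥O

attribute [local instance] algFL algGL isScalarTower_GFL

set_option synthInstance.maxHeartbeats 400000

variable (S : SecondVal K N ℓ O)

variable [CharP (IsLocalRing.ResidueField ↥O) ℓ]
  (ι : K →+* ℂ) (hℓN : ¬ ℓ ∣ N)
  (hA2 : ∀ x : gaussSubalgebra K N O,
    theta K N O x ∈ modularFunctionFieldFullC (IsLocalRing.ResidueField ↥O) N)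

/-- The uniformiser of `G_N` maps to the constant `ϖ` of `FF K (N ℓ)` along `α`. -/
theorem algebraMap_unif_alpha (ϖ : ↥O) :
    algebraMap ↥(gaussSubalgebra K N O) (FF K (N * ℓ)) (unif K N O ϖ) =
      algebraMap K (FF K (N * ℓ)) (ϖ : K) := by
  show alphaF K N ℓ (algebraMap K (FF K N) (ϖ : K)) = _
  rw [AlgHom.commutes]

theorem unif_ne_zero' {ϖ : ↥O} (hϖ : Irreducible ϖ) (M : ℕ) :
    algebraMap K (FF K M) (ϖ : K) ≠ 0 := by
  rw [Ne, map_eq_zero_iff _ (algebraMap K (FF K M)).injective]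
  exact fun h => hϖ.ne_zero (Subtype.ext h)

/-- The constant `ϖ` is a nonunit of the Gauss valuation ring. -/
theorem unif_mem_nonunits_gaussVS {ϖ : ↥O} (hϖ : Irreducible ϖ) (M : ℕ) [NeZero M] :
    algebraMap K (FF K M) (ϖ : K) ∈ (gaussVS K M O).nonunits := by
  have hmem : algebraMap K (FF K M) (ϖ : K) ∈ gaussSubalgebra K M O := (unif K M O ϖ).2
  rw [mem_nonunits_gaussVS_iff K M O hmem]
  exact theta_unif K M O hϖ

/-- Discreteness of the Gauss valuation ring, factorisation shape. -/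
theorem hdisc_gaussVS {ϖ : ↥O} (hϖ : Irreducible ϖ) (M : ℕ) [NeZero M] :
    ∀ x ∈ gaussVS K M O, x ≠ 0 → ∃ (k : ℕ) (u : FF K M), u ∈ gaussVS K M O ∧
      u⁻¹ ∈ gaussVS K M O ∧ x = algebraMap K (FF K M) (ϖ : K) ^ k * u := by
  intro x hx hx0
  obtain ⟨n, u, hu, hxu⟩ := exists_eq_pow_mul K M O hϖ ⟨x, hx⟩
    (fun h => hx0 (congrArg Subtype.val h))
  exact ⟨n, (u : FF K M), u.2, inv_mem_of_theta_ne_zero K M O u hu, congrArg Subtype.val hxu⟩

set_option maxHeartbeats 1600000 in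
include ι hℓN hA2 in
/-- **(NR-m) along `α`**: if `x ≡ 1` modulo `ϖ^m V₂`, `m ≥ 1`, then `α (N_α x) = x (1 + ϖ^{m+1} z)`
with `z` in the Gauss valuation ring. -/
theorem nr_alpha {ϖ : ↥O} (hϖ : Irreducible ϖ) {m : ℕ} (hm : 1 ≤ m) {x : FF K (N * ℓ)}
    (hxne : x ≠ 0) (hx : InLevel S.V (algebraMap K (FF K (N * ℓ)) (ϖ : K)) m (x - 1)) :
    ∃ z ∈ gaussVS K (N * ℓ) O,
      alphaF K N ℓ (Fermat.Agent.P4.FrobStep.normAlong (alphaF K N ℓ) x) =
        x * (1 + algebraMap K (FF K (N * ℓ)) (ϖ : K) ^ (m + 1) * z) := by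
  haveI : FiniteDimensional (FF K N) (FF K (N * ℓ)) := finiteDimensional_alpha K N ℓ ι hℓN
  haveI := charP_laurent K ℓ O
  have hB := betaOut K N ℓ O S
  have htower : IsScalarTower ↥(gaussSubalgebra K N O) (FF K N) (FF K (N * ℓ)) :=
    IsScalarTower.of_algebraMap_eq fun _ => rfl
  have hirr := irreducible_unif K N O hϖ
  have hpow : ∀ b : ↥(integralClosure ↥(gaussSubalgebra K N O) (FF K (N * ℓ))),
      ∃ c : gaussSubalgebra K N O, pi1 K N ℓ O hB b ^ ℓ = qExpand κ ℓ (theta K N O c) := by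
    intro b
    obtain ⟨c, -, hc⟩ := exists_pi1_pow_eq K N ℓ O S hA2 b
    exact ⟨c, hc⟩
  have H := NormPlace.hyp (A := ↥(gaussSubalgebra K N O)) (F := FF K N) (L := FF K (N * ℓ))
    htower (finrank_alpha K N ℓ ι hℓN) (theta K N O) (theta_mem_maximalIdeal K N O)
    (qExpand κ ℓ) (pi1 K N ℓ O hB) (pi1_algebraMap K N ℓ O hB) (x0 K N ℓ O) (t0 K N O)
    (hx0 K N ℓ O hB) (ht0 K N ℓ O) (pi2 K N ℓ O) (pi2_algebraMap K N ℓ O) (ker_ne K N ℓ O hB) hirr
  have hNR : ∀ m : ℕ, 1 ≤ m →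
      ∀ b : ↥(integralClosure ↥(gaussSubalgebra K N O) (FF K (N * ℓ))),
      b - 1 ∈ RingHom.ker (pi1 K N ℓ O hB) ^ m → ∀ Lv : ℕ, ∃ w : gaussSubalgebra K N O,
      algebraMap _ ↥(integralClosure ↥(gaussSubalgebra K N O) (FF K (N * ℓ)))
        (Algebra.norm ↥(gaussSubalgebra K N O) b) -
        b * (1 + algebraMap _ _ (unif K N O ϖ ^ (m + 1) * w)) ∈
          RingHom.ker (pi2 K N ℓ O) ^ Lv := by
    intro m hm b hb Lv
    exact NormPlace.norm_sub_mul_mem (A := ↥(gaussSubalgebra K N O)) (F := FF K N)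
      (L := FF K (N * ℓ)) htower (finrank_alpha K N ℓ ι hℓN) (theta K N O)
      (theta_mem_maximalIdeal K N O) (qExpand κ ℓ) (pi1 K N ℓ O hB) (pi1_algebraMap K N ℓ O hB)
      (x0 K N ℓ O) (t0 K N O) (hx0 K N ℓ O hB) (ht0 K N ℓ O) (pi2 K N ℓ O)
      (pi2_algebraMap K N ℓ O) (ker_ne K N ℓ O hB) hpow hirr hm hb Lv
  have hϖeq := algebraMap_unif_alpha K N ℓ O ϖ
  have key := NormValuation.norm_eq_mul (A := ↥(gaussSubalgebra K N O)) (F := FF K N)
    (L := FF K (N * ℓ)) htower H (gaussVS K (N * ℓ) O) S.V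
    (fun c => mem_gauss_of_mem_integralClosure K N ℓ O c.2)
    (mem_secondVal_of_mem_closure K N ℓ O S)
    (fun y h1 h2 => mem_closure_alpha K N ℓ O S ι hℓN h1 h2)
    (by
      intro c hc
      rw [hϖeq]
      have h0 : theta K (N * ℓ) O ⟨(c : FF K (N * ℓ)),
          mem_gauss_of_mem_integralClosure K N ℓ O c.2⟩ = 0 := hc
      obtain ⟨y, hy⟩ := exists_eq_unif_mul K (N * ℓ) O hϖ _ h0
      exact ⟨(y : FF K (N * ℓ)), y.2, by rw [pow_one]; exact congrArg Subtype.val hy⟩)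
    (by
      intro c hc
      rw [hϖeq]
      have h0 : S.ev ⟨(c : FF K (N * ℓ)), mem_secondVal_of_mem_closure K N ℓ O S c⟩ = 0 := hc
      have h1 := (S.ev_eq_zero_iff _).1 h0
      refine ⟨_, S.ram_one ϖ hϖ _ h1, ?_⟩
      have hne := unif_ne_zero' K O hϖ (N * ℓ)
      rw [pow_one]
      exact (mul_div_cancel_left₀ _ hne).symm.trans (by rw [div_eq_mul_inv, mul_assoc]))
    (by rw [hϖeq]; exact unif_ne_zero' K O hϖ (N * ℓ))
    hNR (NormPlace.algebraMap_norm htower)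
    (by rw [hϖeq]; exact hdisc_gaussVS K O hϖ (N * ℓ))
    (by rw [hϖeq]; exact unif_mem_nonunits_gaussVS K O hϖ (N * ℓ))
    hm (RingHom.ker_ne_top _) hxne (by rw [hϖeq]; exact hx)
  rw [hϖeq] at key
  exact key

end Alpha

/-! ### The `β`-side -/

section Beta

open Fermat.Agent.N4F.E.BetaSide Fermat.Agent.N4F.E.KummerNorm Fermat.Agent.P4.NormResidue

variable (K : Type) [Field K] [CharZero K] (N : ℕ) [NeZero N] (ℓ : ℕ) [hℓ : Fact ℓ.Prime]
  (O : Subring K) [IsDiscreteValuationRing ↥O] [IsFractionRing ↥O K]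

set_option quotPrecheck false in
local notation "κ" => IsLocalRing.ResidueField ↥O

attribute [local instance] BetaSide.algBeta BetaSide.algGL BetaSide.algGC BetaSide.commRingCβ

set_option synthInstance.maxHeartbeats 400000

variable (S : SecondVal K N ℓ O)

/-- The uniformiser of `G_N` maps to the constant `ϖ` of `FF K (N ℓ)` along `β`. -/
theorem algebraMap_unif_beta (ϖ : ↥O) :
    algebraMap ↥(gaussSubalgebra K N O) (FF K (N * ℓ)) (unif K N O ϖ) =
      algebraMap K (FF K (N * ℓ)) (ϖ : K) := by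
  show betaF K N ℓ (algebraMap K (FF K N) (ϖ : K)) = _
  rw [AlgHom.commutes]

/-- The constant `ϖ` is a nonunit of the second valuation ring. -/
theorem unif_mem_nonunits_secondVal {ϖ : ↥O} (hϖ : Irreducible ϖ) :
    algebraMap K (FF K (N * ℓ)) (ϖ : K) ∈ S.V.nonunits := by
  have hmem : algebraMap ↥O (FF K N) ϖ ∈ gaussSubalgebra K N O :=
    (gaussSubalgebra K N O).algebraMap_mem ϖ
  have h1 := S.ev_beta _ hmem
  have h2 : theta K N O ⟨_, hmem⟩ = 0 := theta_unif K N O hϖ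
  rw [h2] at h1
  have h3 := (S.ev_eq_zero_iff _).mp h1
  have h4 : betaF K N ℓ (algebraMap ↥O (FF K N) ϖ) = algebraMap K (FF K (N * ℓ)) (ϖ : K) := by
    show betaF K N ℓ (algebraMap K (FF K N) (ϖ : K)) = _
    rw [AlgHom.commutes]
  rw [← h4]
  exact h3

variable [CharP (IsLocalRing.ResidueField ↥O) ℓ]
  (ι : K →+* ℂ) (hℓN : ¬ ℓ ∣ N)
  (hA2 : ∀ x : ↥(gaussSubalgebra K N O),
    theta K N O x ∈ modularFunctionFieldFullC (IsLocalRing.ResidueField ↥O) N)

include S ι hℓN hA2 in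
/-- The Gauss place of level `N ℓ` is purely inseparable along `β`. -/
theorem exists_pi₁_pow_eq (b : Cβ K N ℓ O) :
    ∃ c : ↥(gaussSubalgebra K N O), pi₁ K N ℓ O b ^ ℓ = qExpand κ ℓ (theta K N O c) := by
  obtain ⟨a, ha⟩ := exists_theta_eq_theta K N ℓ O S ι hℓN (Cβ_le_gauss K N ℓ O b)
    (mem_secondVal_of_mem_Cβ K N ℓ O S b)
  obtain ⟨c, hc⟩ := GaussResidue.theta_surjective K N O
    (GaussResidueQ.coeffMap_frobenius_mem_full κ N ℓ (hA2 a))
  refine ⟨c, ?_⟩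
  rw [pi₁_apply, ha, hc]
  exact pow_eq_qExpand_frob K ℓ O _

set_option maxHeartbeats 1600000 in
include ι hℓN hA2 in
/-- **(NR-m) along `β`**: if `x ≡ 1` modulo `ϖ^m V₁` (Gauss valuation), `m ≥ 1`, then
`β (N_β x) = x (1 + ϖ^{m+1} z)` with `z ∈ V₂`.  (`hdisc` = discreteness of `V₂`, in the shape of
`P3G/GammaV2.exists_zpow_valuation_secondVal`.) -/
theorem nr_beta {ϖ : ↥O} (hϖ : Irreducible ϖ)
    (hdisc : ∀ b : FF K (N * ℓ), b ≠ 0 → ∃ n : ℤ, S.V.valuation b =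
      S.V.valuation (algebraMap K (FF K (N * ℓ)) (ϖ : K)) ^ n)
    {m : ℕ} (hm : 1 ≤ m) {x : FF K (N * ℓ)} (hxne : x ≠ 0)
    (hx : InLevel (gaussVS K (N * ℓ) O) (algebraMap K (FF K (N * ℓ)) (ϖ : K)) m (x - 1)) :
    ∃ z ∈ S.V,
      betaF K N ℓ (Fermat.Agent.P4.FrobStep.normAlong (betaF K N ℓ) x) =
        x * (1 + algebraMap K (FF K (N * ℓ)) (ϖ : K) ^ (m + 1) * z) := by
  haveI := finiteDimensional_beta K N ℓ ι hℓN
  haveI : Algebra.IsSeparable (FF K N) (FF K (N * ℓ)) := inferInstance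
  haveI : CharP (LaurentSeries κ) ℓ := BetaSide.charP_laurent K ℓ O
  have htower : IsScalarTower ↥(gaussSubalgebra K N O) (FF K N) (FF K (N * ℓ)) := inferInstance
  have hirr := irreducible_unif K N O hϖ
  have hpow := exists_pi₁_pow_eq K N ℓ O S ι hℓN hA2
  have H := NormPlace.hyp (A := ↥(gaussSubalgebra K N O)) (F := FF K N) (L := FF K (N * ℓ))
    htower (finrank_beta K N ℓ ι hℓN) (theta K N O) (theta_maximalIdeal K N O)
    (qExpand κ ℓ) (pi₁ K N ℓ O) (pi₁_algebraMap K N ℓ O) (x₀ K N ℓ O) (t₀ K N O)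
    (pi₁_x₀_pow K N ℓ O) (theta_pow_ne K N ℓ O) (evβ K N ℓ O S) (evβ_algebraMap K N ℓ O S)
    (ker_evβ_ne K N ℓ O S) hirr
  have hNR : ∀ m : ℕ, 1 ≤ m → ∀ b : Cβ K N ℓ O,
      b - 1 ∈ RingHom.ker (pi₁ K N ℓ O) ^ m → ∀ Lv : ℕ, ∃ w : ↥(gaussSubalgebra K N O),
      algebraMap _ (Cβ K N ℓ O) (Algebra.norm ↥(gaussSubalgebra K N O) b) -
        b * (1 + algebraMap _ _ (unif K N O ϖ ^ (m + 1) * w)) ∈
          RingHom.ker (evβ K N ℓ O S) ^ Lv := by
    intro m hm b hb Lv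
    exact NormPlace.norm_sub_mul_mem (A := ↥(gaussSubalgebra K N O)) (F := FF K N)
      (L := FF K (N * ℓ)) htower (finrank_beta K N ℓ ι hℓN) (theta K N O)
      (theta_maximalIdeal K N O) (qExpand κ ℓ) (pi₁ K N ℓ O) (pi₁_algebraMap K N ℓ O)
      (x₀ K N ℓ O) (t₀ K N O) (pi₁_x₀_pow K N ℓ O) (theta_pow_ne K N ℓ O) (evβ K N ℓ O S)
      (evβ_algebraMap K N ℓ O S) (ker_evβ_ne K N ℓ O S) hpow hirr hm hb Lv
  have hϖeq := algebraMap_unif_beta K N ℓ O ϖ
  have hne := unif_ne_zero' K O hϖ (N * ℓ)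
  have hnon := unif_mem_nonunits_secondVal K N ℓ O S hϖ
  have key := NormValuation.norm_eq_mul (A := ↥(gaussSubalgebra K N O)) (F := FF K N)
    (L := FF K (N * ℓ)) htower H S.V (gaussVS K (N * ℓ) O)
    (mem_secondVal_of_mem_Cβ K N ℓ O S)
    (Cβ_le_gauss K N ℓ O)
    (fun y h1 h2 => mem_Cβ K N ℓ O S h2 h1)
    (by
      intro c hc
      rw [hϖeq]
      have h0 : S.ev ⟨(c : FF K (N * ℓ)), mem_secondVal_of_mem_Cβ K N ℓ O S c⟩ = 0 := hc
      have h1 := (S.ev_eq_zero_iff _).1 h0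
      refine ⟨_, S.ram_one ϖ hϖ _ h1, ?_⟩
      rw [pow_one]
      exact (mul_div_cancel_left₀ _ hne).symm.trans (by rw [div_eq_mul_inv, mul_assoc]))
    (by
      intro c hc
      rw [hϖeq]
      have h0 : theta K (N * ℓ) O ⟨(c : FF K (N * ℓ)), Cβ_le_gauss K N ℓ O c⟩ = 0 := hc
      obtain ⟨y, hy⟩ := exists_eq_unif_mul K (N * ℓ) O hϖ _ h0
      exact ⟨(y : FF K (N * ℓ)), y.2, by rw [pow_one]; exact congrArg Subtype.val hy⟩)
    (by rw [hϖeq]; exact hne)
    hNR (NormPlace.algebraMap_norm htower)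
    (by rw [hϖeq]; exact hdisc_of_zpow S.V hne hnon hdisc)
    (by rw [hϖeq]; exact hnon)
    hm (RingHom.ker_ne_top _) hxne (by rw [hϖeq]; exact hx)
  rw [hϖeq] at key
  exact key

end Beta

end Fermat.Agent.S33.New.NormResidueM
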