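/-
S33 / (NEW-J), STEP K (helper8): **Kummer integrality — approximate local roots from a generic root.**

Abstract setting (Mathlib only).  `A → B` commutative rings, `ϖ ∈ A` such that
* `ϖ` is a non-zero-divisor on `B` and `A ∩ ϖ B = ϖ A` (`Hyp.reg`, `Hyp.sat`);
* `1 + ϖ A ⊆ Aˣ` (`Hyp.jac`);
* `p = υ ϖ ^ ((p-1) j₀)` in `A`, `υ` a unit, `j₀ ≥ 1` (`Hyp.hpυ`);
* `A/ϖ` is closed in `B/ϖ` under `p`-th roots (`Hyp.root`) and under roots of `X^p + υ X` up to the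
  residue of `(ξ - 1)/ϖ^{j₀}`, `ξ` a `p`-th root of unity (`Hyp.AS`).

Then for a unit `u` of `A` and `r ∈ B` with `r ^ p ≡ u mod ϖ ^ N` there is a `p`-th root of unity `ξ` with
`ξ r ∈ Aˣ (1 + ϖ ^ j B)` for every `j` with `(p-1) j₀ + j ≤ N` (`exists_approx`).

In the application `A` is the local ring of the two-chart model of `X₀(N)` at a closed point of the
special fibre over `p`, `B` the product of the completed valuation rings of the vertical components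
through it, `u` the unit part of a Kummer function and `r` its generic `p`-th root.
-/
import Mathlib

set_option autoImplicit false

namespace Fermat.Agent.S33.New.KummerLoc

open Polynomial

section Expand

variable {B : Type*} [CommRing B]

/-- `(1+y)^p = 1 + y^p + p y + p y² g`. -/
theorem exists_one_add_pow_prime {p : ℕ} (hp : p.Prime) (y : B) :
    ∃ g : B, (1 + y) ^ p = 1 + y ^ p + (p : B) * y + (p : B) * y ^ 2 * g := by
  have key : ∃ g : ℤ[X], (1 + X : ℤ[X]) ^ p =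
      1 + X ^ p + (p : ℤ[X]) * X + (p : ℤ[X]) * X ^ 2 * g := by
    obtain ⟨r, hr⟩ := exists_add_pow_prime_eq hp (1 : ℤ[X]) X
    have h2 : 2 ≤ p := hp.two_le
    have hc : r.coeff 0 = 1 := by
      have h1 := congrArg (fun q : ℤ[X] => q.coeff 1) hr
      simp only [one_pow, mul_one] at h1
      have e1 : ((1 + X : ℤ[X]) ^ p).coeff 1 = (p : ℤ) := by
        rw [add_comm, coeff_X_add_one_pow]
        simp
      have e2 : ((1 : ℤ[X]) + X ^ p + (p : ℤ[X]) * X * r).coeff 1 = (p : ℤ) * r.coeff 0 := by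
        have : ((p : ℤ[X]) * X * r) = X * ((p : ℤ[X]) * r) := by ring
        rw [coeff_add, coeff_add, this, coeff_X_mul, coeff_one, coeff_X_pow]
        have hp1 : (1 : ℕ) ≠ p := by omega
        simp [hp1]
      rw [e1, e2] at h1
      have hp0 : (p : ℤ) ≠ 0 := by exact_mod_cast hp.ne_zero
      have : (p : ℤ) * (r.coeff 0 - 1) = 0 := by linarith
      rcases mul_eq_zero.1 this with h | h
      · exact absurd h hp0
      · linarith
    refine ⟨r.divX, ?_⟩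
    have hdiv : r = r.divX * X + 1 := by
      conv_lhs => rw [← divX_mul_X_add r]
      rw [hc]; simp
    rw [hr, one_pow]
    conv_lhs => rw [hdiv]
    ring
  obtain ⟨g, hg⟩ := key
  refine ⟨aeval y g, ?_⟩
  have := congrArg (aeval y) hg
  simpa using this

end Expand

/-! ### The three ring identities behind the induction -/

section Core
variable {B : Type*} [CommRing B]

theorem core_low (π α s c g υB ιu : B) (p j t n' e N : ℕ)
    (he : e + j = p * j + 1 + t) (hN : N = p * j + 1 + n')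
    (hp : (p : B) = υB * π ^ e)
    (hexp : (1 + π ^ j * s) ^ p = 1 + (π ^ j * s) ^ p + (p : B) * (π ^ j * s)
      + (p : B) * (π ^ j * s) ^ 2 * g)
    (hrp : (α * (1 + π ^ j * s)) ^ p = ιu + π ^ N * c) :
    ιu - α ^ p = π ^ (p * j) * (α ^ p * s ^ p + π * (α ^ p * υB * π ^ t * s
      + α ^ p * υB * π ^ (t + j) * s ^ 2 * g - π ^ n' * c)) := by
  have h1 : π ^ e * π ^ j = π ^ (p * j) * π * π ^ t := by
    rw [← pow_add, he, pow_add, pow_add, pow_one]
  have h2 : π ^ N = π ^ (p * j) * π * π ^ n' := by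
    rw [hN, pow_add, pow_add, pow_one]
  have h3 : (π ^ j * s) ^ p = π ^ (p * j) * s ^ p := by
    rw [mul_pow, ← pow_mul, mul_comm j p]
  rw [mul_pow, hexp, hp, h3] at hrp
  linear_combination (-1 : B) * hrp + (α ^ p * υB * s + α ^ p * υB * π ^ j * s ^ 2 * g) * h1 - c * h2

theorem core_mid (π α s c g υB ιu : B) (p k n' e N : ℕ)
    (he : e + (k + 1) = p * (k + 1)) (hN : N = p * (k + 1) + 1 + n')
    (hp : (p : B) = υB * π ^ e)
    (hexp : (1 + π ^ (k + 1) * s) ^ p = 1 + (π ^ (k + 1) * s) ^ p + (p : B) * (π ^ (k + 1) * s)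
      + (p : B) * (π ^ (k + 1) * s) ^ 2 * g)
    (hrp : (α * (1 + π ^ (k + 1) * s)) ^ p = ιu + π ^ N * c) :
    ιu - α ^ p = π ^ (p * (k + 1)) * (α ^ p * (s ^ p + υB * s) + π * (α ^ p * υB * π ^ k * s ^ 2 * g
      - π ^ n' * c)) := by
  have h1 : π ^ e * π ^ (k + 1) = π ^ (p * (k + 1)) := by
    rw [← pow_add, he]
  have h2 : π ^ N = π ^ (p * (k + 1)) * π * π ^ n' := by
    rw [hN, pow_add, pow_add, pow_one]
  have h3 : (π ^ (k + 1) * s) ^ p = π ^ (p * (k + 1)) * s ^ p := by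
    rw [mul_pow, ← pow_mul, mul_comm (k + 1) p]
  rw [mul_pow, hexp, hp, h3] at hrp
  linear_combination (-1 : B) * hrp + (α ^ p * υB * s + α ^ p * υB * π ^ (k + 1) * s ^ 2 * g) * h1
    - c * h2

theorem core_high (π α s c g υB ιu : B) (p j' t n' e N : ℕ)
    (he : p * (j' + 1) = e + (j' + 1) + 1 + t) (hN : N = e + (j' + 1) + 1 + n')
    (hp : (p : B) = υB * π ^ e)
    (hexp : (1 + π ^ (j' + 1) * s) ^ p = 1 + (π ^ (j' + 1) * s) ^ p + (p : B) * (π ^ (j' + 1) * s)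
      + (p : B) * (π ^ (j' + 1) * s) ^ 2 * g)
    (hrp : (α * (1 + π ^ (j' + 1) * s)) ^ p = ιu + π ^ N * c) :
    ιu - α ^ p = π ^ (e + (j' + 1)) * (α ^ p * υB * s + π * (α ^ p * π ^ t * s ^ p
      + α ^ p * υB * π ^ j' * s ^ 2 * g - π ^ n' * c)) := by
  have h2 : π ^ N = π ^ (e + (j' + 1)) * π * π ^ n' := by
    rw [hN, pow_add, pow_add, pow_one]
  have h3 : (π ^ (j' + 1) * s) ^ p = π ^ (e + (j' + 1)) * π * π ^ t * s ^ p := by
    rw [mul_pow, ← pow_mul, mul_comm (j' + 1) p, he, pow_add, pow_add, pow_one]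
  rw [mul_pow, hexp, hp, h3] at hrp
  linear_combination (-1 : B) * hrp - c * h2
end Core

section Main

variable {A B : Type*} [CommRing A] [CommRing B] [Algebra A B] (ϖ : A)

/-- `x ∈ A + ϖ ^ j B`. -/
def InA (j : ℕ) (x : B) : Prop :=
  ∃ a : A, ∃ c : B, x = algebraMap A B a + algebraMap A B ϖ ^ j * c

/-- `x ∈ ι(Aˣ) · (1 + ϖ ^ j B)`. -/
def Approx (j : ℕ) (x : B) : Prop :=
  ∃ (a : Aˣ) (s : B), x = algebraMap A B a * (1 + algebraMap A B ϖ ^ j * s)

/-- The hypotheses of the Kummer integrality lemma. -/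
structure Hyp (p j₀ : ℕ) (υ : Aˣ) : Prop where
  reg : ∀ b : B, algebraMap A B ϖ * b = 0 → b = 0
  sat : ∀ (a : A) (b : B), algebraMap A B a = algebraMap A B ϖ * b → ∃ a' : A, a = ϖ * a'
  jac : ∀ x : A, IsUnit (1 + ϖ * x)
  hp : p.Prime
  hj₀ : 1 ≤ j₀
  hpυ : (p : A) = υ * ϖ ^ ((p - 1) * j₀)
  root : ∀ b : B, InA (B := B) ϖ 1 (b ^ p) → InA (B := B) ϖ 1 b
  AS : ∀ b : B, InA (B := B) ϖ 1 (b ^ p + algebraMap A B υ * b) →
    ∃ ξ d : B, ξ ^ p = 1 ∧ ξ = 1 + algebraMap A B ϖ ^ j₀ * d ∧ InA (B := B) ϖ 1 (b + d)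

variable {ϖ} {p j₀ : ℕ} {υ : Aˣ}

namespace Hyp

variable (H : Hyp (B := B) ϖ p j₀ υ)
include H

theorem reg_pow (m : ℕ) (b : B) (h : algebraMap A B ϖ ^ m * b = 0) : b = 0 := by
  induction m with
  | zero => simpa using h
  | succ m ih =>
    apply ih
    apply H.reg
    rw [← mul_assoc, ← pow_succ']
    exact h

theorem sat_pow (m : ℕ) (a : A) (b : B) (h : algebraMap A B a = algebraMap A B ϖ ^ m * b) :
    ∃ a' : A, a = ϖ ^ m * a' ∧ algebraMap A B a' = b := by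
  induction m generalizing a b with
  | zero => exact ⟨a, by simp, by simpa using h⟩
  | succ m ih =>
    have h1 : algebraMap A B a = algebraMap A B ϖ * (algebraMap A B ϖ ^ m * b) := by
      rw [h, pow_succ']; ring
    obtain ⟨a₁, ha₁⟩ := H.sat a _ h1
    have h2 : algebraMap A B a₁ = algebraMap A B ϖ ^ m * b := by
      have : algebraMap A B ϖ * (algebraMap A B a₁ - algebraMap A B ϖ ^ m * b) = 0 := by
        rw [mul_sub, ← map_mul, ← ha₁, h1, sub_self]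
      exact sub_eq_zero.1 (H.reg _ this)
    obtain ⟨a', ha', hb⟩ := ih a₁ b h2
    exact ⟨a', by rw [ha₁, ha', pow_succ']; ring, hb⟩

theorem natCast_eq : ((p : ℕ) : B) = algebraMap A B υ * algebraMap A B ϖ ^ ((p - 1) * j₀) := by
  rw [← map_pow, ← map_mul, ← H.hpυ, map_natCast]

end Hyp

theorem approx_zero (x : B) : Approx (A := A) ϖ 0 x :=
  ⟨1, x - 1, by simp⟩

theorem Approx.mul_one_add {j m : ℕ} {x : B} (hx : Approx ϖ j x) (hjm : j ≤ m) (d : B) :
    Approx ϖ j ((1 + algebraMap A B ϖ ^ m * d) * x) := by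
  obtain ⟨a, s, rfl⟩ := hx
  obtain ⟨k, rfl⟩ := Nat.exists_eq_add_of_le hjm
  refine ⟨a, s + algebraMap A B ϖ ^ k * d + algebraMap A B ϖ ^ (j + k) * d * s, ?_⟩
  rw [pow_add]
  ring

namespace Hyp

variable (H : Hyp (B := B) ϖ p j₀ υ)
include H

/-- Refinement of an approximation: `x = ι a (1 + ϖ^j ι a₁ + ϖ^(j+1) t)` is in `ι Aˣ (1 + ϖ^(j+1) B)`. -/
theorem approx_succ {j : ℕ} (hj : 1 ≤ j) (a : Aˣ) (a₁ : A) (t x : B)
    (hx : x = algebraMap A B a * (1 + algebraMap A B ϖ ^ j * algebraMap A B a₁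
      + algebraMap A B ϖ ^ (j + 1) * t)) :
    Approx ϖ (j + 1) x := by
  obtain ⟨j', rfl⟩ := Nat.exists_eq_add_of_le' hj
  obtain ⟨w, hw⟩ := H.jac (ϖ ^ j' * a₁)
  refine ⟨a * w, algebraMap A B ((w⁻¹ : Aˣ) : A) * t, ?_⟩
  have h1 : algebraMap A B (w : A) * algebraMap A B ((w⁻¹ : Aˣ) : A) = 1 := by
    rw [← map_mul, Units.mul_inv, map_one]
  have h2 : algebraMap A B (w : A) = 1 + algebraMap A B ϖ ^ (j' + 1) * algebraMap A B a₁ := by
    rw [hw]; simp only [map_add, map_one, map_mul, map_pow]; ring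
  rw [hx, Units.val_mul, map_mul]
  linear_combination (-(algebraMap A B (a : A)) * algebraMap A B ϖ ^ (j' + 1 + 1) * t) * h1
    + (-(algebraMap A B (a : A))) * h2

omit H in
/-- If `ι a' = ι a * X + ϖ Z` with `a` a unit then `X ∈ A + ϖ B`. -/
theorem inA_of_unit_mul (a : Aˣ) (a' : A) (X Z : B)
    (h : algebraMap A B a' = algebraMap A B (a : A) * X + algebraMap A B ϖ * Z) :
    InA (B := B) ϖ 1 X := by
  refine ⟨((a⁻¹ : Aˣ) : A) * a', -(algebraMap A B ((a⁻¹ : Aˣ) : A) * Z), ?_⟩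
  have h1 : algebraMap A B ((a⁻¹ : Aˣ) : A) * algebraMap A B (a : A) = 1 := by
    rw [← map_mul, Units.inv_mul, map_one]
  rw [map_mul, h, pow_one]
  linear_combination (-X) * h1

/-- Step `0 → 1`. -/
theorem step_zero (u : Aˣ) (r c : B) {N : ℕ} (hN : 1 ≤ N)
    (hr : r ^ p = algebraMap A B u + algebraMap A B ϖ ^ N * c) : Approx ϖ 1 r := by
  obtain ⟨n', rfl⟩ := Nat.exists_eq_add_of_le' hN
  have h1 : InA (B := B) ϖ 1 (r ^ p) :=
    ⟨u, algebraMap A B ϖ ^ n' * c, by rw [hr, pow_one, pow_succ]; ring⟩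
  obtain ⟨a, b, hab⟩ := H.root r h1
  rw [pow_one] at hab
  -- `a` is a unit
  obtain ⟨q, hq⟩ := sub_dvd_pow_sub_pow r (algebraMap A B a) p
  have h2 : algebraMap A B ((u : A) - a ^ p) = algebraMap A B ϖ * (b * q - algebraMap A B ϖ ^ n' * c) := by
    have : r - algebraMap A B a = algebraMap A B ϖ * b := by rw [hab]; ring
    rw [this] at hq
    rw [map_sub, map_pow]
    linear_combination hq - hr + c * (pow_succ (algebraMap A B ϖ) n')
  obtain ⟨a', ha'⟩ := H.sat _ _ h2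
  have h3 : IsUnit (a ^ p) := by
    have h4 : a ^ p = (u : A) * (1 + ϖ * (-(((u⁻¹ : Aˣ) : A) * a'))) := by
      have : (u : A) * ((u⁻¹ : Aˣ) : A) = 1 := Units.mul_inv u
      linear_combination (-1 : A) * ha' + (ϖ * a') * this
    rw [h4]
    exact u.isUnit.mul (H.jac _)
  have h5 : IsUnit a := (isUnit_pow_iff H.hp.ne_zero).1 h3
  obtain ⟨a₀, rfl⟩ := h5
  refine ⟨a₀, algebraMap A B ((a₀⁻¹ : Aˣ) : A) * b, ?_⟩
  have h6 : algebraMap A B (a₀ : A) * algebraMap A B ((a₀⁻¹ : Aˣ) : A) = 1 := by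
    rw [← map_mul, Units.mul_inv, map_one]
  rw [hab, pow_one]
  linear_combination (-(algebraMap A B ϖ * b)) * h6

/-- Step `j → j+1` for `1 ≤ j < j₀`. -/
theorem step_low (u : Aˣ) (x c : B) {N j : ℕ} (hj : 1 ≤ j) (hjj₀ : j < j₀) (hN : p * j + 1 ≤ N)
    (hx : x ^ p = algebraMap A B u + algebraMap A B ϖ ^ N * c) (hxj : Approx ϖ j x) :
    Approx ϖ (j + 1) x := by
  obtain ⟨a, s, rfl⟩ := hxj
  obtain ⟨n', rfl⟩ := Nat.exists_eq_add_of_le hN
  obtain ⟨k, rfl⟩ := Nat.exists_eq_add_of_lt hjj₀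
  have h2 := H.hp.two_le
  obtain ⟨q, rfl⟩ : ∃ q, p = q + 2 := ⟨p - 2, by omega⟩
  obtain ⟨g, hg⟩ := exists_one_add_pow_prime H.hp (algebraMap A B ϖ ^ j * s)
  have he : (q + 2 - 1) * (j + k + 1) + j = (q + 2) * j + 1 + (q + (q + 1) * k) := by
    have : q + 2 - 1 = q + 1 := rfl
    rw [this]; ring
  have key := core_low (algebraMap A B ϖ) (algebraMap A B (a : A)) s c g (algebraMap A B υ)
    (algebraMap A B u) (q + 2) j (q + (q + 1) * k) n' ((q + 2 - 1) * (j + k + 1))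
    ((q + 2) * j + 1 + n') he rfl H.natCast_eq hg hx
  rw [← map_pow (algebraMap A B) (a : A) (q + 2), ← map_sub] at key
  obtain ⟨a', -, ha'⟩ := H.sat_pow _ _ _ key
  rw [← Units.val_pow_eq_pow_val] at ha'
  have h4 : InA (B := B) ϖ 1 (s ^ (q + 2)) := inA_of_unit_mul (a ^ (q + 2)) a' _ _ ha'
  obtain ⟨a₁, s', hs'⟩ := H.root s h4
  refine H.approx_succ hj a a₁ s' _ ?_
  rw [hs', pow_one, pow_succ]
  ring

/-- Step `j₀ → j₀+1`, where the root of unity appears. -/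
theorem step_mid (u : Aˣ) (x c : B) {N : ℕ} (hN : p * j₀ + 1 ≤ N)
    (hx : x ^ p = algebraMap A B u + algebraMap A B ϖ ^ N * c) (hxj : Approx ϖ j₀ x) :
    ∃ ξ d : B, ξ ^ p = 1 ∧ ξ = 1 + algebraMap A B ϖ ^ j₀ * d ∧ Approx ϖ (j₀ + 1) (ξ * x) := by
  obtain ⟨a, s, rfl⟩ := hxj
  obtain ⟨n', rfl⟩ := Nat.exists_eq_add_of_le hN
  have hj₀ := H.hj₀
  obtain ⟨k, rfl⟩ := Nat.exists_eq_add_of_le' hj₀
  have h2 := H.hp.two_le
  obtain ⟨g, hg⟩ := exists_one_add_pow_prime H.hp (algebraMap A B ϖ ^ (k + 1) * s)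
  have he : (p - 1) * (k + 1) + (k + 1) = p * (k + 1) := by
    obtain ⟨q, rfl⟩ : ∃ q, p = q + 1 := ⟨p - 1, by omega⟩
    rw [Nat.add_sub_cancel]; ring
  have key := core_mid (algebraMap A B ϖ) (algebraMap A B (a : A)) s c g (algebraMap A B υ)
    (algebraMap A B u) p k n' ((p - 1) * (k + 1))
    (p * (k + 1) + 1 + n') he rfl H.natCast_eq hg hx
  rw [← map_pow (algebraMap A B) (a : A) p, ← map_sub] at key
  obtain ⟨a', -, ha'⟩ := H.sat_pow _ _ _ key
  rw [← Units.val_pow_eq_pow_val] at ha'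
  have h4 : InA (B := B) ϖ 1 (s ^ p + algebraMap A B υ * s) := inA_of_unit_mul (a ^ p) a' _ _ ha'
  obtain ⟨ξ, d, hξ, hξd, a₁, s', hs'⟩ := H.AS s h4
  refine ⟨ξ, d, hξ, hξd, ?_⟩
  refine H.approx_succ hj₀ a a₁ (s' + algebraMap A B ϖ ^ k * s * d) _ ?_
  rw [pow_one] at hs'
  have h5 : algebraMap A B ϖ ^ (k + 1 + 1) = algebraMap A B ϖ ^ (k + 1) * algebraMap A B ϖ := pow_succ _ _
  have h6 : algebraMap A B ϖ ^ (k + 1) = algebraMap A B ϖ ^ k * algebraMap A B ϖ := pow_succ _ _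
  rw [hξd, h5]
  linear_combination (algebraMap A B (a : A) * algebraMap A B ϖ ^ (k + 1)) * hs'
    + (algebraMap A B (a : A) * algebraMap A B ϖ ^ (k + 1) * s * d) * h6

/-- Step `j → j+1` for `j₀ < j`. -/
theorem step_high (u : Aˣ) (x c : B) {N j : ℕ} (hjj₀ : j₀ < j) (hN : (p - 1) * j₀ + j + 1 ≤ N)
    (hx : x ^ p = algebraMap A B u + algebraMap A B ϖ ^ N * c) (hxj : Approx ϖ j x) :
    Approx ϖ (j + 1) x := by
  obtain ⟨a, s, rfl⟩ := hxj
  obtain ⟨n', rfl⟩ := Nat.exists_eq_add_of_le hN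
  obtain ⟨k, rfl⟩ := Nat.exists_eq_add_of_lt hjj₀
  have h2 := H.hp.two_le
  obtain ⟨q, rfl⟩ : ∃ q, p = q + 2 := ⟨p - 2, by omega⟩
  obtain ⟨g, hg⟩ := exists_one_add_pow_prime H.hp (algebraMap A B ϖ ^ (j₀ + k + 1) * s)
  have he : (q + 2) * (j₀ + k + 1) = (q + 2 - 1) * j₀ + (j₀ + k + 1) + 1 + ((q + 1) * k + q) := by
    have : q + 2 - 1 = q + 1 := rfl
    rw [this]; ring
  have key := core_high (algebraMap A B ϖ) (algebraMap A B (a : A)) s c g (algebraMap A B υ)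
    (algebraMap A B u) (q + 2) (j₀ + k) ((q + 1) * k + q) n' ((q + 2 - 1) * j₀)
    ((q + 2 - 1) * j₀ + (j₀ + k + 1) + 1 + n') he rfl H.natCast_eq hg hx
  rw [← map_pow (algebraMap A B) (a : A) (q + 2), ← map_sub] at key
  obtain ⟨a', -, ha'⟩ := H.sat_pow _ _ _ key
  rw [← map_mul (algebraMap A B) ((a : A) ^ (q + 2)) (υ : A), ← Units.val_pow_eq_pow_val,
    ← Units.val_mul] at ha'
  have h4 : InA (B := B) ϖ 1 s := inA_of_unit_mul (a ^ (q + 2) * υ) a' _ _ ha'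
  obtain ⟨a₁, s', hs'⟩ := h4
  refine H.approx_succ (by omega) a a₁ s' _ ?_
  rw [hs', pow_one, pow_succ]
  ring

theorem mul_eq_pred_add : p * j₀ = (p - 1) * j₀ + j₀ := by
  have h2 := H.hp.two_le
  obtain ⟨q, rfl⟩ : ∃ q, p = q + 1 := ⟨p - 1, by omega⟩
  rw [Nat.add_sub_cancel]; ring

/-- The range `1 ≤ j ≤ j₀`: no root of unity needed. -/
theorem approx_low (u : Aˣ) (r c : B) {N : ℕ}
    (hr : r ^ p = algebraMap A B u + algebraMap A B ϖ ^ N * c) :
    ∀ j, 1 ≤ j → j ≤ j₀ → (p - 1) * j₀ + j ≤ N → Approx ϖ j r := by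
  intro j hj
  induction j, hj using Nat.le_induction with
  | base => intro _ h; exact H.step_zero u r c (by omega) hr
  | succ j hj ih =>
    intro hjj₀ hN
    have h1 : Approx ϖ j r := ih (by omega) (by omega)
    refine H.step_low u r c hj (by omega) ?_ hr h1
    have h2 := H.hp.two_le
    have h3 : (p - 1) * j ≤ (p - 1) * j₀ := Nat.mul_le_mul_left _ (by omega)
    have h4 : p * j = (p - 1) * j + j := by
      obtain ⟨q, rfl⟩ : ∃ q, p = q + 1 := ⟨p - 1, by omega⟩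
      rw [Nat.add_sub_cancel]; ring
    omega

/-- **Kummer integrality, one `p`-th root, robust form.**  If `r ^ p ≡ u mod ϖ ^ N` with `u ∈ Aˣ`,
then after multiplying `r` by a `p`-th root of unity `ξ ≡ 1 mod ϖ ^ j₀` of `B`, the element `ξ r` lies
in `ι(Aˣ) (1 + ϖ ^ j B)` for every `j ≤ N - (p-1) j₀`. -/
theorem exists_approx (u : Aˣ) (r c : B) (N : ℕ)
    (hr : r ^ p = algebraMap A B u + algebraMap A B ϖ ^ N * c) :
    ∃ ξ : B, ξ ^ p = 1 ∧ (∃ d, ξ = 1 + algebraMap A B ϖ ^ j₀ * d) ∧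
      ∀ j, (p - 1) * j₀ + j ≤ N →
        ∃ (a : Aˣ) (s : B), ξ * r = algebraMap A B a * (1 + algebraMap A B ϖ ^ j * s) := by
  have hlow := H.approx_low u r c hr
  have hpj := H.mul_eq_pred_add
  by_cases hN : p * j₀ + 1 ≤ N
  · have h0 : Approx ϖ j₀ r := hlow j₀ H.hj₀ le_rfl (by omega)
    obtain ⟨ξ, d, hξ, hξd, h1⟩ := H.step_mid u r c hN hr h0
    have hξr : (ξ * r) ^ p = algebraMap A B u + algebraMap A B ϖ ^ N * c := by
      rw [mul_pow, hξ, one_mul, hr]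
    have hhigh : ∀ j, j₀ + 1 ≤ j → (p - 1) * j₀ + j ≤ N → Approx ϖ j (ξ * r) := by
      intro j hj
      induction j, hj using Nat.le_induction with
      | base => intro _; exact h1
      | succ j hj ih =>
        intro hN'
        exact H.step_high u (ξ * r) c (by omega) (by omega) hξr (ih (by omega))
    refine ⟨ξ, hξ, ⟨d, hξd⟩, fun j hj => ?_⟩
    rcases Nat.lt_or_ge j₀ j with h | h
    · exact hhigh j h hj
    · rcases Nat.eq_zero_or_pos j with rfl | hjpos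
      · exact approx_zero _
      · have h2 := (hlow j hjpos h hj).mul_one_add h d
        rw [← hξd] at h2
        exact h2
  · refine ⟨1, one_pow _, ⟨0, by simp⟩, fun j hj => ?_⟩
    rw [one_mul]
    have hjj₀ : j ≤ j₀ := by omega
    rcases Nat.eq_zero_or_pos j with rfl | hjpos
    · exact approx_zero _
    · exact hlow j hjpos hjj₀ hj

end Hyp

end Main

end Fermat.Agent.S33.New.KummerLoc
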