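/-
S33, `moonshots` row 61, slice of STEP L / STEP T (helper5): **the action of `σ_K` on the charts of a
level and the twisted factorisation at a closed point.**

(The `σ`-uniform level data `(ϖ, W, V₁, V₂)` are helper6's `S33/L/PointsUniform.lean`.)

* `chartEnd g R hR : R →+* R`, the ring endomorphism induced on a `g`-stable chart `R` by a semilinear
  automorphism `g`, `algebraMap_chartEnd`, and `chartEnd_mem_iff` / `chartEnd_not_mem` : for `g`
  trivial modulo `ϖ` (`PointsLoc.TrivialMod`) it fixes every ideal containing `ϖ`;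
* `stableUnder_chart`, `trivialMod_chart` : the two hypotheses for `g = levelFF K hKs N σ`, `σ` in the
  decomposition group with the vertical data `VertLevel`, on the charts `chartAlg O_K F_K {s}` with
  `σ_K s = s` (`s = jF`, `jF⁻¹`);
* `exists_factor_tw_level` : `FirstDiff.exists_factor_tw` at a level — the twisted factorisation
  `τ_K h / h ^ a = u' (τ_K β / β ^ a) ^ e` at a closed point of the special fibre.
-/
import Mathlib
import Fermat.Agent.S33.New.FirstDiffLevel
import Fermat.Agent.G.LocPChart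

set_option autoImplicit false
set_option linter.unusedSectionVars false
set_option linter.dupNamespace false
set_option linter.style.haveILetI false

open ModularCurve AlgebraicCurve IntermediateField

noncomputable section

namespace Fermat.Agent.S33.New.ChartTwist

open Fermat.Agent.N4.Setting Fermat.Agent.N4.Chart Fermat.Agent.N4.S18Glue Fermat.Agent.N4.BigDVR
  Fermat.Agent.P3G.Cover.Lift Fermat.Agent.P3G.Cover.OfValuations Fermat.Agent.P3G.Assembly.PowCover
  Fermat.Agent.P3G.Assembly.StepOfLevel Fermat.Agent.P3G.Assembly.LevelStep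
  Fermat.Agent.P3G.Assembly.LevelGeomOfPoints
  Fermat.Agent.P3G.Gamma Fermat.Agent.P3G.GammaAut
  Fermat.Agent.N4F.C Fermat.Agent.N4F.C.Levels Fermat.Agent.N4F.C.Galois
  Fermat.Agent.G.Points Fermat.Agent.G.PointsLoc
  Fermat.Agent.S33.New.FirstDiff

local notation "Qbar" => AlgebraicClosure ℚ
local notation "Γ" => (AlgebraicClosure ℚ ≃ₐ[ℚ] AlgebraicClosure ℚ)

/-! ### The action of a semilinear automorphism on a stable chart -/

section ChartEnd

variable {O K F : Type*} [CommRing O] [Field K] [Field F] [Algebra O K] [Algebra K F] [Algebra O F]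
  [IsScalarTower O K F]

/-- The ring endomorphism induced by `g` on a `g`-stable chart. -/
def chartEnd (g : SemilinearAut K F) (R : Subalgebra O F) (hR : StableUnder g R) : ↥R →+* ↥R where
  toFun x := ⟨g • (x : F), (hR (x : F)).mp x.2⟩
  map_one' := Subtype.ext (smul_one g)
  map_mul' x y := Subtype.ext (smul_mul' g (x : F) (y : F))
  map_zero' := Subtype.ext (smul_zero g)
  map_add' x y := Subtype.ext (smul_add g (x : F) (y : F))

@[simp] theorem coe_chartEnd (g : SemilinearAut K F) (R : Subalgebra O F) (hR : StableUnder g R)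
    (x : ↥R) : ((chartEnd g R hR x : ↥R) : F) = g • (x : F) := rfl

theorem algebraMap_chartEnd (g : SemilinearAut K F) (R : Subalgebra O F) (hR : StableUnder g R)
    (x : ↥R) :
    SemilinearAut.toRingAut g (algebraMap ↥R F x) = algebraMap ↥R F (chartEnd g R hR x) := rfl

/-- If `g` is trivial modulo `ϖ` on the chart, `chartEnd` preserves the complement of every ideal
containing `ϖ`. -/
theorem chartEnd_mem_iff (g : SemilinearAut K F) (R : Subalgebra O F) (hR : StableUnder g R)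
    {ϖ : O} (ht : TrivialMod g R ϖ) (𝔫 : Ideal ↥R) (hϖ𝔫 : algebraMap O ↥R ϖ ∈ 𝔫) (x : ↥R) :
    chartEnd g R hR x ∈ 𝔫 ↔ x ∈ 𝔫 := by
  obtain ⟨s, hs, hxs⟩ := ht (x : F) x.2
  have key : chartEnd g R hR x - x = algebraMap O ↥R ϖ * ⟨s, hs⟩ := by
    apply Subtype.ext
    simpa using hxs
  have hmem : chartEnd g R hR x - x ∈ 𝔫 := by
    rw [key]
    exact 𝔫.mul_mem_right _ hϖ𝔫
  constructor
  · intro h
    have := 𝔫.sub_mem h hmem
    simpa using this
  · intro h
    have := 𝔫.add_mem hmem h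
    simpa using this

theorem chartEnd_not_mem (g : SemilinearAut K F) (R : Subalgebra O F) (hR : StableUnder g R)
    {ϖ : O} (ht : TrivialMod g R ϖ) (𝔫 : Ideal ↥R) (hϖ𝔫 : algebraMap O ↥R ϖ ∈ 𝔫) (x : ↥R)
    (hx : x ∉ 𝔫) : chartEnd g R hR x ∉ 𝔫 :=
  fun h => hx ((chartEnd_mem_iff g R hR ht 𝔫 hϖ𝔫 x).1 h)

end ChartEnd

/-! ### The charts of a level -/

section Level

variable {A : ValuationSubring Qbar} {K : IntermediateField ℚ Qbar}
  {hKs : ∀ (τ : Γ) (x : Qbar), x ∈ K → τ x ∈ K} {N : ℕ} [NeZero N] {σ : Γ}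

/-- The chart `chartAlg O_K F_K {s}` is stable under `σ_K` if `σ_K s = s`. -/
theorem stableUnder_chart (hσ : σ ∈ A.decompositionSubgroup ℚ) (s : FF (Lvl K) N)
    (hs : levelFF K hKs N σ • s = s) :
    StableUnder (levelFF K hKs N σ) (chartAlg ↥(baseRing A K) (FF (Lvl K) N) {s}) := by
  intro r
  exact (levelFF_smul_mem_chartAlg_iff K hKs N hσ (fun u hu => by
    rw [Set.mem_singleton_iff] at hu
    rw [hu, hs])).symm

/-- `σ_K` is trivial modulo `ϖ` on the chart. -/
theorem trivialMod_chart [IsDiscreteValuationRing ↥(baseRing A K)]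
    [IsFractionRing ↥(baseRing A K) (Lvl K)]
    (hσ : σ ∈ A.decompositionSubgroup ℚ)
    {ϖ : ↥(baseRing A K)} {W : Subring (FF (Lvl K) N)}
    {V₁ V₂ : ValuationSubring (FF (Lvl K) N)} (hV : VertLevel A K hKs N σ ϖ W V₁ V₂)
    (s : FF (Lvl K) N) (hs : levelFF K hKs N σ • s = s)
    (hWs : IsSemiGaussRing W
      (algebraMap ↥(baseRing A K) (chartAlg ↥(baseRing A K) (FF (Lvl K) N) {s}) ϖ)) :
    TrivialMod (levelFF K hKs N σ) (chartAlg ↥(baseRing A K) (FF (Lvl K) N) {s}) ϖ :=
  Fermat.Agent.G.LocPChartGlue.trivialMod_of_twoVal _ hV.twoVal hWs _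
    (stableUnder_chart hσ s hs) hV.triv₁ hV.triv₂

/-- **The twisted factorisation at a level**: if `h = u β ^ e` with `u` a unit at the closed point `𝔫`
of the special fibre of the chart, then `τ_K h / h ^ a = u' (τ_K β / β ^ a) ^ e` with `u'` a unit at
`𝔫`. -/
theorem exists_factor_tw_level [IsDiscreteValuationRing ↥(baseRing A K)]
    [IsFractionRing ↥(baseRing A K) (Lvl K)]
    (hσ : σ ∈ A.decompositionSubgroup ℚ)
    {ϖ : ↥(baseRing A K)} {W : Subring (FF (Lvl K) N)}
    {V₁ V₂ : ValuationSubring (FF (Lvl K) N)} (hV : VertLevel A K hKs N σ ϖ W V₁ V₂)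
    (s : FF (Lvl K) N) (hs : levelFF K hKs N σ • s = s)
    (hWs : IsSemiGaussRing W
      (algebraMap ↥(baseRing A K) (chartAlg ↥(baseRing A K) (FF (Lvl K) N) {s}) ϖ))
    (𝔫 : Ideal (chartAlg ↥(baseRing A K) (FF (Lvl K) N) {s})) [𝔫.IsPrime]
    (hϖ𝔫 : algebraMap ↥(baseRing A K) (chartAlg ↥(baseRing A K) (FF (Lvl K) N) {s}) ϖ ∈ 𝔫)
    (a : ℕ) {e : ℕ} {h β : FF (Lvl K) N} (hh0 : h ≠ 0) (hβ0 : β ≠ 0)
    (hfac : ∃ x r : chartAlg ↥(baseRing A K) (FF (Lvl K) N) {s}, x ∉ 𝔫 ∧ r ∉ 𝔫 ∧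
      h * algebraMap (chartAlg ↥(baseRing A K) (FF (Lvl K) N) {s}) (FF (Lvl K) N) x =
        β ^ e * algebraMap (chartAlg ↥(baseRing A K) (FF (Lvl K) N) {s}) (FF (Lvl K) N) r) :
    ∃ x r : chartAlg ↥(baseRing A K) (FF (Lvl K) N) {s}, x ∉ 𝔫 ∧ r ∉ 𝔫 ∧
      tw (SemilinearAut.toRingAut (levelFF K hKs N σ)) a h *
          algebraMap (chartAlg ↥(baseRing A K) (FF (Lvl K) N) {s}) (FF (Lvl K) N) x =
        tw (SemilinearAut.toRingAut (levelFF K hKs N σ)) a β ^ e *
          algebraMap (chartAlg ↥(baseRing A K) (FF (Lvl K) N) {s}) (FF (Lvl K) N) r := by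
  have hR := stableUnder_chart (A := A) (hKs := hKs) hσ s hs
  have ht := trivialMod_chart hσ hV s hs hWs
  exact exists_factor_tw 𝔫 (SemilinearAut.toRingAut (levelFF K hKs N σ))
    (chartEnd (levelFF K hKs N σ) _ hR)
    (fun x => algebraMap_chartEnd (levelFF K hKs N σ) _ hR x)
    (fun x hx => chartEnd_not_mem (levelFF K hKs N σ) _ hR ht 𝔫 hϖ𝔫 x hx)
    a hh0 hβ0 hfac

end Level

end Fermat.Agent.S33.New.ChartTwist
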