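/-
S33 / (NEW) transfer (helper29): **the annihilator inclusion `J₀(N)[p^m] → V ⧸ I V` for ALL large `m`.**

`S32.Carayol.Assembly.annIncl_tors_level` gives one `M`; since `J₀(N)[p^m] ⊆ J₀(N)[p^m']` for
`m ≤ m'` as Galois modules, every larger level works as well.

* `torsIncl` : the equivariant inclusion `Tors N p m →+ Tors N p m'`;
* `annIncl_tors_tors` : `AnnIncl (torsAct N p m') (torsAct N p m)` for `m ≤ m'`;
* `annIncl_tors_mono` : monotonicity of `AnnIncl (torsAct N p ·) act`;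
* `exists_forall_ge_annIncl_tors_level` : `∃ M₀, ∀ m ≥ M₀, AnnIncl (torsAct N p m) (levelAct ρ I)`.
-/
import Mathlib
import Fermat.Agent.S32.Carayol.Assembly

set_option autoImplicit false

open Polynomial CuspForm

noncomputable section

namespace Fermat.Agent.S33.New.AnnInclMono

open Fermat.Agent.S19.Abs Fermat.Agent.S32.Carayol Fermat.Agent.S32.Carayol.Assembly

local notation "Qbar" => AlgebraicClosure ℚ
local notation "Γ" => (AlgebraicClosure ℚ ≃ₐ[ℚ] AlgebraicClosure ℚ)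

section Mono

variable (N p : ℕ)

theorem torsionBy_le {m m' : ℕ} (h : m ≤ m') :
    Submodule.torsionBy ℤ (ModularCurve.JZero N) ((p : ℤ) ^ m) ≤
      Submodule.torsionBy ℤ (ModularCurve.JZero N) ((p : ℤ) ^ m') :=
  Submodule.torsionBy_le_torsionBy_of_dvd _ _ (pow_dvd_pow _ h)

/-- The inclusion `J₀(N)[p^m] ⊆ J₀(N)[p^m']` for `m ≤ m'`. -/
def torsIncl {m m' : ℕ} (h : m ≤ m') : Tors N p m →+ Tors N p m' :=
  (Submodule.inclusion (torsionBy_le N p h)).toAddMonoidHom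

theorem coe_torsIncl {m m' : ℕ} (h : m ≤ m') (y : Tors N p m) :
    ((torsIncl N p h y : Tors N p m') : ModularCurve.JZero N) = (y : ModularCurve.JZero N) :=
  Submodule.coe_inclusion (torsionBy_le N p h) y

theorem torsIncl_injective {m m' : ℕ} (h : m ≤ m') : Function.Injective (torsIncl N p h) :=
  Submodule.inclusion_injective (torsionBy_le N p h)

theorem torsIncl_torsAct {m m' : ℕ} (h : m ≤ m') (σ : Γ) (y : Tors N p m) :
    torsIncl N p h (torsAct N p m σ y) = torsAct N p m' σ (torsIncl N p h y) := by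
  apply Subtype.ext
  rw [coe_torsIncl, coe_torsAct, coe_torsAct, coe_torsIncl]

/-- A formal sum killing `J₀(N)[p^m']` kills `J₀(N)[p^m]`, `m ≤ m'`. -/
theorem annIncl_tors_tors {m m' : ℕ} (h : m ≤ m') :
    RegEmbed.AnnIncl (torsAct N p m') (torsAct N p m) :=
  Abstract.annIncl_of_injective (torsIncl N p h) (torsIncl_torsAct N p h)
    (torsIncl_injective N p h)

/-- Monotonicity in the level of the torsion. -/
theorem annIncl_tors_mono {X : Type*} [AddCommGroup X] {act : Γ → X → X} {m m' : ℕ} (h : m ≤ m')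
    (hm : RegEmbed.AnnIncl (torsAct N p m) act) : RegEmbed.AnnIncl (torsAct N p m') act :=
  Abstract.annIncl_trans (annIncl_tors_tors N p h) hm

end Mono

section Level

variable {p N : ℕ} [hp : Fact p.Prime] [NeZero N] (S : Finset ℕ)
  {R : Type} [CommRing R] [IsLocalRing R] [IsNoetherianRing R]
  (hpS : p ∈ S) (hNS : ∀ q : ℕ, q.Prime → q ∣ N → q ∈ S)
  (π : heckeAlgebra N 2 (↑S : Set ℕ) →+* R) (ρ : GaloisRepAdic R)
  (hfrob : ∀ (ℓ : ℕ) (hℓ : ℓ.Prime) (hℓN : ¬ ℓ ∣ N) (hℓS : ℓ ∉ (↑S : Set ℕ)),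
    ∀ A : ValuationSubring Qbar, A.LiesOverPrime ℓ → ∀ σ : Γ, A.IsFrobeniusAt σ ℓ →
      LinearMap.charpoly (ρ.ρ σ) = X ^ 2 - C (π (heckeAlgebra.T hℓ hℓN hℓS)) * X + C ((ℓ : R)))

include hpS hNS hfrob in
/-- For a proper ideal `I` of finite colength, every formal sum killing `J₀(N)[p^m]` kills
`V ⧸ I V`, for ALL large `m`.  (Any `N`; no hypothesis `p ∤ N`.) -/
theorem exists_forall_ge_annIncl_tors_level (hp2 : p ≠ 2)
    (hpR : (p : R) ∈ IsLocalRing.maximalIdeal R)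
    (habs : ρ.residual.IsAbsolutelyIrreducible) (I : Ideal R) [Finite (R ⧸ I)] (hI : I ≠ ⊤) :
    ∃ M₀ : ℕ, ∀ m : ℕ, M₀ ≤ m → RegEmbed.AnnIncl (torsAct N p m) (levelAct ρ I) := by
  obtain ⟨M₀, hM₀⟩ := annIncl_tors_level S hpS hNS π ρ hfrob hp2 hpR habs I hI
  exact ⟨M₀, fun m hm => annIncl_tors_mono N p hm hM₀⟩

end Level

end Fermat.Agent.S33.New.AnnInclMono
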