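/-
S33 (row 61, top level), helper27: **the determinant of a Hecke–Galois datum is cyclotomic**, in the
frozen shape `GaloisRepAdic.DetIsCyclotomic`.

`ρ : GaloisRepAdic R` over a noetherian local ring with `p ∈ 𝔪_R`, with Frobenius characteristic
polynomials `X² - π(T_ℓ) X + ℓ` (`ℓ ∉ S`).  If `σ μ = μ ^ a` for all `p ^ n`-th roots of unity `μ`
then `det ρ(σ) - a ∈ (p ^ n)`.

Proof: Frobenius-power density (exactly the argument of `S32/Carayol/DetConj`) gives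
`det ρ(σ) - a ∈ 𝔪 ^ k + (p ^ n)` for every `k`; conclude by Krull's intersection theorem.
-/
import Mathlib
import Fermat.Prelude.Def_GaloisRep_LocalConditions
import Fermat.Prelude.Def_CuspForm_HeckeGaloisRepDatum
import Fermat.Agent.N4.FrobDensity.CycloConj
import Fermat.Agent.N4F.Adic.S34Assembly

set_option autoImplicit false
set_option linter.style.haveILetI false
set_option linter.unusedSectionVars false

open Polynomial

namespace Fermat.Agent.S33.New.DetCyclo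

open Fermat.Agent.N4F.Adic Fermat.Agent.N4F.Adic.S31Lattice Fermat.Agent.N4F.Adic.S31Trace
  Fermat.Agent.N4F.Adic.S31Assembly Fermat.Agent.N4F.Adic.S34Assembly
  Fermat.Agent.N4.FrobDensity Fermat.Agent.N4F.Tors.Occurrence CuspForm

local notation "Qbar" => AlgebraicClosure ℚ
local notation "Γ" => (AlgebraicClosure ℚ ≃ₐ[ℚ] AlgebraicClosure ℚ)

local instance isAlgebraicQbar_DetCyclo : Algebra.IsAlgebraic ℚ (AlgebraicClosure ℚ) :=
  AlgebraicClosure.isAlgebraic ℚ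
local instance isAlgClosureQbar_DetCyclo : IsAlgClosure ℚ (AlgebraicClosure ℚ) :=
  ⟨inferInstance, inferInstance⟩
local instance normalQbar_DetCyclo : Normal ℚ (AlgebraicClosure ℚ) :=
  IsAlgClosure.normal ℚ (AlgebraicClosure ℚ)

/-- Krull: an element lying in `J ⊔ 𝔪 ^ k` for every `k` lies in `J`. -/
theorem mem_of_forall_mem_sup_pow {T : Type*} [CommRing T] [IsLocalRing T] [IsNoetherianRing T]
    (J : Ideal T) {x : T} (hx : ∀ k : ℕ, x ∈ J ⊔ IsLocalRing.maximalIdeal T ^ k) : x ∈ J := by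
  have hH : IsHausdorff (IsLocalRing.maximalIdeal T) (T ⧸ J) := inferInstance
  have h0 : (Ideal.Quotient.mk J x : T ⧸ J) = 0 := by
    refine hH.haus _ fun k => ?_
    rw [SModEq.zero]
    obtain ⟨j, hj, y, hy, hjy⟩ := Submodule.mem_sup.mp (hx k)
    have h1 : (Ideal.Quotient.mk J x : T ⧸ J) = y • (Ideal.Quotient.mk J 1 : T ⧸ J) := by
      rw [← hjy, map_add, Ideal.Quotient.eq_zero_iff_mem.mpr hj, zero_add, Algebra.smul_def,
        map_one, mul_one]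
      rfl
    rw [h1]
    exact Submodule.smul_mem_smul hy Submodule.mem_top
  exact Ideal.Quotient.eq_zero_iff_mem.mp h0

section Main

variable {p N : ℕ} [Fact p.Prime] [NeZero N] (S : Finset ℕ)
  {R : Type} [CommRing R] [IsLocalRing R] [IsNoetherianRing R]
  (hpS : p ∈ S) (hNS : ∀ q : ℕ, q.Prime → q ∣ N → q ∈ S)
  (π : heckeAlgebra N 2 (↑S : Set ℕ) →+* R) (ρ : GaloisRepAdic R)
  (hfrob : ∀ (ℓ : ℕ) (hℓ : ℓ.Prime) (hℓN : ¬ ℓ ∣ N) (hℓS : ℓ ∉ (↑S : Set ℕ)),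
    ∀ A : ValuationSubring Qbar, A.LiesOverPrime ℓ → ∀ σ : Γ, A.IsFrobeniusAt σ ℓ →
      LinearMap.charpoly (ρ.ρ σ) = X ^ 2 - C (π (heckeAlgebra.T hℓ hℓN hℓS)) * X + C ((ℓ : R)))

include hpS hNS hfrob in
/-- `χ_cyc(g) ≡ a mod p ^ n₀ ⇒ det ρ(g) ≡ a mod 𝔪 ^ n + (p ^ n₀)` for every `n ≥ n₀`. -/
theorem det_sub_natCast_mem_sup (g : Γ) (a n₀ : ℕ)
    (hg : ((cycloCharAdic p g : ℤ_[p]ˣ) : ℤ_[p]) - (a : ℤ_[p]) ∈
      Ideal.span {(p : ℤ_[p]) ^ n₀}) (n : ℕ) (hn : n₀ ≤ n) :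
    LinearMap.det (ρ.ρ g) - (a : R) ∈
      Ideal.span {((p ^ n₀ : ℕ) : R)} ⊔ IsLocalRing.maximalIdeal R ^ n := by
  obtain ⟨L, hfd, hnorm, h₂, h₃⟩ := exists_normal_level_of_pred
    (fun σ => ((cycloCharAdic p σ : ℤ_[p]ˣ) : ℤ_[p]) - 1 ∈ Ideal.span {(p : ℤ_[p]) ^ n})
    (fun σ => ρ.ρ σ - 1 ∈ smallEnd (V := ρ.V) (IsLocalRing.maximalIdeal R ^ n))
    (cycloCharAdic_continuous p n)
    (by
      obtain ⟨L, hL, h⟩ := ρ.isAdicContinuous n
      exact ⟨L, hL, fun σ hσ v => by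
        rw [LinearMap.sub_apply, Module.End.one_apply]
        exact h σ hσ v⟩)
  obtain ⟨l, hl, hlS, A, hlA, φ, hφ, m, hm⟩ := exists_isFrobeniusAt_pow_eq L g S
  have hlp : l ≠ p := fun h => hlS (h ▸ hpS)
  have hlN : ¬ l ∣ N := fun h => hlS (hNS l hl h)
  have hlS' : l ∉ (↑S : Set ℕ) := fun h => hlS (Finset.mem_coe.1 h)
  -- determinants
  have h4 := det_sub_det_mem _ _ _ (sub_mem_smallEnd_of_restrict_eq L _ ρ.ρ h₃ hm)
  have hdetφ : LinearMap.det (ρ.ρ φ) = (l : R) := by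
    rw [LinearMap.det_eq_sign_charpoly_coeff, ρ.finrank_eq, hfrob l hl hlN hlS' A hlA φ hφ]
    simp [coeff_X, coeff_C]
  rw [map_pow, map_pow, hdetφ] at h4
  -- the cyclotomic character
  have hker : AlgEquiv.restrictNormalHom L ((φ ^ m)⁻¹ * g) = 1 := by
    rw [map_mul, map_inv, hm, inv_mul_cancel]
  have h5 := h₂ _ hker
  have hχ : ((cycloCharAdic p φ : ℤ_[p]ˣ) : ℤ_[p]) = (l : ℤ_[p]) :=
    cycloCharAdic_frob p hl hlp hlA hφ
  rw [map_mul, map_inv, map_pow] at h5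
  have hle : Ideal.span {(p : ℤ_[p]) ^ n} ≤ Ideal.span {(p : ℤ_[p]) ^ n₀} := by
    rw [Ideal.span_singleton_le_span_singleton]
    exact pow_dvd_pow _ hn
  have h6 : (a : ℤ_[p]) - (l : ℤ_[p]) ^ m ∈ Ideal.span {(p : ℤ_[p]) ^ n₀} := by
    have h7 : ((cycloCharAdic p g : ℤ_[p]ˣ) : ℤ_[p]) - (l : ℤ_[p]) ^ m
        = ((l : ℤ_[p]) ^ m) *
          ((((cycloCharAdic p φ ^ m)⁻¹ * cycloCharAdic p g : ℤ_[p]ˣ) : ℤ_[p]) - 1) := by
      rw [mul_sub, mul_one, Units.val_mul, ← mul_assoc, ← hχ, ← Units.val_pow_eq_pow_val,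
        ← Units.val_mul, mul_inv_cancel, Units.val_one, one_mul]
    have h7' : (a : ℤ_[p]) - (l : ℤ_[p]) ^ m
        = (((cycloCharAdic p g : ℤ_[p]ˣ) : ℤ_[p]) - (l : ℤ_[p]) ^ m)
          - (((cycloCharAdic p g : ℤ_[p]ˣ) : ℤ_[p]) - (a : ℤ_[p])) := by ring
    rw [h7', h7]
    exact Ideal.sub_mem _ (hle (Ideal.mul_mem_left _ _ h5)) hg
  have h8 : ((p : ℤ) ^ n₀) ∣ ((a : ℤ) - (l : ℤ) ^ m) := by
    rw [Ideal.mem_span_singleton] at h6
    have h9 : (((a : ℤ) - (l : ℤ) ^ m : ℤ) : ℤ_[p]) = (a : ℤ_[p]) - (l : ℤ_[p]) ^ m := by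
      push_cast; rfl
    rw [← h9, PadicInt.pow_p_dvd_int_iff] at h6
    exact h6
  obtain ⟨c, hc⟩ := h8
  have h10 : (a : R) - (l : R) ^ m ∈ Ideal.span {((p ^ n₀ : ℕ) : R)} := by
    have h11 : (a : R) - (l : R) ^ m = (((a : ℤ) - (l : ℤ) ^ m : ℤ) : R) := by push_cast; rfl
    rw [h11, hc, Ideal.mem_span_singleton]
    refine ⟨(c : R), ?_⟩
    push_cast
    rfl
  have h12 : LinearMap.det (ρ.ρ g) - (a : R)
      = ((a : R) - (l : R) ^ m) * (-1) + (LinearMap.det (ρ.ρ g) - (l : R) ^ m) := by ring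
  rw [h12]
  exact Submodule.add_mem_sup (Ideal.mul_mem_right _ _ h10) h4

include hpS hNS hfrob in
/-- **The determinant is cyclotomic**, frozen shape. -/
theorem detIsCyclotomic (hpR : (p : R) ∈ IsLocalRing.maximalIdeal R) : ρ.DetIsCyclotomic p := by
  refine ⟨hpR, fun n σ a hσ => ?_⟩
  have hg : ((cycloCharAdic p σ : ℤ_[p]ˣ) : ℤ_[p]) - (a : ℤ_[p]) ∈
      Ideal.span {(p : ℤ_[p]) ^ n} := by
    rw [← PadicInt.ker_toZModPow, RingHom.mem_ker, map_sub, map_natCast, sub_eq_zero]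
    refine toZModPow_cycloCharAdic_eq_of_forall p σ n _ fun t ht => ?_
    rw [pow_val_natCast_eq' ht]
    exact hσ t ht
  refine mem_of_forall_mem_sup_pow _ fun k => ?_
  have h1 := det_sub_natCast_mem_sup S hpS hNS π ρ hfrob σ a n hg (max n k) (le_max_left _ _)
  have h0 : Ideal.span {((p ^ n : ℕ) : R)} ⊔ IsLocalRing.maximalIdeal R ^ max n k
      ≤ Ideal.span {((p ^ n : ℕ) : R)} ⊔ IsLocalRing.maximalIdeal R ^ k :=
    sup_le_sup_left (Ideal.pow_le_pow_right (le_max_right n k)) _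
  exact h0 h1

end Main

/-! ### For a Hecke–Galois datum -/

section Datum

variable {p : ℕ} {N : ℕ} [NeZero N] {S : Finset ℕ}
  {𝒪 : Type} [CommRing 𝒪] [IsDomain 𝒪] [IsDiscreteValuationRing 𝒪]
  [IsAdicComplete (IsLocalRing.maximalIdeal 𝒪) 𝒪]
  {θ : CuspForm.heckeAlgebra N 2 (↑S : Set ℕ) →+* IsLocalRing.ResidueField 𝒪}
  {T : Type} [CommRing T] [IsLocalRing T] [IsNoetherianRing T]
  [IsAdicComplete (IsLocalRing.maximalIdeal T) T] [Algebra 𝒪 T] [IsLocalHom (algebraMap 𝒪 T)]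
  [Module.Finite 𝒪 T] [Module.Free 𝒪 T]

/-- `p ∈ 𝔪_T` from `p ∈ 𝔪_𝒪`. -/
theorem natCast_mem_maximalIdeal (hp𝒪 : (p : 𝒪) ∈ IsLocalRing.maximalIdeal 𝒪) :
    (p : T) ∈ IsLocalRing.maximalIdeal T := by
  have h1 : (p : T) = algebraMap 𝒪 T (p : 𝒪) := (map_natCast (algebraMap 𝒪 T) p).symm
  rw [h1, IsLocalRing.mem_maximalIdeal, mem_nonunits_iff]
  intro h
  exact hp𝒪 (isUnit_of_map_unit (algebraMap 𝒪 T) _ h)

/-- **The determinant of a Hecke–Galois datum is cyclotomic.** -/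
theorem detIsCyclotomic_datum (hp : p.Prime) (hp𝒪 : (p : 𝒪) ∈ IsLocalRing.maximalIdeal 𝒪)
    (hpS : p ∈ S) (hNS : ∀ q : ℕ, q.Prime → q ∣ N → q ∈ S)
    (H : CuspForm.HeckeGaloisRepDatum N (↑S : Set ℕ) 𝒪 θ T) : H.ρ.DetIsCyclotomic p := by
  haveI : Fact p.Prime := ⟨hp⟩
  exact detIsCyclotomic S hpS hNS H.π H.ρ H.charpoly_frob (natCast_mem_maximalIdeal hp𝒪)

end Datum

end Fermat.Agent.S33.New.DetCyclo
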