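/-
S33 (row 61, top level, re-cut), helper27: **the Galois-annihilator ideals.**

`ρ : GaloisRepAdic A`, `act` an additive action of `Γ = Gal(ℚ̄/ℚ)` on an abelian group `Z`
(in the application `Z = J₀(N/p)[p^M]`).

* `evRho ρ : ℤ[Γ] → End_A V`, the group-ring action on `V` (`evRho_single`, `evRho_ltrans`,
  `fsum_levelAct_mk`);
* `annSet act` : the formal sums `b ∈ ℤ[Γ]` killing `Z` (stable under left translation);
* `coordIdeal ρ act` : the ideal of `A` generated by all coordinates `φ (ρ(b) v)`, `b ∈ annSet act`;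
* `evRho_apply_mem` : `ρ(b) v ∈ coordIdeal • V` for `b ∈ annSet act`;
* `annIncl_of_coordIdeal_le` : **(OLD′)** for `coordIdeal ρ act ≤ I` every formal sum killing `Z` kills
  `V ⧸ I V`, tautologically;
* `intCast_mem_coordIdeal` : `n ∈ coordIdeal ρ act` if `n` kills `Z`;
* `smul_omegaOp_mem` : **(NEW′), abstract core**: if `k (τ − a)(σ' − 1) g b` kills `X` for all
  `b ∈ annSet act`, `g ∈ Γ`, formal sums killing `X` kill `V ⧸ I' V`, the `ρ(g)` span `End_A V` and
  `det ρ(τ) ≡ a mod I'`, then `k · c · Ω(τ, σ') ≡ 0 mod I'` for every `c ∈ coordIdeal ρ act`.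
-/
import Mathlib
import Fermat.Prelude.Def_GaloisRep_Adic
import Fermat.Agent.S19.Abs.FlatAt
import Fermat.Agent.S32.Carayol.RegEmbed
import Fermat.Agent.S32.Carayol.Abstract

set_option autoImplicit false
set_option linter.unusedSectionVars false

noncomputable section

namespace Fermat.Agent.S33.New.OldIdeal

open Fermat.Agent.S32.Carayol Fermat.Agent.S19.Abs

local notation "GQ" => (AlgebraicClosure ℚ ≃ₐ[ℚ] AlgebraicClosure ℚ)

variable {A : Type} [CommRing A] [IsLocalRing A] (ρ : GaloisRepAdic A)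

/-! ### The group-ring action on `V` -/

/-- The action of a formal sum `∑ nᵢ gᵢ` on `V`. -/
def evRho : (GQ →₀ ℤ) →+ Module.End A ρ.V :=
  Finsupp.liftAddHom fun g : GQ => zmultiplesHom (Module.End A ρ.V) (ρ.ρ g)

theorem evRho_single (g : GQ) (n : ℤ) : evRho ρ (Finsupp.single g n) = n • ρ.ρ g := by
  rw [evRho, Finsupp.liftAddHom_apply_single, zmultiplesHom_apply]

theorem evRho_ltrans (σ : GQ) (a : GQ →₀ ℤ) :
    evRho ρ (RegEmbed.ltrans σ a) = ρ.ρ σ * evRho ρ a := by
  have h : (evRho ρ).comp (RegEmbed.ltrans σ)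
      = (AddMonoidHom.mulLeft (ρ.ρ σ)).comp (evRho ρ) := by
    refine Finsupp.addHom_ext fun g n => ?_
    rw [AddMonoidHom.comp_apply, AddMonoidHom.comp_apply, RegEmbed.ltrans_single, evRho_single,
      evRho_single, AddMonoidHom.coe_mulLeft, map_mul, mul_smul_comm]
  exact DFunLike.congr_fun h a

/-- The group-ring action on a finite level is the reduction of the group-ring action on `V`. -/
theorem fsum_levelAct_mk (I : Ideal A) (a : GQ →₀ ℤ) (v : ρ.V) :
    RegEmbed.fsum (levelAct ρ I) (Submodule.Quotient.mk v) a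
      = Submodule.Quotient.mk (evRho ρ a v) := by
  induction a using Finsupp.induction_linear with
  | zero => simp
  | add a b ha hb =>
    rw [map_add, map_add, ha, hb, LinearMap.add_apply, Submodule.Quotient.mk_add]
  | single g n =>
    rw [RegEmbed.fsum_single, evRho_single, levelAct_mk, LinearMap.smul_apply,
      ← Submodule.Quotient.mk_smul]

/-! ### Annihilators and coordinate ideals -/

section Ann

variable {Z : Type*} [AddCommGroup Z] (act : GQ → Z → Z)

/-- The formal sums killing `Z`. -/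
def annSet : Set (GQ →₀ ℤ) := {b | ∀ z : Z, RegEmbed.fsum act z b = 0}

variable {act}

theorem ltrans_mem_annSet (hZ : RegEmbed.IsAddAct act) (g : GQ) {b : GQ →₀ ℤ}
    (hb : b ∈ annSet act) : RegEmbed.ltrans g b ∈ annSet act := by
  intro z
  rw [← RegEmbed.act_fsum hZ, hb z]
  exact (hZ.hom g).map_zero

variable (act)

/-- The ideal generated by all coordinates of `ρ(b) v`, `b` killing `Z`. -/
def coordIdeal : Ideal A :=
  Ideal.span {c : A | ∃ b ∈ annSet act, ∃ (v : ρ.V) (φ : Module.Dual A ρ.V),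
    c = φ (evRho ρ b v)}

variable {act}

theorem coord_mem_coordIdeal {b : GQ →₀ ℤ} (hb : b ∈ annSet act) (v : ρ.V)
    (φ : Module.Dual A ρ.V) : φ (evRho ρ b v) ∈ coordIdeal ρ act :=
  Ideal.subset_span ⟨b, hb, v, φ, rfl⟩

/-- A vector all of whose coordinates lie in `I` lies in `I V`. -/
theorem mem_smul_top_of_forall_dual (I : Ideal A) (w : ρ.V)
    (h : ∀ φ : Module.Dual A ρ.V, φ w ∈ I) : w ∈ I • (⊤ : Submodule A ρ.V) := by
  classical
  let b₀ := Module.Free.chooseBasis A ρ.V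
  rw [← b₀.sum_repr w]
  refine Submodule.sum_mem _ fun i _ => ?_
  exact Submodule.smul_mem_smul (h (b₀.coord i)) Submodule.mem_top

theorem evRho_apply_mem {b : GQ →₀ ℤ} (hb : b ∈ annSet act) (v : ρ.V) :
    evRho ρ b v ∈ coordIdeal ρ act • (⊤ : Submodule A ρ.V) :=
  mem_smul_top_of_forall_dual ρ _ _ fun φ => coord_mem_coordIdeal ρ hb v φ

/-- **(OLD′)** above the coordinate ideal the annihilator inclusion is tautological. -/
theorem annIncl_of_coordIdeal_le {I : Ideal A} (h : coordIdeal ρ act ≤ I) :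
    RegEmbed.AnnIncl act (levelAct ρ I) := by
  intro b hb m
  obtain ⟨v, rfl⟩ := Submodule.Quotient.mk_surjective _ m
  rw [fsum_levelAct_mk, Submodule.Quotient.mk_eq_zero]
  exact Submodule.smul_mono_left h (evRho_apply_mem ρ hb v)

/-- An integer killing `Z` lies in the coordinate ideal. -/
theorem intCast_mem_coordIdeal (hone : ∀ z : Z, act 1 z = z) (n : ℤ)
    (hn : ∀ z : Z, n • z = 0) : (n : A) ∈ coordIdeal ρ act := by
  have hb : Finsupp.single (1 : GQ) n ∈ annSet act := by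
    intro z
    rw [RegEmbed.fsum_single, hone, hn]
  let b₀ : Module.Basis (Fin 2) A ρ.V := Module.finBasisOfFinrankEq A ρ.V ρ.finrank_eq
  have h1 := coord_mem_coordIdeal ρ hb (b₀ 0) (b₀.coord 0)
  rw [evRho_single, map_one, LinearMap.smul_apply, Module.End.one_apply, map_zsmul,
    Module.Basis.coord_apply, Module.Basis.repr_self, Finsupp.single_eq_same, zsmul_eq_mul,
    mul_one] at h1
  exact h1

end Ann

/-! ### The abstract core of (NEW′) -/

section New

variable {Z : Type*} [AddCommGroup Z] {act : GQ → Z → Z}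
  {X : Type*} [AddCommGroup X] {actX : GQ → X → X}

/-- The operator `(f − a)(g − 1)`. -/
def omegaOp (τ σ' : GQ) (a : A) : Module.End A ρ.V :=
  (ρ.ρ τ - algebraMap A (Module.End A ρ.V) a) * (ρ.ρ σ' - 1)

/-- The formal sum `k (τ − a)(σ' − 1) b`. -/
def twistSum (τ σ' : GQ) (a k : ℤ) (b : GQ →₀ ℤ) : GQ →₀ ℤ :=
  k • (RegEmbed.ltrans (τ * σ') b - RegEmbed.ltrans τ b - a • RegEmbed.ltrans σ' b + a • b)

theorem evRho_twistSum (τ σ' : GQ) (a k : ℤ) (b : GQ →₀ ℤ) :
    evRho ρ (twistSum τ σ' a k b) = (k : A) • (omegaOp ρ τ σ' (a : A) * evRho ρ b) := by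
  rw [twistSum, map_zsmul, map_add, map_sub, map_sub, map_zsmul, map_zsmul, evRho_ltrans,
    evRho_ltrans, evRho_ltrans, map_mul, omegaOp, Algebra.algebraMap_eq_smul_one,
    ← Int.cast_smul_eq_zsmul A k, ← Int.cast_smul_eq_zsmul A a, ← Int.cast_smul_eq_zsmul A a]
  congr 1
  simp only [sub_mul, mul_sub, mul_one, one_mul, smul_mul_assoc, mul_assoc]
  abel

theorem fsum_twistSum (hX : RegEmbed.IsAddAct actX) (τ σ' : GQ) (a k : ℤ) (b : GQ →₀ ℤ)
    (x : X) :
    RegEmbed.fsum actX x (twistSum τ σ' a k b)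
      = k • (actX τ (actX σ' (RegEmbed.fsum actX x b) - RegEmbed.fsum actX x b)
          - a • (actX σ' (RegEmbed.fsum actX x b) - RegEmbed.fsum actX x b)) := by
  rw [twistSum, map_zsmul, map_add, map_sub, map_sub, map_zsmul, map_zsmul,
    ← RegEmbed.act_fsum hX, ← RegEmbed.act_fsum hX, ← RegEmbed.act_fsum hX, hX.mul]
  congr 1
  have h1 : actX τ (actX σ' (RegEmbed.fsum actX x b) - RegEmbed.fsum actX x b)
      = actX τ (actX σ' (RegEmbed.fsum actX x b)) - actX τ (RegEmbed.fsum actX x b) :=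
    (hX.hom τ).map_sub _ _
  rw [h1, smul_sub]
  abel

/-- **(NEW′), abstract core.** -/
theorem smul_omegaOp_mem (hZ : RegEmbed.IsAddAct act) (hX : RegEmbed.IsAddAct actX)
    {I' : Ideal A} (hann : RegEmbed.AnnIncl actX (levelAct ρ I'))
    (hspan : Submodule.span A (Set.range ρ.ρ) = ⊤)
    (τ σ' : GQ) (a k : ℤ)
    (hkill : ∀ b ∈ annSet act, ∀ x : X,
      k • (actX τ (actX σ' (RegEmbed.fsum actX x b) - RegEmbed.fsum actX x b)
          - a • (actX σ' (RegEmbed.fsum actX x b) - RegEmbed.fsum actX x b)) = 0)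
    {c : A} (hc : c ∈ coordIdeal ρ act) (u : ρ.V) :
    ((k : A) * c) • omegaOp ρ τ σ' (a : A) u ∈ I' • (⊤ : Submodule A ρ.V) := by
  -- step 1: `k Ω' ρ(b) v ∈ I' V` for `b` in the annihilator
  have h1 : ∀ b ∈ annSet act, ∀ v : ρ.V,
      (k : A) • omegaOp ρ τ σ' (a : A) (evRho ρ b v) ∈ I' • (⊤ : Submodule A ρ.V) := by
    intro b hb v
    have h2 : ∀ x : X, RegEmbed.fsum actX x (twistSum τ σ' a k b) = 0 := fun x => by
      rw [fsum_twistSum hX]
      exact hkill b hb x
    have h3 := hann _ h2 (Submodule.Quotient.mk v)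
    rw [fsum_levelAct_mk, Submodule.Quotient.mk_eq_zero, evRho_twistSum] at h3
    exact h3
  -- step 2: the same with an arbitrary endomorphism inserted
  have h2 : ∀ E : Module.End A ρ.V, ∀ b ∈ annSet act, ∀ v : ρ.V,
      (k : A) • omegaOp ρ τ σ' (a : A) (E (evRho ρ b v)) ∈ I' • (⊤ : Submodule A ρ.V) := by
    intro E
    have hE : E ∈ Submodule.span A (Set.range ρ.ρ) := by rw [hspan]; trivial
    refine Submodule.span_induction (p := fun E _ => ∀ b ∈ annSet act, ∀ v : ρ.V,
      (k : A) • omegaOp ρ τ σ' (a : A) (E (evRho ρ b v)) ∈ I' • (⊤ : Submodule A ρ.V))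
      ?_ ?_ ?_ ?_ hE
    · rintro _ ⟨g, rfl⟩ b hb v
      have h3 := h1 _ (ltrans_mem_annSet hZ g hb) v
      rwa [evRho_ltrans] at h3
    · intro b _ v
      rw [LinearMap.zero_apply, map_zero, smul_zero]
      exact Submodule.zero_mem _
    · intro E₁ E₂ _ _ h₁ h₂ b hb v
      rw [LinearMap.add_apply, map_add, smul_add]
      exact Submodule.add_mem _ (h₁ b hb v) (h₂ b hb v)
    · intro t E₁ _ h₁ b hb v
      rw [LinearMap.smul_apply, map_smul, smul_comm]
      exact Submodule.smul_mem _ t (h₁ b hb v)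
  -- step 3: coordinates
  refine Submodule.span_induction (p := fun c _ => ∀ u : ρ.V,
      ((k : A) * c) • omegaOp ρ τ σ' (a : A) u ∈ I' • (⊤ : Submodule A ρ.V))
    ?_ ?_ ?_ ?_ hc u
  · rintro _ ⟨b, hb, v, φ, rfl⟩ u
    have h3 := h2 (φ.smulRight u) b hb v
    rwa [LinearMap.smulRight_apply, map_smul, smul_smul] at h3
  · intro u
    rw [mul_zero, zero_smul]
    exact Submodule.zero_mem _
  · intro c₁ c₂ _ _ h₁ h₂ u
    rw [mul_add, add_smul]
    exact Submodule.add_mem _ (h₁ u) (h₂ u)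
  · intro t c₁ _ h₁ u
    rw [smul_eq_mul, mul_left_comm, mul_smul]
    exact Submodule.smul_mem _ t (h₁ u)

end New

end Fermat.Agent.S33.New.OldIdeal
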