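/-
S33 (row 61, top level, re-cut), helper27: **the family of Galois-annihilator ideals of a
Hecke–Galois datum: (OLD′) and (NEW′).**

`H` a Hecke–Galois datum of level `N` over `T`, `N'` the level without `p` (in the application
`N = N' * p`).  `oldIdeal H N' p M` is the ideal of `T` generated by all coordinates of `ρ(b) v`,
`b ∈ ℤ[Γ]` killing `J₀(N')[p^M]`.

* `NewJ N N' p k` : the geometric input (NEW-J) in Galois-module form: equivariant additive maps
  `α β : J₀(N)[p^m] → J₀(N')[p^m]` such that `k (τ − a)(σ' − 1)` kills `ker α ∩ ker β` for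
  `τ, σ'` in an inertia group over `p` and `τ = (·)^a` on `μ_{p^m}`;
* `natCast_pow_mem_oldIdeal` : `p ^ M ∈ oldIdeal H N' p M`;
* `hasHopfOrder_level_of_oldIdeal_le` : **(OLD′)** `V ⧸ I V` carries a Hopf order for every `I ⊇
  oldIdeal H N' p M` of finite index, given Hopf orders on the `J₀(N')[p^j]` (S19 at level `N'`);
* `smul_omega_eq_zero` : **(NEW′)** every `c ∈ ⨅ M, oldIdeal H N' p M` kills `Ω(τ, σ')`, `τ, σ' ∈ I_P`;
* `exists_oldIdeals` : the package consumed by the top level (`Asm/Family`).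
-/
import Mathlib
import Fermat.Prelude.Def_CuspForm_HeckeGaloisRepDatum
import Fermat.Agent.S33.New.OldIdeal
import Fermat.Agent.S33.New.DetCyclo
import Fermat.Agent.S33.New.AnnInclMono
import Fermat.Agent.S33.Alg.Ordinary
import Fermat.Agent.S32.Carayol.Wiring
import Fermat.Agent.N4F.Adic.TraceRigidity

set_option autoImplicit false
set_option linter.unusedSectionVars false
set_option linter.style.haveILetI false

noncomputable section

namespace Fermat.Agent.S33.New.Transfer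

open Fermat.Agent.S32.Carayol Fermat.Agent.S19.Abs Fermat.Agent.S19.Base
  Fermat.Agent.S33.New.OldIdeal Fermat.Agent.S33.Alg.Ordinary Fermat.Agent.N4.FrobDensity
  Fermat.Agent.N4F.Adic

local notation "Qbar" => AlgebraicClosure ℚ
local notation "Γ" => (AlgebraicClosure ℚ ≃ₐ[ℚ] AlgebraicClosure ℚ)

/-- **(NEW-J)**, Galois-module form, with a bounded integer factor `k`. -/
def NewJ (N N' p : ℕ) (k : ℤ) : Prop :=
  ∀ m : ℕ, ∃ α β : Tors N p m →+ Tors N' p m,
    (∀ (σ : Γ) (x : Tors N p m), α (torsAct N p m σ x) = torsAct N' p m σ (α x)) ∧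
    (∀ (σ : Γ) (x : Tors N p m), β (torsAct N p m σ x) = torsAct N' p m σ (β x)) ∧
    ∀ x : Tors N p m, α x = 0 → β x = 0 →
      ∀ P : ValuationSubring Qbar, P.LiesOverPrime p →
        ∀ σ' ∈ P.inertiaSubgroupIn ℚ, ∀ τ ∈ P.inertiaSubgroupIn ℚ, ∀ a : ℕ,
          (∀ μ : Qbar, μ ^ p ^ m = 1 → τ μ = μ ^ a) →
            k • (torsAct N p m τ (torsAct N p m σ' x - x) - a • (torsAct N p m σ' x - x)) = 0

theorem isAddAct_torsAct (N p m : ℕ) : RegEmbed.IsAddAct (torsAct N p m) :=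
  ⟨(isGalAction_torsAct N p m).one, (isGalAction_torsAct N p m).mul,
    (isGalAction_torsAct N p m).add⟩

section Datum

variable {p : ℕ} {N : ℕ} [NeZero N] {S : Finset ℕ}
  {𝒪 : Type} [CommRing 𝒪] [IsDomain 𝒪] [IsDiscreteValuationRing 𝒪]
  [IsAdicComplete (IsLocalRing.maximalIdeal 𝒪) 𝒪]
  {θ : CuspForm.heckeAlgebra N 2 (↑S : Set ℕ) →+* IsLocalRing.ResidueField 𝒪}
  {T : Type} [CommRing T] [IsLocalRing T] [IsNoetherianRing T]
  [IsAdicComplete (IsLocalRing.maximalIdeal T) T] [Algebra 𝒪 T] [IsLocalHom (algebraMap 𝒪 T)]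
  [Module.Finite 𝒪 T] [Module.Free 𝒪 T]
  (H : CuspForm.HeckeGaloisRepDatum N (↑S : Set ℕ) 𝒪 θ T)

/-- The ideal of `T` generated by the coordinates of `ρ(b) v`, `b ∈ ℤ[Γ]` killing `J₀(N')[p^M]`. -/
def oldIdeal (N' p M : ℕ) : Ideal T := coordIdeal H.ρ (torsAct N' p M)

/-- `p ^ M ∈ oldIdeal H N' p M`. -/
theorem natCast_pow_mem_oldIdeal (N' M : ℕ) : ((p ^ M : ℕ) : T) ∈ oldIdeal H N' p M := by
  have h1 := intCast_mem_coordIdeal H.ρ (act := torsAct N' p M) (isGalAction_torsAct N' p M).one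
    ((p : ℤ) ^ M) (fun z => Subtype.ext ((Submodule.mem_torsionBy_iff _ _).mp z.2))
  have h2 : (((p : ℤ) ^ M : ℤ) : T) = ((p ^ M : ℕ) : T) := by push_cast; rfl
  rw [h2] at h1
  exact h1

/-- **(OLD′)**: above `oldIdeal H N' p M` every finite level carries a Hopf order. -/
theorem hasHopfOrder_level_of_oldIdeal_le (hp : p.Prime) (N' : ℕ) [NeZero N']
    (hS19 : ∀ j : ℕ, HasHopfOrder p (torsAct N' p j)) (M : ℕ) (I : Ideal T)
    (hI : oldIdeal H N' p M ≤ I) [Finite (T ⧸ I)] : HasHopfOrder p (levelAct H.ρ I) := by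
  haveI : Fact p.Prime := ⟨hp⟩
  haveI := finite_tors N' p M hp.pos
  haveI := finite_level H.ρ I
  exact Wiring.hasHopfOrder_of_annIncl p (isGalAction_torsAct N' p M) (isGalAction_levelAct H.ρ I)
    (annIncl_of_coordIdeal_le H.ρ hI) (hS19 M)

/-- `Ω` and `omegaOp` differ by a multiple of `det ρ(τ) − a`. -/
theorem omega_eq (τ σ' : Γ) (a : T) (u : H.ρ.V) :
    Omega H.ρ τ σ' u = omegaOp H.ρ τ σ' a u
      - (LinearMap.det (H.ρ.ρ τ) - a) • (H.ρ.ρ σ' u - u) := by
  rw [Omega_apply, omegaOp, Module.End.mul_apply, LinearMap.sub_apply, LinearMap.sub_apply,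
    Module.End.one_apply, Module.algebraMap_end_apply, sub_smul]
  abel

/-- Multiplication by a nonzero integer is injective on `V`. -/
theorem eq_zero_of_intCast_smul [CharZero 𝒪] {k : ℤ} (hk : k ≠ 0) (w : H.ρ.V)
    (h : (k : T) • w = 0) : w = 0 := by
  classical
  have hT : ∀ t : T, (k : T) * t = 0 → t = 0 := by
    intro t ht
    have h1 : (k : T) * t = (k : 𝒪) • t := by
      rw [Algebra.smul_def, map_intCast]
    rw [h1] at ht
    let b := Module.Free.chooseBasis 𝒪 T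
    apply b.repr.injective
    ext i
    have h2 := congrArg (fun x => b.repr x i) ht
    simp only [map_smul, Finsupp.smul_apply, smul_eq_mul, map_zero, Finsupp.zero_apply] at h2
    rcases mul_eq_zero.mp h2 with h3 | h3
    · exact absurd h3 (by exact_mod_cast hk)
    · rw [map_zero, Finsupp.zero_apply]; exact h3
  let b₀ := Module.Free.chooseBasis T H.ρ.V
  apply b₀.repr.injective
  ext i
  have h2 := congrArg (fun x => b₀.repr x i) h
  simp only [map_smul, Finsupp.smul_apply, smul_eq_mul, map_zero, Finsupp.zero_apply] at h2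
  rw [map_zero, Finsupp.zero_apply]
  exact hT _ h2

/-- **(NEW′)**: the intersection of the old ideals kills `Ω` on inertia. -/
theorem smul_omega_eq_zero [Finite (IsLocalRing.ResidueField 𝒪)] [CharZero 𝒪]
    (hp : p.Prime) (hp2 : p ≠ 2) (hp𝒪 : (p : 𝒪) ∈ IsLocalRing.maximalIdeal 𝒪)
    (hpS : p ∈ S) (hNS : ∀ q : ℕ, q.Prime → q ∣ N → q ∈ S)
    (N' : ℕ) {k : ℤ} (hk : k ≠ 0) (hJ : NewJ N N' p k)
    (c : T) (hc : c ∈ ⨅ M, oldIdeal H N' p M)
    (P : ValuationSubring Qbar) (hP : P.LiesOverPrime p)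
    (τ : Γ) (hτ : τ ∈ P.inertiaSubgroupIn ℚ) (σ' : Γ) (hσ' : σ' ∈ P.inertiaSubgroupIn ℚ) :
    c • Omega H.ρ τ σ' = 0 := by
  haveI : Fact p.Prime := ⟨hp⟩
  have hpT : (p : T) ∈ IsLocalRing.maximalIdeal T := DetCyclo.natCast_mem_maximalIdeal hp𝒪
  have hdetcyc := DetCyclo.detIsCyclotomic_datum hp hp𝒪 hpS hNS H
  have hfinres : Finite (IsLocalRing.ResidueField T) := Assembly.finite_residueField H
  have hspan := TraceRigidity.span_range_eq_top H.ρ H.residual_absIrr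
  refine LinearMap.ext fun u => ?_
  rw [LinearMap.smul_apply, LinearMap.zero_apply]
  apply eq_zero_of_intCast_smul H hk
  rw [smul_smul]
  -- Krull
  have hH : IsHausdorff (IsLocalRing.maximalIdeal T) H.ρ.V := inferInstance
  refine hH.haus _ fun n => ?_
  rw [SModEq.zero]
  by_cases hn : IsLocalRing.maximalIdeal T ^ n = ⊤
  · rw [hn, Submodule.top_smul]; trivial
  -- the level `I' = 𝔪 ^ n`
  haveI : Finite (T ⧸ IsLocalRing.maximalIdeal T ^ n) := by
    have : Finite (T ⧸ IsLocalRing.maximalIdeal T) := hfinres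
    exact Ideal.finite_quotient_pow (IsNoetherian.noetherian (IsLocalRing.maximalIdeal T)) n
  obtain ⟨M₀, hM₀⟩ := AnnInclMono.exists_forall_ge_annIncl_tors_level S hpS hNS H.π H.ρ
    H.charpoly_frob hp2 hpT H.residual_absIrr (IsLocalRing.maximalIdeal T ^ n) hn
  set m : ℕ := max M₀ n with hm
  have hann := hM₀ m (le_max_left _ _)
  have hpm : ((p ^ m : ℕ) : T) ∈ IsLocalRing.maximalIdeal T ^ n := by
    have h1 : ((p ^ m : ℕ) : T) = (p : T) ^ m := by push_cast; rfl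
    rw [h1]
    exact Ideal.pow_le_pow_right (le_max_right _ _) (Ideal.pow_mem_pow hpT m)
  -- the exponent of `τ` on `μ_{p^m}`
  set a : ℕ := (PadicInt.toZModPow m ((cycloCharAdic p τ : ℤ_[p]ˣ) : ℤ_[p])).val with ha
  have hspec : ∀ μ : Qbar, μ ^ p ^ m = 1 → τ μ = μ ^ a := fun μ hμ => cycloCharAdic_spec p τ hμ
  have hdet : LinearMap.det (H.ρ.ρ τ) - (a : T) ∈ IsLocalRing.maximalIdeal T ^ n := by
    have h1 := hdetcyc.2 m τ a hspec
    rw [Ideal.mem_span_singleton] at h1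
    obtain ⟨t, ht⟩ := h1
    rw [ht]
    exact Ideal.mul_mem_right _ _ hpm
  -- (NEW-J)
  obtain ⟨α, β, hα, hβ, hnew⟩ := hJ m
  have hkill : ∀ b ∈ annSet (torsAct N' p m), ∀ x : Tors N p m,
      k • (torsAct N p m τ (torsAct N p m σ' (RegEmbed.fsum (torsAct N p m) x b)
            - RegEmbed.fsum (torsAct N p m) x b)
          - (a : ℤ) • (torsAct N p m σ' (RegEmbed.fsum (torsAct N p m) x b)
            - RegEmbed.fsum (torsAct N p m) x b)) = 0 := by
    intro b hb x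
    have h1 : α (RegEmbed.fsum (torsAct N p m) x b) = 0 := by
      rw [Abstract.map_fsum α hα, hb (α x)]
    have h2 : β (RegEmbed.fsum (torsAct N p m) x b) = 0 := by
      rw [Abstract.map_fsum β hβ, hb (β x)]
    have h3 := hnew _ h1 h2 P hP σ' hσ' τ hτ a hspec
    rwa [← natCast_zsmul] at h3
  have hcm : c ∈ coordIdeal H.ρ (torsAct N' p m) := (Ideal.mem_iInf.mp hc) m
  have key := smul_omegaOp_mem H.ρ (isAddAct_torsAct N' p m) (isAddAct_torsAct N p m) hann hspan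
    τ σ' (a : ℤ) k hkill hcm u
  rw [omega_eq H τ σ' (((a : ℤ) : T)) u, smul_sub]
  refine Submodule.sub_mem _ key ?_
  rw [smul_smul]
  refine Submodule.smul_mem_smul ?_ Submodule.mem_top
  refine Ideal.mul_mem_left _ _ ?_
  have h4 : (((a : ℤ) : T)) = (a : T) := by push_cast; rfl
  rw [h4]
  exact hdet

/-- **The package for the top level.** -/
theorem exists_oldIdeals [Finite (IsLocalRing.ResidueField 𝒪)] [CharZero 𝒪]
    (hp : p.Prime) (hp2 : p ≠ 2) (hp𝒪 : (p : 𝒪) ∈ IsLocalRing.maximalIdeal 𝒪)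
    (hpS : p ∈ S) (hNS : ∀ q : ℕ, q.Prime → q ∣ N → q ∈ S)
    (N' : ℕ) [NeZero N'] (hS19 : ∀ j : ℕ, HasHopfOrder p (torsAct N' p j))
    {k : ℤ} (hk : k ≠ 0) (hJ : NewJ N N' p k) :
    ∃ 𝔞 : ℕ → Ideal T,
      (∀ M, ((p ^ M : ℕ) : T) ∈ 𝔞 M) ∧
      (∀ (M : ℕ) (I : Ideal T), 𝔞 M ≤ I → Finite (T ⧸ I) → HasHopfOrder p (levelAct H.ρ I)) ∧
      (∀ P : ValuationSubring Qbar, P.LiesOverPrime p →
        ∀ τ ∈ P.inertiaSubgroupIn ℚ, ∀ σ' ∈ P.inertiaSubgroupIn ℚ, ∀ t ∈ ⨅ M, 𝔞 M,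
          t • Omega H.ρ τ σ' = 0) :=
  ⟨fun M => oldIdeal H N' p M, fun M => natCast_pow_mem_oldIdeal H N' M,
    fun M I hI hfin => by
      haveI := hfin
      exact hasHopfOrder_level_of_oldIdeal_le H hp N' hS19 M I hI,
    fun P hP τ hτ σ' hσ' t ht =>
      smul_omega_eq_zero H hp hp2 hp𝒪 hpS hNS N' hk hJ t ht P hP τ hτ σ' hσ'⟩

end Datum

end Fermat.Agent.S33.New.Transfer
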