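/-
S33, `moonshots` row 61 (helper8), STEP K, leaf (K1) (helper5): **`p^n`-th roots by iteration of
(K-loc).**

`KummerLoc.Hyp.exists_approx` (helper8) treats ONE `p`-th root in robust form: from
`r ^ p = u + ϖ ^ N c` (`u ∈ Aˣ`) it produces a `p`-th root of unity `ξ ≡ 1 mod ϖ ^ j₀` such that
`ξ r ∈ ι Aˣ · (1 + ϖ ^ j B)` for all `j` with `(p - 1) j₀ + j ≤ N`.  Here we iterate it `n` times:
from `r ^ p ^ n = u + ϖ ^ N c` we get `η` with `η ^ p ^ n = 1` such that `η r ∈ ι Aˣ · (1 + ϖ ^ j B)`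
for all `j` with `n (p - 1) j₀ + j ≤ N` (each step loses `e = (p - 1) j₀`).

The ambiguities `η` live in a submonoid `Ξ` of `B` (to be instantiated with the pairs of `p^n`-th
roots of unity of the constant field) which contains the `ξ`'s produced by (K-loc) and in which
`p`-th roots can be extracted below level `n`.

`Approx ϖ j x` is helper8's `KummerLoc.Approx`: `∃ (a : Aˣ) (s : B), x = ι a * (1 + ι ϖ ^ j * s)`.
-/
import Mathlib
import Fermat.Agent.S33.New.KummerLoc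

set_option autoImplicit false

namespace Fermat.Agent.S33.New.KummerIter

open Fermat.Agent.S33.New.KummerLoc

variable {A B : Type*} [CommRing A] [CommRing B] [Algebra A B]

local notation "ι" => algebraMap A B

/-- `ι Aˣ · (1 + ϖ ^ j B)` decreases with `j`. -/
theorem approx_mono {ϖ : A} {i j : ℕ} (hij : i ≤ j) {x : B} (h : Approx ϖ j x) :
    Approx ϖ i x := by
  obtain ⟨a, s, hx⟩ := h
  refine ⟨a, ι ϖ ^ (j - i) * s, ?_⟩
  rw [hx, ← mul_assoc (ι ϖ ^ i), ← pow_add, Nat.add_sub_cancel' hij]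

/-- The additive form `u + ϖ ^ N c` of an element of `ι Aˣ · (1 + ϖ ^ N B)`. -/
theorem approx_of_add {ϖ : A} (u : Aˣ) (c : B) (N : ℕ) :
    Approx ϖ N (ι u + ι ϖ ^ N * c) := by
  refine ⟨u, ι ((u⁻¹ : Aˣ) : A) * c, ?_⟩
  have h1 : ι (u : A) * ι ((u⁻¹ : Aˣ) : A) = 1 := by
    rw [← map_mul, Units.mul_inv, map_one]
  calc ι (u : A) + ι ϖ ^ N * c
      = ι (u : A) + (ι (u : A) * ι ((u⁻¹ : Aˣ) : A)) * (ι ϖ ^ N * c) := by rw [h1, one_mul]
    _ = ι (u : A) * (1 + ι ϖ ^ N * (ι ((u⁻¹ : Aˣ) : A) * c)) := by ring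

/-- An element of `ι Aˣ · (1 + ϖ ^ j B)` is congruent to an element of `ι Aˣ` modulo `ϖ ^ j B`. -/
theorem approx_exists_sub_eq {ϖ : A} {j : ℕ} {x : B} (h : Approx ϖ j x) :
    ∃ (a : Aˣ) (d : B), x - ι a = ι ϖ ^ j * d := by
  obtain ⟨a, s, hx⟩ := h
  exact ⟨a, ι a * s, by rw [hx]; ring⟩

/-- Conversely. -/
theorem approx_of_sub_eq {ϖ : A} {j : ℕ} {x : B} (a : Aˣ) (d : B) (h : x - ι a = ι ϖ ^ j * d) :
    Approx ϖ j x := by
  have : x = ι a + ι ϖ ^ j * d := by rw [← h]; ring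
  rw [this]
  exact approx_of_add a d j

/-- `ι Aˣ · (1 + ϖ ^ j B)` is stable under products. -/
theorem approx_mul {ϖ : A} {j : ℕ} {x y : B} (hx : Approx ϖ j x) (hy : Approx ϖ j y) :
    Approx ϖ j (x * y) := by
  obtain ⟨a, s, rfl⟩ := hx
  obtain ⟨b, t, rfl⟩ := hy
  refine ⟨a * b, s + t + ι ϖ ^ j * (s * t), ?_⟩
  rw [Units.val_mul, map_mul]
  ring

/-- `ι Aˣ · (1 + ϖ ^ j B)` contains `ι Aˣ`. -/
theorem approx_algebraMap {ϖ : A} (j : ℕ) (a : Aˣ) : Approx (B := B) ϖ j (ι a) :=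
  ⟨a, 0, by simp⟩

variable {ϖ : A} {p j₀ : ℕ} {υ : Aˣ}

/-- **(K1)** `p^n`-th roots: iterate (K-loc) `n` times. -/
theorem exists_approx_iter (H : Hyp (B := B) ϖ p j₀ υ) (Ξ : Submonoid B)
    (hΞ : ∀ ξ : B, ξ ^ p = 1 → (∃ d, ξ = 1 + ι ϖ ^ j₀ * d) → ξ ∈ Ξ)
    (n : ℕ) (hroot : ∀ k < n, ∀ η ∈ Ξ, η ^ p ^ k = 1 → ∃ η' ∈ Ξ, η' ^ p = η)
    (u : Aˣ) (r c : B) (N : ℕ) (hr : r ^ p ^ n = ι u + ι ϖ ^ N * c) :
    ∃ η ∈ Ξ, η ^ p ^ n = 1 ∧
      ∀ j, n * ((p - 1) * j₀) + j ≤ N → Approx ϖ j (η * r) := by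
  -- the general statement, by induction on the number `k ≤ n` of roots already extracted
  have key : ∀ k, k ≤ n → ∃ η ∈ Ξ, η ^ p ^ k = 1 ∧
      ∀ j, k * ((p - 1) * j₀) + j ≤ N → Approx ϖ j (η * r ^ p ^ (n - k)) := by
    intro k
    induction k with
    | zero =>
      intro _
      refine ⟨1, Ξ.one_mem, by simp, fun j hj => ?_⟩
      rw [one_mul, Nat.sub_zero, hr]
      exact approx_mono (by omega) (approx_of_add u c N)
    | succ k ih =>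
      intro hk
      obtain ⟨η, hηΞ, hη1, hη⟩ := ih (by omega)
      set e := (p - 1) * j₀ with he
      by_cases hN : k * e ≤ N
      · -- the best approximation available at stage `k`
        obtain ⟨a, s, has⟩ := hη (N - k * e) (by omega)
        obtain ⟨η', hη'Ξ, hη'⟩ := hroot k (by omega) η hηΞ hη1
        -- `(η' r_{k+1}) ^ p = η r_k`
        have hpow : (η' * r ^ p ^ (n - (k + 1))) ^ p =
            ι a + ι ϖ ^ (N - k * e) * (ι a * s) := by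
          rw [mul_pow, hη', ← pow_mul, ← pow_succ]
          have : n - (k + 1) + 1 = n - k := by omega
          rw [this, has]
          ring
        obtain ⟨ξ, hξ1, hξd, hξ⟩ := H.exists_approx a _ _ (N - k * e) hpow
        refine ⟨ξ * η', Ξ.mul_mem (hΞ ξ hξ1 hξd) hη'Ξ, ?_, fun j hj => ?_⟩
        · rw [mul_pow, pow_succ', pow_mul, pow_mul, hξ1, one_pow, hη', hη1, one_mul]
        · obtain ⟨a', s', h'⟩ := hξ j (by
            have : (k + 1) * e = k * e + e := by ring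
            omega)
          exact ⟨a', s', by rw [mul_assoc, h']⟩
      · -- nothing to prove: the range of `j` is empty
        refine ⟨1, Ξ.one_mem, by simp, fun j hj => ?_⟩
        exfalso
        have : (k + 1) * e = k * e + e := by ring
        omega
  obtain ⟨η, hηΞ, hη1, hη⟩ := key n le_rfl
  refine ⟨η, hηΞ, hη1, fun j hj => ?_⟩
  have := hη j hj
  rwa [Nat.sub_self, pow_zero, pow_one] at this

/-- The same with the hypothesis in multiplicative form `r ^ p ^ n ∈ ι Aˣ · (1 + ϖ ^ N B)`. -/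
theorem exists_approx_iter' (H : Hyp (B := B) ϖ p j₀ υ) (Ξ : Submonoid B)
    (hΞ : ∀ ξ : B, ξ ^ p = 1 → (∃ d, ξ = 1 + ι ϖ ^ j₀ * d) → ξ ∈ Ξ)
    (n : ℕ) (hroot : ∀ k < n, ∀ η ∈ Ξ, η ^ p ^ k = 1 → ∃ η' ∈ Ξ, η' ^ p = η)
    (r : B) (N : ℕ) (hr : Approx ϖ N (r ^ p ^ n)) :
    ∃ η ∈ Ξ, η ^ p ^ n = 1 ∧
      ∀ j, n * ((p - 1) * j₀) + j ≤ N → Approx ϖ j (η * r) := by
  obtain ⟨u, s, hus⟩ := hr
  refine exists_approx_iter H Ξ hΞ n hroot u r (ι u * s) N ?_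
  rw [hus]; ring

/-- **(K1), group form**: the ambiguities in the `p`-power roots of unity of a subgroup `Ξ₀ ≤ Bˣ`
that contains all `p`-th roots of unity `≡ 1 mod ϖ ^ j₀` of `B` and is `p`-divisible on its
`p^k`-torsion (`k < n`). -/
theorem exists_approx_iter_units (H : Hyp (B := B) ϖ p j₀ υ) (Ξ₀ : Subgroup Bˣ)
    (hΞ : ∀ ξ : Bˣ, ξ ^ p = 1 → (∃ d, (ξ : B) = 1 + ι ϖ ^ j₀ * d) → ξ ∈ Ξ₀)
    (n : ℕ) (hroot : ∀ k < n, ∀ η ∈ Ξ₀, η ^ p ^ k = 1 → ∃ η' ∈ Ξ₀, η' ^ p = η)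
    (r : B) (N : ℕ) (hr : Approx ϖ N (r ^ p ^ n)) :
    ∃ η ∈ Ξ₀, η ^ p ^ n = 1 ∧
      ∀ j, n * ((p - 1) * j₀) + j ≤ N → Approx ϖ j ((η : B) * r) := by
  have hp0 : p ≠ 0 := H.hp.ne_zero
  have h1 : ∀ ξ : B, ξ ^ p = 1 → (∃ d, ξ = 1 + ι ϖ ^ j₀ * d) →
      ξ ∈ Ξ₀.toSubmonoid.map (Units.coeHom B) := by
    intro ξ hξ1 hξd
    have hu : IsUnit ξ := IsUnit.of_pow_eq_one hξ1 hp0
    obtain ⟨ξ₀, rfl⟩ := hu
    refine ⟨ξ₀, hΞ ξ₀ ?_ hξd, rfl⟩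
    apply Units.ext
    simpa using hξ1
  have h2 : ∀ k < n, ∀ η ∈ Ξ₀.toSubmonoid.map (Units.coeHom B), η ^ p ^ k = 1 →
      ∃ η' ∈ Ξ₀.toSubmonoid.map (Units.coeHom B), η' ^ p = η := by
    rintro k hk _ ⟨η₀, hη₀, rfl⟩ hη1
    obtain ⟨η', hη', h⟩ := hroot k hk η₀ hη₀ (by
      apply Units.ext
      simpa using hη1)
    exact ⟨(η' : B), ⟨η', hη', rfl⟩, by simp [← h]⟩
  obtain ⟨η, ⟨η₀, hη₀, rfl⟩, hη1, hη⟩ := exists_approx_iter' H
    (Ξ₀.toSubmonoid.map (Units.coeHom B)) h1 n h2 r N hr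
  refine ⟨η₀, hη₀, ?_, hη⟩
  apply Units.ext
  simpa using hη1

end Fermat.Agent.S33.New.KummerIter
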