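/-
S33, `moonshots` row 61 (helper8), STEP T abstract (helper5): **the `τ`-twist kills the gluing
ambiguity.**

Setting of STEP K: `A → B` rings, `ϖ ∈ A`, `Approx ϖ j x` (helper8's `KummerLoc.Approx`) means
`x ∈ ι Aˣ · (1 + ϖ ^ j B)`.  STEP K produces, at every closed point, a root of unity `η` with
`η r ∈ ι Aˣ · (1 + ϖ ^ j B)` (`r = g / β`, `g` the generic root, `β` a local generator).  Here:

* `Approx` is stable under a pair of ring endomorphisms `(τA, τB)` compatible with `ι` and with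
  `τA ϖ ∈ ϖ A` (`approx_map`), under powers (`approx_pow`) and under division by units of `B`
  (`approx_of_mul_eq`);
* the twist lemma (`approx_twist`): if `τB η = η ^ a` then `ρ := τB r / r ^ a` lies in
  `ι Aˣ · (1 + ϖ ^ j B)`: the ambiguity `η` has disappeared;
* the consumer form for STEP G (`exists_sub_eq_of_twist`): with `r = g / β`, `ρg = τ g / g ^ a`,
  `βz = τ β / β ^ a` one gets `ρg - ι a' * βz ∈ ϖ ^ j B` with `a'` a unit of `A`.
-/
import Mathlib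
import Fermat.Agent.S33.New.KummerIter

set_option autoImplicit false

namespace Fermat.Agent.S33.New.KummerTwist

open Fermat.Agent.S33.New.KummerLoc Fermat.Agent.S33.New.KummerIter

variable {A B : Type*} [CommRing A] [CommRing B] [Algebra A B]

local notation "ι" => algebraMap A B

variable {ϖ : A} {j : ℕ}

/-- `ι Aˣ · (1 + ϖ ^ j B)` is stable under powers. -/
theorem approx_pow {x : B} (hx : Approx ϖ j x) (a : ℕ) : Approx ϖ j (x ^ a) := by
  induction a with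
  | zero =>
    rw [pow_zero]
    exact ⟨1, 0, by simp⟩
  | succ a ih =>
    rw [pow_succ]
    exact approx_mul ih hx

/-- An element of `ι Aˣ · (1 + ϖ ^ j B)` which is a unit of `B` has its inverse in
`ι Aˣ · (1 + ϖ ^ j B)`. -/
theorem approx_of_mul_eq_one {x y : B} (hx : Approx ϖ j x) (hxy : y * x = 1) : Approx ϖ j y := by
  obtain ⟨a, s, rfl⟩ := hx
  -- `y = ι a⁻¹ * (1 - ϖ ^ j * (s * w'))`, `w' := y * ι a` the inverse of `1 + ϖ ^ j s`
  refine ⟨a⁻¹, -(s * (y * ι a)), ?_⟩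
  have h1 : ι (a : A) * ι ((a⁻¹ : Aˣ) : A) = 1 := by
    rw [← map_mul, Units.mul_inv, map_one]
  have h2 : y * ι (a : A) * (1 + ι ϖ ^ j * s) = 1 := by rw [mul_assoc]; exact hxy
  calc y = y * (ι (a : A) * ι ((a⁻¹ : Aˣ) : A)) := by rw [h1, mul_one]
    _ = ι ((a⁻¹ : Aˣ) : A) * (y * ι (a : A) * (1 + ι ϖ ^ j * s)
          - ι ϖ ^ j * (s * (y * ι (a : A)))) := by ring
    _ = ι ((a⁻¹ : Aˣ) : A) * (1 + ι ϖ ^ j * -(s * (y * ι (a : A)))) := by rw [h2]; ring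

/-- Division inside `ι Aˣ · (1 + ϖ ^ j B)`: if `z * y = x` with `x, y` approximable and `y` a unit
of `B`, then `z` is approximable. -/
theorem approx_of_mul_eq {x y z : B} (hx : Approx ϖ j x) (hy : Approx ϖ j y) (hyu : IsUnit y)
    (h : z * y = x) : Approx ϖ j z := by
  obtain ⟨y', rfl⟩ := hyu
  have hinv : Approx ϖ j ((y'⁻¹ : Bˣ) : B) := approx_of_mul_eq_one hy (by simp)
  have : z = x * ((y'⁻¹ : Bˣ) : B) := by
    rw [← h, mul_assoc, Units.mul_inv, mul_one]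
  rw [this]
  exact approx_mul hx hinv

/-- `ι Aˣ · (1 + ϖ ^ j B)` is stable under ring endomorphisms `(τA, τB)` compatible with `ι` which
map `ϖ` into `ϖ A`. -/
theorem approx_map (τA : A →+* A) (τB : B →+* B) (hτ : ∀ a : A, τB (ι a) = ι (τA a))
    (hϖ : ∃ c : A, τA ϖ = ϖ * c) {x : B} (hx : Approx ϖ j x) : Approx ϖ j (τB x) := by
  obtain ⟨a, s, rfl⟩ := hx
  obtain ⟨c, hc⟩ := hϖ
  refine ⟨Units.map τA.toMonoidHom a, ι c ^ j * τB s, ?_⟩
  have h1 : τB (ι ϖ) = ι ϖ * ι c := by rw [hτ, hc, map_mul]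
  have h2 : ι ((Units.map τA.toMonoidHom a : Aˣ) : A) = τB (ι (a : A)) := by
    rw [hτ]; rfl
  rw [h2, map_mul, map_add, map_one, map_mul, map_pow, h1, mul_pow]
  ring

/-- **STEP T, the twist lemma.**  If `η r ∈ ι Aˣ · (1 + ϖ ^ j B)` and `τ η = η ^ a`, then
`ρ = τ r / r ^ a` (given by `ρ * r ^ a = τ r`, `r` a unit of `B`) lies in `ι Aˣ · (1 + ϖ ^ j B)`. -/
theorem approx_twist (τA : A →+* A) (τB : B →+* B) (hτ : ∀ a : A, τB (ι a) = ι (τA a))
    (hϖ : ∃ c : A, τA ϖ = ϖ * c) {η r ρ : B} (a : ℕ) (hη : τB η = η ^ a) (hηu : IsUnit η)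
    (hr : IsUnit r) (hηr : Approx ϖ j (η * r)) (hρ : ρ * r ^ a = τB r) : Approx ϖ j ρ := by
  have h1 : Approx ϖ j (τB (η * r)) := approx_map τA τB hτ hϖ hηr
  have h2 : Approx ϖ j ((η * r) ^ a) := approx_pow hηr a
  refine approx_of_mul_eq h1 h2 ((hηu.mul hr).pow a) ?_
  rw [map_mul, hη, ← hρ, mul_pow]
  ring

/-- **STEP T, consumer form.**  `g` the generic root, `β` a local generator (both units of `B`),
`r` with `r * β = g`; `ρg = τ g / g ^ a`, `βz = τ β / β ^ a`.  If `η r ∈ ι Aˣ · (1 + ϖ ^ j B)` with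
`τ η = η ^ a`, then `ρg ∈ ι Aˣ · βz + ϖ ^ j B`. -/
theorem exists_sub_eq_of_twist (τA : A →+* A) (τB : B →+* B) (hτ : ∀ a : A, τB (ι a) = ι (τA a))
    (hϖ : ∃ c : A, τA ϖ = ϖ * c) {η r g β ρg βz : B} (a : ℕ) (hη : τB η = η ^ a) (hηu : IsUnit η)
    (hg : IsUnit g) (hβ : IsUnit β) (hrβ : r * β = g) (hηr : Approx ϖ j (η * r))
    (hρg : ρg * g ^ a = τB g) (hβz : βz * β ^ a = τB β) :
    ∃ (a' : Aˣ) (d : B), ρg - ι a' * βz = ι ϖ ^ j * d := by
  have hr : IsUnit r := by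
    have : IsUnit (r * β) := hrβ ▸ hg
    exact isUnit_of_mul_isUnit_left this
  -- `ρ := ρg / βz` satisfies `ρ * r ^ a = τ r`
  obtain ⟨β', rfl⟩ := hβ
  obtain ⟨r', rfl⟩ := hr
  have hτβ : IsUnit (τB (β' : B)) := (β'.isUnit).map τB
  have hβzu : IsUnit βz := by
    have : IsUnit (βz * (β' : B) ^ a) := hβz ▸ hτβ
    exact isUnit_of_mul_isUnit_left this
  obtain ⟨βz', rfl⟩ := hβzu
  have key : (ρg * ((βz'⁻¹ : Bˣ) : B)) * (r' : B) ^ a = τB (r' : B) := by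
    have e1 : τB (r' : B) * τB (β' : B) = τB g := by rw [← map_mul, hrβ]
    have e2 : (ρg * ((βz'⁻¹ : Bˣ) : B)) * (r' : B) ^ a * τB (β' : B) = τB g := by
      rw [← hβz, ← hρg, ← hrβ, mul_pow]
      have : ((βz'⁻¹ : Bˣ) : B) * (βz' : B) = 1 := by simp
      calc ρg * ((βz'⁻¹ : Bˣ) : B) * (r' : B) ^ a * ((βz' : B) * (β' : B) ^ a)
          = ρg * ((r' : B) ^ a * (β' : B) ^ a) * (((βz'⁻¹ : Bˣ) : B) * (βz' : B)) := by ring
        _ = ρg * ((r' : B) ^ a * (β' : B) ^ a) := by rw [this, mul_one]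
    have e3 : IsUnit (τB (β' : B)) := hτβ
    exact e3.mul_right_cancel (e2.trans e1.symm)
  have hap : Approx ϖ j (ρg * ((βz'⁻¹ : Bˣ) : B)) :=
    approx_twist τA τB hτ hϖ a hη hηu r'.isUnit hηr key
  obtain ⟨a', d, hd⟩ := approx_exists_sub_eq hap
  refine ⟨a', d * (βz' : B), ?_⟩
  have : ρg = ρg * ((βz'⁻¹ : Bˣ) : B) * (βz' : B) := by
    rw [mul_assoc, Units.inv_mul, mul_one]
  calc ρg - ι (a' : A) * (βz' : B)
      = (ρg * ((βz'⁻¹ : Bˣ) : B) - ι (a' : A)) * (βz' : B) := by rw [sub_mul, ← this]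
    _ = ι ϖ ^ j * (d * (βz' : B)) := by rw [hd]; ring

end Fermat.Agent.S33.New.KummerTwist
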