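/-
S33 (row 61), STEP K, block (K3-abs) (helper19): **the NODE instance of Kummer-integrality, abstract
form** (Mathlib only).

`A` a local ring (the local ring of the chart at a crossing point `s`), `B₁ B₂` two `A`-algebras (the
two vertical valuation rings `V₁ V₂` of the function field), `ϖ : A`, `B := B₁ × B₂`.  With
`𝔓ᵢ := {a | ιᵢ a ∈ ϖ Bᵢ}` (the two branches through `s`) the hypotheses are

* `sat`  : `𝔓₁ ∩ 𝔓₂ = ϖ A` (the fibre is reduced);
* `node` : `𝔪_A = 𝔓₁ + 𝔓₂` (the fibre is a node: `A/ϖ` = pairs with the same value at `s`);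
* `int₁`, `int₂` : the images of `A` in `Bᵢ/ϖ` are closed under roots of `X^p + wX - a` (the branches
  are normal: discrete valuation rings in their fraction fields `Bᵢ/ϖ`);
* `ζ = 1 + ϖ^{j₀} d₀`, `ζ^p = 1`, `d₀` a unit, `p = υ ϖ^{(p-1) j₀}`.

Output: the five non-numerical fields of helper8's `KummerLoc.Hyp` for `A → B₁ × B₂`:
`reg`, `sat'`, `jac`, **`root`** (`b^p ∈ A + ϖB ⇒ b ∈ A + ϖB`) and **`AS`**
(`b^p + υ b ∈ A + ϖB ⇒ ∃ ξ = 1 + ϖ^{j₀} d, ξ^p = 1, b + d ∈ A + ϖB`, with `ξ = (1, ζ^i)`: the only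
ambiguity at a node is one `p`-th root of unity on the second branch).
-/
import Mathlib
import Fermat.Agent.S33.New.KummerLoc

set_option autoImplicit false
set_option linter.unusedSectionVars false
set_option linter.style.longLine false
set_option linter.style.haveILetI false

namespace Fermat.Agent.S33.New.KummerNodeAbs

open IsLocalRing Polynomial

section Branch

variable {A : Type*} [CommRing A] (ϖ : A) (B : Type*) [CommRing B] [Algebra A B]

/-- The branch ideal `𝔓 = {a | ι a ∈ ϖ B}`. -/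
def branch : Ideal A := (Ideal.span {algebraMap A B ϖ}).comap (algebraMap A B)

variable {ϖ B}

theorem mem_branch {a : A} : a ∈ branch ϖ B ↔ ∃ c : B, algebraMap A B a = algebraMap A B ϖ * c := by
  unfold branch
  rw [Ideal.mem_comap, Ideal.mem_span_singleton']
  constructor
  · rintro ⟨c, hc⟩
    exact ⟨c, by rw [← hc, mul_comm]⟩
  · rintro ⟨c, hc⟩
    exact ⟨c, by rw [hc, mul_comm]⟩

theorem ϖ_mem_branch : ϖ ∈ branch ϖ B := mem_branch.2 ⟨1, by rw [mul_one]⟩

end Branch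

/-! ### The residue field: roots of `X^p + ῡ X` -/

section Roots

variable {k : Type*} [Field k] {p : ℕ} [hp : Fact p.Prime] [CharP k p]

/-- In a field of characteristic `p`, the roots of `X^p + u X` are the `𝔽_p`-multiples of any nonzero
root. -/
theorem exists_natCast_mul_of_root {u d δ : k} (hd0 : d ≠ 0) (hd : d ^ p + u * d = 0)
    (hδ : δ ^ p + u * δ = 0) : ∃ i : ℕ, i < p ∧ δ = (i : k) * d := by
  -- `t := δ / d` satisfies `t ^ p = t`
  set t := δ / d with ht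
  have hδt : δ = t * d := by rw [ht, div_mul_cancel₀ _ hd0]
  have hdp : d ^ p = -(u * d) := eq_neg_of_add_eq_zero_left hd
  have hu : u ≠ 0 ∨ u = 0 := (ne_or_eq u 0)
  rcases hu with hu | hu
  · have htp : t ^ p = t := by
      have h1 : (t * d) ^ p + u * (t * d) = 0 := by rw [← hδt]; exact hδ
      rw [mul_pow, hdp] at h1
      have h2 : (u * d) * (t - t ^ p) = 0 := by linear_combination h1
      rcases mul_eq_zero.1 h2 with h3 | h3
      · exact absurd h3 (mul_ne_zero hu hd0)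
      · exact (sub_eq_zero.1 h3).symm
    -- the `p` elements `(i : k)` are roots of `X ^ p - X`, which has at most `p` roots
    classical
    by_contra hcon
    push Not at hcon
    have hne : ∀ i : ℕ, i < p → t ≠ (i : k) := by
      intro i hi h
      exact hcon i hi (by rw [hδt, h])
    let f : k[X] := X ^ p - X
    have hf0 : f ≠ 0 := FiniteField.X_pow_card_sub_X_ne_zero k hp.out.one_lt
    have hfdeg : f.natDegree = p := FiniteField.X_pow_card_sub_X_natDegree_eq k hp.out.one_lt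
    let Z : Finset k := insert t ((Finset.range p).image (fun i : ℕ => (i : k)))
    have hZ : Z.val ⊆ f.roots := by
      intro x hx
      rw [Finset.mem_val] at hx
      rw [mem_roots hf0, IsRoot.def]
      show eval x (X ^ p - X) = 0
      rw [eval_sub, eval_pow, eval_X]
      rcases Finset.mem_insert.1 hx with rfl | hx
      · rw [htp, sub_self]
      · obtain ⟨i, -, rfl⟩ := Finset.mem_image.1 hx
        rw [sub_eq_zero, ← frobenius_def, map_natCast]
    have hcard : Z.card = p + 1 := by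
      rw [Finset.card_insert_of_notMem, Finset.card_image_of_injOn, Finset.card_range]
      · intro i hi j hj hij
        exact CharP.natCast_injOn_Iio k p (Finset.mem_range.1 hi) (Finset.mem_range.1 hj) hij
      · intro hmem
        obtain ⟨i, hi, hit⟩ := Finset.mem_image.1 hmem
        exact hne i (Finset.mem_range.1 hi) hit.symm
    have := card_le_degree_of_subset_roots hZ
    rw [hcard, hfdeg] at this
    omega
  · -- `u = 0`: then `d ^ p = 0`, impossible
    rw [hu, zero_mul, add_zero] at hd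
    exact absurd ((pow_eq_zero_iff (hp.out.ne_zero)).1 hd) hd0

end Roots

/-! ### Integrality on a branch

The analogue of helper14's `KummerSmoothAbs.inRes_of_monic` with `ϖ A` replaced by the branch ideal
`𝔓 = A ∩ ϖ B` (at a node `𝔓 ≠ ϖ A`). -/

section BranchInt

variable {A : Type*} [CommRing A] (ϖ : A) (B : Type*) [CommRing B] [Algebra A B]

/-- The hypotheses on one branch: `ϖ B` is prime and `B/ϖ` is the fraction field of `A/𝔓`. -/
structure BranchHyp : Prop where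
  prime : (Ideal.span {algebraMap A B ϖ}).IsPrime
  frac : ∀ b : B, ∃ a s : A, s ∉ branch ϖ B ∧ ∃ c : B,
    algebraMap A B s * b = algebraMap A B a + algebraMap A B ϖ * c

/-- The map `A / 𝔓 → B / ϖ`. -/
noncomputable def branchMap : A ⧸ branch ϖ B →+* B ⧸ Ideal.span {algebraMap A B ϖ} :=
  Ideal.Quotient.lift (branch ϖ B)
    ((Ideal.Quotient.mk (Ideal.span {algebraMap A B ϖ})).comp (algebraMap A B)) (by
      intro a ha
      rw [RingHom.comp_apply, Ideal.Quotient.eq_zero_iff_mem]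
      exact ha)

variable {ϖ B}

@[simp] theorem branchMap_mk (a : A) :
    branchMap ϖ B (Ideal.Quotient.mk _ a) = Ideal.Quotient.mk _ (algebraMap A B a) := rfl

theorem branchMap_injective : Function.Injective (branchMap ϖ B) := by
  rw [injective_iff_map_eq_zero]
  intro x hx
  obtain ⟨a, rfl⟩ := Ideal.Quotient.mk_surjective x
  rw [branchMap_mk, Ideal.Quotient.eq_zero_iff_mem] at hx
  rw [Ideal.Quotient.eq_zero_iff_mem]
  exact hx

theorem BranchHyp.branch_isPrime (H : BranchHyp ϖ B) : (branch ϖ B).IsPrime := by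
  haveI := H.prime
  exact Ideal.comap_isPrime _ _

theorem BranchHyp.branch_le_maximalIdeal [IsLocalRing A] (H : BranchHyp ϖ B) :
    branch ϖ B ≤ maximalIdeal A :=
  IsLocalRing.le_maximalIdeal H.branch_isPrime.ne_top

/-- **Integrality on a branch**: `ιA + ϖB` is closed in `B` under roots of monic polynomials over
`A` of positive degree, if `A/𝔓` is integrally closed. -/
theorem BranchHyp.of_monic [IsIntegrallyClosed (A ⧸ branch ϖ B)] (H : BranchHyp ϖ B)
    {f : A[X]} (hf : f.Monic) (hdeg : 0 < f.natDegree) {b : B}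
    (hb : ∃ (a : A) (c : B), aeval b f = algebraMap A B a + algebraMap A B ϖ * c) :
    ∃ (a : A) (c : B), b = algebraMap A B a + algebraMap A B ϖ * c := by
  classical
  haveI := H.prime
  haveI := H.branch_isPrime
  set Abar := A ⧸ branch ϖ B with hAbar
  set Bbar := B ⧸ Ideal.span {algebraMap A B ϖ} with hBbar
  set φ : Abar →+* Bbar := branchMap ϖ B with hφ
  have hφinj : Function.Injective φ := branchMap_injective
  obtain ⟨a₁, c₁, h1⟩ := hb
  obtain ⟨a₀, s₀, hs₀, c₀, h0⟩ := H.frac b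
  set mkA : A →+* Abar := Ideal.Quotient.mk _ with hmkA
  set mkB : B →+* Bbar := Ideal.Quotient.mk _ with hmkB
  have hmkϖ : mkB (algebraMap A B ϖ) = 0 :=
    Ideal.Quotient.eq_zero_iff_mem.2 (Ideal.mem_span_singleton_self _)
  have hcomp : φ.comp mkA = mkB.comp (algebraMap A B) := by
    ext a; rfl
  set g : Abar[X] := f.map mkA - C (mkA a₁) with hg
  have hfm : (f.map mkA).Monic := hf.map mkA
  have hfdeg : (f.map mkA).natDegree = f.natDegree := hf.natDegree_map mkA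
  have hgm : g.Monic := by
    refine hfm.sub_of_left ?_
    refine lt_of_le_of_lt degree_C_le ?_
    rw [degree_eq_natDegree hfm.ne_zero, hfdeg]
    exact_mod_cast hdeg
  have hgb : g.eval₂ φ (mkB b) = 0 := by
    rw [hg, eval₂_sub, eval₂_C, eval₂_map, hcomp]
    have : f.eval₂ (mkB.comp (algebraMap A B)) (mkB b) = mkB (aeval b f) := by
      rw [aeval_def, hom_eval₂]
    rw [this, h1, map_add, map_mul, hmkϖ, zero_mul, add_zero]
    show mkB (algebraMap A B a₁) - φ (mkA a₁) = 0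
    rw [← RingHom.comp_apply φ mkA, hcomp, RingHom.comp_apply, sub_self]
  have hs₀' : mkA s₀ ≠ 0 := fun h => hs₀ (Ideal.Quotient.eq_zero_iff_mem.1 h)
  have hsb : φ (mkA s₀) * mkB b = φ (mkA a₀) := by
    have := congrArg mkB h0
    rw [map_mul, map_add, map_mul, hmkϖ, zero_mul, add_zero] at this
    rw [← RingHom.comp_apply φ mkA, ← RingHom.comp_apply φ mkA, hcomp]
    exact this
  set Kbar := FractionRing Abar
  set L := FractionRing Bbar
  set j : Bbar →+* L := algebraMap Bbar L with hj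
  have hjinj : Function.Injective j := IsFractionRing.injective Bbar L
  have hφLinj : Function.Injective (j.comp φ) := hjinj.comp hφinj
  set χ : Kbar →+* L := IsFractionRing.lift hφLinj with hχ
  have hχalg : ∀ y : Abar, χ (algebraMap Abar Kbar y) = j (φ y) := fun y =>
    IsFractionRing.lift_algebraMap hφLinj y
  set x : Kbar := algebraMap Abar Kbar (mkA a₀) / algebraMap Abar Kbar (mkA s₀) with hx
  have hsK : algebraMap Abar Kbar (mkA s₀) ≠ 0 := by
    intro h
    exact hs₀' ((IsFractionRing.injective Abar Kbar) (by rw [h, map_zero]))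
  have hχx : χ x = j (mkB b) := by
    rw [hx, map_div₀, hχalg, hχalg, ← hsb, map_mul]
    have : j (φ (mkA s₀)) ≠ 0 := by
      intro h
      exact hs₀' (hφLinj (by rw [RingHom.comp_apply, h, map_zero]))
    exact mul_div_cancel_left₀ _ this
  have hgx : g.eval₂ (algebraMap Abar Kbar) x = 0 := by
    apply χ.injective
    rw [map_zero, hom_eval₂, hχx]
    have : χ.comp (algebraMap Abar Kbar) = j.comp φ := by
      ext y; exact hχalg y
    rw [this, ← hom_eval₂, hgb, map_zero]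
  have hxint : IsIntegral Abar x := ⟨g, hgm, hgx⟩
  obtain ⟨y, hy⟩ := IsIntegrallyClosed.isIntegral_iff.1 hxint
  obtain ⟨a₂, rfl⟩ := Ideal.Quotient.mk_surjective y
  have hmul : mkA a₀ = mkA s₀ * mkA a₂ := by
    apply IsFractionRing.injective Abar Kbar
    rw [map_mul, hy, hx, mul_div_assoc', mul_div_cancel_left₀ _ hsK]
  have hfin : mkB b = φ (mkA a₂) := by
    have h2 : φ (mkA s₀) * (mkB b - φ (mkA a₂)) = 0 := by
      rw [mul_sub, hsb, hmul, map_mul, sub_self]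
    have h3 : φ (mkA s₀) ≠ 0 := fun h => hs₀' (hφinj (by rw [h, map_zero]))
    exact sub_eq_zero.1 ((mul_eq_zero.1 h2).resolve_left h3)
  have hfin' : mkB b = mkB (algebraMap A B a₂) := hfin
  rw [Ideal.Quotient.eq, Ideal.mem_span_singleton'] at hfin'
  obtain ⟨c, hc⟩ := hfin'
  exact ⟨a₂, c, by linear_combination -hc⟩

/-- The shape `int₁`/`int₂` of `NodeHyp`: roots of the trinomials `X^p + wX - a`. -/
theorem BranchHyp.int [IsIntegrallyClosed (A ⧸ branch ϖ B)] (H : BranchHyp ϖ B) {p : ℕ}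
    (hp : 1 < p) (b : B) (w a : A) (c : B)
    (h : b ^ p + algebraMap A B w * b = algebraMap A B a + algebraMap A B ϖ * c) :
    ∃ (a' : A) (c' : B), b = algebraMap A B a' + algebraMap A B ϖ * c' := by
  haveI := H.branch_isPrime
  haveI : Nontrivial A := by
    by_contra hA
    rw [not_nontrivial_iff_subsingleton] at hA
    exact H.branch_isPrime.ne_top (Ideal.eq_top_iff_one _ |>.2 (by
      rw [Subsingleton.elim (1 : A) 0]; exact Ideal.zero_mem _))
  have hdeg : (C w * X : A[X]).degree < (X ^ p : A[X]).degree := by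
    rw [degree_X_pow]
    refine lt_of_le_of_lt (degree_C_mul_X_le w) ?_
    exact_mod_cast hp
  have hm : (X ^ p + C w * X : A[X]).Monic := (monic_X_pow p).add_of_left hdeg
  have hnd : (X ^ p + C w * X : A[X]).natDegree = p := by
    rw [natDegree_add_eq_left_of_degree_lt hdeg, natDegree_X_pow]
  refine H.of_monic hm (by rw [hnd]; omega) ⟨a, c, ?_⟩
  rw [map_add, map_pow, map_mul, aeval_X, aeval_C]
  exact h

end BranchInt

/-! ### The node -/

section Node

variable {A : Type*} [CommRing A] [IsLocalRing A] (B₁ B₂ : Type*) [CommRing B₁] [CommRing B₂]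
  [Algebra A B₁] [Algebra A B₂]

/-- `x ∈ A + ϖ^j B` (verbatim the body of helper8's `KummerLoc.InA`). -/
def InA' {B : Type*} [CommRing B] [Algebra A B] (ϖ : A) (j : ℕ) (x : B) : Prop :=
  ∃ a : A, ∃ c : B, x = algebraMap A B a + algebraMap A B ϖ ^ j * c

/-- The hypotheses at a node. -/
structure NodeHyp (ϖ : A) (p j₀ : ℕ) (υ : Aˣ) (ζ d₀ : A) : Prop where
  ϖ_mem : ϖ ∈ maximalIdeal A
  regA : ∀ a : A, ϖ * a = 0 → a = 0
  reg₁ : ∀ b : B₁, algebraMap A B₁ ϖ * b = 0 → b = 0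
  reg₂ : ∀ b : B₂, algebraMap A B₂ ϖ * b = 0 → b = 0
  br₁ : branch ϖ B₁ ≤ maximalIdeal A
  br₂ : branch ϖ B₂ ≤ maximalIdeal A
  sat : ∀ a : A, a ∈ branch ϖ B₁ → a ∈ branch ϖ B₂ → ∃ a' : A, a = ϖ * a'
  node : ∀ a ∈ maximalIdeal A, ∃ p₁ ∈ branch ϖ B₁, ∃ p₂ ∈ branch ϖ B₂, a = p₁ + p₂
  hp : p.Prime
  hj₀ : 1 ≤ j₀
  hpυ : (p : A) = υ * ϖ ^ ((p - 1) * j₀)
  hζ : ζ ^ p = 1
  hζd : ζ = 1 + ϖ ^ j₀ * d₀
  hd₀ : IsUnit d₀
  int₁ : ∀ (b : B₁) (w a : A) (c : B₁),
    b ^ p + algebraMap A B₁ w * b = algebraMap A B₁ a + algebraMap A B₁ ϖ * c →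
      ∃ (a' : A) (c' : B₁), b = algebraMap A B₁ a' + algebraMap A B₁ ϖ * c'
  int₂ : ∀ (b : B₂) (w a : A) (c : B₂),
    b ^ p + algebraMap A B₂ w * b = algebraMap A B₂ a + algebraMap A B₂ ϖ * c →
      ∃ (a' : A) (c' : B₂), b = algebraMap A B₂ a' + algebraMap A B₂ ϖ * c'

variable {B₁ B₂} {ϖ : A} {p j₀ : ℕ} {υ : Aˣ} {ζ d₀ : A}

namespace NodeHyp

variable (H : NodeHyp B₁ B₂ ϖ p j₀ υ ζ d₀)
include H

/-- **(reg)** `ϖ` is a non-zero-divisor of `B₁ × B₂`. -/
theorem reg (b : B₁ × B₂) (h : algebraMap A (B₁ × B₂) ϖ * b = 0) : b = 0 := by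
  rw [Prod.algebraMap_apply] at h
  have h1 := congrArg Prod.fst h
  have h2 := congrArg Prod.snd h
  exact Prod.ext (H.reg₁ b.1 h1) (H.reg₂ b.2 h2)

/-- **(sat)** `A ∩ ϖ(B₁ × B₂) = ϖA`. -/
theorem sat' (a : A) (b : B₁ × B₂)
    (h : algebraMap A (B₁ × B₂) a = algebraMap A (B₁ × B₂) ϖ * b) : ∃ a' : A, a = ϖ * a' := by
  rw [Prod.algebraMap_apply, Prod.algebraMap_apply] at h
  have h1 : algebraMap A B₁ a = algebraMap A B₁ ϖ * b.1 := congrArg Prod.fst h
  have h2 : algebraMap A B₂ a = algebraMap A B₂ ϖ * b.2 := congrArg Prod.snd h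
  exact H.sat a (mem_branch.2 ⟨b.1, h1⟩) (mem_branch.2 ⟨b.2, h2⟩)

/-- **(jac)** `1 + ϖ x` is a unit. -/
theorem jac (x : A) : IsUnit (1 + ϖ * x) := by
  have hm : -(ϖ * x) ∈ maximalIdeal A :=
    (maximalIdeal A).neg_mem (Ideal.mul_mem_right _ _ H.ϖ_mem)
  have := IsLocalRing.isUnit_one_sub_self_of_mem_nonunits (-(ϖ * x))
    ((IsLocalRing.mem_maximalIdeal _).1 hm)
  rwa [sub_neg_eq_add] at this

theorem p_mem : (p : A) ∈ maximalIdeal A := by
  rw [H.hpυ]
  refine Ideal.mul_mem_left _ _ (Ideal.pow_mem_of_mem _ H.ϖ_mem _ ?_)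
  have := H.hp.two_le
  have := H.hj₀
  exact Nat.mul_pos (by omega) (by omega)

theorem charP_residueField : CharP (ResidueField A) p := by
  rw [CharP.charP_iff_prime_eq_zero H.hp]
  have h := (IsLocalRing.residue_eq_zero_iff (p : A)).2 H.p_mem
  rwa [map_natCast] at h

/-- Gluing: two elements with the same value at the node are the two branches of one element. -/
theorem exists_glue {a₁ a₂ : A} (h : a₁ - a₂ ∈ maximalIdeal A) :
    ∃ a : A, a - a₁ ∈ branch ϖ B₁ ∧ a - a₂ ∈ branch ϖ B₂ := by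
  obtain ⟨p₁, hp₁, p₂, hp₂, he⟩ := H.node _ h
  refine ⟨a₁ - p₁, ?_, ?_⟩
  · have : a₁ - p₁ - a₁ = -p₁ := by ring
    rw [this]
    exact (branch ϖ B₁).neg_mem hp₁
  · have : a₁ - p₁ - a₂ = p₂ := by linear_combination he
    rw [this]
    exact hp₂

/-- From branchwise approximations with the same value at the node to an approximation in
`B₁ × B₂`. -/
theorem inA_of_branches {b : B₁ × B₂} {a₁ a₂ : A} {c₁ : B₁} {c₂ : B₂}
    (h1 : b.1 = algebraMap A B₁ a₁ + algebraMap A B₁ ϖ * c₁)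
    (h2 : b.2 = algebraMap A B₂ a₂ + algebraMap A B₂ ϖ * c₂)
    (h : a₁ - a₂ ∈ maximalIdeal A) : InA' ϖ 1 b := by
  obtain ⟨a, ha1, ha2⟩ := H.exists_glue h
  obtain ⟨e₁, he₁⟩ := mem_branch.1 ha1
  obtain ⟨e₂, he₂⟩ := mem_branch.1 ha2
  rw [map_sub] at he₁ he₂
  refine ⟨a, (c₁ - e₁, c₂ - e₂), ?_⟩
  rw [pow_one, Prod.algebraMap_apply, Prod.algebraMap_apply]
  refine Prod.ext ?_ ?_
  · show b.1 = algebraMap A B₁ a + algebraMap A B₁ ϖ * (c₁ - e₁)
    rw [h1]
    linear_combination -he₁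
  · show b.2 = algebraMap A B₂ a + algebraMap A B₂ ϖ * (c₂ - e₂)
    rw [h2]
    linear_combination -he₂

/-- The key congruence on a branch: `b ≡ ι a'`, `b^p + w b ≡ ι a` modulo `ϖ` gives
`a'^p + w a' - a ∈ 𝔓`. -/
theorem mem_branch_of_congr {B : Type*} [CommRing B] [Algebra A B] {b c c' : B} {w a a' : A}
    (h : b ^ p + algebraMap A B w * b = algebraMap A B a + algebraMap A B ϖ * c)
    (h' : b = algebraMap A B a' + algebraMap A B ϖ * c') :
    a' ^ p + w * a' - a ∈ branch ϖ B := by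
  unfold branch
  rw [Ideal.mem_comap]
  set I : Ideal B := Ideal.span {algebraMap A B ϖ} with hI
  have hϖI : algebraMap A B ϖ ∈ I := Ideal.subset_span rfl
  have hb : Ideal.Quotient.mk I b = Ideal.Quotient.mk I (algebraMap A B a') := by
    rw [Ideal.Quotient.eq, h']
    have : algebraMap A B a' + algebraMap A B ϖ * c' - algebraMap A B a' =
        algebraMap A B ϖ * c' := by ring
    rw [this]
    exact Ideal.mul_mem_right _ _ hϖI
  have h1 := congrArg (Ideal.Quotient.mk I) h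
  rw [map_add, map_add, map_mul, map_mul, map_pow, hb,
    Ideal.Quotient.eq_zero_iff_mem.2 hϖI, zero_mul, add_zero] at h1
  rw [← Ideal.Quotient.eq_zero_iff_mem, map_sub, map_add, map_mul, map_pow, map_sub, map_add,
    map_mul, map_pow, h1, sub_self]

/-- **(root)** `b^p ∈ A + ϖB ⇒ b ∈ A + ϖB`. -/
theorem root (b : B₁ × B₂) (h : InA' ϖ 1 (b ^ p)) : InA' ϖ 1 b := by
  haveI := H.charP_residueField
  haveI : Fact p.Prime := ⟨H.hp⟩
  obtain ⟨a, c, hc⟩ := h
  rw [pow_one, Prod.algebraMap_apply, Prod.algebraMap_apply] at hc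
  have hc1 : b.1 ^ p + algebraMap A B₁ 0 * b.1 = algebraMap A B₁ a + algebraMap A B₁ ϖ * c.1 := by
    rw [map_zero, zero_mul, add_zero]
    exact congrArg Prod.fst hc
  have hc2 : b.2 ^ p + algebraMap A B₂ 0 * b.2 = algebraMap A B₂ a + algebraMap A B₂ ϖ * c.2 := by
    rw [map_zero, zero_mul, add_zero]
    exact congrArg Prod.snd hc
  obtain ⟨a₁, c₁, h1⟩ := H.int₁ _ _ _ _ hc1
  obtain ⟨a₂, c₂, h2⟩ := H.int₂ _ _ _ _ hc2
  have m1 := H.br₁ (H.mem_branch_of_congr hc1 h1)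
  have m2 := H.br₂ (H.mem_branch_of_congr hc2 h2)
  rw [zero_mul, add_zero] at m1 m2
  refine H.inA_of_branches h1 h2 ?_
  -- `a₁ ^ p ≡ a ≡ a₂ ^ p` at the node, and Frobenius is injective on the residue field
  have hsub : a₁ ^ p - a₂ ^ p ∈ maximalIdeal A := by
    have : a₁ ^ p - a₂ ^ p = (a₁ ^ p - a) - (a₂ ^ p - a) := by ring
    rw [this]
    exact (maximalIdeal A).sub_mem m1 m2
  rw [← IsLocalRing.residue_eq_zero_iff, map_sub, map_pow, map_pow, sub_eq_zero] at hsub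
  rw [← IsLocalRing.residue_eq_zero_iff, map_sub, sub_eq_zero]
  exact frobenius_inj (ResidueField A) p hsub

/-- `d₀` is a root of `X^p + ῡ X` in the residue field. -/
theorem residue_d₀ :
    (residue A d₀) ^ p + residue A (υ : A) * residue A d₀ = 0 := by
  have h1 := add_pow_prime_eq H.hp (1 : A) (ϖ ^ j₀ * d₀)
  rw [← H.hζd, H.hζ, one_pow] at h1
  set r : A := ∑ k ∈ Finset.Ioo 0 p, 1 ^ (k - 1) * (ϖ ^ j₀ * d₀) ^ (p - k - 1) *
    ((p.choose k / p : ℕ) : A) with hr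
  -- `0 = ϖ^{p j₀} (d₀^p + υ d₀ r)`
  have h2 : ϖ ^ (p * j₀) * (d₀ ^ p + υ * d₀ * r) = 0 := by
    have hpj : p * j₀ = (p - 1) * j₀ + j₀ := by
      have := H.hp.two_le
      conv_lhs => rw [show p = (p - 1) + 1 by omega]
      ring
    have e1 : (ϖ ^ j₀ * d₀) ^ p = ϖ ^ (p * j₀) * d₀ ^ p := by
      rw [mul_pow, ← pow_mul, mul_comm j₀ p]
    have e2 : (p : A) * 1 * (ϖ ^ j₀ * d₀) * r = ϖ ^ (p * j₀) * (υ * d₀ * r) := by
      rw [H.hpυ, hpj, pow_add]; ring
    rw [e1, e2] at h1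
    linear_combination -h1
  have h3 : d₀ ^ p + υ * d₀ * r = 0 := by
    clear_value r
    generalize p * j₀ = n at h2
    induction n with
    | zero => rwa [pow_zero, one_mul] at h2
    | succ n ih =>
      apply ih
      apply H.regA
      rw [← mul_assoc, ← pow_succ']
      exact h2
  -- `r ≡ 1` modulo `𝔪`
  have hr1 : residue A r = 1 := by
    have hp2 := H.hp.two_le
    rw [hr, map_sum]
    rw [Finset.sum_eq_single_of_mem (p - 1) (Finset.mem_Ioo.2 ⟨by omega, by omega⟩)]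
    · have e0 : p - (p - 1) - 1 = 0 := by omega
      have e1 : p.choose (p - 1) / p = 1 := by
        rw [Nat.choose_symm (by omega), Nat.choose_one_right, Nat.div_self (by omega)]
      rw [e0, e1, one_pow, pow_zero, Nat.cast_one, mul_one, mul_one, map_one]
    · intro k hk hne
      obtain ⟨hk0, hkp⟩ := Finset.mem_Ioo.1 hk
      have hpos : p - k - 1 ≠ 0 := by omega
      have hm : ϖ ^ j₀ * d₀ ∈ maximalIdeal A :=
        Ideal.mul_mem_right _ _ (Ideal.pow_mem_of_mem _ H.ϖ_mem _ (by have := H.hj₀; omega))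
      rw [map_mul, map_mul, map_pow (residue A) (ϖ ^ j₀ * d₀),
        (IsLocalRing.residue_eq_zero_iff _).2 hm, zero_pow hpos, mul_zero, zero_mul]
  have h4 := congrArg (residue A) h3
  rw [map_add, map_mul, map_mul, map_pow, hr1, mul_one, map_zero] at h4
  exact h4

/-- The powers of `ζ`: `ζ^i = 1 + ϖ^{j₀} dᵢ` with `dᵢ ≡ i d₀` modulo `𝔪`. -/
theorem exists_zeta_pow (i : ℕ) :
    ∃ d : A, ζ ^ i = 1 + ϖ ^ j₀ * d ∧ d - (i : A) * d₀ ∈ maximalIdeal A := by
  induction i with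
  | zero =>
    refine ⟨0, by rw [pow_zero, mul_zero, add_zero], ?_⟩
    rw [Nat.cast_zero, zero_mul, sub_zero]
    exact (maximalIdeal A).zero_mem
  | succ i ih =>
    obtain ⟨d, hd, hdm⟩ := ih
    refine ⟨d + d₀ + ϖ ^ j₀ * d * d₀, ?_, ?_⟩
    · rw [pow_succ, hd]
      have hz := H.hζd
      linear_combination (1 + ϖ ^ j₀ * d) * hz
    · have hm : ϖ ^ j₀ * d * d₀ ∈ maximalIdeal A := by
        rw [mul_assoc]
        exact Ideal.mul_mem_right _ _
          (Ideal.pow_mem_of_mem _ H.ϖ_mem _ (by have := H.hj₀; omega))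
      have : d + d₀ + ϖ ^ j₀ * d * d₀ - ((i + 1 : ℕ) : A) * d₀ =
          (d - (i : A) * d₀) + ϖ ^ j₀ * d * d₀ := by
        push_cast; ring
      rw [this]
      exact (maximalIdeal A).add_mem hdm hm

/-- **(AS)** `b^p + υ b ∈ A + ϖB ⇒ ∃ ξ = 1 + ϖ^{j₀} d`, `ξ^p = 1`, `b + d ∈ A + ϖB`; in fact
`ξ = (1, ζ^i)`. -/
theorem AS (b : B₁ × B₂) (h : InA' ϖ 1 (b ^ p + algebraMap A (B₁ × B₂) υ * b)) :
    ∃ ξ d : B₁ × B₂, ξ ^ p = 1 ∧ ξ = 1 + algebraMap A (B₁ × B₂) ϖ ^ j₀ * d ∧ InA' ϖ 1 (b + d) := by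
  haveI := H.charP_residueField
  haveI : Fact p.Prime := ⟨H.hp⟩
  obtain ⟨a, c, hc⟩ := h
  rw [pow_one, Prod.algebraMap_apply, Prod.algebraMap_apply, Prod.algebraMap_apply] at hc
  have hc1 : b.1 ^ p + algebraMap A B₁ υ * b.1 = algebraMap A B₁ a + algebraMap A B₁ ϖ * c.1 :=
    congrArg Prod.fst hc
  have hc2 : b.2 ^ p + algebraMap A B₂ υ * b.2 = algebraMap A B₂ a + algebraMap A B₂ ϖ * c.2 :=
    congrArg Prod.snd hc
  obtain ⟨a₁, c₁, h1⟩ := H.int₁ _ _ _ _ hc1
  obtain ⟨a₂, c₂, h2⟩ := H.int₂ _ _ _ _ hc2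
  have m1 := H.br₁ (H.mem_branch_of_congr hc1 h1)
  have m2 := H.br₂ (H.mem_branch_of_congr hc2 h2)
  -- `δ := a₁ - a₂` is a root of `X^p + ῡ X` in the residue field
  have hδ : (residue A (a₁ - a₂)) ^ p + residue A (υ : A) * residue A (a₁ - a₂) = 0 := by
    have hsub : (a₁ ^ p + υ * a₁ - a) - (a₂ ^ p + υ * a₂ - a) ∈ maximalIdeal A :=
      (maximalIdeal A).sub_mem m1 m2
    rw [← IsLocalRing.residue_eq_zero_iff] at hsub
    simp only [map_sub, map_add, map_mul, map_pow] at hsub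
    rw [map_sub, sub_pow_char]
    linear_combination hsub
  have hd0 : residue A d₀ ≠ 0 := by
    intro h0
    rw [IsLocalRing.residue_eq_zero_iff] at h0
    exact (IsLocalRing.mem_maximalIdeal _).1 h0 H.hd₀
  obtain ⟨i, -, hi⟩ := exists_natCast_mul_of_root (p := p) hd0 H.residue_d₀ hδ
  obtain ⟨d, hd, hdm⟩ := H.exists_zeta_pow i
  -- `ξ := (1, ζ^i)`
  refine ⟨(1, algebraMap A B₂ (ζ ^ i)), (0, algebraMap A B₂ d), ?_, ?_, ?_⟩
  · refine Prod.ext ?_ ?_
    · show (1 : B₁) ^ p = 1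
      rw [one_pow]
    · show (algebraMap A B₂ (ζ ^ i)) ^ p = 1
      rw [← map_pow, ← pow_mul, mul_comm, pow_mul, H.hζ, one_pow, map_one]
  · rw [Prod.algebraMap_apply]
    refine Prod.ext ?_ ?_
    · show (1 : B₁) = 1 + algebraMap A B₁ ϖ ^ j₀ * 0
      rw [mul_zero, add_zero]
    · show algebraMap A B₂ (ζ ^ i) = 1 + algebraMap A B₂ ϖ ^ j₀ * algebraMap A B₂ d
      rw [hd, map_add, map_one, map_mul, map_pow]
  · refine H.inA_of_branches (a₁ := a₁) (a₂ := a₂ + d) (c₁ := c₁) (c₂ := c₂) ?_ ?_ ?_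
    · show b.1 + 0 = _
      rw [add_zero, h1]
    · show b.2 + algebraMap A B₂ d = _
      rw [h2, map_add]; ring
    · -- `a₁ - (a₂ + d) ≡ δ - i d₀ ≡ 0`
      have : a₁ - (a₂ + d) = (a₁ - a₂ - (i : A) * d₀) - (d - (i : A) * d₀) := by ring
      rw [this]
      refine (maximalIdeal A).sub_mem ?_ hdm
      rw [← IsLocalRing.residue_eq_zero_iff, map_sub, map_mul, map_natCast, hi, sub_self]

/-- **The hypotheses of (K-loc) at a node** (helper8's `KummerLoc.Hyp` for `A → B₁ × B₂`). -/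
theorem toHyp : Fermat.Agent.S33.New.KummerLoc.Hyp (B := B₁ × B₂) ϖ p j₀ υ where
  reg := H.reg
  sat := H.sat'
  jac := H.jac
  hp := H.hp
  hj₀ := H.hj₀
  hpυ := H.hpυ
  root := fun b hb => H.root b hb
  AS := fun b hb => H.AS b hb

end NodeHyp

/-- **`NodeHyp` from the two branches**: `ϖ Bᵢ` prime, `Bᵢ/ϖ = Frac(A/𝔓ᵢ)`, `A/𝔓ᵢ` integrally closed
(the two branches of the fibre through the node are normal), `𝔓₁ ∩ 𝔓₂ = ϖ A`, `𝔪_A = 𝔓₁ + 𝔓₂`. -/
theorem NodeHyp.of_branches [IsIntegrallyClosed (A ⧸ branch ϖ B₁)]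
    [IsIntegrallyClosed (A ⧸ branch ϖ B₂)]
    (H₁ : BranchHyp ϖ B₁) (H₂ : BranchHyp ϖ B₂)
    (regA : ∀ a : A, ϖ * a = 0 → a = 0)
    (reg₁ : ∀ b : B₁, algebraMap A B₁ ϖ * b = 0 → b = 0)
    (reg₂ : ∀ b : B₂, algebraMap A B₂ ϖ * b = 0 → b = 0)
    (sat : ∀ a : A, a ∈ branch ϖ B₁ → a ∈ branch ϖ B₂ → ∃ a' : A, a = ϖ * a')
    (node : ∀ a ∈ maximalIdeal A, ∃ p₁ ∈ branch ϖ B₁, ∃ p₂ ∈ branch ϖ B₂, a = p₁ + p₂)
    (hp : p.Prime) (hj₀ : 1 ≤ j₀) (hpυ : (p : A) = υ * ϖ ^ ((p - 1) * j₀))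
    (hζ : ζ ^ p = 1) (hζd : ζ = 1 + ϖ ^ j₀ * d₀) (hd₀ : IsUnit d₀) :
    NodeHyp B₁ B₂ ϖ p j₀ υ ζ d₀ where
  ϖ_mem := H₁.branch_le_maximalIdeal ϖ_mem_branch
  regA := regA
  reg₁ := reg₁
  reg₂ := reg₂
  br₁ := H₁.branch_le_maximalIdeal
  br₂ := H₂.branch_le_maximalIdeal
  sat := sat
  node := node
  hp := hp
  hj₀ := hj₀
  hpυ := hpυ
  hζ := hζ
  hζd := hζd
  hd₀ := hd₀
  int₁ := H₁.int hp.one_lt
  int₂ := H₂.int hp.one_lt

end Node

end Fermat.Agent.S33.New.KummerNodeAbs
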