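/-
S33 (row 61, helper8's route), STEP K, leaf (K2-abs) (helper14): **the smooth-point instance of the
Kummer-integrality hypotheses, abstract form** (Mathlib only).

`A → B` commutative rings, `ϖ : A`.  Think: `A` = the local ring of a chart of the nodal model at a
closed point `𝔫` lying on ONE component `C_i` of the special fibre, `B = V_i` the valuation ring of the
generic point of `C_i`; then `A / ϖ` is the (integrally closed) local ring of `C_i` at `𝔫` and
`B / ϖ = κ(C_i)` is its fraction field.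

Hypotheses (`SmoothHyp`):
* `sat`   : `A ∩ ϖ B = ϖ A`;
* `prime` : `ϖ B` is a prime ideal of `B`;
* `frac`  : every `b : B` is, modulo `ϖ B`, a fraction `a / s` with `s ∉ ϖ A`;
* `A ⧸ (ϖ)` is an integrally closed domain.

Conclusion (`inRes_of_monic`): for every monic `f : A[X]` of positive degree and `b : B`,
`f(b) ∈ ιA + ϖB → b ∈ ιA + ϖB`.  Special cases `inRes_of_pow` (`f = X ^ p`, = field `root` of
`KummerLoc.Hyp`) and `inRes_of_artinSchreier` (`f = X ^ p + υ X`, = field `AS` with `ξ = 1`, `d = 0`).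
Also: `SmoothHyp.of_atPrime` (the case `B = A_{(ϖ)}`), `isUnit_one_add_mul` (field `jac`) and the
bridge `hyp_of_smooth : KummerLoc.Hyp ϖ p j₀ υ` (helper8's hypotheses of (K-loc), with `ξ = 1`).
-/
import Mathlib
import Fermat.Agent.S33.New.KummerLoc

set_option autoImplicit false
set_option linter.style.haveILetI false

namespace Fermat.Agent.S33.New.KummerSmoothAbs

open Polynomial

variable {A B : Type*} [CommRing A] [CommRing B] [Algebra A B] (ϖ : A)

/-- `x ∈ ιA + ϖB`. -/
def InRes (x : B) : Prop := ∃ a : A, ∃ c : B, x = algebraMap A B a + algebraMap A B ϖ * c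

theorem inRes_algebraMap (a : A) : InRes ϖ (algebraMap A B a) := ⟨a, 0, by simp⟩

/-- The hypotheses at a smooth point. -/
structure SmoothHyp : Prop where
  sat : ∀ (a : A) (b : B), algebraMap A B a = algebraMap A B ϖ * b → ∃ a' : A, a = ϖ * a'
  prime : (Ideal.span {algebraMap A B ϖ}).IsPrime
  frac : ∀ b : B, ∃ a s : A, s ∉ Ideal.span {ϖ} ∧ ∃ c : B,
    algebraMap A B s * b = algebraMap A B a + algebraMap A B ϖ * c

section Quot

/-- The map `A / ϖ → B / ϖ`. -/
noncomputable def resMap : A ⧸ Ideal.span {ϖ} →+* B ⧸ Ideal.span {algebraMap A B ϖ} :=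
  Ideal.Quotient.lift (Ideal.span {ϖ})
    ((Ideal.Quotient.mk (Ideal.span {algebraMap A B ϖ})).comp (algebraMap A B)) (by
      intro a ha
      obtain ⟨a', rfl⟩ := Ideal.mem_span_singleton'.1 ha
      rw [RingHom.comp_apply, Ideal.Quotient.eq_zero_iff_mem, map_mul]
      exact Ideal.mul_mem_left _ _ (Ideal.mem_span_singleton_self _))

@[simp] theorem resMap_mk (a : A) :
    resMap ϖ (Ideal.Quotient.mk _ a) = Ideal.Quotient.mk _ (algebraMap A B a) := rfl

variable {ϖ}

theorem resMap_injective (H : SmoothHyp (B := B) ϖ) : Function.Injective (resMap (B := B) ϖ) := by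
  rw [injective_iff_map_eq_zero]
  intro x hx
  obtain ⟨a, rfl⟩ := Ideal.Quotient.mk_surjective x
  rw [resMap_mk, Ideal.Quotient.eq_zero_iff_mem, Ideal.mem_span_singleton'] at hx
  obtain ⟨b, hb⟩ := hx
  obtain ⟨a', rfl⟩ := H.sat a b (by rw [← hb, mul_comm])
  rw [Ideal.Quotient.eq_zero_iff_mem]
  exact Ideal.mul_mem_right _ _ (Ideal.mem_span_singleton_self _)

theorem inRes_iff_mem_range (b : B) :
    InRes ϖ b ↔ Ideal.Quotient.mk (Ideal.span {algebraMap A B ϖ}) b ∈ (resMap (B := B) ϖ).range := by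
  constructor
  · rintro ⟨a, c, rfl⟩
    refine ⟨Ideal.Quotient.mk _ a, ?_⟩
    rw [resMap_mk, map_add, left_eq_add, Ideal.Quotient.eq_zero_iff_mem]
    exact Ideal.mul_mem_right _ _ (Ideal.mem_span_singleton_self _)
  · rintro ⟨x, hx⟩
    obtain ⟨a, rfl⟩ := Ideal.Quotient.mk_surjective x
    rw [resMap_mk, Ideal.Quotient.eq, Ideal.mem_span_singleton'] at hx
    obtain ⟨c, hc⟩ := hx
    refine ⟨a, -c, ?_⟩
    linear_combination hc

end Quot

variable {ϖ}

/-- **Main lemma.**  At a smooth point, `ιA + ϖB` is closed in `B` under roots of monic polynomials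
over `A` of positive degree. -/
theorem inRes_of_monic [IsDomain (A ⧸ Ideal.span {ϖ})] [IsIntegrallyClosed (A ⧸ Ideal.span {ϖ})]
    (H : SmoothHyp (B := B) ϖ) {f : A[X]} (hf : f.Monic) (hdeg : 0 < f.natDegree) {b : B}
    (hb : InRes ϖ (aeval b f)) : InRes ϖ b := by
  classical
  haveI := H.prime
  set Abar := A ⧸ Ideal.span {ϖ} with hAbar
  set Bbar := B ⧸ Ideal.span {algebraMap A B ϖ} with hBbar
  set φ : Abar →+* Bbar := resMap ϖ with hφ
  have hφinj : Function.Injective φ := resMap_injective H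
  obtain ⟨a₁, c₁, h1⟩ := hb
  obtain ⟨a₀, s₀, hs₀, c₀, h0⟩ := H.frac b
  set mkA : A →+* Abar := Ideal.Quotient.mk _ with hmkA
  set mkB : B →+* Bbar := Ideal.Quotient.mk _ with hmkB
  have hmkϖ : mkB (algebraMap A B ϖ) = 0 :=
    Ideal.Quotient.eq_zero_iff_mem.2 (Ideal.mem_span_singleton_self _)
  have hcomp : φ.comp mkA = mkB.comp (algebraMap A B) := by
    ext a; rfl
  -- the monic polynomial `g = f̄ - ā₁` over `Abar` with root `b̄`
  set g : Abar[X] := f.map mkA - C (mkA a₁) with hg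
  have hfm : (f.map mkA).Monic := hf.map mkA
  have hfdeg : (f.map mkA).natDegree = f.natDegree := hf.natDegree_map mkA
  have hgm : g.Monic := by
    refine hfm.sub_of_left ?_
    refine lt_of_le_of_lt degree_C_le ?_
    rw [degree_eq_natDegree hfm.ne_zero, hfdeg]
    exact_mod_cast hdeg
  have hgb : g.eval₂ φ (mkB b) = 0 := by
    rw [hg, eval₂_sub, eval₂_C, eval₂_map, hcomp]
    have : f.eval₂ (mkB.comp (algebraMap A B)) (mkB b) = mkB (aeval b f) := by
      rw [aeval_def, hom_eval₂]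
    rw [this, h1, map_add, map_mul, hmkϖ, zero_mul, add_zero]
    show mkB (algebraMap A B a₁) - φ (mkA a₁) = 0
    rw [← RingHom.comp_apply φ mkA, hcomp, RingHom.comp_apply, sub_self]
  -- the fraction `x = ā₀ / s̄₀`
  have hs₀' : mkA s₀ ≠ 0 := fun h => hs₀ (Ideal.Quotient.eq_zero_iff_mem.1 h)
  have hsb : φ (mkA s₀) * mkB b = φ (mkA a₀) := by
    have := congrArg mkB h0
    rw [map_mul, map_add, map_mul, hmkϖ, zero_mul, add_zero] at this
    rw [← RingHom.comp_apply φ mkA, ← RingHom.comp_apply φ mkA, hcomp]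
    exact this
  set Kbar := FractionRing Abar
  set L := FractionRing Bbar
  set j : Bbar →+* L := algebraMap Bbar L with hj
  have hjinj : Function.Injective j := IsFractionRing.injective Bbar L
  have hφLinj : Function.Injective (j.comp φ) := hjinj.comp hφinj
  set χ : Kbar →+* L := IsFractionRing.lift hφLinj with hχ
  have hχalg : ∀ y : Abar, χ (algebraMap Abar Kbar y) = j (φ y) := fun y =>
    IsFractionRing.lift_algebraMap hφLinj y
  set x : Kbar := algebraMap Abar Kbar (mkA a₀) / algebraMap Abar Kbar (mkA s₀) with hx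
  have hsK : algebraMap Abar Kbar (mkA s₀) ≠ 0 := by
    intro h
    exact hs₀' ((IsFractionRing.injective Abar Kbar) (by rw [h, map_zero]))
  have hχx : χ x = j (mkB b) := by
    rw [hx, map_div₀, hχalg, hχalg, ← hsb, map_mul]
    have : j (φ (mkA s₀)) ≠ 0 := by
      intro h
      exact hs₀' (hφLinj (by rw [RingHom.comp_apply, h, map_zero]))
    exact mul_div_cancel_left₀ _ this
  have hgx : g.eval₂ (algebraMap Abar Kbar) x = 0 := by
    apply χ.injective
    rw [map_zero, hom_eval₂, hχx]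
    have : χ.comp (algebraMap Abar Kbar) = j.comp φ := by
      ext y; exact hχalg y
    rw [this, ← hom_eval₂, hgb, map_zero]
  have hxint : IsIntegral Abar x := ⟨g, hgm, hgx⟩
  obtain ⟨y, hy⟩ := IsIntegrallyClosed.isIntegral_iff.1 hxint
  obtain ⟨a₂, rfl⟩ := Ideal.Quotient.mk_surjective y
  -- `ā₀ = s̄₀ ā₂`
  have hmul : mkA a₀ = mkA s₀ * mkA a₂ := by
    apply IsFractionRing.injective Abar Kbar
    rw [map_mul, hy, hx, mul_div_assoc', mul_div_cancel_left₀ _ hsK]
  -- conclude in `Bbar`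
  have hfin : mkB b = φ (mkA a₂) := by
    have h2 : φ (mkA s₀) * (mkB b - φ (mkA a₂)) = 0 := by
      rw [mul_sub, hsb, hmul, map_mul, sub_self]
    have h3 : φ (mkA s₀) ≠ 0 := fun h => hs₀' (hφinj (by rw [h, map_zero]))
    exact sub_eq_zero.1 ((mul_eq_zero.1 h2).resolve_left h3)
  exact (inRes_iff_mem_range b).2 ⟨mkA a₂, hfin.symm⟩

/-- `root`: `b ^ p ∈ ιA + ϖB → b ∈ ιA + ϖB`. -/
theorem inRes_of_pow [IsDomain (A ⧸ Ideal.span {ϖ})] [IsIntegrallyClosed (A ⧸ Ideal.span {ϖ})]
    (H : SmoothHyp (B := B) ϖ) {p : ℕ} (hp : 0 < p) {b : B} (hb : InRes ϖ (b ^ p)) :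
    InRes ϖ b := by
  haveI : Nontrivial A :=
    (Ideal.Quotient.mk_surjective (I := Ideal.span {ϖ})).nontrivial
  refine inRes_of_monic H (f := X ^ p) (monic_X_pow p) (by rw [natDegree_X_pow]; exact hp) ?_
  rwa [map_pow, aeval_X]

/-- `AS`: `b ^ p + υ b ∈ ιA + ϖB → b ∈ ιA + ϖB` (no root of unity is needed at a smooth point). -/
theorem inRes_of_artinSchreier [IsDomain (A ⧸ Ideal.span {ϖ})]
    [IsIntegrallyClosed (A ⧸ Ideal.span {ϖ})]
    (H : SmoothHyp (B := B) ϖ) {p : ℕ} (hp : 1 < p) (υ : A) {b : B}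
    (hb : InRes ϖ (b ^ p + algebraMap A B υ * b)) : InRes ϖ b := by
  haveI : Nontrivial A :=
    (Ideal.Quotient.mk_surjective (I := Ideal.span {ϖ})).nontrivial
  have hdeg : (C υ * X : A[X]).degree < (X ^ p : A[X]).degree := by
    rw [degree_X_pow]
    refine lt_of_le_of_lt (degree_C_mul_X_le υ) ?_
    exact_mod_cast hp
  have hm : (X ^ p + C υ * X : A[X]).Monic := (monic_X_pow p).add_of_left hdeg
  have hnd : (X ^ p + C υ * X : A[X]).natDegree = p := by
    rw [natDegree_add_eq_left_of_degree_lt hdeg, natDegree_X_pow]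
  refine inRes_of_monic H hm (by rw [hnd]; omega) ?_
  rwa [map_add, map_pow, map_mul, aeval_X, aeval_C]

/-- `jac`: in a local ring, `1 + ϖ x` is a unit for `ϖ` in the maximal ideal. -/
theorem isUnit_one_add_mul [IsLocalRing A] (hϖ : ϖ ∈ IsLocalRing.maximalIdeal A) (x : A) :
    IsUnit (1 + ϖ * x) := by
  by_contra h
  have h1 : 1 + ϖ * x ∈ IsLocalRing.maximalIdeal A := (IsLocalRing.mem_maximalIdeal _).2 h
  have h2 : ϖ * x ∈ IsLocalRing.maximalIdeal A := Ideal.mul_mem_right _ _ hϖ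
  have h3 : (1 : A) ∈ IsLocalRing.maximalIdeal A := by
    have := Ideal.sub_mem _ h1 h2
    rwa [add_sub_cancel_right] at this
  exact (IsLocalRing.maximalIdeal.isMaximal A).ne_top ((Ideal.eq_top_iff_one _).2 h3)

/-- The case `B = A_{(ϖ)}`: the localisation of a domain `A` at the prime ideal `(ϖ)`. -/
theorem SmoothHyp.of_atPrime [IsDomain A] [hP : (Ideal.span {ϖ}).IsPrime]
    [IsLocalization.AtPrime B (Ideal.span {ϖ})] [IsDomain B] [NoZeroSMulDivisors A B] :
    SmoothHyp (B := B) ϖ := by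
  have hinj : Function.Injective (algebraMap A B) := FaithfulSMul.algebraMap_injective A B
  refine ⟨?_, ?_, ?_⟩
  · intro a b hab
    obtain ⟨⟨a', s⟩, hs⟩ := IsLocalization.surj (Ideal.span {ϖ}).primeCompl b
    have h1 : algebraMap A B (a * s) = algebraMap A B (ϖ * a') := by
      rw [map_mul, map_mul, hab, ← hs]; ring
    have h2 : a * s ∈ Ideal.span {ϖ} := by
      rw [hinj h1]
      exact Ideal.mul_mem_right _ _ (Ideal.mem_span_singleton_self _)
    rcases hP.mem_or_mem h2 with h | h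
    · obtain ⟨a'', rfl⟩ := Ideal.mem_span_singleton'.1 h
      exact ⟨a'', mul_comm _ _⟩
    · exact absurd h s.2
  · haveI : IsLocalRing B := IsLocalization.AtPrime.isLocalRing B (Ideal.span {ϖ})
    have hmax := IsLocalization.AtPrime.map_eq_maximalIdeal (Ideal.span {ϖ}) B
    rw [Ideal.map_span, Set.image_singleton] at hmax
    rw [hmax]
    exact (IsLocalRing.maximalIdeal.isMaximal B).isPrime
  · intro b
    obtain ⟨⟨a', s⟩, hs⟩ := IsLocalization.surj (Ideal.span {ϖ}).primeCompl b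
    exact ⟨a', s, s.2, 0, by rw [mul_zero, add_zero, ← hs, mul_comm]⟩

/-- **The hypotheses of (K-loc) at a smooth point** (`KummerLoc.Hyp`, with `ξ = 1`, `d = 0` in `AS`). -/
theorem hyp_of_smooth [IsDomain (A ⧸ Ideal.span {ϖ})] [IsIntegrallyClosed (A ⧸ Ideal.span {ϖ})]
    (H : SmoothHyp (B := B) ϖ) (hreg : ∀ b : B, algebraMap A B ϖ * b = 0 → b = 0)
    (hjac : ∀ x : A, IsUnit (1 + ϖ * x)) {p j₀ : ℕ} (hp : p.Prime) (hj₀ : 1 ≤ j₀) (υ : Aˣ)
    (hpυ : (p : A) = υ * ϖ ^ ((p - 1) * j₀)) :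
    Fermat.Agent.S33.New.KummerLoc.Hyp (B := B) ϖ p j₀ υ where
  reg := hreg
  sat := H.sat
  jac := hjac
  hp := hp
  hj₀ := hj₀
  hpυ := hpυ
  root := by
    rintro b ⟨a, c, h⟩
    rw [pow_one] at h
    obtain ⟨a', c', h'⟩ := inRes_of_pow H hp.pos ⟨a, c, h⟩
    exact ⟨a', c', by rw [pow_one]; exact h'⟩
  AS := by
    rintro b ⟨a, c, h⟩
    rw [pow_one] at h
    obtain ⟨a', c', h'⟩ := inRes_of_artinSchreier H hp.one_lt (υ : A) ⟨a, c, h⟩
    exact ⟨1, 0, one_pow p, by rw [mul_zero, add_zero], a', c', by rw [pow_one, add_zero]; exact h'⟩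

end Fermat.Agent.S33.New.KummerSmoothAbs
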