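/-
S33 (row 61), STEP K, leaf (K2-inst), generic part (helper14): **the smooth-point hypotheses for a
chart, its local ring at a closed point and the vertical valuation ring through it** (Mathlib only).

`S` a domain (a chart of the nodal model), `𝔓 ≤ 𝔫` primes of `S` (`𝔓` = the centre of the vertical
valuation ring through the closed point `𝔫`, e.g. `ker θ_i`), `A` a localisation of `S` at `𝔫`
(e.g. `P3G`'s `locAt 𝔫`), `B` a localisation of `S` at `𝔓` (the vertical valuation ring `V_i`,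
`P4/VertCentre`), `ϖ ∈ 𝔓` such that `𝔓 = (ϖ)` locally at `𝔫`:

  `hloc : ∀ x ∈ 𝔓, ∃ t ∉ 𝔫, ∃ y, t * x = ϖ * y`

(on the charts of `X₀(M ℓ)`: `x ∈ ker θ₁`, `t ∈ ker θ₂ ∖ 𝔫`, `ker θ₁ ⊓ ker θ₂ = (ϖ)`), and `S ⧸ 𝔓`
integrally closed (the Dedekind ring `RbarFin`/`RbarInf`).  Then:

* `smoothHyp_of_loc` : `KummerSmoothAbs.SmoothHyp (A := A) (B := B) (algebraMap S A ϖ)`;
* `map_eq_span` : `𝔓 A = ϖ A`;
* `isDomain_quot`, `isIntegrallyClosed_quot` : `A ⧸ (ϖ)` is an integrally closed domain (it is the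
  localisation of `S ⧸ 𝔓` at the image of `𝔫`);
* `hyp_of_loc` : `KummerLoc.Hyp (B := B) (algebraMap S A ϖ) p j₀ υ`.
-/
import Mathlib
import Fermat.Agent.S33.New.KummerSmoothAbs

set_option autoImplicit false
set_option linter.style.haveILetI false
set_option linter.unusedSectionVars false

namespace Fermat.Agent.S33.New.KummerSmoothInst

open Fermat.Agent.S33.New.KummerSmoothAbs

variable {S A B : Type*} [CommRing S] [CommRing A] [CommRing B]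
  [Algebra S A] [Algebra S B] [Algebra A B] [IsScalarTower S A B]
  (𝔫 𝔓 : Ideal S) [h𝔫 : 𝔫.IsPrime] [h𝔓 : 𝔓.IsPrime]
  [IsLocalization.AtPrime A 𝔫] [IsLocalization.AtPrime B 𝔓] (ϖ : S)

/-- `𝔓 B = ϖ B` is the maximal ideal of `B`. -/
theorem span_eq_maximalIdeal [IsLocalRing B] (h𝔓𝔫 : 𝔓 ≤ 𝔫) (hϖ : ϖ ∈ 𝔓)
    (hloc : ∀ x ∈ 𝔓, ∃ t, t ∉ 𝔫 ∧ ∃ y, t * x = ϖ * y) :
    Ideal.span {algebraMap S B ϖ} = IsLocalRing.maximalIdeal B := by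
  rw [← IsLocalization.AtPrime.map_eq_maximalIdeal 𝔓 B]
  apply le_antisymm
  · rw [Ideal.span_singleton_le_iff_mem]
    exact Ideal.mem_map_of_mem _ hϖ
  · rw [Ideal.map_le_iff_le_comap]
    intro x hx
    obtain ⟨t, ht, y, hty⟩ := hloc x hx
    have htu : IsUnit (algebraMap S B t) :=
      IsLocalization.map_units B (⟨t, fun h => ht (h𝔓𝔫 h)⟩ : 𝔓.primeCompl)
    rw [Ideal.mem_comap]
    have h1 : algebraMap S B t * algebraMap S B x ∈ Ideal.span {algebraMap S B ϖ} := by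
      rw [← map_mul, hty, map_mul]
      exact Ideal.mul_mem_right _ _ (Ideal.mem_span_singleton_self _)
    exact (Ideal.unit_mul_mem_iff_mem _ htu).1 h1

/-- `𝔓 A = ϖ A`. -/
theorem map_eq_span (hϖ : ϖ ∈ 𝔓) (hloc : ∀ x ∈ 𝔓, ∃ t, t ∉ 𝔫 ∧ ∃ y, t * x = ϖ * y) :
    𝔓.map (algebraMap S A) = Ideal.span {algebraMap S A ϖ} := by
  apply le_antisymm
  · rw [Ideal.map_le_iff_le_comap]
    intro x hx
    obtain ⟨t, ht, y, hty⟩ := hloc x hx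
    have htu : IsUnit (algebraMap S A t) :=
      IsLocalization.map_units A (⟨t, ht⟩ : 𝔫.primeCompl)
    rw [Ideal.mem_comap]
    have h1 : algebraMap S A t * algebraMap S A x ∈ Ideal.span {algebraMap S A ϖ} := by
      rw [← map_mul, hty, map_mul]
      exact Ideal.mul_mem_right _ _ (Ideal.mem_span_singleton_self _)
    exact (Ideal.unit_mul_mem_iff_mem _ htu).1 h1
  · rw [Ideal.span_singleton_le_iff_mem]
    exact Ideal.mem_map_of_mem _ hϖ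

/-- **The smooth-point hypotheses for `(A, B) = (S_𝔫, S_𝔓)`.** -/
theorem smoothHyp_of_loc (h𝔓𝔫 : 𝔓 ≤ 𝔫) (hϖ : ϖ ∈ 𝔓)
    (hloc : ∀ x ∈ 𝔓, ∃ t, t ∉ 𝔫 ∧ ∃ y, t * x = ϖ * y) :
    SmoothHyp (A := A) (B := B) (algebraMap S A ϖ) := by
  haveI : IsLocalRing B := IsLocalization.AtPrime.isLocalRing B 𝔓
  have hmax := span_eq_maximalIdeal (B := B) 𝔫 𝔓 ϖ h𝔓𝔫 hϖ hloc
  have hAB : ∀ s : S, algebraMap A B (algebraMap S A s) = algebraMap S B s := fun s =>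
    (IsScalarTower.algebraMap_apply S A B s).symm
  have hcomap : ∀ s : S, algebraMap S B s ∈ IsLocalRing.maximalIdeal B → s ∈ 𝔓 := by
    intro s hs
    have := IsLocalization.AtPrime.under_maximalIdeal B 𝔓
    rw [← this]
    exact hs
  refine ⟨?_, ?_, ?_⟩
  · -- sat
    intro a b hab
    obtain ⟨⟨x, t⟩, hxt⟩ := IsLocalization.surj 𝔫.primeCompl a
    -- `a * t = x` in `A`
    have hx𝔓 : x ∈ 𝔓 := by
      apply hcomap
      have h1 : algebraMap S B x = algebraMap S B ϖ * (b * algebraMap S B t) := by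
        rw [← hAB x, ← hxt, map_mul, hab, hAB, hAB]; ring
      rw [h1, ← hmax]
      exact Ideal.mul_mem_right _ _ (Ideal.mem_span_singleton_self _)
    obtain ⟨t', ht', y, hty⟩ := hloc x hx𝔓
    have htu : IsUnit (algebraMap S A (t' * t)) :=
      IsLocalization.map_units A (⟨t' * t, fun h => (h𝔫.mem_or_mem h).elim ht' t.2⟩ : 𝔫.primeCompl)
    obtain ⟨u, hu⟩ := htu
    refine ⟨algebraMap S A y * (↑u⁻¹ : A), ?_⟩
    have h2 : a * algebraMap S A (t' * t) = algebraMap S A ϖ * algebraMap S A y := by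
      rw [map_mul, mul_comm (algebraMap S A t'), ← mul_assoc, hxt, ← map_mul, ← map_mul,
        mul_comm x t', hty]
    calc a = a * algebraMap S A (t' * t) * (↑u⁻¹ : A) := by
          rw [← hu, mul_assoc, Units.mul_inv, mul_one]
      _ = algebraMap S A ϖ * (algebraMap S A y * (↑u⁻¹ : A)) := by rw [h2, mul_assoc]
  · -- prime
    rw [hAB, hmax]
    exact (IsLocalRing.maximalIdeal.isMaximal B).isPrime
  · -- frac
    intro b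
    obtain ⟨⟨x, s⟩, hxs⟩ := IsLocalization.surj 𝔓.primeCompl b
    refine ⟨algebraMap S A x, algebraMap S A s, ?_, 0, ?_⟩
    · intro hs
      obtain ⟨a', ha'⟩ := Ideal.mem_span_singleton'.1 hs
      apply s.2
      apply hcomap
      rw [← hAB, ← ha', map_mul, hAB, ← hmax]
      exact Ideal.mul_mem_left _ _ (Ideal.mem_span_singleton_self _)
    · rw [mul_zero, add_zero, hAB, hAB, ← hxs, mul_comm]

section Quot

variable [IsDomain S]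

/-- The image of `𝔫.primeCompl` in `S ⧸ 𝔓` consists of non-zero-divisors. -/
theorem algebraMapSubmonoid_le (h𝔓𝔫 : 𝔓 ≤ 𝔫) :
    Algebra.algebraMapSubmonoid (S ⧸ 𝔓) 𝔫.primeCompl ≤ nonZeroDivisors (S ⧸ 𝔓) := by
  rintro _ ⟨t, ht, rfl⟩
  apply mem_nonZeroDivisors_of_ne_zero
  intro h0
  exact ht (h𝔓𝔫 (Ideal.Quotient.eq_zero_iff_mem.1 h0))

/-- `A ⧸ 𝔓 A` is a domain. -/
theorem isDomain_quot_map (h𝔓𝔫 : 𝔓 ≤ 𝔫) : IsDomain (A ⧸ 𝔓.map (algebraMap S A)) :=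
  IsLocalization.isDomain_of_le_nonZeroDivisors (R := S ⧸ 𝔓) _
    (algebraMapSubmonoid_le 𝔫 𝔓 h𝔓𝔫)

/-- `A ⧸ 𝔓 A` is integrally closed if `S ⧸ 𝔓` is. -/
theorem isIntegrallyClosed_quot_map [IsIntegrallyClosed (S ⧸ 𝔓)] (h𝔓𝔫 : 𝔓 ≤ 𝔫) :
    IsIntegrallyClosed (A ⧸ 𝔓.map (algebraMap S A)) :=
  isIntegrallyClosed_of_isLocalization _
    (Algebra.algebraMapSubmonoid (S ⧸ 𝔓) 𝔫.primeCompl) (algebraMapSubmonoid_le 𝔫 𝔓 h𝔓𝔫)

/-- `A ⧸ (ϖ)` is a domain. -/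
theorem isDomain_quot (h𝔓𝔫 : 𝔓 ≤ 𝔫) (hϖ : ϖ ∈ 𝔓)
    (hloc : ∀ x ∈ 𝔓, ∃ t, t ∉ 𝔫 ∧ ∃ y, t * x = ϖ * y) :
    IsDomain (A ⧸ Ideal.span {algebraMap S A ϖ}) := by
  haveI := isDomain_quot_map (A := A) 𝔫 𝔓 h𝔓𝔫
  exact (Ideal.quotEquivOfEq (map_eq_span (A := A) 𝔫 𝔓 ϖ hϖ hloc)).symm.toMulEquiv.isDomain _

/-- `A ⧸ (ϖ)` is integrally closed. -/
theorem isIntegrallyClosed_quot [IsIntegrallyClosed (S ⧸ 𝔓)] (h𝔓𝔫 : 𝔓 ≤ 𝔫) (hϖ : ϖ ∈ 𝔓)
    (hloc : ∀ x ∈ 𝔓, ∃ t, t ∉ 𝔫 ∧ ∃ y, t * x = ϖ * y) :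
    IsIntegrallyClosed (A ⧸ Ideal.span {algebraMap S A ϖ}) := by
  haveI := isDomain_quot_map (A := A) 𝔫 𝔓 h𝔓𝔫
  haveI := isIntegrallyClosed_quot_map (A := A) 𝔫 𝔓 h𝔓𝔫
  exact IsIntegrallyClosed.of_equiv (Ideal.quotEquivOfEq (map_eq_span (A := A) 𝔫 𝔓 ϖ hϖ hloc))

/-- **The hypotheses of (K-loc) at a smooth closed point of a chart.** -/
theorem hyp_of_loc [IsIntegrallyClosed (S ⧸ 𝔓)] [IsDomain B] (h𝔓𝔫 : 𝔓 ≤ 𝔫) (hϖ : ϖ ∈ 𝔓)
    (hϖ0 : algebraMap S B ϖ ≠ 0)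
    (hloc : ∀ x ∈ 𝔓, ∃ t, t ∉ 𝔫 ∧ ∃ y, t * x = ϖ * y)
    {p j₀ : ℕ} (hp : p.Prime) (hj₀ : 1 ≤ j₀) (υ : Aˣ)
    (hpυ : (p : A) = υ * algebraMap S A ϖ ^ ((p - 1) * j₀)) :
    Fermat.Agent.S33.New.KummerLoc.Hyp (B := B) (algebraMap S A ϖ) p j₀ υ := by
  haveI := isDomain_quot (A := A) 𝔫 𝔓 ϖ h𝔓𝔫 hϖ hloc
  haveI := isIntegrallyClosed_quot (A := A) 𝔫 𝔓 ϖ h𝔓𝔫 hϖ hloc
  haveI : IsLocalRing A := IsLocalization.AtPrime.isLocalRing A 𝔫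
  refine hyp_of_smooth (smoothHyp_of_loc (A := A) (B := B) 𝔫 𝔓 ϖ h𝔓𝔫 hϖ hloc) ?_ ?_ hp hj₀ υ hpυ
  · intro b hb
    rw [← IsScalarTower.algebraMap_apply S A B] at hb
    exact (mul_eq_zero.1 hb).resolve_left hϖ0
  · refine isUnit_one_add_mul ?_
    rw [← IsLocalization.AtPrime.map_eq_maximalIdeal 𝔫 A]
    exact Ideal.mem_map_of_mem _ (h𝔓𝔫 hϖ)

end Quot

end Fermat.Agent.S33.New.KummerSmoothInst
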