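/-
S33 (row 61), STEP K, leaf (K2-inst), `θ`-language (helper14): **the hypotheses of (K-loc) at a closed
point of a chart lying on ONE component of the special fibre**, in the language of
`P3G/Crossing.lean` (Mathlib only + `S33/New/KummerSmooth{Abs,Inst}`).

`R` a domain (the chart `Rfin K (N ℓ) O` or `Rinf`), `θ₁ : R →+* Rb` SURJECTIVE onto an integrally
closed domain (the Dedekind ring `RbarFin K N O`: `Crossing.CrossingData.surj₁/surj₂`,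
`TwoComponents.isDedekindDomain_RbarFin`), `𝔮` the ideal of the other component (`ker θ₂`), `ϖ ∈ ker θ₁`
with `ker θ₁ ⊓ 𝔮 ≤ (ϖ)` (`TwoComponentsFinal.ker_inf_ker_eq_fin`), `𝔫` a prime with `ker θ₁ ≤ 𝔫`,
`¬ 𝔮 ≤ 𝔫` (the hypotheses of `TwoComponents.exists_smooth_coordinate₁/₂`).  `A` any localisation of
`R` at `𝔫` (`locAt 𝔫`), `B` any localisation of `R` at `ker θ₁` (= the vertical valuation ring `V₁`,
`P4/VertCentre`); the instance `(RingHom.ker θ₁).IsPrime` is `RingHom.ker_isPrime θ₁`.  Then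

* `exists_mul_eq_of_mem_ker` : `ker θ₁ = (ϖ)` locally at `𝔫`;
* `isIntegrallyClosed_quot_ker` : `R ⧸ ker θ₁` is integrally closed;
* `smoothHyp_of_theta` : `KummerSmoothAbs.SmoothHyp (A := A) (B := B) (algebraMap R A ϖ)`;
* `hyp_of_theta` : `KummerLoc.Hyp (B := B) (algebraMap R A ϖ) p j₀ υ`.
-/
import Mathlib
import Fermat.Agent.S33.New.KummerSmoothInst

set_option autoImplicit false
set_option linter.style.haveILetI false
set_option linter.unusedSectionVars false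

namespace Fermat.Agent.S33.New.KummerSmoothTheta

open Fermat.Agent.S33.New.KummerSmoothAbs Fermat.Agent.S33.New.KummerSmoothInst

variable {R Rb : Type*} [CommRing R] [IsDomain R] [CommRing Rb] [IsDomain Rb]
  (θ₁ : R →+* Rb) (𝔮 𝔫 : Ideal R) [h𝔫 : 𝔫.IsPrime] (ϖ : R)

/-- `ker θ₁ = (ϖ)` locally at a point `𝔫` off the other component `𝔮`. -/
theorem exists_mul_eq_of_mem_ker (hk2 : ¬ 𝔮 ≤ 𝔫)
    (hV : RingHom.ker θ₁ ⊓ 𝔮 ≤ Ideal.span {ϖ}) :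
    ∀ x ∈ RingHom.ker θ₁, ∃ t, t ∉ 𝔫 ∧ ∃ y, t * x = ϖ * y := by
  intro x hx
  obtain ⟨w, hw𝔮, hw𝔫⟩ := SetLike.not_le_iff_exists.1 hk2
  have h1 : w * x ∈ Ideal.span {ϖ} :=
    hV ⟨Ideal.mul_mem_left _ _ hx, Ideal.mul_mem_right _ _ hw𝔮⟩
  obtain ⟨y, hy⟩ := Ideal.mem_span_singleton'.1 h1
  exact ⟨w, hw𝔫, y, by rw [← hy, mul_comm]⟩

/-- `R ⧸ ker θ₁ ≃ Rb` is integrally closed. -/
theorem isIntegrallyClosed_quot_ker [IsIntegrallyClosed Rb] (hs₁ : Function.Surjective θ₁) :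
    IsIntegrallyClosed (R ⧸ RingHom.ker θ₁) :=
  IsIntegrallyClosed.of_equiv (RingHom.quotientKerEquivOfSurjective hs₁).symm

variable {A B : Type*} [CommRing A] [CommRing B] [Algebra R A] [Algebra R B] [Algebra A B]
  [IsScalarTower R A B] [IsLocalization.AtPrime A 𝔫]
  [hker : (RingHom.ker θ₁).IsPrime] [IsLocalization.AtPrime B (RingHom.ker θ₁)]

/-- **The smooth-point hypotheses in `θ`-language.** -/
theorem smoothHyp_of_theta (hk1 : RingHom.ker θ₁ ≤ 𝔫) (hk2 : ¬ 𝔮 ≤ 𝔫)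
    (hϖ : ϖ ∈ RingHom.ker θ₁) (hV : RingHom.ker θ₁ ⊓ 𝔮 ≤ Ideal.span {ϖ}) :
    SmoothHyp (A := A) (B := B) (algebraMap R A ϖ) :=
  smoothHyp_of_loc (A := A) (B := B) 𝔫 (RingHom.ker θ₁) ϖ hk1 hϖ
    (exists_mul_eq_of_mem_ker θ₁ 𝔮 𝔫 ϖ hk2 hV)

/-- **The hypotheses of (K-loc) at a closed point on one component, in `θ`-language.** -/
theorem hyp_of_theta [IsIntegrallyClosed Rb] [IsDomain B] (hs₁ : Function.Surjective θ₁)
    (hk1 : RingHom.ker θ₁ ≤ 𝔫) (hk2 : ¬ 𝔮 ≤ 𝔫)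
    (hϖ : ϖ ∈ RingHom.ker θ₁) (hV : RingHom.ker θ₁ ⊓ 𝔮 ≤ Ideal.span {ϖ})
    (hϖ0 : algebraMap R B ϖ ≠ 0) {p j₀ : ℕ} (hp : p.Prime) (hj₀ : 1 ≤ j₀) (υ : Aˣ)
    (hpυ : (p : A) = υ * algebraMap R A ϖ ^ ((p - 1) * j₀)) :
    Fermat.Agent.S33.New.KummerLoc.Hyp (B := B) (algebraMap R A ϖ) p j₀ υ := by
  haveI := isIntegrallyClosed_quot_ker θ₁ hs₁
  exact hyp_of_loc (A := A) (B := B) 𝔫 (RingHom.ker θ₁) ϖ hk1 hϖ hϖ0
    (exists_mul_eq_of_mem_ker θ₁ 𝔮 𝔫 ϖ hk2 hV) hp hj₀ υ hpυ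

/-- The constant `p = υ₀ ϖ₀ ^ ((p-1) j₀)` of the base ring `O`, transported to `A`. -/
theorem natCast_eq_of_base {O : Type*} [CommRing O] [Algebra O R] [Algebra O A]
    [IsScalarTower O R A] {p j₀ : ℕ} {ϖ₀ : O} (υ₀ : Oˣ)
    (h : (p : O) = υ₀ * ϖ₀ ^ ((p - 1) * j₀)) :
    (p : A) = (Units.map (algebraMap O A).toMonoidHom υ₀ : Aˣ) *
      algebraMap R A (algebraMap O R ϖ₀) ^ ((p - 1) * j₀) := by
  have := congrArg (algebraMap O A) h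
  rw [map_natCast, map_mul, map_pow] at this
  rw [this, ← IsScalarTower.algebraMap_apply O R A]
  rfl

end Fermat.Agent.S33.New.KummerSmoothTheta
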