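/-
S33 (row 61), STEP K, (K-out) at a closed point on ONE component (helper14): **no twist survives at a
smooth point.**

`KummerIter.exists_approx_iter_units` produces `η` in a group `Ξ₀ ≤ Bˣ` of ambiguities which must
contain the `p`-th roots of unity of `B` congruent to `1` mod `ϖ ^ j₀` — in particular the constants
`ζ_p ^ i`.  At a closed point on one component (`B = V_i`, a subring of the function field) every
such ambiguity is a CONSTANT root of unity, i.e. lies in `ι Aˣ`, and can be absorbed: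

* `approx_of_approx_pow` : `Approx ϖ N (r ^ p ^ n) → ∀ j, n (p-1) j₀ + j ≤ N → Approx ϖ j r`
  (the (K-out) line of the chain with `η = 1`);
* `approx_of_pow_eq` : the same from `r ^ p ^ n = ι u + ϖ ^ N c`;
* `zpowers_spec` : for `ζ : Aˣ` with `ζ ^ p ^ n = 1` whose powers exhaust the roots of unity of `B`
  of order dividing `p ^ n`, the group `Ξ₀ := zpowers (ι ζ)` satisfies `hΞ`, `hroot` and `hΞA`.
-/
import Mathlib
import Fermat.Agent.S33.New.KummerIter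

set_option autoImplicit false

namespace Fermat.Agent.S33.New.KummerSmoothOut

open Fermat.Agent.S33.New.KummerLoc Fermat.Agent.S33.New.KummerIter

variable {A B : Type*} [CommRing A] [CommRing B] [Algebra A B]

local notation "ι" => algebraMap A B

variable {ϖ : A} {p j₀ : ℕ} {υ : Aˣ}

/-- **(K-out) with `η = 1`**: if all ambiguities are constants of `A`, `p^n`-th roots of elements of
`ι Aˣ (1 + ϖ ^ N B)` lie in `ι Aˣ (1 + ϖ ^ j B)`. -/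
theorem approx_of_approx_pow (H : Hyp (B := B) ϖ p j₀ υ) (Ξ₀ : Subgroup Bˣ)
    (hΞ : ∀ ξ : Bˣ, ξ ^ p = 1 → (∃ d, (ξ : B) = 1 + ι ϖ ^ j₀ * d) → ξ ∈ Ξ₀)
    (n : ℕ) (hroot : ∀ k < n, ∀ η ∈ Ξ₀, η ^ p ^ k = 1 → ∃ η' ∈ Ξ₀, η' ^ p = η)
    (hΞA : ∀ η ∈ Ξ₀, ∃ a : Aˣ, ((η : Bˣ) : B) = ι a)
    (r : B) (N : ℕ) (hr : Approx ϖ N (r ^ p ^ n)) :
    ∀ j, n * ((p - 1) * j₀) + j ≤ N → Approx ϖ j r := by
  obtain ⟨η, hη, -, h⟩ := exists_approx_iter_units H Ξ₀ hΞ n hroot r N hr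
  intro j hj
  obtain ⟨a, ha⟩ := hΞA η⁻¹ (Ξ₀.inv_mem hη)
  have h1 : Approx ϖ j (((η⁻¹ : Bˣ) : B) * ((η : B) * r)) := by
    rw [ha]
    exact approx_mul (approx_algebraMap j a) (h j hj)
  rwa [← mul_assoc, Units.inv_mul, one_mul] at h1

/-- The same from the additive form `r ^ p ^ n = ι u + ϖ ^ N c`. -/
theorem approx_of_pow_eq (H : Hyp (B := B) ϖ p j₀ υ) (Ξ₀ : Subgroup Bˣ)
    (hΞ : ∀ ξ : Bˣ, ξ ^ p = 1 → (∃ d, (ξ : B) = 1 + ι ϖ ^ j₀ * d) → ξ ∈ Ξ₀)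
    (n : ℕ) (hroot : ∀ k < n, ∀ η ∈ Ξ₀, η ^ p ^ k = 1 → ∃ η' ∈ Ξ₀, η' ^ p = η)
    (hΞA : ∀ η ∈ Ξ₀, ∃ a : Aˣ, ((η : Bˣ) : B) = ι a)
    (u : Aˣ) (r c : B) (N : ℕ) (hr : r ^ p ^ n = ι u + ι ϖ ^ N * c) :
    ∀ j, n * ((p - 1) * j₀) + j ≤ N → Approx ϖ j r :=
  approx_of_approx_pow H Ξ₀ hΞ n hroot hΞA r N (hr ▸ approx_of_add u c N)

/-- **The group of constant roots of unity.**  `ζ : Aˣ` whose image in `Bˣ` has exact order `p ^ n`
and such that every `ξ : Bˣ` with `ξ ^ p ^ n = 1` is a power of `ι ζ` (true when `B` is a domain and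
`ζ` is a primitive `p ^ n`-th root of unity).  Then `Ξ₀ := zpowers (ι ζ)` has the three properties
asked by `approx_of_approx_pow`. -/
theorem zpowers_spec (hp : p.Prime) {n : ℕ} (hn : 1 ≤ n) (ζ : Aˣ)
    (hord : orderOf (Units.map (ι : A →* B) ζ) = p ^ n)
    (hall : ∀ ξ : Bˣ, ξ ^ p ^ n = 1 → ξ ∈ Subgroup.zpowers (Units.map (ι : A →* B) ζ)) :
    (∀ ξ : Bˣ, ξ ^ p = 1 → ξ ∈ Subgroup.zpowers (Units.map (ι : A →* B) ζ)) ∧
    (∀ k < n, ∀ η ∈ Subgroup.zpowers (Units.map (ι : A →* B) ζ), η ^ p ^ k = 1 →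
      ∃ η' ∈ Subgroup.zpowers (Units.map (ι : A →* B) ζ), η' ^ p = η) ∧
    (∀ η ∈ Subgroup.zpowers (Units.map (ι : A →* B) ζ), ∃ a : Aˣ, ((η : Bˣ) : B) = ι a) := by
  refine ⟨?_, ?_, ?_⟩
  · intro ξ hξ
    apply hall
    obtain ⟨m, rfl⟩ := Nat.exists_eq_add_of_le hn
    rw [add_comm, pow_succ', pow_mul, hξ, one_pow]
  · rintro k hk η ⟨x, rfl⟩ hηk
    set g : Bˣ := Units.map (ι : A →* B) ζ with hg
    have h1 : g ^ (x * (p ^ k : ℕ)) = 1 := by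
      rw [zpow_mul, zpow_natCast]; exact hηk
    have h2 : ((p ^ n : ℕ) : ℤ) ∣ x * (p ^ k : ℕ) := by
      rw [← hord]; exact orderOf_dvd_iff_zpow_eq_one.2 h1
    obtain ⟨m, rfl⟩ := Nat.exists_eq_add_of_lt hk
    have hpk : ((p ^ k : ℕ) : ℤ) ≠ 0 := by
      exact_mod_cast pow_ne_zero k hp.ne_zero
    have h3 : ((p ^ (m + 1) : ℕ) : ℤ) ∣ x := by
      have e : ((p ^ (k + m + 1) : ℕ) : ℤ) = (p ^ (m + 1) : ℕ) * (p ^ k : ℕ) := by
        push_cast; ring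
      rw [e] at h2
      exact Int.dvd_of_mul_dvd_mul_right hpk h2
    have h4 : (p : ℤ) ∣ x := by
      refine dvd_trans ?_ h3
      push_cast
      exact Dvd.intro_left _ (pow_succ _ _).symm
    obtain ⟨y, rfl⟩ := h4
    refine ⟨g ^ y, ⟨y, rfl⟩, ?_⟩
    rw [← zpow_natCast, ← zpow_mul, mul_comm]
  · rintro η ⟨x, rfl⟩
    refine ⟨ζ ^ x, ?_⟩
    show ((Units.map (ι : A →* B) ζ ^ x : Bˣ) : B) = ι ((ζ ^ x : Aˣ) : A)
    rw [← map_zpow]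
    rfl

/-- `zpowers_spec` when `B` is a domain: it suffices that `ι ζ` is a primitive `p ^ n`-th root of
unity. -/
theorem zpowers_spec_of_isPrimitiveRoot [IsDomain B] (hp : p.Prime) {n : ℕ} (hn : 1 ≤ n) (ζ : Aˣ)
    (hζ : IsPrimitiveRoot (ι (ζ : A)) (p ^ n)) :
    (∀ ξ : Bˣ, ξ ^ p = 1 → ξ ∈ Subgroup.zpowers (Units.map (ι : A →* B) ζ)) ∧
    (∀ k < n, ∀ η ∈ Subgroup.zpowers (Units.map (ι : A →* B) ζ), η ^ p ^ k = 1 →
      ∃ η' ∈ Subgroup.zpowers (Units.map (ι : A →* B) ζ), η' ^ p = η) ∧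
    (∀ η ∈ Subgroup.zpowers (Units.map (ι : A →* B) ζ), ∃ a : Aˣ, ((η : Bˣ) : B) = ι a) := by
  have hg : IsPrimitiveRoot (Units.map (ι : A →* B) ζ) (p ^ n) := by
    rw [← IsPrimitiveRoot.coe_units_iff]
    exact hζ
  have : NeZero (p ^ n) := ⟨pow_ne_zero n hp.ne_zero⟩
  refine zpowers_spec hp hn ζ hg.eq_orderOf.symm ?_
  intro ξ hξ
  rw [hg.zpowers_eq]
  exact (mem_rootsOfUnity _ _).2 hξ

/-- **(K-out) at a closed point on one component, final form**: `B` a domain, `ζ : Aˣ` a primitive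
`p ^ n`-th root of unity.  Then `r ^ p ^ n ∈ ι Aˣ (1 + ϖ ^ N B)` implies
`r ∈ ι Aˣ (1 + ϖ ^ j B)` whenever `n (p-1) j₀ + j ≤ N`. -/
theorem approx_of_approx_pow_of_isPrimitiveRoot [IsDomain B] (H : Hyp (B := B) ϖ p j₀ υ)
    (hp : p.Prime) (n : ℕ) (ζ : Aˣ) (hζ : IsPrimitiveRoot (ι (ζ : A)) (p ^ n))
    (r : B) (N : ℕ) (hr : Approx ϖ N (r ^ p ^ n)) :
    ∀ j, n * ((p - 1) * j₀) + j ≤ N → Approx ϖ j r := by
  rcases Nat.eq_zero_or_pos n with rfl | hn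
  · intro j hj
    rw [pow_zero, pow_one] at hr
    exact approx_mono (by omega) hr
  · obtain ⟨h1, h2, h3⟩ := zpowers_spec_of_isPrimitiveRoot (B := B) hp hn ζ hζ
    exact approx_of_approx_pow H _ (fun ξ hξ _ => h1 ξ hξ) n h2 h3 r N hr

/-- Additive form of `approx_of_approx_pow_of_isPrimitiveRoot`. -/
theorem approx_of_pow_eq_of_isPrimitiveRoot [IsDomain B] (H : Hyp (B := B) ϖ p j₀ υ)
    (hp : p.Prime) (n : ℕ) (ζ : Aˣ) (hζ : IsPrimitiveRoot (ι (ζ : A)) (p ^ n))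
    (u : Aˣ) (r c : B) (N : ℕ) (hr : r ^ p ^ n = ι u + ι ϖ ^ N * c) :
    ∀ j, n * ((p - 1) * j₀) + j ≤ N → Approx ϖ j r :=
  approx_of_approx_pow_of_isPrimitiveRoot H hp n ζ hζ r N (hr ▸ approx_of_add u c N)

end Fermat.Agent.S33.New.KummerSmoothOut
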