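/-
S33 (row 61), STEP K, block (K3-inst), chart-generic part (helper19): **the NODE hypotheses of
Kummer-integrality for a chart, its local ring at a crossing point and the two vertical valuation
rings through it.**

Layer 1 (abstract localisations; the two-branch analogue of helper14's `KummerSmoothInst`): `S` a domain
(a chart of the nodal model), `𝔓₁ 𝔓₂ ≤ 𝔫` primes of `S` (the centres of the two vertical valuation rings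
through the crossing point `𝔫`, e.g. `ker θ₁`, `ker θ₂`), `A` a localisation of `S` at `𝔫`, `Bᵢ` a
localisation of `S` at `𝔓ᵢ` (the vertical valuation ring `Vᵢ`), `ϖ ∈ 𝔓₁ ∩ 𝔓₂` with

* `hsat`  : `𝔓₁ ∩ 𝔓₂ ⊆ ϖ S` (reduced fibre), `hsep` : the two centres are incomparable;
* `hnode` : `∀ r ∈ 𝔫, ∃ c ∉ 𝔫, c r ∈ 𝔓₁ + 𝔓₂` (`P4/NodeGlue.node_of_crossingData`);
* `S ⧸ 𝔓ᵢ` integrally closed (the Dedekind rings `RbarFin`/`RbarInf`).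

Then `branch (ϖ) Bᵢ = 𝔓ᵢ A` (`branch_eq_map`), `BranchHyp`, `IsIntegrallyClosed (A ⧸ branch)`,
`nodeHyp_of_loc : KummerNodeAbs.NodeHyp B₁ B₂ ϖ p j₀ υ ζ d₀` and
`hyp_of_node_loc : KummerLoc.Hyp (B := B₁ × B₂) ϖ p j₀ υ`.

Layer 2 (`F`-form, the hypotheses of helper14's `L/KOutSmooth.kOutAt_of_through₁` for BOTH branches +
`sep` + `hnode` + the cyclotomic constants): `kOutAt_of_through₁₂ : Skeleton.KOutAt K 𝔫 V₁ V₂ ϖ (p ^ k)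
(k * ((p - 1) * j₀))` at a closed point `𝔫` through which both vertical valuation rings pass.
-/
import Mathlib
import Fermat.Agent.S33.New.KummerNodeAbs
import Fermat.Agent.S33.New.KummerSmoothInst
import Fermat.Agent.S33.L.KTWire
import Fermat.Agent.S33.L.KOutSmooth

set_option autoImplicit false
set_option linter.unusedSectionVars false
set_option linter.style.longLine false
set_option linter.style.haveILetI false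

namespace Fermat.Agent.S33.New.KummerNodeInst

open Fermat.Agent.S33.New.KummerNodeAbs Fermat.Agent.S33.New.KummerSmoothInst

/-! ### One branch -/

section Branch

variable {S A B : Type*} [CommRing S] [CommRing A] [CommRing B]
  [Algebra S A] [Algebra S B] [Algebra A B] [IsScalarTower S A B]
  (𝔫 𝔓 : Ideal S) [h𝔫 : 𝔫.IsPrime] [h𝔓 : 𝔓.IsPrime]
  [hA : IsLocalization.AtPrime A 𝔫] [IsLocalization.AtPrime B 𝔓] (ϖ : S)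

theorem algebraMap_comp (s : S) : algebraMap A B (algebraMap S A s) = algebraMap S B s :=
  (IsScalarTower.algebraMap_apply S A B s).symm

/-- An element of `S` whose image in `B` lies in `ϖ B` lies in `𝔓`. -/
theorem mem_of_algebraMap_eq_mul (hϖ : ϖ ∈ 𝔓) {x : S} {c : B}
    (h : algebraMap S B x = algebraMap S B ϖ * c) : x ∈ 𝔓 := by
  haveI : IsLocalRing B := IsLocalization.AtPrime.isLocalRing B 𝔓
  rw [← IsLocalization.AtPrime.to_map_mem_maximal_iff B 𝔓 x, h]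
  exact Ideal.mul_mem_right _ _
    ((IsLocalization.AtPrime.to_map_mem_maximal_iff B 𝔓 ϖ).2 hϖ)

/-- The numerator of an element of the branch ideal lies in `𝔓`. -/
theorem mem_of_mem_branch (hϖ : ϖ ∈ 𝔓) {a : A} (ha : a ∈ branch (algebraMap S A ϖ) B) {x t : S}
    (hxt : a * algebraMap S A t = algebraMap S A x) : x ∈ 𝔓 := by
  obtain ⟨c, hc⟩ := mem_branch.1 ha
  refine mem_of_algebraMap_eq_mul (B := B) 𝔓 ϖ hϖ (c := c * algebraMap S B t) ?_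
  rw [← algebraMap_comp (A := A) (B := B) x, ← hxt, map_mul, hc, algebraMap_comp, algebraMap_comp]
  ring

/-- `ϖ B` is the maximal ideal of `B` (`e = 1`). -/
theorem span_eq_maximalIdeal_of_unif [IsLocalRing B] (hϖ : ϖ ∈ 𝔓)
    (he : ∀ x ∈ 𝔓, ∃ t, t ∉ 𝔓 ∧ ∃ y, t * x = ϖ * y) :
    Ideal.span {algebraMap S B ϖ} = IsLocalRing.maximalIdeal B :=
  span_eq_maximalIdeal (B := B) 𝔓 𝔓 ϖ le_rfl hϖ he

include hA in
/-- **The branch ideal is `𝔓 A`.** -/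
theorem branch_eq_map (hϖ : ϖ ∈ 𝔓) (he : ∀ x ∈ 𝔓, ∃ t, t ∉ 𝔓 ∧ ∃ y, t * x = ϖ * y) :
    branch (algebraMap S A ϖ) B = 𝔓.map (algebraMap S A) := by
  haveI : IsLocalRing B := IsLocalization.AtPrime.isLocalRing B 𝔓
  have hmax := span_eq_maximalIdeal_of_unif (B := B) 𝔓 ϖ hϖ he
  apply le_antisymm
  · intro a ha
    obtain ⟨⟨x, t⟩, hxt⟩ := IsLocalization.surj 𝔫.primeCompl a
    have hx𝔓 : x ∈ 𝔓 := mem_of_mem_branch (A := A) (B := B) 𝔓 ϖ hϖ ha hxt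
    obtain ⟨u, hu⟩ := IsLocalization.map_units A t
    have h1 : a = algebraMap S A x * (↑u⁻¹ : A) := by
      rw [← hxt, ← hu, mul_assoc, Units.mul_inv, mul_one]
    rw [h1]
    exact Ideal.mul_mem_right _ _ (Ideal.mem_map_of_mem _ hx𝔓)
  · rw [Ideal.map_le_iff_le_comap]
    intro x hx
    rw [Ideal.mem_comap, mem_branch]
    have h1 : algebraMap S B x ∈ Ideal.span {algebraMap S B ϖ} := by
      rw [hmax, ← IsLocalization.AtPrime.map_eq_maximalIdeal 𝔓 B]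
      exact Ideal.mem_map_of_mem _ hx
    obtain ⟨c, hc⟩ := Ideal.mem_span_singleton'.1 h1
    exact ⟨c, by rw [algebraMap_comp, algebraMap_comp, ← hc, mul_comm]⟩

/-- **`BranchHyp` for `(A, B) = (S_𝔫, S_𝔓)`, `𝔓 S_𝔓 = ϖ S_𝔓`.** -/
theorem branchHyp_of_loc (hϖ : ϖ ∈ 𝔓) (he : ∀ x ∈ 𝔓, ∃ t, t ∉ 𝔓 ∧ ∃ y, t * x = ϖ * y) :
    BranchHyp (algebraMap S A ϖ) B := by
  haveI : IsLocalRing B := IsLocalization.AtPrime.isLocalRing B 𝔓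
  have hmax := span_eq_maximalIdeal_of_unif (B := B) 𝔓 ϖ hϖ he
  refine ⟨?_, ?_⟩
  · rw [algebraMap_comp, hmax]
    exact (IsLocalRing.maximalIdeal.isMaximal B).isPrime
  · intro b
    obtain ⟨⟨x, s⟩, hxs⟩ := IsLocalization.surj 𝔓.primeCompl b
    refine ⟨algebraMap S A x, algebraMap S A s, ?_, 0, ?_⟩
    · intro hs
      obtain ⟨c, hc⟩ := mem_branch.1 hs
      rw [algebraMap_comp, algebraMap_comp] at hc
      exact s.2 (mem_of_algebraMap_eq_mul (B := B) 𝔓 ϖ hϖ hc)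
    · rw [mul_zero, add_zero, algebraMap_comp, algebraMap_comp, ← hxs, mul_comm]

/-- `A ⧸ branch` is integrally closed if `S ⧸ 𝔓` is. -/
theorem isIntegrallyClosed_quot_branch [IsDomain S] [IsIntegrallyClosed (S ⧸ 𝔓)] (h𝔓𝔫 : 𝔓 ≤ 𝔫)
    (hϖ : ϖ ∈ 𝔓) (he : ∀ x ∈ 𝔓, ∃ t, t ∉ 𝔓 ∧ ∃ y, t * x = ϖ * y) :
    IsIntegrallyClosed (A ⧸ branch (algebraMap S A ϖ) B) := by
  rw [branch_eq_map (A := A) (B := B) 𝔫 𝔓 ϖ hϖ he]
  exact isIntegrallyClosed_quot_map (A := A) 𝔫 𝔓 h𝔓𝔫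

end Branch

/-! ### The node -/

section Node

variable {S A B₁ B₂ : Type*} [CommRing S] [IsDomain S] [CommRing A] [IsLocalRing A]
  [CommRing B₁] [CommRing B₂]
  [Algebra S A] [Algebra S B₁] [Algebra S B₂] [Algebra A B₁] [Algebra A B₂]
  [IsScalarTower S A B₁] [IsScalarTower S A B₂]
  (𝔫 𝔓₁ 𝔓₂ : Ideal S) [h𝔫 : 𝔫.IsPrime] [h𝔓₁ : 𝔓₁.IsPrime] [h𝔓₂ : 𝔓₂.IsPrime]
  [IsLocalization.AtPrime A 𝔫] [IsLocalization.AtPrime B₁ 𝔓₁] [IsLocalization.AtPrime B₂ 𝔓₂] (ϖ : S)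

omit [IsDomain S] in
/-- `𝔓 = (ϖ)` locally at `𝔓` from the reducedness of the fibre and a separating element. -/
theorem unif_of_sat {𝔓 𝔔 : Ideal S} (hsat : ∀ x, x ∈ 𝔓 → x ∈ 𝔔 → ϖ ∣ x)
    (hsep : ∃ ε, ε ∈ 𝔔 ∧ ε ∉ 𝔓) : ∀ x ∈ 𝔓, ∃ t, t ∉ 𝔓 ∧ ∃ y, t * x = ϖ * y := by
  intro x hx
  obtain ⟨ε, hε𝔔, hε𝔓⟩ := hsep
  obtain ⟨y, hy⟩ := hsat (ε * x) (Ideal.mul_mem_left _ _ hx) (Ideal.mul_mem_right _ _ hε𝔔)
  exact ⟨ε, hε𝔓, y, hy⟩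

/-- **The node hypotheses for `A = S_𝔫`, `Bᵢ = S_{𝔓ᵢ}`.** -/
theorem nodeHyp_of_loc [IsIntegrallyClosed (S ⧸ 𝔓₁)] [IsIntegrallyClosed (S ⧸ 𝔓₂)]
    (h₁ : 𝔓₁ ≤ 𝔫) (h₂ : 𝔓₂ ≤ 𝔫) (hϖ₁ : ϖ ∈ 𝔓₁) (hϖ₂ : ϖ ∈ 𝔓₂) (hϖ0 : ϖ ≠ 0)
    (hsat : ∀ x, x ∈ 𝔓₁ → x ∈ 𝔓₂ → ϖ ∣ x)
    (hsep₁ : ∃ ε, ε ∈ 𝔓₂ ∧ ε ∉ 𝔓₁) (hsep₂ : ∃ ε, ε ∈ 𝔓₁ ∧ ε ∉ 𝔓₂)
    (hnode : ∀ r ∈ 𝔫, ∃ c, c ∉ 𝔫 ∧ ∃ p₁ ∈ 𝔓₁, ∃ p₂ ∈ 𝔓₂, c * r = p₁ + p₂)
    {p j₀ : ℕ} (hp : p.Prime) (hj₀ : 1 ≤ j₀) (υ : Aˣ)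
    (hpυ : (p : A) = υ * algebraMap S A ϖ ^ ((p - 1) * j₀))
    {ζ d₀ : A} (hζ : ζ ^ p = 1) (hζd : ζ = 1 + algebraMap S A ϖ ^ j₀ * d₀) (hd₀ : IsUnit d₀) :
    NodeHyp B₁ B₂ (algebraMap S A ϖ) p j₀ υ ζ d₀ := by
  have he₁ := unif_of_sat ϖ hsat hsep₁
  have he₂ := unif_of_sat ϖ (fun x h2 h1 => hsat x h1 h2) hsep₂
  haveI := isIntegrallyClosed_quot_branch (A := A) (B := B₁) 𝔫 𝔓₁ ϖ h₁ hϖ₁ he₁
  haveI := isIntegrallyClosed_quot_branch (A := A) (B := B₂) 𝔫 𝔓₂ ϖ h₂ hϖ₂ he₂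
  have hb₁ := branch_eq_map (A := A) (B := B₁) 𝔫 𝔓₁ ϖ hϖ₁ he₁
  have hb₂ := branch_eq_map (A := A) (B := B₂) 𝔫 𝔓₂ ϖ hϖ₂ he₂
  haveI : IsDomain A :=
    IsLocalization.isDomain_of_le_nonZeroDivisors A 𝔫.primeCompl_le_nonZeroDivisors
  haveI : IsDomain B₁ :=
    IsLocalization.isDomain_of_le_nonZeroDivisors B₁ 𝔓₁.primeCompl_le_nonZeroDivisors
  haveI : IsDomain B₂ :=
    IsLocalization.isDomain_of_le_nonZeroDivisors B₂ 𝔓₂.primeCompl_le_nonZeroDivisors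
  have hA0 : algebraMap S A ϖ ≠ 0 := fun h =>
    hϖ0 (IsLocalization.injective A 𝔫.primeCompl_le_nonZeroDivisors (by rw [h, map_zero]))
  have hB₁0 : algebraMap S B₁ ϖ ≠ 0 := fun h =>
    hϖ0 (IsLocalization.injective B₁ 𝔓₁.primeCompl_le_nonZeroDivisors (by rw [h, map_zero]))
  have hB₂0 : algebraMap S B₂ ϖ ≠ 0 := fun h =>
    hϖ0 (IsLocalization.injective B₂ 𝔓₂.primeCompl_le_nonZeroDivisors (by rw [h, map_zero]))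
  refine NodeHyp.of_branches (branchHyp_of_loc (A := A) (B := B₁) 𝔓₁ ϖ hϖ₁ he₁)
    (branchHyp_of_loc (A := A) (B := B₂) 𝔓₂ ϖ hϖ₂ he₂) ?_ ?_ ?_ ?_ ?_ hp hj₀ hpυ hζ hζd hd₀
  · intro a ha
    exact (mul_eq_zero.1 ha).resolve_left hA0
  · intro b hb
    rw [algebraMap_comp] at hb
    exact (mul_eq_zero.1 hb).resolve_left hB₁0
  · intro b hb
    rw [algebraMap_comp] at hb
    exact (mul_eq_zero.1 hb).resolve_left hB₂0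
  · -- sat
    intro a ha₁ ha₂
    obtain ⟨⟨x, t⟩, hxt⟩ := IsLocalization.surj 𝔫.primeCompl a
    have hx₁ : x ∈ 𝔓₁ := mem_of_mem_branch (A := A) (B := B₁) 𝔓₁ ϖ hϖ₁ ha₁ hxt
    have hx₂ : x ∈ 𝔓₂ := mem_of_mem_branch (A := A) (B := B₂) 𝔓₂ ϖ hϖ₂ ha₂ hxt
    obtain ⟨y, hy⟩ := hsat x hx₁ hx₂
    obtain ⟨u, hu⟩ := IsLocalization.map_units A t
    refine ⟨algebraMap S A y * (↑u⁻¹ : A), ?_⟩
    calc a = a * algebraMap S A t * (↑u⁻¹ : A) := by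
          rw [← hu, mul_assoc, Units.mul_inv, mul_one]
      _ = algebraMap S A ϖ * (algebraMap S A y * (↑u⁻¹ : A)) := by
          rw [hxt, hy, map_mul, mul_assoc]
  · -- node
    intro a ha
    obtain ⟨⟨x, t⟩, hxt⟩ := IsLocalization.surj 𝔫.primeCompl a
    have hx𝔫 : x ∈ 𝔫 := by
      rw [← IsLocalization.AtPrime.to_map_mem_maximal_iff A 𝔫 x, ← hxt]
      exact Ideal.mul_mem_right _ _ ha
    obtain ⟨c, hc, p₁, hp₁, p₂, hp₂, hcx⟩ := hnode x hx𝔫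
    have hct : c * (t : S) ∉ 𝔫 := fun h => (h𝔫.mem_or_mem h).elim hc t.2
    obtain ⟨u, hu⟩ := IsLocalization.map_units A (⟨c * (t : S), hct⟩ : 𝔫.primeCompl)
    have hu' : (u : A) = algebraMap S A c * algebraMap S A t := by rw [hu, map_mul]
    refine ⟨algebraMap S A p₁ * (↑u⁻¹ : A), ?_, algebraMap S A p₂ * (↑u⁻¹ : A), ?_, ?_⟩
    · rw [hb₁]
      exact Ideal.mul_mem_right _ _ (Ideal.mem_map_of_mem _ hp₁)
    · rw [hb₂]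
      exact Ideal.mul_mem_right _ _ (Ideal.mem_map_of_mem _ hp₂)
    · have h1 : a * (u : A) = algebraMap S A p₁ + algebraMap S A p₂ := by
        rw [hu', ← map_add, ← hcx, map_mul, ← hxt]
        ring
      calc a = a * (u : A) * (↑u⁻¹ : A) := by rw [mul_assoc, Units.mul_inv, mul_one]
        _ = _ := by rw [h1, add_mul]

/-- **The hypotheses of (K-loc) at a node of a chart.** -/
theorem hyp_of_node_loc [IsIntegrallyClosed (S ⧸ 𝔓₁)] [IsIntegrallyClosed (S ⧸ 𝔓₂)]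
    (h₁ : 𝔓₁ ≤ 𝔫) (h₂ : 𝔓₂ ≤ 𝔫) (hϖ₁ : ϖ ∈ 𝔓₁) (hϖ₂ : ϖ ∈ 𝔓₂) (hϖ0 : ϖ ≠ 0)
    (hsat : ∀ x, x ∈ 𝔓₁ → x ∈ 𝔓₂ → ϖ ∣ x)
    (hsep₁ : ∃ ε, ε ∈ 𝔓₂ ∧ ε ∉ 𝔓₁) (hsep₂ : ∃ ε, ε ∈ 𝔓₁ ∧ ε ∉ 𝔓₂)
    (hnode : ∀ r ∈ 𝔫, ∃ c, c ∉ 𝔫 ∧ ∃ p₁ ∈ 𝔓₁, ∃ p₂ ∈ 𝔓₂, c * r = p₁ + p₂)
    {p j₀ : ℕ} (hp : p.Prime) (hj₀ : 1 ≤ j₀) (υ : Aˣ)
    (hpυ : (p : A) = υ * algebraMap S A ϖ ^ ((p - 1) * j₀))
    {ζ d₀ : A} (hζ : ζ ^ p = 1) (hζd : ζ = 1 + algebraMap S A ϖ ^ j₀ * d₀) (hd₀ : IsUnit d₀) :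
    Fermat.Agent.S33.New.KummerLoc.Hyp (B := B₁ × B₂) (algebraMap S A ϖ) p j₀ υ :=
  (nodeHyp_of_loc (A := A) (B₁ := B₁) (B₂ := B₂) 𝔫 𝔓₁ 𝔓₂ ϖ h₁ h₂ hϖ₁ hϖ₂ hϖ0 hsat hsep₁ hsep₂
    hnode hp hj₀ υ hpυ hζ hζd hd₀).toHyp

end Node

/-! ### `F`-form: `KOutAt` at a closed point lying on both branches -/

section FForm

open Fermat.Agent.P4.TwistRoots Fermat.Agent.S33.L.Skeleton Fermat.Agent.N4.Cover.Globalize
  Fermat.Agent.S33.New.KummerLoc Fermat.Agent.S33.L.KTWire Fermat.Agent.S33.L.KOutSmooth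

variable {O K F R Rb₁ Rb₂ : Type*} [CommRing O] [Field K] [Field F] [Algebra K F] [Algebra O F]
  [CommRing R] [IsDomain R] [Algebra R F] [IsFractionRing R F] [Algebra O R] [IsScalarTower O R F]
  [CommRing Rb₁] [IsDomain Rb₁] [IsIntegrallyClosed Rb₁]
  [CommRing Rb₂] [IsDomain Rb₂] [IsIntegrallyClosed Rb₂]

omit [IsDomain Rb₁] [IsIntegrallyClosed Rb₁] in
/-- `V = R_{ker θ}` inside `F`. -/
theorem mem_iff_mem_locAt_ker (θ : R →+* Rb₁) (V : ValuationSubring F)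
    (hV : ∀ r : R, algebraMap R F r ∈ V)
    (hker : ∀ r : R, θ r = 0 ↔ algebraMap R F r ∈ V.nonunits)
    (hloc : ∀ x ∈ V, ∃ a d : R, algebraMap R F d ∉ V.nonunits ∧
      x * algebraMap R F d = algebraMap R F a) [h𝔓 : (RingHom.ker θ).IsPrime] (x : F) :
    x ∈ V ↔ x ∈ locAt (F := F) (RingHom.ker θ) := by
  have hmem𝔓 : ∀ y : R, y ∈ RingHom.ker θ ↔ algebraMap R F y ∈ V.nonunits := fun y => by
    rw [RingHom.mem_ker]; exact hker y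
  have hvone : ∀ d : R, d ∉ RingHom.ker θ → V.valuation (algebraMap R F d) = 1 := fun d hd =>
    le_antisymm ((V.valuation_le_one_iff _).2 (hV d))
      (not_lt.1 fun hlt => hd ((hmem𝔓 d).2 ((V.mem_nonunits_iff).2 hlt)))
  constructor
  · intro hx
    obtain ⟨a, d, hd, e⟩ := hloc x hx
    exact (mem_locAt_iff (RingHom.ker θ) x).2 ⟨a, d, fun h => hd ((hmem𝔓 d).1 h), e⟩
  · intro hx
    obtain ⟨a, s, hs, e⟩ := (mem_locAt_iff (RingHom.ker θ) x).1 hx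
    have h1 := congrArg V.valuation e
    rw [map_mul, hvone s hs, mul_one] at h1
    rw [← V.valuation_le_one_iff, h1]
    exact (V.valuation_le_one_iff _).2 (hV a)

variable (K)

/-- **`KOutAt` at a closed point `𝔫` of the chart `R` lying on BOTH branches** (a node of the special
fibre).  `θᵢ : R → Rbᵢ` are the restrictions to the two branches (surjective onto integrally closed
domains, `ker θᵢ` = centre of `Vᵢ`, `Vᵢ = R_{ker θᵢ}`), the fibre is reduced (`hsat`), the two centres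
are incomparable (`hsep₁₂`, `hsep₂₁`), and `𝔫` is a node (`hnode`: locally at `𝔫` every element of `𝔫`
is a sum of elements of the two centres).  `p = υ₀ ϖ ^ ((p-1) j₀)` and `ζ_p - 1 = lam0 ϖ ^ j₀` in `O`
(`L/CycloLevel.exists_cyclo_const`), `ζ ∈ K` a primitive `p ^ k`-th root of unity. -/
theorem kOutAt_of_through₁₂ (θ₁ : R →+* Rb₁) (hθ₁ : Function.Surjective θ₁)
    (θ₂ : R →+* Rb₂) (hθ₂ : Function.Surjective θ₂)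
    (V₁ V₂ : ValuationSubring F) (hV₁ : ∀ r : R, algebraMap R F r ∈ V₁)
    (hV₂ : ∀ r : R, algebraMap R F r ∈ V₂)
    (hker₁ : ∀ r : R, θ₁ r = 0 ↔ algebraMap R F r ∈ V₁.nonunits)
    (hker₂ : ∀ r : R, θ₂ r = 0 ↔ algebraMap R F r ∈ V₂.nonunits)
    (hloc₁ : ∀ x ∈ V₁, ∃ a d : R, algebraMap R F d ∉ V₁.nonunits ∧
      x * algebraMap R F d = algebraMap R F a)
    (hloc₂ : ∀ x ∈ V₂, ∃ a d : R, algebraMap R F d ∉ V₂.nonunits ∧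
      x * algebraMap R F d = algebraMap R F a)
    (ϖ : O) (hϖV₁ : algebraMap O F ϖ ∈ V₁.nonunits) (hϖV₂ : algebraMap O F ϖ ∈ V₂.nonunits)
    (hϖ0 : algebraMap O F ϖ ≠ 0)
    (hsat : ∀ r : R, algebraMap R F r ∈ V₁.nonunits → algebraMap R F r ∈ V₂.nonunits →
      algebraMap O R ϖ ∣ r)
    (hsep₁₂ : ∃ ε : R, algebraMap R F ε ∈ V₁.nonunits ∧ algebraMap R F ε ∉ V₂.nonunits)
    (hsep₂₁ : ∃ ε : R, algebraMap R F ε ∈ V₂.nonunits ∧ algebraMap R F ε ∉ V₁.nonunits)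
    (𝔫 : Ideal R) [h𝔫 : 𝔫.IsPrime] (ht₁ : Through V₁ 𝔫) (ht₂ : Through V₂ 𝔫)
    (hnode : ∀ r ∈ 𝔫, ∃ c p₁ p₂ : R, c ∉ 𝔫 ∧ algebraMap R F p₁ ∈ V₁.nonunits ∧
      algebraMap R F p₂ ∈ V₂.nonunits ∧ c * r = p₁ + p₂)
    {p j₀ : ℕ} (k : ℕ) (hp : p.Prime) (hj₀ : 1 ≤ j₀) (υ₀ : Oˣ)
    (hpυ : (p : O) = υ₀ * ϖ ^ ((p - 1) * j₀))
    (ζp : O) (hζp : ζp ^ p = 1) (lam0 : Oˣ) (hlam : ζp - 1 = lam0 * ϖ ^ j₀)
    {ζ : K} (hζ : IsPrimitiveRoot ζ (p ^ k)) :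
    KOutAt K 𝔫 V₁ V₂ ϖ (p ^ k) (k * ((p - 1) * j₀)) := by
  classical
  -- the three primes
  set 𝔓₁ : Ideal R := RingHom.ker θ₁ with h𝔓₁def
  set 𝔓₂ : Ideal R := RingHom.ker θ₂ with h𝔓₂def
  haveI h𝔓₁ : 𝔓₁.IsPrime := RingHom.ker_isPrime θ₁
  haveI h𝔓₂ : 𝔓₂.IsPrime := RingHom.ker_isPrime θ₂
  haveI : IsIntegrallyClosed (R ⧸ 𝔓₁) :=
    Fermat.Agent.S33.New.KummerSmoothTheta.isIntegrallyClosed_quot_ker θ₁ hθ₁
  haveI : IsIntegrallyClosed (R ⧸ 𝔓₂) :=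
    Fermat.Agent.S33.New.KummerSmoothTheta.isIntegrallyClosed_quot_ker θ₂ hθ₂
  have hmem₁ : ∀ x : R, x ∈ 𝔓₁ ↔ algebraMap R F x ∈ V₁.nonunits := fun x => by
    rw [h𝔓₁def, RingHom.mem_ker]; exact hker₁ x
  have hmem₂ : ∀ x : R, x ∈ 𝔓₂ ↔ algebraMap R F x ∈ V₂.nonunits := fun x => by
    rw [h𝔓₂def, RingHom.mem_ker]; exact hker₂ x
  have h𝔓₁𝔫 : 𝔓₁ ≤ 𝔫 := fun x hx => ht₁ x ((hmem₁ x).1 hx)
  have h𝔓₂𝔫 : 𝔓₂ ≤ 𝔫 := fun x hx => ht₂ x ((hmem₂ x).1 hx)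
  -- the three local rings inside `F`
  set A : Subalgebra R F := locAt (F := F) 𝔫 with hA
  set B₁ : Subalgebra R F := locAt (F := F) 𝔓₁ with hB₁
  set B₂ : Subalgebra R F := locAt (F := F) 𝔓₂ with hB₂
  have hAB₁ : A ≤ B₁ := locAt_mono h𝔓₁𝔫
  have hAB₂ : A ≤ B₂ := locAt_mono h𝔓₂𝔫
  letI : Algebra A B₁ := (Subalgebra.inclusion hAB₁).toRingHom.toAlgebra
  letI : Algebra A B₂ := (Subalgebra.inclusion hAB₂).toRingHom.toAlgebra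
  haveI : IsScalarTower R A B₁ := IsScalarTower.of_algebraMap_eq fun _ => rfl
  haveI : IsScalarTower R A B₂ := IsScalarTower.of_algebraMap_eq fun _ => rfl
  haveI : IsLocalRing A := IsLocalization.AtPrime.isLocalRing A 𝔫
  have hVB₁ : ∀ x : F, x ∈ V₁ ↔ x ∈ B₁ :=
    mem_iff_mem_locAt_ker θ₁ V₁ hV₁ hker₁ hloc₁
  have hVB₂ : ∀ x : F, x ∈ V₂ ↔ x ∈ B₂ :=
    mem_iff_mem_locAt_ker θ₂ V₂ hV₂ hker₂ hloc₂
  -- the uniformiser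
  set ϖR : R := algebraMap O R ϖ with hϖR
  have hϖRF : algebraMap R F ϖR = algebraMap O F ϖ :=
    (IsScalarTower.algebraMap_apply O R F ϖ).symm
  have hϖ𝔓₁ : ϖR ∈ 𝔓₁ := (hmem₁ ϖR).2 (by rw [hϖRF]; exact hϖV₁)
  have hϖ𝔓₂ : ϖR ∈ 𝔓₂ := (hmem₂ ϖR).2 (by rw [hϖRF]; exact hϖV₂)
  have hϖR0 : ϖR ≠ 0 := by
    intro h
    apply hϖ0
    rw [← hϖRF, h, map_zero]
  -- the constants in `A`
  let φ : O →+* A := (algebraMap R A).comp (algebraMap O R)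
  let υ : Aˣ := Units.map (φ : O →* A) υ₀
  have hpυA : (p : A) = υ * algebraMap R A ϖR ^ ((p - 1) * j₀) := by
    have h1 := congrArg φ hpυ
    rw [map_natCast, map_mul, map_pow] at h1
    exact h1
  have hζA : (φ ζp) ^ p = 1 := by rw [← map_pow, hζp, map_one]
  have hζdA : φ ζp = 1 + algebraMap R A ϖR ^ j₀ * φ lam0 := by
    have h1 : ζp = 1 + ϖ ^ j₀ * lam0 := by linear_combination hlam
    have h2 := congrArg φ h1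
    rw [map_add, map_one, map_mul, map_pow] at h2
    exact h2
  have hd₀A : IsUnit (φ (lam0 : O)) := lam0.isUnit.map φ
  -- the node hypotheses
  have H : Hyp (B := B₁ × B₂) (algebraMap R A ϖR) p j₀ υ :=
    hyp_of_node_loc (A := A) (B₁ := B₁) (B₂ := B₂) 𝔫 𝔓₁ 𝔓₂ ϖR h𝔓₁𝔫 h𝔓₂𝔫 hϖ𝔓₁ hϖ𝔓₂ hϖR0
      (fun x h1 h2 => hsat x ((hmem₁ x).1 h1) ((hmem₂ x).1 h2))
      (by
        obtain ⟨ε, h2, h1⟩ := hsep₂₁
        exact ⟨ε, (hmem₂ ε).2 h2, fun h => h1 ((hmem₁ ε).1 h)⟩)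
      (by
        obtain ⟨ε, h1, h2⟩ := hsep₁₂
        exact ⟨ε, (hmem₁ ε).2 h1, fun h => h2 ((hmem₂ ε).1 h)⟩)
      (by
        intro r hr
        obtain ⟨c, p₁, p₂, hc, hp₁, hp₂, e⟩ := hnode r hr
        exact ⟨c, hc, p₁, (hmem₁ p₁).2 hp₁, p₂, (hmem₂ p₂).2 hp₂, e⟩)
      hp hj₀ υ hpυA hζA hζdA hd₀A
  -- the package `(A, B, ιA, π)`
  refine kOutAt_of_hyp_of_primitiveRoot (I := Bool) (fun i => bif i then V₁ else V₂)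
    (A.toSubring.subtype)
    (fun i => Bool.rec (motive := fun _ => (↥B₁ × ↥B₂) →+* F)
      (B₂.toSubring.subtype.comp (RingHom.snd ↥B₁ ↥B₂))
      (B₁.toSubring.subtype.comp (RingHom.fst ↥B₁ ↥B₂)) i)
    𝔫 V₁ V₂ ?_ (fun _ => ⟨true, rfl⟩) (fun _ => ⟨false, rfl⟩) ?_ ?_ ?_ ?_
    (fun u hu => exists_unit_of_isUnitAt 𝔫 hu) (fun a => isUnitAt_of_unit 𝔫 a) hϖRF H k hζ
  · intro i
    cases i
    · exact Or.inr ⟨rfl, ht₂⟩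
    · exact Or.inl ⟨rfl, ht₁⟩
  · intro i a
    cases i <;> rfl
  · intro i b
    cases i
    · exact (hVB₂ _).2 b.2.2
    · exact (hVB₁ _).2 b.1.2
  · intro x hx
    exact ⟨(⟨x true, (hVB₁ _).1 (hx true)⟩, ⟨x false, (hVB₂ _).1 (hx false)⟩),
      fun i => by cases i <;> rfl⟩
  · intro b hb
    exact Prod.ext (Subtype.ext (hb true)) (Subtype.ext (hb false))

end FForm

end Fermat.Agent.S33.New.KummerNodeInst
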