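/-
S33, row 61, seam (EQV): the two degeneracy push-forwards of P4 restricted to the `p^M`-torsion,
in the `Tors`/`torsAct` vocabulary of S19/S32:
`alphaTors, betaTors : Tors (N*q) p M →+ Tors N p M`, Galois-equivariant, with common kernel the
`p^M`-torsion of `newPart N q`.
-/
import Mathlib
import Fermat.Agent.S19.Abs.Torsion
import Fermat.Agent.P4.Push

set_option autoImplicit false

open ModularCurve GaloisRep

noncomputable section

namespace Fermat.Agent.S33.New.EqvPush

open Fermat.Agent.S19.Abs Fermat.Agent.P4.Push Fermat.Agent.P3G.AuxPrime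

variable (N q : ℕ) [NeZero N] [NeZero q] (p M : ℕ)

/-- an additive map of `ℤ`-modules restricted to the `a`-torsion -/
def restrictTors {X Y : Type*} [AddCommGroup X] [AddCommGroup Y] (f : X →+ Y) (a : ℤ) :
    ↥(Submodule.torsionBy ℤ X a) →+ ↥(Submodule.torsionBy ℤ Y a) where
  toFun x := ⟨f (x : X), by
    rw [Submodule.mem_torsionBy_iff, ← map_zsmul, (Submodule.mem_torsionBy_iff _ _).1 x.2, map_zero]⟩
  map_zero' := Subtype.ext (map_zero f)
  map_add' x y := Subtype.ext (map_add f (x : X) (y : X))

@[simp] theorem coe_restrictTors {X Y : Type*} [AddCommGroup X] [AddCommGroup Y] (f : X →+ Y)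
    (a : ℤ) (x : ↥(Submodule.torsionBy ℤ X a)) : ((restrictTors f a x : _) : Y) = f (x : X) := rfl

/-- `α_*` on `p^M`-torsion -/
def alphaTors : Tors (N * q) p M →+ Tors N p M := restrictTors (alphaPush N q) ((p : ℤ) ^ M)

/-- `β_*` on `p^M`-torsion -/
def betaTors : Tors (N * q) p M →+ Tors N p M := restrictTors (betaPush N q) ((p : ℤ) ^ M)

@[simp] theorem coe_alphaTors (x : Tors (N * q) p M) :
    ((alphaTors N q p M x : Tors N p M) : JZero N) = alphaPush N q (x : JZero (N * q)) := rfl

@[simp] theorem coe_betaTors (x : Tors (N * q) p M) :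
    ((betaTors N q p M x : Tors N p M) : JZero N) = betaPush N q (x : JZero (N * q)) := rfl

/-- `α_*` is Galois-equivariant on torsion. -/
theorem alphaTors_torsAct (σ : GQ) (x : Tors (N * q) p M) :
    alphaTors N q p M (torsAct (N * q) p M σ x) = torsAct N p M σ (alphaTors N q p M x) :=
  Subtype.ext (alphaPush_smul N q σ (x : JZero (N * q)))

/-- `β_*` is Galois-equivariant on torsion. -/
theorem betaTors_torsAct (σ : GQ) (x : Tors (N * q) p M) :
    betaTors N q p M (torsAct (N * q) p M σ x) = torsAct N p M σ (betaTors N q p M x) :=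
  Subtype.ext (betaPush_smul N q σ (x : JZero (N * q)))

theorem alphaTors_eq_zero_iff (x : Tors (N * q) p M) :
    alphaTors N q p M x = 0 ↔ alphaPush N q (x : JZero (N * q)) = 0 := by
  rw [← Subtype.coe_inj]; rfl

theorem betaTors_eq_zero_iff (x : Tors (N * q) p M) :
    betaTors N q p M x = 0 ↔ betaPush N q (x : JZero (N * q)) = 0 := by
  rw [← Subtype.coe_inj]; rfl

/-- the common kernel of `α_*`, `β_*` on torsion is the torsion of the new part -/
theorem mem_newPart_iff_tors (x : Tors (N * q) p M) :
    (x : JZero (N * q)) ∈ newPart N q ↔ alphaTors N q p M x = 0 ∧ betaTors N q p M x = 0 := by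
  rw [alphaTors_eq_zero_iff, betaTors_eq_zero_iff]; exact mem_newPart_iff

omit [NeZero N] [NeZero q] in
theorem tors_nsmul_eq_zero (x : Tors (N * q) p M) : p ^ M • (x : JZero (N * q)) = 0 := by
  have h := (Submodule.mem_torsionBy_iff _ _).1 x.2
  rw [← natCast_zsmul]
  push_cast
  exact h

end Fermat.Agent.S33.New.EqvPush
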