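/-
S33, row 61, STEP K, the NODE instance of (K-loc), abstract form (helper29; insurance copy of (K3-abs)).

`A` a local ring (the local ring of the chart at a crossing point `𝔫` of the special fibre), `ϖ ∈ 𝔪_A`,
`B = B₁ × B₂` (the two vertical valuation rings through `𝔫`).  The two branches are described by

* `θᵢ : A →+* Cᵢ` surjective-in-the-glued-sense onto integrally closed domains `Cᵢ` (the local rings
  of the two components at the point), `Lᵢ = Frac Cᵢ` (the function fields of the components),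
* `resᵢ : Bᵢ →+* Lᵢ` with kernel `ϖ Bᵢ`, compatible with `θᵢ` (`comp`),
* `ker θ₁ ⊓ ker θ₂ ≤ (ϖ)` (`inf`: the special fibre is reduced with exactly these two branches),
* values at the point `valᵢ : Cᵢ →+* k` (`k` a field of characteristic `p`), `val₁ ∘ θ₁ = val₂ ∘ θ₂`,
  and the GLUING property (`glue`: two functions on the branches with the same value at the point come
  from one element of `A`; `P4/NodeGlue.exists_glue_node`).

Then `KummerLoc.Hyp (B := B₁ × B₂) ϖ p j₀ υ` holds (`hyp_of_node`), provided the Artin–Schreier values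
are residues of `(z - 1)/ϖ^{j₀}`, `z` a `p`-th root of unity of `A` (`hAS`; from
`KLoc/CycloConst.exists_zeta_pow_of_AS`).

Proofs: `sat` from `inf`; `root`: `resᵢ bᵢ` is integral over `Cᵢ`, hence in `Cᵢ`, and the two values
agree because Frobenius is injective on `k`; `AS`: the two values differ by a root `δ` of
`X^p + ῡ X`, absorbed by `ξ = (1, z)`.
-/
import Mathlib
import Fermat.Agent.S33.New.KummerLoc

set_option autoImplicit false
set_option linter.unusedSectionVars false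
set_option linter.style.haveILetI false

namespace Fermat.Agent.S33.New.KummerNodeHyp

open Polynomial Fermat.Agent.S33.New.KummerLoc

variable {A B₁ B₂ C₁ C₂ L₁ L₂ k : Type*} [CommRing A] [IsLocalRing A]
  [CommRing B₁] [CommRing B₂] [Algebra A B₁] [Algebra A B₂]
  [CommRing C₁] [IsDomain C₁] [IsIntegrallyClosed C₁] [CommRing C₂] [IsDomain C₂]
  [IsIntegrallyClosed C₂]
  [Field L₁] [Field L₂] [Algebra C₁ L₁] [Algebra C₂ L₂] [IsFractionRing C₁ L₁]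
  [IsFractionRing C₂ L₂] [Field k]

/-- The data of a node. -/
structure NodeHyp (ϖ : A) (θ₁ : A →+* C₁) (θ₂ : A →+* C₂) (res₁ : B₁ →+* L₁) (res₂ : B₂ →+* L₂)
    (val₁ : C₁ →+* k) (val₂ : C₂ →+* k) : Prop where
  hϖ : ϖ ∈ IsLocalRing.maximalIdeal A
  reg₁ : ∀ b : B₁, algebraMap A B₁ ϖ * b = 0 → b = 0
  reg₂ : ∀ b : B₂, algebraMap A B₂ ϖ * b = 0 → b = 0
  ker₁ : ∀ b : B₁, res₁ b = 0 → ∃ c, b = algebraMap A B₁ ϖ * c
  ker₂ : ∀ b : B₂, res₂ b = 0 → ∃ c, b = algebraMap A B₂ ϖ * c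
  resϖ₁ : res₁ (algebraMap A B₁ ϖ) = 0
  resϖ₂ : res₂ (algebraMap A B₂ ϖ) = 0
  comp₁ : ∀ a : A, res₁ (algebraMap A B₁ a) = algebraMap C₁ L₁ (θ₁ a)
  comp₂ : ∀ a : A, res₂ (algebraMap A B₂ a) = algebraMap C₂ L₂ (θ₂ a)
  inf : ∀ a : A, θ₁ a = 0 → θ₂ a = 0 → ∃ a', a = ϖ * a'
  val : ∀ a : A, val₁ (θ₁ a) = val₂ (θ₂ a)
  glue : ∀ (x₁ : C₁) (x₂ : C₂), val₁ x₁ = val₂ x₂ → ∃ a : A, θ₁ a = x₁ ∧ θ₂ a = x₂

variable {ϖ : A} {θ₁ : A →+* C₁} {θ₂ : A →+* C₂} {res₁ : B₁ →+* L₁} {res₂ : B₂ →+* L₂}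
  {val₁ : C₁ →+* k} {val₂ : C₂ →+* k}

namespace NodeHyp

variable (H : NodeHyp ϖ θ₁ θ₂ res₁ res₂ val₁ val₂)
include H

theorem algebraMap_prod (a : A) :
    algebraMap A (B₁ × B₂) a = (algebraMap A B₁ a, algebraMap A B₂ a) := rfl

/-- `x ∈ ιA + ϖB` from residues in `C₁`, `C₂` with equal values. -/
theorem inA_of_res (b : B₁ × B₂) (x₁ : C₁) (x₂ : C₂) (h₁ : res₁ b.1 = algebraMap C₁ L₁ x₁)
    (h₂ : res₂ b.2 = algebraMap C₂ L₂ x₂) (hv : val₁ x₁ = val₂ x₂) :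
    InA (B := B₁ × B₂) ϖ 1 b := by
  obtain ⟨a, ha₁, ha₂⟩ := H.glue x₁ x₂ hv
  have e₁ : res₁ (b.1 - algebraMap A B₁ a) = 0 := by
    rw [map_sub, H.comp₁, ha₁, h₁, sub_self]
  have e₂ : res₂ (b.2 - algebraMap A B₂ a) = 0 := by
    rw [map_sub, H.comp₂, ha₂, h₂, sub_self]
  obtain ⟨c₁, hc₁⟩ := H.ker₁ _ e₁
  obtain ⟨c₂, hc₂⟩ := H.ker₂ _ e₂
  refine ⟨a, (c₁, c₂), ?_⟩
  rw [pow_one]
  ext
  · show b.1 = algebraMap A B₁ a + algebraMap A B₁ ϖ * c₁
    rw [← hc₁]; ring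
  · show b.2 = algebraMap A B₂ a + algebraMap A B₂ ϖ * c₂
    rw [← hc₂]; ring

/-- The residues of an element of `ιA + ϖB`. -/
theorem res_of_inA {b : B₁ × B₂} (hb : InA (B := B₁ × B₂) ϖ 1 b) :
    ∃ a : A, res₁ b.1 = algebraMap C₁ L₁ (θ₁ a) ∧ res₂ b.2 = algebraMap C₂ L₂ (θ₂ a) := by
  obtain ⟨a, c, hc⟩ := hb
  rw [pow_one] at hc
  refine ⟨a, ?_, ?_⟩
  · have : b.1 = algebraMap A B₁ a + algebraMap A B₁ ϖ * c.1 := congrArg Prod.fst hc
    rw [this, map_add, map_mul, H.resϖ₁, zero_mul, add_zero, H.comp₁]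
  · have : b.2 = algebraMap A B₂ a + algebraMap A B₂ ϖ * c.2 := congrArg Prod.snd hc
    rw [this, map_add, map_mul, H.resϖ₂, zero_mul, add_zero, H.comp₂]

theorem reg (b : B₁ × B₂) (h : algebraMap A (B₁ × B₂) ϖ * b = 0) : b = 0 := by
  have h1 : algebraMap A B₁ ϖ * b.1 = 0 := congrArg Prod.fst h
  have h2 : algebraMap A B₂ ϖ * b.2 = 0 := congrArg Prod.snd h
  exact Prod.ext (H.reg₁ _ h1) (H.reg₂ _ h2)

theorem sat (a : A) (b : B₁ × B₂) (h : algebraMap A (B₁ × B₂) a = algebraMap A (B₁ × B₂) ϖ * b) :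
    ∃ a' : A, a = ϖ * a' := by
  have h1 : algebraMap A B₁ a = algebraMap A B₁ ϖ * b.1 := congrArg Prod.fst h
  have h2 : algebraMap A B₂ a = algebraMap A B₂ ϖ * b.2 := congrArg Prod.snd h
  have e₁ : algebraMap C₁ L₁ (θ₁ a) = 0 := by
    rw [← H.comp₁, h1, map_mul, H.resϖ₁, zero_mul]
  have e₂ : algebraMap C₂ L₂ (θ₂ a) = 0 := by
    rw [← H.comp₂, h2, map_mul, H.resϖ₂, zero_mul]
  refine H.inf a ?_ ?_
  · exact (IsFractionRing.injective C₁ L₁) (by rw [e₁, map_zero])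
  · exact (IsFractionRing.injective C₂ L₂) (by rw [e₂, map_zero])

theorem jac (x : A) : IsUnit (1 + ϖ * x) := by
  have h : -(ϖ * x) ∈ nonunits A := by
    rw [← IsLocalRing.mem_maximalIdeal]
    exact neg_mem (Ideal.mul_mem_right _ _ H.hϖ)
  have := IsLocalRing.isUnit_one_sub_self_of_mem_nonunits _ h
  rwa [sub_neg_eq_add] at this

end NodeHyp

/-- An element of `Ll` which is a root of `X ^ p + c X - a` with `c a ∈ Cc` lies in `Cc`. -/
theorem exists_algebraMap_eq_of_as {Cc Ll : Type*} [CommRing Cc] [IsDomain Cc]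
    [IsIntegrallyClosed Cc] [Field Ll] [Algebra Cc Ll] [IsFractionRing Cc Ll] {p : ℕ} (hp : 2 ≤ p)
    (c a : Cc) (y : Ll) (hy : y ^ p + algebraMap Cc Ll c * y = algebraMap Cc Ll a) :
    ∃ x : Cc, algebraMap Cc Ll x = y := by
  apply IsIntegrallyClosed.algebraMap_eq_of_integral
  refine ⟨X ^ p + C c * X - C a, ?_, ?_⟩
  · have h1 : (X ^ p + C c * X - C a : Cc[X]) = X ^ p + (C c * X - C a) := by ring
    rw [h1]
    refine monic_X_pow_add ?_
    have h2 : (C c * X - C a : Cc[X]).degree ≤ 1 := by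
      refine (degree_sub_le _ _).trans (max_le ?_ ?_)
      · exact (degree_C_mul_X_le c)
      · exact degree_C_le.trans zero_le_one
    refine lt_of_le_of_lt h2 ?_
    exact_mod_cast hp
  · rw [eval₂_sub, eval₂_add, eval₂_mul, eval₂_pow, eval₂_X, eval₂_C, eval₂_C, hy, sub_self]

/-- **The node instance of (K-loc).** -/
theorem hyp_of_node {p j₀ : ℕ} (hp : p.Prime) [CharP k p] (hj₀ : 1 ≤ j₀) (υ : Aˣ)
    (H : NodeHyp ϖ θ₁ θ₂ res₁ res₂ val₁ val₂)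
    (hpυ : (p : A) = υ * ϖ ^ ((p - 1) * j₀))
    (hAS : ∀ δ : k, δ ^ p + val₁ (θ₁ υ) * δ = 0 →
      ∃ z d : A, z ^ p = 1 ∧ z = 1 + ϖ ^ j₀ * d ∧ val₁ (θ₁ d) = δ) :
    Hyp (B := B₁ × B₂) ϖ p j₀ υ := by
  haveI : Fact p.Prime := ⟨hp⟩
  haveI : ExpChar k p := ExpChar.prime hp
  refine ⟨H.reg, H.sat, H.jac, hp, hj₀, hpυ, ?_, ?_⟩
  · -- root
    intro b hb
    obtain ⟨a, ha₁, ha₂⟩ := H.res_of_inA hb
    have hb1 : (b ^ p).1 = b.1 ^ p := rfl
    have hb2 : (b ^ p).2 = b.2 ^ p := rfl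
    rw [hb1, map_pow] at ha₁
    rw [hb2, map_pow] at ha₂
    obtain ⟨x₁, hx₁⟩ := IsIntegrallyClosed.exists_algebraMap_eq_of_isIntegral_pow (R := C₁)
      (x := res₁ b.1) hp.pos (by rw [ha₁]; exact isIntegral_algebraMap)
    obtain ⟨x₂, hx₂⟩ := IsIntegrallyClosed.exists_algebraMap_eq_of_isIntegral_pow (R := C₂)
      (x := res₂ b.2) hp.pos (by rw [ha₂]; exact isIntegral_algebraMap)
    refine H.inA_of_res b x₁ x₂ hx₁.symm hx₂.symm ?_
    -- the values agree: Frobenius is injective on `k`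
    have e₁ : x₁ ^ p = θ₁ a := by
      apply IsFractionRing.injective C₁ L₁
      rw [map_pow, hx₁, ha₁]
    have e₂ : x₂ ^ p = θ₂ a := by
      apply IsFractionRing.injective C₂ L₂
      rw [map_pow, hx₂, ha₂]
    apply frobenius_inj k p
    show val₁ x₁ ^ p = val₂ x₂ ^ p
    rw [← map_pow, ← map_pow, e₁, e₂, H.val]
  · -- AS
    intro b hb
    obtain ⟨a, ha₁, ha₂⟩ := H.res_of_inA hb
    have hb1 : (b ^ p + algebraMap A (B₁ × B₂) υ * b).1 = b.1 ^ p + algebraMap A B₁ υ * b.1 := rfl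
    have hb2 : (b ^ p + algebraMap A (B₁ × B₂) υ * b).2 = b.2 ^ p + algebraMap A B₂ υ * b.2 := rfl
    rw [hb1, map_add, map_pow, map_mul, H.comp₁] at ha₁
    rw [hb2, map_add, map_pow, map_mul, H.comp₂] at ha₂
    obtain ⟨x₁, hx₁⟩ := exists_algebraMap_eq_of_as hp.two_le (θ₁ υ) (θ₁ a) (res₁ b.1) ha₁
    obtain ⟨x₂, hx₂⟩ := exists_algebraMap_eq_of_as hp.two_le (θ₂ υ) (θ₂ a) (res₂ b.2) ha₂
    have e₁ : x₁ ^ p + θ₁ υ * x₁ = θ₁ a := by
      apply IsFractionRing.injective C₁ L₁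
      rw [map_add, map_mul, map_pow, hx₁, ha₁]
    have e₂ : x₂ ^ p + θ₂ υ * x₂ = θ₂ a := by
      apply IsFractionRing.injective C₂ L₂
      rw [map_add, map_mul, map_pow, hx₂, ha₂]
    -- the difference of the values is a root of `X ^ p + ῡ X`
    set w₁ : k := val₁ x₁ with hw₁
    set w₂ : k := val₂ x₂ with hw₂
    have hδ : (w₁ - w₂) ^ p + val₁ (θ₁ υ) * (w₁ - w₂) = 0 := by
      have f₁ : w₁ ^ p + val₁ (θ₁ υ) * w₁ = val₁ (θ₁ a) := by
        rw [hw₁, ← map_pow, ← map_mul, ← map_add, e₁]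
      have f₂ : w₂ ^ p + val₁ (θ₁ υ) * w₂ = val₁ (θ₁ a) := by
        rw [H.val υ, H.val a, hw₂, ← map_pow, ← map_mul, ← map_add, e₂]
      rw [sub_pow_char]
      linear_combination f₁ - f₂
    obtain ⟨z, d, hz, hzd, hd⟩ := hAS _ hδ
    refine ⟨(1, algebraMap A B₂ z), (0, algebraMap A B₂ d), ?_, ?_, ?_⟩
    · ext
      · show (1 : B₁) ^ p = 1
        rw [one_pow]
      · show (algebraMap A B₂ z) ^ p = 1
        rw [← map_pow, hz, map_one]
    · ext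
      · show (1 : B₁) = 1 + (algebraMap A B₁ ϖ) ^ j₀ * 0
        rw [mul_zero, add_zero]
      · show algebraMap A B₂ z = 1 + (algebraMap A B₂ ϖ) ^ j₀ * algebraMap A B₂ d
        rw [hzd, map_add, map_one, map_mul, map_pow]
    · refine H.inA_of_res _ x₁ (x₂ + θ₂ d) ?_ ?_ ?_
      · show res₁ (b.1 + 0) = _
        rw [add_zero, hx₁]
      · show res₂ (b.2 + algebraMap A B₂ d) = _
        rw [map_add, H.comp₂, map_add, hx₂]
      · rw [map_add, ← H.val d, hd, ← hw₁, ← hw₂]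
        ring

end Fermat.Agent.S33.New.KummerNodeHyp
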