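/-
S33 (row 61), STEP K at the NODES of the special fibre, at a level and at a good level (helper19).

Setting of `P4/BranchNormalLevel(Inf)` / helper14's `L/KOutSmoothLevel`: level `N ℓ` (`ℓ ∤ N`, `ℓ` = residue
characteristic of the discrete valuation ring `O`), charts `Rfin K (N ℓ) O`, `Rinf K (N ℓ) O`, vertical
valuation rings `V₁ = gaussVS K (N ℓ) O`, `V₂ = S₂.V`.

* `kOutAt_fin₁₂`, `kOutAt_inf₁₂` : `Skeleton.KOutAt K 𝔫 V₁ V₂ ϖ (ℓ ^ k) (k ((ℓ - 1) j₀))` at a maximal ideal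
  `𝔫` of the chart through which BOTH `V₁`, `V₂` pass (the two instances of
  `KummerNodeInst.kOutAt_of_through₁₂`; the node condition is `P4/NodeGlue.node_of_crossingData`);
* `nodeProv : KOutSmoothGood.NodeProv M p A k` at every good level;
* **`kProv : Contracts.KProv M p A k`** (= `KOutSmoothGood.kProv_of_nodeProv` of `nodeProv`).
-/
import Mathlib
import Fermat.Agent.P4.CrossingFrobLevel
import Fermat.Agent.S33.L.KOutSmoothGood
import Fermat.Agent.S33.New.KummerNodeInst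

set_option autoImplicit false
set_option linter.unusedSectionVars false
set_option linter.dupNamespace false
set_option linter.style.longLine false
set_option linter.style.haveILetI false

open ModularCurve Fermat.Agent.S28.Gauss Fermat.Agent.N4.Setting Fermat.Agent.N4.FibreEmbedding
open Fermat.Agent.N4.Chart
open Fermat.Agent.N4F.E.DegreeLevelRaise Fermat.Agent.N4F.E.GaussDVR AlgebraicCurve Polynomial
open Fermat.Agent.N4F.E IsLocalRing Fermat.Agent.P3G.RbarFin Fermat.Agent.P3G.TwoComponents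
open Fermat.Agent.P3G.RbarInf Fermat.Agent.P3G.TwoComponentsInf
open Fermat.Agent.P3G.TwoComponentsFinal Fermat.Agent.P3G.TwoComponentsInfFinal
open Fermat.Agent.P3G Fermat.Agent.P4
open Fermat.Agent.P4.TwistRoots Fermat.Agent.S33.L.Skeleton Fermat.Agent.S33.L.KOutSmooth
open Fermat.Agent.S33.L.KOutSmoothLevel Fermat.Agent.S33.New.KummerNodeInst
open IntermediateField

noncomputable section

namespace Fermat.Agent.S33.New.KummerNodeLevel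

/-! ### The two charts of a level -/

section Level

variable (K : Type) [Field K] [CharZero K] (N : ℕ) [NeZero N] (ℓ : ℕ) [Fact ℓ.Prime]
  (O : Subring K) [IsDiscreteValuationRing ↥O] [IsFractionRing ↥O K]
  [CharP (IsLocalRing.ResidueField ↥O) ℓ] [PerfectRing (IsLocalRing.ResidueField ↥O) ℓ]
  [IsFractionRing ↥(Rfin K (N * ℓ) O) (FF K (N * ℓ))]
  [IsFractionRing ↥(Rinf K (N * ℓ) O) (FF K (N * ℓ))]

set_option synthInstance.maxHeartbeats 400000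

variable (hN : IsUnit ((N : ℕ) : ↥O)) (ι : K →+* ℂ) (hℓN : ¬ ℓ ∣ N)
  (hprime : (fibreIdeal K N O (Rfin K N O)).IsPrime)
  (hsmooth : IsDedekindDomain (↥(Rfin K N O) ⧸ fibreIdeal K N O (Rfin K N O)))
  (hprimeInf : (fibreIdeal K N O (Rinf K N O)).IsPrime)
  (hsmoothInf : IsDedekindDomain (↥(Rinf K N O) ⧸ fibreIdeal K N O (Rinf K N O)))
  (hA2 : ∀ x : ↥(gaussSubalgebra K N O),
    theta K N O x ∈ modularFunctionFieldFullC (IsLocalRing.ResidueField ↥O) N)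
  (S₂ : FibreTwo.SecondVal K N ℓ O)
  {ϖ : ↥O} (hϖ : Irreducible ϖ)

include hN ι hℓN hprime hsmooth hA2 hϖ in
/-- **Finite chart, a closed point on both branches (a node).** -/
theorem kOutAt_fin₁₂ (𝔫 : Ideal ↥(Rfin K (N * ℓ) O)) [h𝔫 : 𝔫.IsMaximal]
    (ht₁ : Through (gaussVS K (N * ℓ) O) 𝔫) (ht₂ : Through S₂.V 𝔫)
    {j₀ : ℕ} (k : ℕ) (hj₀ : 1 ≤ j₀) (υ₀ : (↥O)ˣ)
    (hpυ : ((ℓ : ℕ) : ↥O) = υ₀ * ϖ ^ ((ℓ - 1) * j₀))
    (ζp : ↥O) (hζp : ζp ^ ℓ = 1) (lam0 : (↥O)ˣ) (hlam : ζp - 1 = lam0 * ϖ ^ j₀)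
    {ζ : K} (hζ : IsPrimitiveRoot ζ (ℓ ^ k)) :
    KOutAt K 𝔫 (gaussVS K (N * ℓ) O) S₂.V ϖ (ℓ ^ k) (k * ((ℓ - 1) * j₀)) := by
  haveI : IsDedekindDomain ↥(RbarFin K N O) := isDedekindDomain_RbarFin K N O hprime hsmooth
  have hS := BranchNormalLevel.setup_fin K N ℓ O hN ι hℓN hprime hsmooth hA2 S₂ hϖ
  have hD := crossingData_fin K N ℓ O hN ι hℓN hprime hsmooth hA2 S₂
  have hinj := injective_algebraMap_base K O (N * ℓ)
  have hϖ0 : algebraMap ↥O (FF K (N * ℓ)) ϖ ≠ 0 := fun h =>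
    hϖ.ne_zero (hinj (by rw [h, map_zero]))
  have hker₁ := BranchNormalLevel.res_thetaFin_eq_zero_iff K N ℓ O hN ι hℓN hprime hsmooth hA2 S₂
  have hker₂ := BranchNormalLevel.res_theta2S_eq_zero_iff K N ℓ O hN hprime hsmooth hA2 S₂
  have hV := ker_inf_ker_eq_fin K N ℓ O hN ι hℓN hprime hsmooth hA2 S₂ hϖ
  have hk1 : RingHom.ker (CrossingLaurent.res (RbarFin K N O) (thetaFin K (N * ℓ) O)
      (thetaFin_mem_rbar K N ℓ O hN ι hℓN hprime hsmooth hA2 S₂)) ≤ 𝔫 :=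
    fun r hr => ht₁ r ((hker₁ r).1 hr)
  have hk2 : RingHom.ker (CrossingLaurent.res (RbarFin K N O) (theta2S K N ℓ O S₂)
      (theta2S_mem_rbar K N ℓ O hN hprime hsmooth hA2 S₂)) ≤ 𝔫 :=
    fun r hr => ht₂ r ((hker₂ r).1 hr)
  have hϖ1 : algebraMap ↥O ↥(Rfin K (N * ℓ) O) ϖ ∈
      RingHom.ker (CrossingLaurent.res (RbarFin K N O) (thetaFin K (N * ℓ) O)
        (thetaFin_mem_rbar K N ℓ O hN ι hℓN hprime hsmooth hA2 S₂)) :=
    (hV.ge (Ideal.mem_span_singleton_self _)).1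
  have hbot : 𝔫.map (CrossingLaurent.res (RbarFin K N O) (thetaFin K (N * ℓ) O)
      (thetaFin_mem_rbar K N ℓ O hN ι hℓN hprime hsmooth hA2 S₂)) ≠ ⊥ := by
    haveI := Crossing.isMaximal_map _ hD.surj₁ 𝔫 hk1
    exact Ring.ne_bot_of_isMaximal_of_not_isField inferInstance (not_isField_RbarFin K N O hprime)
  have hnode : ∀ r ∈ 𝔫, ∃ c p₁ p₂ : ↥(Rfin K (N * ℓ) O), c ∉ 𝔫 ∧
      algebraMap ↥(Rfin K (N * ℓ) O) (FF K (N * ℓ)) p₁ ∈ (gaussVS K (N * ℓ) O).nonunits ∧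
      algebraMap ↥(Rfin K (N * ℓ) O) (FF K (N * ℓ)) p₂ ∈ S₂.V.nonunits ∧ c * r = p₁ + p₂ := by
    intro r hr
    obtain ⟨c, hc, p₁, hp₁, p₂, hp₂, he⟩ :=
      NodeGlue.node_of_crossingData hD 𝔫 hk1 hk2 hbot hV.le hϖ1 r hr
    exact ⟨c, p₁, p₂, hc, (hker₁ p₁).1 hp₁, (hker₂ p₂).1 hp₂, he⟩
  exact kOutAt_of_through₁₂ K _ hD.surj₁ _ hD.surj₂ _ _ hS.mem₁ hS.mem₂ hker₁ hker₂
    hS.loc₁ hS.loc₂ ϖ hS.pi₁ hS.pi₂ hϖ0 hS.sat hS.sep₁₂ hS.sep₂₁ 𝔫 ht₁ ht₂ hnode k Fact.out hj₀ υ₀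
    hpυ ζp hζp lam0 hlam hζ

include hN ι hℓN hprime hprimeInf hsmoothInf hA2 hϖ in
/-- **Chart at infinity, a closed point on both branches (a node).** -/
theorem kOutAt_inf₁₂ (𝔫 : Ideal ↥(Rinf K (N * ℓ) O)) [h𝔫 : 𝔫.IsMaximal]
    (ht₁ : Through (gaussVS K (N * ℓ) O) 𝔫) (ht₂ : Through S₂.V 𝔫)
    {j₀ : ℕ} (k : ℕ) (hj₀ : 1 ≤ j₀) (υ₀ : (↥O)ˣ)
    (hpυ : ((ℓ : ℕ) : ↥O) = υ₀ * ϖ ^ ((ℓ - 1) * j₀))
    (ζp : ↥O) (hζp : ζp ^ ℓ = 1) (lam0 : (↥O)ˣ) (hlam : ζp - 1 = lam0 * ϖ ^ j₀)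
    {ζ : K} (hζ : IsPrimitiveRoot ζ (ℓ ^ k)) :
    KOutAt K 𝔫 (gaussVS K (N * ℓ) O) S₂.V ϖ (ℓ ^ k) (k * ((ℓ - 1) * j₀)) := by
  haveI : IsDedekindDomain ↥(RbarInf K N O) :=
    isDedekindDomain_RbarInf K N O hprimeInf hsmoothInf
  have hS := BranchNormalLevelInf.setup_inf K N ℓ O hN ι hℓN hprime hprimeInf hsmoothInf hA2 S₂ hϖ
  have hD := crossingData_inf K N ℓ O hN ι hℓN hprime hprimeInf hsmoothInf hA2 S₂
  have hinj := injective_algebraMap_base K O (N * ℓ)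
  have hϖ0 : algebraMap ↥O (FF K (N * ℓ)) ϖ ≠ 0 := fun h =>
    hϖ.ne_zero (hinj (by rw [h, map_zero]))
  have hker₁ :=
    BranchNormalLevelInf.res_thetaInf_eq_zero_iff K N ℓ O hN ι hℓN hprimeInf hsmoothInf hA2 S₂
  have hker₂ :=
    BranchNormalLevelInf.res_theta2InfS_eq_zero_iff K N ℓ O hN hprimeInf hsmoothInf hA2 S₂
  have hV := ker_inf_ker_eq_inf K N ℓ O hN ι hℓN hprime hprimeInf hsmoothInf hA2 S₂ hϖ
  have hk1 : RingHom.ker (CrossingLaurent.res (RbarInf K N O) (thetaInf K (N * ℓ) O)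
      (thetaInf_mem_rbar K N ℓ O hN ι hℓN hprimeInf hsmoothInf hA2 S₂)) ≤ 𝔫 :=
    fun r hr => ht₁ r ((hker₁ r).1 hr)
  have hk2 : RingHom.ker (CrossingLaurent.res (RbarInf K N O) (theta2InfS K N ℓ O S₂)
      (theta2InfS_mem_rbar K N ℓ O hN hprimeInf hsmoothInf hA2 S₂)) ≤ 𝔫 :=
    fun r hr => ht₂ r ((hker₂ r).1 hr)
  have hϖ1 : algebraMap ↥O ↥(Rinf K (N * ℓ) O) ϖ ∈
      RingHom.ker (CrossingLaurent.res (RbarInf K N O) (thetaInf K (N * ℓ) O)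
        (thetaInf_mem_rbar K N ℓ O hN ι hℓN hprimeInf hsmoothInf hA2 S₂)) :=
    (hV.ge (Ideal.mem_span_singleton_self _)).1
  have hbot : 𝔫.map (CrossingLaurent.res (RbarInf K N O) (thetaInf K (N * ℓ) O)
      (thetaInf_mem_rbar K N ℓ O hN ι hℓN hprimeInf hsmoothInf hA2 S₂)) ≠ ⊥ := by
    haveI := Crossing.isMaximal_map _ hD.surj₁ 𝔫 hk1
    exact Ring.ne_bot_of_isMaximal_of_not_isField inferInstance
      (not_isField_RbarInf K N O hprimeInf)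
  have hnode : ∀ r ∈ 𝔫, ∃ c p₁ p₂ : ↥(Rinf K (N * ℓ) O), c ∉ 𝔫 ∧
      algebraMap ↥(Rinf K (N * ℓ) O) (FF K (N * ℓ)) p₁ ∈ (gaussVS K (N * ℓ) O).nonunits ∧
      algebraMap ↥(Rinf K (N * ℓ) O) (FF K (N * ℓ)) p₂ ∈ S₂.V.nonunits ∧ c * r = p₁ + p₂ := by
    intro r hr
    obtain ⟨c, hc, p₁, hp₁, p₂, hp₂, he⟩ :=
      NodeGlue.node_of_crossingData hD 𝔫 hk1 hk2 hbot hV.le hϖ1 r hr
    exact ⟨c, p₁, p₂, hc, (hker₁ p₁).1 hp₁, (hker₂ p₂).1 hp₂, he⟩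
  exact kOutAt_of_through₁₂ K _ hD.surj₁ _ hD.surj₂ _ _ hS.mem₁ hS.mem₂ hker₁ hker₂
    hS.loc₁ hS.loc₂ ϖ hS.pi₁ hS.pi₂ hϖ0 hS.sat hS.sep₁₂ hS.sep₂₁ 𝔫 ht₁ ht₂ hnode k Fact.out hj₀ υ₀
    hpυ ζp hζp lam0 hlam hζ

end Level

/-! ### The good level: `NodeProv` and `KProv` -/

section Good

open Fermat.Agent.N4.S18Glue Fermat.Agent.N4.BigDVR
  Fermat.Agent.P3G.Cover.Lift Fermat.Agent.P3G.Cover.OfValuations Fermat.Agent.P3G.Assembly.PowCover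
  Fermat.Agent.P3G.Assembly.StepOfLevel Fermat.Agent.P3G.Assembly.LevelStep
  Fermat.Agent.P3G.Assembly.LevelGeomOfPoints
  Fermat.Agent.P3G.Gamma Fermat.Agent.P3G.GammaAut
  Fermat.Agent.N4F.C Fermat.Agent.N4F.C.Levels Fermat.Agent.N4F.C.Galois
  Fermat.Agent.S33.L.Contracts Fermat.Agent.S33.L.KOutSmoothGood

local notation "Qbar" => AlgebraicClosure ℚ

set_option maxHeartbeats 1600000 in
set_option synthInstance.maxHeartbeats 400000 in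
/-- **STEP K at the NODES, at every good level** (the named hypothesis of helper14's
`KOutSmoothGood.kProv_of_nodeProv`). -/
theorem nodeProv (M p : ℕ) [NeZero M] [Fact p.Prime] (hpM : ¬ p ∣ M)
    (A : ValuationSubring Qbar) (hA : A.LiesOverPrime p) (k : ℕ) : NodeProv M p A k := by
  intro K hK _ S₂ ϖ hϖ z hz hk j₀ lam0 υ hj₀ hlam hpυ
  have hq : p.Prime := Fact.out
  haveI : IsAlgClosed (IsLocalRing.ResidueField ↥(baseRing A K)) := hK.algClosed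
  have hGB : GoodBase (Lvl K) M (baseRing A K) p := ⟨hq, hpM, inferInstance, hK.not_unit⟩
  haveI : CharP (IsLocalRing.ResidueField ↥(baseRing A K)) p :=
    Fermat.Agent.N4F.E.GaussResidue.charP_residueField (Lvl K) M (baseRing A K) hGB
  haveI : PerfectRing (IsLocalRing.ResidueField ↥(baseRing A K)) p := inferInstance
  have hstar := LevelStatements.starStatement_lvl hq hA K hGB hK.roots
  have hsmooth := LevelStatements.smoothStatement_lvl hq hA hpM K hGB hK.roots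
  have hprime := hstar.1.isPrime
  have hprimeInf := hstar.2.isPrime
  have hred : PGI.RedMem (Lvl K) M (baseRing A K) := fun s hs =>
    ChartReduction.red_mem_full (Lvl K) M (baseRing A K) hGB hstar s hs
  have hA2 := Fermat.Agent.N4F.E.NormReduction.theta_mem_full (Lvl K) M (baseRing A K) hred
  have hN : IsUnit ((M : ℕ) : ↥(baseRing A K)) :=
    Fermat.Agent.P3G.GammaUnits.isUnit_natCast_baseRing K hq hA hpM
  -- the primitive root in the constant field, and `ζ_p`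
  have hzK : IsPrimitiveRoot ((z : ↥(baseRing A K)) : Lvl K) (p ^ k) :=
    hz.map_of_injective (f := (baseRing A K).subtype) Subtype.val_injective
  have hζp : (z ^ p ^ (k - 1)) ^ p = 1 := by
    rw [← pow_mul, ← pow_succ, Nat.sub_add_cancel hk]
    exact hz.pow_eq_one
  refine ⟨fun 𝔫 h𝔫 _ ht₁ ht₂ => ?_, fun 𝔫 h𝔫 _ ht₁ ht₂ => ?_⟩
  · haveI := h𝔫
    exact kOutAt_fin₁₂ (Lvl K) M p (baseRing A K) hN (Fermat.Agent.P3G.GammaV2.lvlToComplex K)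
      hpM hprime hsmooth.1 hA2 S₂ hϖ 𝔫 ht₁ ht₂ k hj₀ υ hpυ (z ^ p ^ (k - 1)) hζp lam0 hlam hzK
  · haveI := h𝔫
    exact kOutAt_inf₁₂ (Lvl K) M p (baseRing A K) hN (Fermat.Agent.P3G.GammaV2.lvlToComplex K)
      hpM hprime hprimeInf hsmooth.2 hA2 S₂ hϖ 𝔫 ht₁ ht₂ k hj₀ υ hpυ (z ^ p ^ (k - 1)) hζp lam0
      hlam hzK

/-- **STEP K: `Contracts.KProv` at every place over `p`, every `k`.** -/
theorem kProv (M p : ℕ) [NeZero M] [Fact p.Prime] (hpM : ¬ p ∣ M)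
    (A : ValuationSubring Qbar) (hA : A.LiesOverPrime p) (k : ℕ) : KProv M p A k :=
  kProv_of_nodeProv hpM hA (nodeProv M p hpM A hA k)

end Good

end Fermat.Agent.S33.New.KummerNodeLevel
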