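/-
S33, `moonshots` row 61 (helper8), leaf [LG] (helper24): **local principal parts** — at every closed
point `𝔫` of the special fibre of a chart, a local generator `β` of the divisor `E = σ'D − D` with
`v₁ β = v₂ β = 0`, such that `u := h / β ^ e` is a unit of the local ring `R_𝔫` for every function `h`
with vertical valuations `0` and horizontal divisor `e · E` near `𝔫` (in the application
`h = σ' f / f`, `div f = e · D` + vertical part, `e = p ^ n`); and the twisted generator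
`βz = τ β / β ^ a` of `E_z = (τ − a) E` (STEP T / STEP G).

Everything is wiring of landed P3G / P4 calculus: `P4.TauDiff.IsLocGen` (`isLocGen_prod_zpow`,
`firstDiff`, `twist`), `P4.TauDiff.UnitAt`, the unit criterion `P3G.UCrit.hcrit_strong`, and
(Loc-P) in the shape of `P3G.LocalRootsAt.localRoots_of_locP` / `LevelGeomOfPoints.LocPChart`.

* Part 1 (abstract chart, setting of `P3G.LocalRootsAt`): `unitAt_of_ord_eq_zero`,
  `exists_locGen_firstDiff`, `isLocGen_twistZ`.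
* Part 2 (a good level `K`, setting of `P3G.Assembly.LevelGeomOfPoints`): `fdK` (the first
  difference `σ_K f / f`), `exists_locGen_level`, `isLocGen_twist_level`.
-/
import Mathlib
import Fermat.Agent.P4.TauDiff
import Fermat.Agent.P3G.Assembly.LevelGeomOfPoints

set_option autoImplicit false
set_option linter.unusedSectionVars false
set_option linter.style.haveILetI false
set_option linter.style.longLine false

namespace Fermat.Agent.S33.New.LocGen

open Fermat.Agent.N4.Chart Fermat.Agent.P3G.Cover.Lift Fermat.Agent.P3G.Cover.OfValuations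
open Fermat.Agent.P3G.Assembly.PowCover Fermat.Agent.P3G.SecondDiff Fermat.Agent.P3G.UCrit
open Fermat.Agent.P3G.LocalRootsAt Fermat.Agent.P4.TauDiff
open AlgebraicCurve

/-! ## Part 1: the abstract chart -/

section Chart

universe u

variable {O K₀ : Type*} [CommRing O] [IsDomain O] [IsDiscreteValuationRing O]
  [Field K₀] [Algebra O K₀] [IsFractionRing O K₀]
variable {F₀ : Type u} [Field F₀] [Algebra K₀ F₀] [Algebra O F₀] [IsScalarTower O K₀ F₀]
variable {π : O} {W : Subring F₀} {V₁ V₂ : ValuationSubring F₀}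
variable (s : F₀)
  [IsNoetherianRing (chartAlg O F₀ {s})] [IsFractionRing (chartAlg O F₀ {s}) F₀]
  [IsIntegrallyClosed (chartAlg O F₀ {s})]

/-- **The unit criterion at a closed point of a chart** (`UCrit.hcrit_strong` in the `UnitAt`
shape): a function with vertical valuations `0` and no zero or pole through `𝔫` is a unit of
`R_𝔫`. -/
theorem unitAt_of_ord_eq_zero (hπ : Irreducible π) (hT : TwoVal π W V₁ V₂)
    (hW : IsSemiGaussRing W (algebraMap O (chartAlg O F₀ {s}) π))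
    (𝔫 : Ideal (chartAlg O F₀ {s})) [𝔫.IsPrime] {x : F₀} (hx0 : x ≠ 0)
    (hx₁ : V₁.valuation x = 1) (hx₂ : V₂.valuation x = 1)
    (hC : ∀ Q ∈ centredSet K₀ 𝔫, Q.ord x = 0) : UnitAt 𝔫 x :=
  hcrit_strong (K := K₀) (fam V₁ V₂) (algebraMap_chart_mem s hT hW) hπ (pi_mem_nonunits s hT)
    (sat_chart s hT hW) 𝔫 x hx0 hC (fun b => by cases b; exacts [hx₂, hx₁])

/-- **[LG], abstract chart form.**  `σ` an automorphism of `F₀` preserving the two vertical
valuations, `τ` the compatible permutation of the places, `𝔫` a closed point whose set of places is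
`τ⁻¹`-stable, `(S, D, b)` the (Loc-P) data at `𝔫` (as in `localRoots_of_locP`).  Then
`β := σ γ / γ`, `γ = ∏_{P ∈ S} b_P ^ {D P}`, generates `E = τ_* D − D` on the places centred at `𝔫`,
has vertical valuations `0`, and `h / β ^ e` is a unit of `R_𝔫` for every `h` with vertical
valuations `0` and `ord_Q h = e · E(Q)` for `Q` centred at `𝔫`. -/
theorem exists_locGen_firstDiff (hπ : Irreducible π) (hT : TwoVal π W V₁ V₂)
    (hW : IsSemiGaussRing W (algebraMap O (chartAlg O F₀ {s}) π))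
    (σ : F₀ ≃+* F₀)
    (hval₁ : ∀ x, V₁.valuation (σ x) = V₁.valuation x)
    (hval₂ : ∀ x, V₂.valuation (σ x) = V₂.valuation x)
    {τ : Equiv.Perm (Place K₀ F₀)}
    (hτ : Compat (fun (Q : Place K₀ F₀) (x : F₀) => Q.ord x) σ τ)
    (𝔫 : Ideal (chartAlg O F₀ {s})) [𝔫.IsPrime]
    (hC : ∀ Q ∈ centredSet K₀ 𝔫, τ.symm Q ∈ centredSet K₀ 𝔫)
    (S : Finset (Place K₀ F₀)) (D : Place K₀ F₀ → ℤ) (b : Place K₀ F₀ → F₀)
    (hD : ∀ P ∈ centredSet K₀ 𝔫, P ∉ S → D P = 0) (hb0 : ∀ P ∈ S, b P ≠ 0)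
    (hb1 : ∀ P ∈ S, P.ord (b P) = 1)
    (hb2 : ∀ P ∈ S, ∀ Q ∈ centredSet K₀ 𝔫, Q ≠ P → Q.ord (b P) = 0) :
    ∃ β : F₀,
      IsLocGen (fun (Q : Place K₀ F₀) (x : F₀) => Q.ord x) (centredSet K₀ 𝔫)
        (fun Q => D (τ.symm Q) - D Q) β ∧
      V₁.valuation β = 1 ∧ V₂.valuation β = 1 ∧
      ∀ (e : ℕ) (h : F₀), h ≠ 0 → V₁.valuation h = 1 → V₂.valuation h = 1 →
        (∀ Q ∈ centredSet K₀ 𝔫, Q.ord h = e * (D (τ.symm Q) - D Q)) → UnitAt 𝔫 (h / β ^ e) := by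
  have hord : OrdMul (fun (Q : Place K₀ F₀) (x : F₀) => Q.ord x) := fun Q f g hf hg =>
    Q.ord_mul hf hg
  have hγ := isLocGen_prod_zpow hord (centredSet K₀ 𝔫) S D hD b hb0 hb1 hb2
  set γ : F₀ := ∏ P ∈ S, b P ^ D P with hγdef
  have hβ := IsLocGen.firstDiff hord hτ hC hγ hγ
  refine ⟨σ γ / γ, hβ, valuation_map_div_self hval₁ hγ.ne_zero,
    valuation_map_div_self hval₂ hγ.ne_zero, fun e h hh0 hh₁ hh₂ hhC => ?_⟩
  have hβ0 : σ γ / γ ≠ 0 := hβ.ne_zero
  have hβe0 : (σ γ / γ) ^ e ≠ 0 := pow_ne_zero e hβ0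
  refine unitAt_of_ord_eq_zero (K₀ := K₀) s hπ hT hW 𝔫 (div_ne_zero hh0 hβe0) ?_ ?_ ?_
  · rw [map_div₀, map_pow, valuation_map_div_self hval₁ hγ.ne_zero, one_pow, div_one, hh₁]
  · rw [map_div₀, map_pow, valuation_map_div_self hval₂ hγ.ne_zero, one_pow, div_one, hh₂]
  · intro Q hQ
    have h1 : Q.ord (h / (σ γ / γ) ^ e) = Q.ord h - Q.ord ((σ γ / γ) ^ e) := hord.div Q hh0 hβe0
    have h2 : Q.ord ((σ γ / γ) ^ e) = e * Q.ord (σ γ / γ) := hord.pow Q hβ0 e
    have h3 : Q.ord (σ γ / γ) = D (τ.symm Q) - D Q := hβ.2 Q hQ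
    rw [h1, h2, h3, hhC Q hQ, sub_self]

omit [IsNoetherianRing (chartAlg O F₀ {s})] [IsFractionRing (chartAlg O F₀ {s}) F₀]
  [IsIntegrallyClosed (chartAlg O F₀ {s})] in
/-- **The twisted generator** (`ℤ`-exponent form of `IsLocGen.twist`): if `β` generates `E` on a
`τ⁻¹`-stable set of places `C`, then `σ β / β ^ a` generates `τ_* E − a E` on `C`; and it has
valuation `1` wherever `β` has and `σ` preserves the valuation. -/
theorem isLocGen_twistZ {Pl : Type*} {ord : Pl → F₀ → ℤ} (hord : OrdMul ord) {σ : F₀ ≃+* F₀}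
    {τ : Equiv.Perm Pl} (hτ : Compat ord σ τ) {C : Set Pl} (hC : ∀ Q ∈ C, τ.symm Q ∈ C)
    {E : Pl → ℤ} {β : F₀} (hβ : IsLocGen ord C E β) (a : ℤ) :
    IsLocGen ord C (fun Q => E (τ.symm Q) - a * E Q) (σ β / β ^ a) :=
  (hβ.map hτ hC).div hord (hβ.zpow hord a)

omit [IsNoetherianRing (chartAlg O F₀ {s})] [IsFractionRing (chartAlg O F₀ {s}) F₀]
  [IsIntegrallyClosed (chartAlg O F₀ {s})] in
theorem valuation_map_div_zpow {V : ValuationSubring F₀} {σ : F₀ ≃+* F₀}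
    (hval : ∀ x, V.valuation (σ x) = V.valuation x) {β : F₀} (hβ : V.valuation β = 1) (a : ℤ) :
    V.valuation (σ β / β ^ a) = 1 := by
  rw [map_div₀, hval, hβ, map_zpow₀, hβ, one_zpow, div_one]

end Chart

/-! ## Part 2: a good level -/

section Level

open ModularCurve IntermediateField
open Fermat.Agent.N4.Setting Fermat.Agent.N4.S18Glue Fermat.Agent.N4.BigDVR
  Fermat.Agent.P3G.Assembly.StepOfLevel Fermat.Agent.P3G.Assembly.LevelStep
  Fermat.Agent.P3G.Assembly.LevelGeomOfPoints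
  Fermat.Agent.P3G.GammaDict Fermat.Agent.P3G.GeomStep
  Fermat.Agent.P3G.Gamma Fermat.Agent.P3G.GammaAut
  Fermat.Agent.N4F.C Fermat.Agent.N4F.C.Levels Fermat.Agent.N4F.C.Galois
open Fermat.Agent.S24.PlaceDeriv (ResidueTrivial)

local notation "Qbar" => AlgebraicClosure ℚ
local notation "Γ" => (AlgebraicClosure ℚ ≃ₐ[ℚ] AlgebraicClosure ℚ)

variable (A : ValuationSubring Qbar) (K : IntermediateField ℚ Qbar)
  (hKs : ∀ (τ : Γ) (x : Qbar), x ∈ K → τ x ∈ K) (N : ℕ) [NeZero N] (σ : Γ)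

/-- The first difference `σ_K f / f` at the level `K` (row 61's `h = σ' f / f`). -/
noncomputable def fdK (f : FF (Lvl K) N) : FF (Lvl K) N := levelFF K hKs N σ • f / f

theorem fdK_def (f : FF (Lvl K) N) : fdK K hKs N σ f = levelFF K hKs N σ • f / f := rfl

theorem fdK_eq (f : FF (Lvl K) N) :
    fdK K hKs N σ f = SemilinearAut.toRingAut (levelFF K hKs N σ) f / f := rfl

theorem fdK_ne_zero {f : FF (Lvl K) N} (hf : f ≠ 0) : fdK K hKs N σ f ≠ 0 := by
  rw [fdK_eq]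
  exact div_ne_zero ((map_ne_zero _).2 hf) hf

/-- `ord_Q (σ_K f / f) = ord_{σ_K⁻¹ Q} f − ord_Q f`. -/
theorem ord_fdK (Q : Place (Lvl K) (FF (Lvl K) N)) {f : FF (Lvl K) N} (hf : f ≠ 0) :
    Q.ord (fdK K hKs N σ f) = ((tauPerm (levelFF K hKs N σ)).symm Q).ord f - Q.ord f := by
  have hord := ordMul_place (K₀ := Lvl K) (F₀ := FF (Lvl K) N)
  have hτ := compat_tauPerm (levelFF K hKs N σ)
  rw [fdK_eq]
  have h1 : Q.ord (SemilinearAut.toRingAut (levelFF K hKs N σ) f / f) =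
      Q.ord (SemilinearAut.toRingAut (levelFF K hKs N σ) f) - Q.ord f :=
    hord.div Q ((map_ne_zero _).2 hf) hf
  rw [h1]
  congr 1
  exact hτ.ord_map Q f

variable {A K hKs N σ}

theorem valuation_fdK₁ {ϖ : ↥(baseRing A K)} {W : Subring (FF (Lvl K) N)}
    {V₁ V₂ : ValuationSubring (FF (Lvl K) N)} (hV : VertLevel A K hKs N σ ϖ W V₁ V₂)
    {f : FF (Lvl K) N} (hf : f ≠ 0) : V₁.valuation (fdK K hKs N σ f) = 1 := by
  rw [fdK_def, map_div₀, hV.val₁, div_self ((map_ne_zero _).2 hf)]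

theorem valuation_fdK₂ {ϖ : ↥(baseRing A K)} {W : Subring (FF (Lvl K) N)}
    {V₁ V₂ : ValuationSubring (FF (Lvl K) N)} (hV : VertLevel A K hKs N σ ϖ W V₁ V₂)
    {f : FF (Lvl K) N} (hf : f ≠ 0) : V₂.valuation (fdK K hKs N σ f) = 1 := by
  rw [fdK_def, map_div₀, hV.val₂, div_self ((map_ne_zero _).2 hf)]

/-- **[LG] at a good level.**  `f ≠ 0` of level `K` with `e ∣ div f` and rational zeros and poles
(`S`), `σ` with the vertical data `VertLevel` and (Loc-P) on the chart `s`.  At every closed point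
`𝔫` of the special fibre of the chart there is `β` with
* `e · ord_Q β = ord_Q (σ_K f / f)` for every place `Q` centred at `𝔫`
  (`β` generates `E = σD − D`, `D = div f / e`),
* `V₁ β = V₂ β = 1`,
* `(σ_K f / f) / β ^ e` is a unit of the local ring `R_𝔫`. -/
theorem exists_locGen_level [IsDiscreteValuationRing ↥(baseRing A K)]
    [IsFractionRing ↥(baseRing A K) (Lvl K)]
    {ϖ : ↥(baseRing A K)} {W : Subring (FF (Lvl K) N)}
    {V₁ V₂ : ValuationSubring (FF (Lvl K) N)} (hV : VertLevel A K hKs N σ ϖ W V₁ V₂)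
    (s : FF (Lvl K) N)
    [IsNoetherianRing (chartAlg ↥(baseRing A K) (FF (Lvl K) N) {s})]
    [IsFractionRing (chartAlg ↥(baseRing A K) (FF (Lvl K) N) {s}) (FF (Lvl K) N)]
    [IsIntegrallyClosed (chartAlg ↥(baseRing A K) (FF (Lvl K) N) {s})]
    (hsemi : IsSemiGaussRing W
      (algebraMap ↥(baseRing A K) (chartAlg ↥(baseRing A K) (FF (Lvl K) N) {s}) ϖ))
    (hP : LocPChart A K hKs N σ ϖ s)
    {f : FF (Lvl K) N} (hf : f ≠ 0) {e : ℕ} (he : e ≠ 0)
    (hdiv : ∀ Q : Place (Lvl K) (FF (Lvl K) N), (e : ℤ) ∣ Q.ord f)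
    (S : Finset (Place (Lvl K) (FF (Lvl K) N)))
    (hS : ∀ Q : Place (Lvl K) (FF (Lvl K) N), Q.ord f ≠ 0 → Q ∈ S)
    (hSrat : ∀ Q ∈ S, ResidueTrivial Q)
    (𝔫 : Ideal (chartAlg ↥(baseRing A K) (FF (Lvl K) N) {s})) (h𝔫 : 𝔫.IsMaximal)
    (hϖ𝔫 : algebraMap ↥(baseRing A K) (chartAlg ↥(baseRing A K) (FF (Lvl K) N) {s}) ϖ ∈ 𝔫) :
    ∃ β : FF (Lvl K) N,
      IsLocGen (fun (Q : Place (Lvl K) (FF (Lvl K) N)) (x : FF (Lvl K) N) => Q.ord x)
        (centredSet (F := FF (Lvl K) N) (Lvl K) 𝔫)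
        (fun Q => ((tauPerm (levelFF K hKs N σ)).symm Q).ord f / (e : ℤ) - Q.ord f / (e : ℤ)) β ∧
      (∀ Q ∈ centredSet (F := FF (Lvl K) N) (Lvl K) 𝔫,
        (e : ℤ) * Q.ord β = Q.ord (fdK K hKs N σ f)) ∧
      V₁.valuation β = 1 ∧ V₂.valuation β = 1 ∧
      UnitAt 𝔫 (fdK K hKs N σ f / β ^ e) := by
  classical
  haveI : 𝔫.IsPrime := h𝔫.isPrime
  have he' : (e : ℤ) ≠ 0 := Nat.cast_ne_zero.mpr he
  set D : Place (Lvl K) (FF (Lvl K) N) → ℤ := fun Q => Q.ord f / (e : ℤ) with hD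
  have hDmul : ∀ Q : Place (Lvl K) (FF (Lvl K) N), Q.ord f = (e : ℤ) * D Q := fun Q =>
    (Int.mul_ediv_cancel' (hdiv Q)).symm
  obtain ⟨hstab, hloc⟩ := hP 𝔫 h𝔫 hϖ𝔫
  -- local equations, chosen for all places at once
  have hb : ∀ P : Place (Lvl K) (FF (Lvl K) N), ∃ b : FF (Lvl K) N,
      P ∈ centredSet (F := FF (Lvl K) N) (Lvl K) 𝔫 → ResidueTrivial P →
        b ≠ 0 ∧ P.ord b = 1 ∧
          ∀ Q ∈ centredSet (F := FF (Lvl K) N) (Lvl K) 𝔫, Q ≠ P → Q.ord b = 0 := by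
    intro P
    by_cases h1 : P ∈ centredSet (F := FF (Lvl K) N) (Lvl K) 𝔫 ∧ ResidueTrivial P
    · obtain ⟨b, hb⟩ := hloc P h1.1 h1.2
      exact ⟨b, fun _ _ => hb⟩
    · exact ⟨1, fun h2 h3 => absurd ⟨h2, h3⟩ h1⟩
  choose b hb using hb
  obtain ⟨β, hβ, hβ₁, hβ₂, hunit⟩ := exists_locGen_firstDiff (K₀ := Lvl K) s hV.irr hV.twoVal hsemi
    (SemilinearAut.toRingAut (levelFF K hKs N σ)) hV.val₁ hV.val₂
    (τ := tauPerm (levelFF K hKs N σ)) (compat_tauPerm _) 𝔫 (fun Q hQ => hstab Q hQ)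
    (S.filter (fun Q => Q ∈ centredSet (F := FF (Lvl K) N) (Lvl K) 𝔫)) D b
    (by
      intro P hPC hPS
      have h0 : P.ord f = 0 := by
        by_contra hne
        exact hPS (Finset.mem_filter.mpr ⟨hS P hne, hPC⟩)
      rw [hD]
      simp only [h0, Int.zero_ediv])
    (by
      intro P hP
      obtain ⟨h1, h2⟩ := Finset.mem_filter.mp hP
      exact (hb P h2 (hSrat P h1)).1)
    (by
      intro P hP
      obtain ⟨h1, h2⟩ := Finset.mem_filter.mp hP
      exact (hb P h2 (hSrat P h1)).2.1)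
    (by
      intro P hP Q hQ hne
      obtain ⟨h1, h2⟩ := Finset.mem_filter.mp hP
      exact (hb P h2 (hSrat P h1)).2.2 Q hQ hne)
  have hordβ : ∀ Q ∈ centredSet (F := FF (Lvl K) N) (Lvl K) 𝔫,
      (e : ℤ) * Q.ord β = Q.ord (fdK K hKs N σ f) := by
    intro Q hQ
    have h3 : Q.ord β = D ((tauPerm (levelFF K hKs N σ)).symm Q) - D Q := hβ.2 Q hQ
    rw [h3, ord_fdK K hKs N σ Q hf, hDmul, hDmul Q]
    ring
  refine ⟨β, hβ, hordβ, hβ₁, hβ₂, ?_⟩
  refine hunit e (fdK K hKs N σ f) (fdK_ne_zero K hKs N σ hf) (valuation_fdK₁ hV hf)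
    (valuation_fdK₂ hV hf) (fun Q hQ => ?_)
  have h3 : Q.ord β = D ((tauPerm (levelFF K hKs N σ)).symm Q) - D Q := hβ.2 Q hQ
  rw [← hordβ Q hQ, h3]

/-- **The twisted generator at a good level** (STEP T / STEP G): `τ` a second Galois element with
the vertical data `VertLevel` (same `W V₁ V₂`), `𝔫` a closed point stable under `τ_K⁻¹`, `β` a local
generator of `E` at `𝔫` with vertical valuations `0`.  Then `βz = τ_K β / β ^ a` generates
`E_z = τ_* E − a E` at `𝔫` and has vertical valuations `0`. -/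
theorem isLocGen_twist_level {τ : Γ} {ϖ : ↥(baseRing A K)} {W : Subring (FF (Lvl K) N)}
    {V₁ V₂ : ValuationSubring (FF (Lvl K) N)} (hVτ : VertLevel A K hKs N τ ϖ W V₁ V₂)
    {s : FF (Lvl K) N} {𝔫 : Ideal (chartAlg ↥(baseRing A K) (FF (Lvl K) N) {s})}
    (hstab : ∀ Q ∈ centredSet (F := FF (Lvl K) N) (Lvl K) 𝔫,
      (levelFF K hKs N τ)⁻¹ • Q ∈ centredSet (F := FF (Lvl K) N) (Lvl K) 𝔫)
    {E : Place (Lvl K) (FF (Lvl K) N) → ℤ} {β : FF (Lvl K) N}
    (hβ : IsLocGen (fun (Q : Place (Lvl K) (FF (Lvl K) N)) (x : FF (Lvl K) N) => Q.ord x)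
      (centredSet (F := FF (Lvl K) N) (Lvl K) 𝔫) E β)
    (hβ₁ : V₁.valuation β = 1) (hβ₂ : V₂.valuation β = 1) (a : ℤ) :
    IsLocGen (fun (Q : Place (Lvl K) (FF (Lvl K) N)) (x : FF (Lvl K) N) => Q.ord x)
        (centredSet (F := FF (Lvl K) N) (Lvl K) 𝔫)
        (fun Q => E ((levelFF K hKs N τ)⁻¹ • Q) - a * E Q) (levelFF K hKs N τ • β / β ^ a) ∧
      V₁.valuation (levelFF K hKs N τ • β / β ^ a) = 1 ∧
      V₂.valuation (levelFF K hKs N τ • β / β ^ a) = 1 := by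
  have hord := ordMul_place (K₀ := Lvl K) (F₀ := FF (Lvl K) N)
  refine ⟨?_, ?_, ?_⟩
  · exact isLocGen_twistZ hord (compat_tauPerm (levelFF K hKs N τ)) (fun Q hQ => hstab Q hQ) hβ a
  · exact valuation_map_div_zpow (σ := SemilinearAut.toRingAut (levelFF K hKs N τ)) hVτ.val₁ hβ₁ a
  · exact valuation_map_div_zpow (σ := SemilinearAut.toRingAut (levelFF K hKs N τ)) hVτ.val₂ hβ₂ a

end Level

end Fermat.Agent.S33.New.LocGen
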