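/-
S33 / `moonshots` row 61 (helper8), STEP B, **the abstract local-norm lemma (NR-m)** (helper21).
Mathlib only.

Geometric meaning: `R = V_M/ϖ^L` (or the Gauss DVR `V_M` of the level-`N/p` function field, or its
completion), `B = W/𝔓_0^L` (resp. the second valuation ring over `V_M`), free of rank `p` over `R`,
with `B/ϖB = κ_0` a purely inseparable extension of degree `p` of `κ_M = R/ϖ`
(Kronecker: `(β^*j)^p ≡ α^*j`).  Then the trace of `B/R` has values in `(ϖ)` and the local norm
contracts the unit filtration: `N_{B/R}(1 + ϖ^m x) ∈ 1 + ϖ^{m+1} R` for `m ≥ 1`.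

* `trace_eq_zero_of_pow_mem'` / `trace_eq_zero_of_pow_mem` (TR): over a field `κ` of characteristic `p`, a finite-dimensional
  commutative algebra of dimension divisible by `p` all of whose elements have their `p`-th power
  in `κ` has trace `0`.
* `trace_tmul_one_eq` : trace and base change for algebras.
* `trace_mem_span` (TR'): the same over a base `R` with `R/ϖ` a field of characteristic `p`.
* `norm_one_add_mul` (LN): if the trace has values in `(ϖ)` then
  `N(1 + ϖ^m x) = 1 + ϖ^{m+1} r` for `m ≥ 1`.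
* `norm_one_add_mul_of_pow_mem` (NR): (TR') + (LN).
-/
import Mathlib

set_option autoImplicit false

namespace Fermat.Agent.S33.New.LocalNorm

open scoped TensorProduct

/-- Trace and base change for algebras: `Tr_{A ⊗ B / A}(1 ⊗ x) = Tr_{B/R}(x)`. -/
theorem trace_tmul_one_eq {R B : Type*} [CommRing R] [CommRing B] [Algebra R B]
    [Module.Free R B] [Module.Finite R B] (A : Type*) [CommRing A] [Algebra R A] (x : B) :
    Algebra.trace A (A ⊗[R] B) (1 ⊗ₜ[R] x) = algebraMap R A (Algebra.trace R B x) := by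
  rw [Algebra.trace_apply, Algebra.trace_apply, ← Algebra.baseChange_lmul,
    LinearMap.trace_baseChange]

/-- (TR), algebraically closed case. -/
theorem trace_eq_zero_of_pow_mem_of_isAlgClosed {K B : Type*} [Field K] [IsAlgClosed K]
    [CommRing B] [Algebra K B] [FiniteDimensional K B] (p : ℕ) [Fact p.Prime] [CharP K p]
    (hdim : p ∣ Module.finrank K B) {x : B} (hpow : ∃ c : K, x ^ p = algebraMap K B c) :
    Algebra.trace K B x = 0 := by
  obtain ⟨c, hc⟩ := hpow
  have hp0 : p ≠ 0 := (Fact.out : p.Prime).ne_zero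
  obtain ⟨γ, hγ⟩ := IsAlgClosed.exists_pow_nat_eq c (Nat.pos_of_ne_zero hp0)
  rcases subsingleton_or_nontrivial B with hB | hB
  · have : x = 0 := Subsingleton.elim _ _
    rw [this, map_zero]
  have : CharP B p := charP_of_injective_algebraMap (algebraMap K B).injective p
  have hnil : IsNilpotent (x - algebraMap K B γ) := by
    refine ⟨p, ?_⟩
    rw [sub_pow_char, hc, ← map_pow, hγ, sub_self]
  have h0 : Algebra.trace K B (x - algebraMap K B γ) = 0 :=
    (Algebra.isNilpotent_trace_of_isNilpotent (R := K) hnil).eq_zero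
  rw [map_sub, sub_eq_zero] at h0
  rw [h0, Algebra.trace_algebraMap]
  obtain ⟨d, hd⟩ := hdim
  rw [hd, nsmul_eq_mul, Nat.cast_mul, CharP.cast_eq_zero K p, zero_mul, zero_mul]

/-- **(TR)** Over a field `κ` of characteristic `p`, a finite-dimensional commutative algebra of
dimension divisible by `p` all of whose elements have their `p`-th power in `κ` has trace `0`. -/
theorem trace_eq_zero_of_pow_mem' {κ B : Type*} [Field κ] [CommRing B] [Algebra κ B]
    [FiniteDimensional κ B] (p : ℕ) [Fact p.Prime] [CharP κ p]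
    (hdim : p ∣ Module.finrank κ B) (x : B) (hpow : ∃ c : κ, x ^ p = algebraMap κ B c) :
    Algebra.trace κ B x = 0 := by
  obtain ⟨c, hc⟩ := hpow
  let K := AlgebraicClosure κ
  have : CharP K p := charP_of_injective_algebraMap (algebraMap κ K).injective p
  have h1 : Algebra.trace K (K ⊗[κ] B) (1 ⊗ₜ[κ] x) = 0 := by
    refine trace_eq_zero_of_pow_mem_of_isAlgClosed p ?_ ⟨algebraMap κ K c, ?_⟩
    · rwa [Module.finrank_baseChange]
    · rw [Algebra.TensorProduct.tmul_pow, one_pow, hc,
        ← Algebra.TensorProduct.includeRight_apply, AlgHom.commutes,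
        IsScalarTower.algebraMap_apply κ K (K ⊗[κ] B)]
  rw [trace_tmul_one_eq] at h1
  exact (algebraMap κ K).injective (by rw [h1, map_zero])

/-- **(TR)**, the form with the hypothesis on all elements (binder order of board post #2784). -/
theorem trace_eq_zero_of_pow_mem {κ B : Type*} [Field κ] [CommRing B] [Algebra κ B]
    [FiniteDimensional κ B] (p : ℕ) [Fact p.Prime] [CharP κ p]
    (hdim : p ∣ Module.finrank κ B) (hpow : ∀ x : B, ∃ c : κ, x ^ p = algebraMap κ B c) (x : B) :
    Algebra.trace κ B x = 0 :=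
  trace_eq_zero_of_pow_mem' p hdim x (hpow x)

/-- **(TR')** `R/ϖ` a field of characteristic `p`, `B` finite free over `R` of rank divisible by
`p`, every `p`-th power of `B` lies in `R + ϖB`: then the trace of `B/R` has values in `(ϖ)`. -/
theorem trace_mem_span {R B : Type*} [CommRing R] [CommRing B] [Algebra R B]
    [Module.Free R B] [Module.Finite R B] (ϖ : R) [hmax : (Ideal.span {ϖ}).IsMaximal]
    (p : ℕ) [Fact p.Prime] [CharP (R ⧸ Ideal.span {ϖ}) p] (hrank : p ∣ Module.finrank R B)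
    (hpow : ∀ x : B, ∃ (r : R) (y : B), x ^ p = algebraMap R B r + algebraMap R B ϖ * y)
    (x : B) : Algebra.trace R B x ∈ Ideal.span {ϖ} := by
  let _ : Field (R ⧸ Ideal.span {ϖ}) := Ideal.Quotient.field _
  let κ := R ⧸ Ideal.span {ϖ}
  have : Nontrivial R := ⟨⟨0, 1, fun h => hmax.ne_top (by
    rw [Ideal.eq_top_iff_one]; rw [← h]; exact Ideal.zero_mem _)⟩⟩
  obtain ⟨r, y, hxy⟩ := hpow x
  have hϖ : algebraMap R κ ϖ = 0 := by
    rw [Ideal.Quotient.algebraMap_eq, Ideal.Quotient.eq_zero_iff_mem]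
    exact Ideal.subset_span rfl
  have h1 : Algebra.trace κ (κ ⊗[R] B) (1 ⊗ₜ[R] x) = 0 := by
    refine trace_eq_zero_of_pow_mem' p ?_ _ ⟨algebraMap R κ r, ?_⟩
    · rwa [Module.finrank_baseChange]
    · rw [Algebra.TensorProduct.tmul_pow, one_pow, hxy,
        ← Algebra.TensorProduct.includeRight_apply, map_add, map_mul, AlgHom.commutes,
        AlgHom.commutes, IsScalarTower.algebraMap_apply R κ (κ ⊗[R] B) ϖ, hϖ, map_zero,
        zero_mul, add_zero, IsScalarTower.algebraMap_apply R κ (κ ⊗[R] B)]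
  rw [trace_tmul_one_eq] at h1
  rwa [Ideal.Quotient.algebraMap_eq, Ideal.Quotient.eq_zero_iff_mem] at h1

/-- **(LN)** If the trace of `B/R` has values in `(ϖ)`, the norm contracts the unit filtration:
`N(1 + ϖ^m x) = 1 + ϖ^{m+1} r` for `m ≥ 1`. -/
theorem norm_one_add_mul {R B : Type*} [CommRing R] [CommRing B] [Algebra R B]
    [Module.Free R B] [Module.Finite R B] (ϖ : R)
    (htr : ∀ x : B, Algebra.trace R B x ∈ Ideal.span {ϖ}) {m : ℕ} (hm : 1 ≤ m) (x : B) :
    ∃ r : R, Algebra.norm R (1 + algebraMap R B (ϖ ^ m) * x) = 1 + ϖ ^ (m + 1) * r := by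
  obtain ⟨r, hr⟩ := Algebra.norm_one_add_smul (ϖ ^ m) x
  obtain ⟨s, hs⟩ := Ideal.mem_span_singleton'.1 (htr x)
  obtain ⟨k, rfl⟩ : ∃ k, m = k + 1 := ⟨m - 1, by omega⟩
  refine ⟨s + r * ϖ ^ k, ?_⟩
  rw [← Algebra.smul_def, hr, ← hs]
  ring

/-- **(NR)** = (TR') + (LN): `R/ϖ` a field of characteristic `p`, `B` finite free over `R` of rank
divisible by `p`, all `p`-th powers of `B` in `R + ϖB`; then `N(1 + ϖ^m x) ∈ 1 + ϖ^{m+1}R` for
`m ≥ 1`. -/
theorem norm_one_add_mul_of_pow_mem {R B : Type*} [CommRing R] [CommRing B] [Algebra R B]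
    [Module.Free R B] [Module.Finite R B] (ϖ : R) [(Ideal.span {ϖ}).IsMaximal]
    (p : ℕ) [Fact p.Prime] [CharP (R ⧸ Ideal.span {ϖ}) p] (hrank : p ∣ Module.finrank R B)
    (hpow : ∀ x : B, ∃ (r : R) (y : B), x ^ p = algebraMap R B r + algebraMap R B ϖ * y)
    {m : ℕ} (hm : 1 ≤ m) (x : B) :
    ∃ r : R, Algebra.norm R (1 + algebraMap R B (ϖ ^ m) * x) = 1 + ϖ ^ (m + 1) * r :=
  norm_one_add_mul ϖ (trace_mem_span ϖ p hrank hpow) hm x

end Fermat.Agent.S33.New.LocalNorm
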