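/-
S33, row 61, the geometric side in ONE term: `Transfer.NewJ (N' * p) N' p (p ^ c)` (the only geometric
input of `Transfer.exists_oldIdeals`) from `NewJOfRoot.NewRootInertia N' p c` (the target of STEP L).
-/
import Mathlib
import Fermat.Agent.S33.New.NewJOfRoot
import Fermat.Agent.S33.New.Transfer

set_option autoImplicit false

namespace Fermat.Agent.S33.New.NewJFinal

open Fermat.Agent.S33.New.NewJOfRoot Fermat.Agent.S33.New.Transfer

/-- the geometric input of the re-cut top level, from the target of STEP L -/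
theorem newJ_of_newRootInertia (N' p : ℕ) [NeZero N'] [NeZero p] {c : ℕ}
    (h : NewRootInertia N' p c) : NewJ (N' * p) N' p (((p ^ c : ℕ)) : ℤ) :=
  fun m => NewJOfRoot.newJ_of_newRootInertia N' p h m

theorem natCast_pow_ne_zero (p : ℕ) [NeZero p] (c : ℕ) : (((p ^ c : ℕ)) : ℤ) ≠ 0 := by
  exact_mod_cast pow_ne_zero c (NeZero.ne p)

end Fermat.Agent.S33.New.NewJFinal
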