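/-
S33 / row 61, STEP B, block (B1') (helper18): **the contraction estimate (NR-m) in the abstract
two-place setting of `N4F/E/KummerPlace`**.

`A` a discrete valuation ring with uniformiser `ϖ`, `F = Frac A`, `L / F` finite separable of degree
`l + 1`, `C` the integral closure of `A` in `L`, `π₁ : C → Ω` the "twisted" (purely inseparable, degree
`l`) place and `π₂ : C → Ω` the place of degree one.  Then for `b ∈ C` with `b ≡ 1` modulo
`(ker π₁) ^ m`, `m ≥ 1`, and every `Lv`:

  `N_{L/F}(b) ≡ b · (1 + ϖ^{m+1} w)  mod (ker π₂) ^ Lv`   for some `w ∈ A`.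

The trace hypothesis of `NormTwoPrimes.Hyp.norm_sub_mul_mem` comes from the Kronecker congruence
`KummerPlace.kronecker`: the characteristic polynomial of `y` is `≡ (X^l - θ c)(X - θ μ)`, whose
`X^l`-coefficient is `-θ μ = -π₂ y`.
-/
import Mathlib
import Fermat.Agent.N4F.E.KummerNorm
import Fermat.Agent.S33.New.NormTwoPrimes

set_option autoImplicit false
set_option linter.unusedSectionVars false
set_option linter.style.haveILetI false
set_option linter.style.longLine false

namespace Fermat.Agent.S33.New.NormPlace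

open Polynomial IsLocalRing Fermat.Agent.N4F.E Fermat.Agent.S33.New.NormTwoPrimes

/-- The trace of an endomorphism of a finite-dimensional vector space is minus the subleading
coefficient of its characteristic polynomial. -/
theorem trace_eq_neg_charpoly_coeff {F L : Type*} [Field F] [AddCommGroup L] [Module F L]
    [FiniteDimensional F L] (hpos : 0 < Module.finrank F L) (f : L →ₗ[F] L) :
    LinearMap.trace F L f = -f.charpoly.coeff (Module.finrank F L - 1) := by
  classical
  let b := Module.finBasis F L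
  haveI : Nonempty (Fin (Module.finrank F L)) := ⟨⟨0, hpos⟩⟩
  rw [LinearMap.trace_eq_matrix_trace F b, Matrix.trace_eq_neg_charpoly_coeff,
    LinearMap.charpoly_toMatrix, Fintype.card_fin]

section Main

variable {A F L : Type*} [CommRing A] [IsDomain A] [IsDiscreteValuationRing A] [Field F]
  [Algebra A F] [IsFractionRing A F] [Field L] [Algebra F L] [Algebra A L]
  [FiniteDimensional F L] [Algebra.IsSeparable F L]
  {Ω : Type*} [Field Ω] {l : ℕ} [hl : Fact l.Prime] [CharP Ω l]
  (htower : IsScalarTower A F L)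
  (hdeg : Module.finrank F L = l + 1)
  (θ : A →+* Ω) (hθ : ∀ a ∈ maximalIdeal A, θ a = 0) (φ : Ω →+* Ω)
  (π₁ : integralClosure A L →+* Ω)
  (hπ₁ : ∀ a : A, π₁ (algebraMap A (integralClosure A L) a) = φ (θ a))
  (x₀ : integralClosure A L) (t₀ : A) (hx₀ : π₁ x₀ ^ l = φ (θ t₀))
  (ht₀ : ∀ a : A, θ a ^ l ≠ θ t₀)
  (π₂ : integralClosure A L →+* Ω)
  (hπ₂ : ∀ a : A, π₂ (algebraMap A (integralClosure A L) a) = θ a)
  (hne : RingHom.ker π₂ ≠ RingHom.ker π₁)

include htower hdeg hθ hπ₁ hx₀ ht₀ hπ₂ hne in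
/-- The two maximal ideals of `C` satisfy the hypotheses of `NormTwoPrimes`. -/
theorem hyp {ϖ : A} (hϖ : Irreducible ϖ) :
    NormTwoPrimes.Hyp ϖ (RingHom.ker π₂) (RingHom.ker π₁) := by
  haveI := htower
  have h1 := TwoPrimes.isMaximal_liesOver_ker F L π₁
    (fun a ha => by rw [hπ₁, hθ a ha, map_zero])
  haveI := h1.1
  haveI := h1.2
  have h2 := TwoPrimes.isMaximal_liesOver_ker F L π₂ (fun a ha => by rw [hπ₂, hθ a ha])
  haveI := h2.1
  haveI := h2.2
  have hx : x₀ ^ l - algebraMap A (integralClosure A L) t₀ ∈ RingHom.ker π₁ := by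
    rw [RingHom.mem_ker, map_sub, map_pow, hπ₁, hx₀, sub_self]
  have ht : ∀ a : A, a ^ l - t₀ ∉ maximalIdeal A := by
    intro a ha
    have := hθ _ ha
    rw [map_sub, map_pow, sub_eq_zero] at this
    exact ht₀ a this
  obtain ⟨P₂, -, -, -, hpair, hinf, hsurj, -⟩ :=
    TwoPrimes.exists_second_prime_integralClosure (K := F) (L := L) hl.out hdeg
      (RingHom.ker π₁) x₀ t₀ hx ht
  have hmem : RingHom.ker π₂ ∈ (maximalIdeal A).primesOver (integralClosure A L) :=
    ⟨h2.1.isPrime, h2.2⟩
  rw [hpair] at hmem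
  have hP₂ : RingHom.ker π₂ = P₂ := by
    rcases hmem with h | h
    · exact absurd h hne
    · exact h
  refine ⟨Ideal.isCoprime_of_isMaximal hne, ?_, ?_⟩
  · rw [hP₂, inf_comm, ← hinf, hϖ.maximalIdeal_eq, Ideal.map_span, Set.image_singleton]
  · rw [hP₂]
    exact hsurj

variable (hpow : ∀ b : integralClosure A L, ∃ c : A, π₁ b ^ l = φ (θ c))

include htower hdeg hθ hπ₁ hx₀ ht₀ hπ₂ hne hpow in
/-- Elements of the degree-one prime have trace in the maximal ideal. -/
theorem trace_mem {ϖ : A} (hϖ : Irreducible ϖ) (y : integralClosure A L)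
    (hy : y ∈ RingHom.ker π₂) :
    Algebra.trace A (integralClosure A L) y ∈ Ideal.span {ϖ} := by
  haveI := htower
  obtain ⟨hDed, hfin, hfree, hrank⟩ :=
    TwoPrimes.integralClosure_structure A F L (integralClosure A L)
  haveI := hfin
  haveI := hfree
  obtain ⟨c, hc⟩ := hpow y
  have hμ : π₂ y = θ 0 := by rw [map_zero]; exact hy
  obtain ⟨q, -, hq2, hq3⟩ :=
    KummerPlace.kronecker hdeg θ hθ φ π₁ hπ₁ x₀ t₀ hx₀ ht₀ π₂ hπ₂ hne y c 0 hc hμ
  haveI : IsLocalization (Algebra.algebraMapSubmonoid (integralClosure A L)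
      (nonZeroDivisors A)) L :=
    IsIntegralClosure.isLocalization A F L (integralClosure A L)
  have htr : algebraMap A F (Algebra.trace A (integralClosure A L) y) =
      algebraMap A F (-(q.coeff l)) := by
    rw [← Algebra.trace_localization A (nonZeroDivisors A) (Rₘ := F) (Sₘ := L) y,
      Algebra.trace_apply, trace_eq_neg_charpoly_coeff (by rw [hdeg]; omega), hdeg,
      Nat.add_sub_cancel, map_neg, ← coeff_map, hq2]
    rfl
  have htr' : Algebra.trace A (integralClosure A L) y = -(q.coeff l) :=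
    IsFractionRing.injective A F htr
  have h0 : θ (Algebra.trace A (integralClosure A L) y) = 0 := by
    rw [htr', map_neg, ← coeff_map, hq3, map_zero, map_zero, sub_zero]
    have hl2 : 2 ≤ l := hl.out.two_le
    obtain ⟨k, hk⟩ : ∃ k, l = k + 1 := ⟨l - 1, by omega⟩
    have h3 : ((X ^ l - C (θ c)) * X).coeff l = 0 := by
      conv_lhs => rw [hk]
      rw [coeff_mul_X, coeff_sub, coeff_X_pow, coeff_C, if_neg (by omega), if_neg (by omega),
        sub_zero]
    rw [h3, neg_zero]
  rw [← hϖ.maximalIdeal_eq]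
  exact (KummerPlace.theta_eq_zero_iff θ hθ _).mp h0

include htower hdeg hθ hπ₁ hx₀ ht₀ hπ₂ hne hpow in
/-- **(NR-m) in the two-place setting.** -/
theorem norm_sub_mul_mem {ϖ : A} (hϖ : Irreducible ϖ) {m : ℕ} (hm : 1 ≤ m)
    {b : integralClosure A L} (hb : b - 1 ∈ RingHom.ker π₁ ^ m) (Lv : ℕ) :
    ∃ w : A, algebraMap A (integralClosure A L) (Algebra.norm A b) -
      b * (1 + algebraMap A (integralClosure A L) (ϖ ^ (m + 1) * w)) ∈ RingHom.ker π₂ ^ Lv := by
  haveI := htower
  obtain ⟨hDed, hfin, hfree, hrank⟩ :=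
    TwoPrimes.integralClosure_structure A F L (integralClosure A L)
  haveI := hfin
  haveI := hfree
  exact (hyp htower hdeg θ hθ φ π₁ hπ₁ x₀ t₀ hx₀ ht₀ π₂ hπ₂ hne hϖ).norm_sub_mul_mem
    (fun y hy => trace_mem htower hdeg θ hθ φ π₁ hπ₁ x₀ t₀ hx₀ ht₀ π₂ hπ₂ hne hpow hϖ y hy)
    hm hb Lv

include htower in
/-- The norm of `C / A` is the restriction of the norm of `L / F`. -/
theorem algebraMap_norm (b : integralClosure A L) :
    algebraMap A F (Algebra.norm A b) = Algebra.norm F (b : L) := by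
  haveI := htower
  obtain ⟨hDed, hfin, hfree, hrank⟩ :=
    TwoPrimes.integralClosure_structure A F L (integralClosure A L)
  haveI := hfin
  haveI := hfree
  haveI : IsLocalization (Algebra.algebraMapSubmonoid (integralClosure A L)
      (nonZeroDivisors A)) L :=
    IsIntegralClosure.isLocalization A F L (integralClosure A L)
  exact (Algebra.norm_localization A (nonZeroDivisors A) (Rₘ := F) (Sₘ := L) b).symm

end Main

end Fermat.Agent.S33.New.NormPlace
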