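/-
S33 / row 61, STEP B, block (B2), abstract half (helper22): **the contraction estimate (NR-m) in the
setting of the abstract one-sided theorem (T)** (`N4F/E/KummerPlace`).

`A` a discrete valuation ring with uniformiser `ϖ` and fraction field `F`, `L / F` finite separable
of degree `l + 1`, `C` the integral closure of `A` in `L`, with its two places
`π₁ : C → Ω` (twisted by `φ`, purely inseparable of degree `l`) and `π₂ : C → Ω` (degree one).
Put `P := ker π₂`, `Q := ker π₁`.  Then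

* `hyp`    : `NormTwoPrimes.Hyp ϖ P Q` (`P`, `Q` coprime, `ϖ C = P ⊓ Q`, degree one at `P`);
* `trace_mem_span` : every element of `P` has trace in `(ϖ)` (Kronecker congruence (T3): the
  characteristic polynomial of `y ∈ P` reduces to `(X ^ l - c) X`);
* `norm_sub_mul_mem` : for `b ≡ 1 mod Q ^ m`, `m ≥ 1`: `N(b) ≡ b (1 + ϖ^{m+1} w) mod P ^ L`;
* `nr_step` : **the valuation-subring form**: `V₁ ⊇ C` (centre `Q`), `V₂ ⊇ C` (centre `P`,
  `e = 1`), `V₁ ∩ V₂ ⊆ C`: for `b` a unit at both, `b - 1 ∈ ϖ^m V₁`, `m ≥ 1`: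
  `N_{L/F}(b) / b - 1 ∈ ϖ^{m+1} V₂`.

This serves both level maps: along `β` (`π₁` = Gauss place of level `N ℓ`, `π₂` = second place) and
along `α` (`π₁` = second place, `π₂` = Gauss place).
-/
import Mathlib
import Fermat.Agent.N4F.E.KummerNorm
import Fermat.Agent.S33.New.NormTwoPrimes

set_option autoImplicit false
set_option linter.unusedSectionVars false
set_option linter.style.haveILetI false
set_option linter.style.longLine false

namespace Fermat.Agent.S33.New.NormResidueKummer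

open Polynomial IsLocalRing Fermat.Agent.N4F.E

section Main

variable {A F L : Type*} [CommRing A] [IsDomain A] [IsDiscreteValuationRing A] [Field F]
  [Algebra A F] [IsFractionRing A F] [Field L] [Algebra F L] [Algebra A L]
  [FiniteDimensional F L] [Algebra.IsSeparable F L]
  {Ω : Type*} [Field Ω] {l : ℕ} [hl : Fact l.Prime] [CharP Ω l]
  (htower : IsScalarTower A F L)
  (hdeg : Module.finrank F L = l + 1)
  (θ : A →+* Ω) (hθ : ∀ a ∈ maximalIdeal A, θ a = 0) (φ : Ω →+* Ω)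
  (π₁ : integralClosure A L →+* Ω)
  (hπ₁ : ∀ a : A, π₁ (algebraMap A (integralClosure A L) a) = φ (θ a))
  (x₀ : integralClosure A L) (t₀ : A) (hx₀ : π₁ x₀ ^ l = φ (θ t₀))
  (ht₀ : ∀ a : A, θ a ^ l ≠ θ t₀)
  (π₂ : integralClosure A L →+* Ω)
  (hπ₂ : ∀ a : A, π₂ (algebraMap A (integralClosure A L) a) = θ a)
  (hne : RingHom.ker π₂ ≠ RingHom.ker π₁)
  {ϖ : A} (hϖ : Irreducible ϖ)

include htower hdeg hθ hπ₁ hx₀ ht₀ hπ₂ hne hϖ in
/-- **The two primes of `C`**: `P = ker π₂` (degree one), `Q = ker π₁`. -/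
theorem hyp : NormTwoPrimes.Hyp ϖ (RingHom.ker π₂) (RingHom.ker π₁) := by
  haveI := htower
  have h1 := TwoPrimes.isMaximal_liesOver_ker F L π₁
    (fun a ha => by rw [hπ₁, hθ a ha, map_zero])
  haveI := h1.1
  haveI := h1.2
  have h2 := TwoPrimes.isMaximal_liesOver_ker F L π₂ (fun a ha => by rw [hπ₂, hθ a ha])
  haveI := h2.1
  haveI := h2.2
  have hx : x₀ ^ l - algebraMap A (integralClosure A L) t₀ ∈ RingHom.ker π₁ := by
    rw [RingHom.mem_ker, map_sub, map_pow, hπ₁, hx₀, sub_self]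
  have ht : ∀ a : A, a ^ l - t₀ ∉ maximalIdeal A := by
    intro a ha
    have := hθ _ ha
    rw [map_sub, map_pow, sub_eq_zero] at this
    exact ht₀ a this
  obtain ⟨P₂, -, -, -, hpair, hmap, hsurj, -⟩ :=
    TwoPrimes.exists_second_prime_integralClosure (K := F) (L := L) hl.out hdeg
      (RingHom.ker π₁) x₀ t₀ hx ht
  have hmem : RingHom.ker π₂ ∈ (maximalIdeal A).primesOver (integralClosure A L) :=
    ⟨h2.1.isPrime, h2.2⟩
  rw [hpair] at hmem
  have hP₂ : RingHom.ker π₂ = P₂ := by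
    rcases hmem with h | h
    · exact absurd h hne
    · exact h
  rw [← hP₂] at hsurj hmap
  refine ⟨Ideal.isCoprime_of_isMaximal hne, ?_, hsurj⟩
  rw [inf_comm, ← hmap, hϖ.maximalIdeal_eq, Ideal.map_span, Set.image_singleton]

/-- a coefficient computation: the coefficient of `X ^ l` in `(X ^ l - c) * (X - 0)` vanishes
(`l ≥ 2`). -/
theorem coeff_kronecker_zero {E : Type*} [Field E] {l : ℕ} (hl : 2 ≤ l) (c : E) :
    ((X ^ l - C c) * (X - C (0 : E)) : E[X]).coeff l = 0 := by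
  obtain ⟨k, rfl⟩ : ∃ k, l = k + 1 := ⟨l - 1, by omega⟩
  rw [map_zero, sub_zero, coeff_mul_X, coeff_sub, coeff_X_pow, coeff_C,
    if_neg (by omega), if_neg (by omega), sub_zero]

include htower hdeg hθ hπ₁ hx₀ ht₀ hπ₂ hne hϖ in
/-- **Every element of `P = ker π₂` has trace in `(ϖ)`** (the other residue extension is purely
inseparable of degree `l`): from the Kronecker congruence (T3). -/
theorem trace_mem_span (hpow : ∀ b : integralClosure A L, ∃ c : A, π₁ b ^ l = φ (θ c))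
    (y : integralClosure A L) (hy : y ∈ RingHom.ker π₂) :
    Algebra.trace A (integralClosure A L) y ∈ Ideal.span {ϖ} := by
  classical
  haveI := htower
  obtain ⟨-, hfin, hfree, hrank⟩ :=
    TwoPrimes.integralClosure_structure A F L (integralClosure A L)
  haveI := hfin
  haveI := hfree
  obtain ⟨c, hc⟩ := hpow y
  have hμ : π₂ y = θ 0 := by rw [map_zero]; exact hy
  obtain ⟨q, -, hq2, hq3⟩ :=
    KummerPlace.kronecker hdeg θ hθ φ π₁ hπ₁ x₀ t₀ hx₀ ht₀ π₂ hπ₂ hne y c 0 hc hμ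
  -- `q` is the characteristic polynomial over `A`
  have hq : q = (Algebra.lmul A (integralClosure A L) y).charpoly := by
    apply Polynomial.map_injective (algebraMap A F) (IsFractionRing.injective A F)
    rw [hq2, KummerPlace.charpoly_lmul_eq_map]
  -- the trace is minus the coefficient of `X ^ l`
  have hcard : Fintype.card (Module.Free.ChooseBasisIndex A (integralClosure A L)) = l + 1 := by
    rw [← Module.finrank_eq_card_chooseBasisIndex, hrank, hdeg]
  haveI : Nonempty (Module.Free.ChooseBasisIndex A (integralClosure A L)) := by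
    rw [← Fintype.card_pos_iff, hcard]
    exact Nat.succ_pos l
  have htrace : Algebra.trace A (integralClosure A L) y = - q.coeff l := by
    rw [Algebra.trace_eq_matrix_trace (Module.Free.chooseBasis A (integralClosure A L)),
      Matrix.trace_eq_neg_charpoly_coeff, hcard, Nat.add_sub_cancel, Algebra.leftMulMatrix_apply,
      LinearMap.charpoly_toMatrix, hq]
  have hθ0 : θ (Algebra.trace A (integralClosure A L) y) = 0 := by
    rw [htrace, map_neg, ← coeff_map, hq3, map_zero, coeff_kronecker_zero hl.out.two_le, neg_zero]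
  rw [← hϖ.maximalIdeal_eq]
  exact (KummerPlace.theta_eq_zero_iff θ hθ _).1 hθ0

include htower hdeg hθ hπ₁ hx₀ ht₀ hπ₂ hne hϖ in
/-- **(NR-m) on `C`**: for `b ≡ 1` modulo `Q ^ m`, `m ≥ 1`: `N_{C/A}(b) ≡ b (1 + ϖ^{m+1} w)` modulo
`P ^ n`, for every `n`. -/
theorem norm_sub_mul_mem (hpow : ∀ b : integralClosure A L, ∃ c : A, π₁ b ^ l = φ (θ c))
    {m : ℕ} (hm : 1 ≤ m) {b : integralClosure A L} (hb : b - 1 ∈ RingHom.ker π₁ ^ m) (n : ℕ) :
    ∃ w : A, algebraMap A (integralClosure A L) (Algebra.norm A b) -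
      b * (1 + algebraMap A (integralClosure A L) (ϖ ^ (m + 1) * w)) ∈ RingHom.ker π₂ ^ n := by
  haveI := htower
  obtain ⟨-, hfin, hfree, -⟩ :=
    TwoPrimes.integralClosure_structure A F L (integralClosure A L)
  haveI := hfin
  haveI := hfree
  exact (hyp htower hdeg θ hθ φ π₁ hπ₁ x₀ t₀ hx₀ ht₀ π₂ hπ₂ hne hϖ).norm_sub_mul_mem
    (trace_mem_span htower hdeg θ hθ φ π₁ hπ₁ x₀ t₀ hx₀ ht₀ π₂ hπ₂ hne hϖ hpow) hm hb n

include htower in
/-- The norm of `C / A` computes the norm of `L / F`. -/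
theorem algebraMap_norm_eq (b : integralClosure A L) :
    algebraMap A F (Algebra.norm A b) = Algebra.norm F (b : L) := by
  haveI := htower
  obtain ⟨-, hfin, hfree, -⟩ :=
    TwoPrimes.integralClosure_structure A F L (integralClosure A L)
  haveI := hfin
  haveI := hfree
  haveI : IsLocalization (Algebra.algebraMapSubmonoid (integralClosure A L)
      (nonZeroDivisors A)) L :=
    IsIntegralClosure.isLocalization A F L (integralClosure A L)
  exact (Algebra.norm_localization A (nonZeroDivisors A) (Rₘ := F) (Sₘ := L) b).symm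

/-! ### The valuation-subring form -/

variable (V₁ V₂ : ValuationSubring L)
  (hC₂ : ∀ c : integralClosure A L, (c : L) ∈ V₂)
  (hram₂ : ∀ c : integralClosure A L, π₂ c = 0 → ∃ w ∈ V₂, (c : L) = algebraMap A L ϖ * w)

include hC₂ hram₂ in
/-- `P ^ n ⊆ ϖ ^ n V₂` (`e = 1` at the place `π₂`). -/
theorem exists_eq_pow_mul_of_mem_pow (n : ℕ) (c : integralClosure A L)
    (hc : c ∈ RingHom.ker π₂ ^ n) : ∃ u ∈ V₂, (c : L) = algebraMap A L ϖ ^ n * u := by
  induction n generalizing c with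
  | zero => exact ⟨(c : L), hC₂ c, by rw [pow_zero, one_mul]⟩
  | succ n ih =>
    rw [pow_succ] at hc
    refine Submodule.mul_induction_on hc ?_ ?_
    · intro x hx y hy
      obtain ⟨u, hu, hxu⟩ := ih x hx
      obtain ⟨v, hv, hyv⟩ := hram₂ y hy
      refine ⟨u * v, V₂.mul_mem _ _ hu hv, ?_⟩
      rw [MulMemClass.coe_mul, hxu, hyv, pow_succ]
      ring
    · intro x y ⟨u, hu, hxu⟩ ⟨v, hv, hyv⟩
      refine ⟨u + v, V₂.add_mem _ _ hu hv, ?_⟩
      rw [AddMemClass.coe_add, hxu, hyv, mul_add]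

variable (hC₁ : ∀ c : integralClosure A L, (c : L) ∈ V₁)
  (hint : ∀ x : L, x ∈ V₁ → x ∈ V₂ → IsIntegral A x)

include htower hdeg hθ hπ₁ hx₀ ht₀ hπ₂ hne hϖ hC₁ hC₂ hram₂ hint in
/-- **(NR-m), valuation-subring form.**  `b` a unit at both valuations with `b - 1 ∈ ϖ^m V₁`,
`m ≥ 1`: then `N_{L/F}(b) / b - 1 ∈ ϖ^{m+1} V₂`. -/
theorem nr_step (hpow : ∀ b : integralClosure A L, ∃ c : A, π₁ b ^ l = φ (θ c))
    {m : ℕ} (hm : 1 ≤ m) {b : L} (hb₁ : V₁.valuation b = 1) (hb₂ : V₂.valuation b = 1)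
    (hb : ∃ w ∈ V₁, b - 1 = algebraMap A L ϖ ^ m * w) :
    ∃ w ∈ V₂, algebraMap F L (Algebra.norm F b) / b - 1 = algebraMap A L ϖ ^ (m + 1) * w := by
  haveI := htower
  have H := hyp htower hdeg θ hθ φ π₁ hπ₁ x₀ t₀ hx₀ ht₀ π₂ hπ₂ hne hϖ
  have hbV₁ : b ∈ V₁ := (V₁.valuation_le_one_iff b).1 (le_of_eq hb₁)
  have hbV₂ : b ∈ V₂ := (V₂.valuation_le_one_iff b).1 (le_of_eq hb₂)
  have hb0 : b ≠ 0 := by
    intro h0
    rw [h0, map_zero] at hb₁
    exact zero_ne_one hb₁
  have hbinv : b⁻¹ ∈ V₂ := by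
    apply (V₂.valuation_le_one_iff _).1
    rw [map_inv₀, hb₂, inv_one]
  obtain ⟨w, hw, hbw⟩ := hb
  set bC : integralClosure A L := ⟨b, hint b hbV₁ hbV₂⟩ with hbC
  -- `b - 1 ∈ Q ^ m`
  obtain ⟨e, heQ, heP⟩ := H.exists_crt m m
  obtain ⟨u, hu, heu⟩ := exists_eq_pow_mul_of_mem_pow π₂ V₂ hC₂ hram₂ m (1 - e) heP
  have hxV₁ : w * ((1 - e : integralClosure A L) : L) ∈ V₁ := V₁.mul_mem _ _ hw (hC₁ _)
  have hx_eq : w * ((1 - e : integralClosure A L) : L) =
      ((bC - 1 : integralClosure A L) : L) * u := by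
    rw [heu]
    have : ((bC - 1 : integralClosure A L) : L) = b - 1 := rfl
    rw [this, hbw]
    ring
  have hxV₂ : w * ((1 - e : integralClosure A L) : L) ∈ V₂ := by
    rw [hx_eq]
    exact V₂.mul_mem _ _ (hC₂ _) hu
  set xC : integralClosure A L := ⟨_, hint _ hxV₁ hxV₂⟩ with hxC
  have hprod : (bC - 1) * (1 - e) = algebraMap A (integralClosure A L) ϖ ^ m * xC := by
    apply Subtype.ext
    have h1 : (((bC - 1) * (1 - e) : integralClosure A L) : L) =
        (b - 1) * ((1 - e : integralClosure A L) : L) := rfl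
    have h2 : ((algebraMap A (integralClosure A L) ϖ ^ m * xC : integralClosure A L) : L) =
        algebraMap A L ϖ ^ m * (w * ((1 - e : integralClosure A L) : L)) := rfl
    rw [h1, h2, hbw]
    ring
  have hbQ : bC - 1 ∈ RingHom.ker π₁ ^ m := by
    have h1 : (bC - 1) * (1 - e) ∈ RingHom.ker π₁ ^ m := by
      have h2 : (bC - 1) * (1 - e) ∈
          Ideal.span {algebraMap A (integralClosure A L) ϖ ^ m} := by
        rw [hprod]
        exact Ideal.mul_mem_right _ _ (Ideal.mem_span_singleton_self _)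
      rw [← H.pow_inf_pow] at h2
      exact h2.2
    have h3 : bC - 1 = (bC - 1) * e + (bC - 1) * (1 - e) := by ring
    rw [h3]
    exact Ideal.add_mem _ (Ideal.mul_mem_left _ _ heQ) h1
  -- the norm estimate
  obtain ⟨w₀, hw₀⟩ := norm_sub_mul_mem htower hdeg θ hθ φ π₁ hπ₁ x₀ t₀ hx₀ ht₀ π₂ hπ₂ hne hϖ hpow
    hm hbQ (m + 1)
  obtain ⟨u', hu', heu'⟩ := exists_eq_pow_mul_of_mem_pow π₂ V₂ hC₂ hram₂ (m + 1) _ hw₀
  have hN : algebraMap A L (Algebra.norm A bC) = algebraMap F L (Algebra.norm F b) := by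
    rw [IsScalarTower.algebraMap_apply A F L, algebraMap_norm_eq htower bC]
  have heq : algebraMap F L (Algebra.norm F b) -
      b * (1 + algebraMap A L (ϖ ^ (m + 1) * w₀)) = algebraMap A L ϖ ^ (m + 1) * u' := by
    rw [← hN, ← heu']
    rfl
  refine ⟨algebraMap A L w₀ + u' * b⁻¹, V₂.add_mem _ _ (hC₂ (algebraMap A _ w₀))
    (V₂.mul_mem _ _ hu' hbinv), ?_⟩
  have h4 : algebraMap F L (Algebra.norm F b) =
      b * (1 + algebraMap A L (ϖ ^ (m + 1) * w₀)) + algebraMap A L ϖ ^ (m + 1) * u' := by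
    rw [← heq]; ring
  rw [h4, map_mul, map_pow]
  field_simp
  ring

end Main

end Fermat.Agent.S33.New.NormResidueKummer
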