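/-
S33 / row 61, STEP B, block (B2), the `α`-side (helper22): **the contraction estimate (NR-m) along
`α`** at a level `(K, O)` of block E, in the valuation-subring form the ping-pong (`B3`) consumes.

`V₁ = gaussVS K (N ℓ) O` (the Gauss valuation of level `N ℓ`), `V₂ = S.V` (the second valuation).
Along `α` the valuation `V₁` has residue degree one and `V₂` is purely inseparable of degree `ℓ` over
the Gauss valuation of level `N`.  For `b` a unit at both with `b - 1 ∈ ϖ^m V₂`, `m ≥ 1`: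

  `α (N_α b) / b - 1 ∈ ϖ^{m+1} V₁`.

Proof: `NormResidueKummer.nr_step` for the integral closure `C_α` of `α (G_N)`, `π₁ = ev|C_α`,
`π₂ = θ_{Nℓ}|C_α`, with the data of `N4F/E/AlphaSide` and `P4/NormResidue` §α.
-/
import Mathlib
import Fermat.Agent.P4.NormResidue
import Fermat.Agent.S33.New.NormResidueKummer

set_option autoImplicit false
set_option linter.unusedSectionVars false
set_option linter.style.haveILetI false
set_option linter.style.longLine false

open ModularCurve AlgebraicCurve Polynomial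
open Fermat.Agent.S28.Gauss Fermat.Agent.N4.Setting Fermat.Agent.N4.FibreEmbedding
open Fermat.Agent.N4F.E.DegreeLevelRaise Fermat.Agent.N4F.E.GaussDVR
open Fermat.Agent.N4F.E Fermat.Agent.P3G.SecondValuation

noncomputable section

namespace Fermat.Agent.S33.New.NormResidueAlpha

open Fermat.Agent.N4F.E.AlphaSide Fermat.Agent.N4F.E.KummerNorm Fermat.Agent.P4.NormResidue

variable (K : Type) [Field K] [CharZero K] (N : ℕ) [NeZero N] (ℓ : ℕ) [Fact ℓ.Prime]
  (O : Subring K) [IsDiscreteValuationRing ↥O] [IsFractionRing ↥O K]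

set_option quotPrecheck false in
local notation "κ" => IsLocalRing.ResidueField ↥O

attribute [local instance] algFL algGL isScalarTower_GFL

set_option synthInstance.maxHeartbeats 400000

variable (S : SecondVal K N ℓ O) [CharP (IsLocalRing.ResidueField ↥O) ℓ]
  (ι : K →+* ℂ) (hℓN : ¬ ℓ ∣ N)
  (hA2 : ∀ x : gaussSubalgebra K N O,
    theta K N O x ∈ modularFunctionFieldFullC (IsLocalRing.ResidueField ↥O) N)

/-- the uniformiser of `G_N`, seen in `FF K (N ℓ)` through `α`, is the constant `ϖ` -/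
theorem algebraMap_unif (ϖ : ↥O) :
    algebraMap ↥(gaussSubalgebra K N O) (FF K (N * ℓ)) (unif K N O ϖ) =
      algebraMap K (FF K (N * ℓ)) (ϖ : K) := by
  have h1 : algebraMap ↥(gaussSubalgebra K N O) (FF K (N * ℓ)) (unif K N O ϖ) =
      alphaF K N ℓ ((unif K N O ϖ : ↥(gaussSubalgebra K N O)) : FF K N) := rfl
  rw [h1]
  exact (alphaF K N ℓ).commutes _

set_option maxHeartbeats 1600000 in
include S ι hℓN hA2 in
/-- **(NR-m) along `α`**, valuation-subring form. -/
theorem nr_alpha {ϖ : ↥O} (hϖ : Irreducible ϖ) {m : ℕ} (hm : 1 ≤ m) {b : FF K (N * ℓ)}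
    (hb₁ : (gaussVS K (N * ℓ) O).valuation b = 1) (hb₂ : S.V.valuation b = 1)
    (hb : ∃ w ∈ S.V, b - 1 = algebraMap K (FF K (N * ℓ)) (ϖ : K) ^ m * w) :
    ∃ w ∈ gaussVS K (N * ℓ) O, alphaF K N ℓ (Algebra.norm (FF K N) b) / b - 1 =
      algebraMap K (FF K (N * ℓ)) (ϖ : K) ^ (m + 1) * w := by
  haveI : FiniteDimensional (FF K N) (FF K (N * ℓ)) := finiteDimensional_alpha K N ℓ ι hℓN
  haveI := charP_laurent K ℓ O
  have hB := betaOut K N ℓ O S
  have key := NormResidueKummer.nr_step (A := ↥(gaussSubalgebra K N O)) (F := FF K N)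
    (L := FF K (N * ℓ)) (IsScalarTower.of_algebraMap_eq fun _ => rfl) (finrank_alpha K N ℓ ι hℓN)
    (theta K N O) (theta_mem_maximalIdeal K N O) (qExpand κ ℓ) (pi1 K N ℓ O hB)
    (pi1_algebraMap K N ℓ O hB) (x0 K N ℓ O) (t0 K N O) (hx0 K N ℓ O hB) (ht0 K N ℓ O)
    (pi2 K N ℓ O) (pi2_algebraMap K N ℓ O) (ker_ne K N ℓ O hB)
    (irreducible_unif K N O hϖ) S.V (gaussVS K (N * ℓ) O)
    (fun c => mem_gauss_of_mem_integralClosure K N ℓ O c.2)
    (by
      intro c hc
      obtain ⟨y, hy⟩ := exists_eq_unif_mul K (N * ℓ) O hϖ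
        ⟨(c : FF K (N * ℓ)), mem_gauss_of_mem_integralClosure K N ℓ O c.2⟩ hc
      refine ⟨(y : FF K (N * ℓ)), y.2, ?_⟩
      rw [algebraMap_unif]
      exact congrArg Subtype.val hy)
    (mem_secondVal_of_mem_closure K N ℓ O S)
    (fun x hx₁ hx₂ => mem_closure_alpha K N ℓ O S ι hℓN hx₂ hx₁)
    (fun b => by
      obtain ⟨c, -, hc⟩ := exists_pi1_pow_eq K N ℓ O S hA2 b
      exact ⟨c, hc⟩)
    hm hb₂ hb₁
    (by rw [algebraMap_unif]; exact hb)
  rw [algebraMap_unif] at key
  exact key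

end Fermat.Agent.S33.New.NormResidueAlpha
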