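/-
S33 / row 61, STEP B, block (B2), the `β`-side (helper22): **the contraction estimate (NR-m) along
`β`** at a level `(K, O)` of block E, in the valuation-subring form the ping-pong (`B3`) consumes.

`V₁ = gaussVS K (N ℓ) O` (the Gauss valuation of level `N ℓ`), `V₂ = S.V` (the second valuation).
Along `β` the valuation `V₂` has residue degree one and `V₁` is purely inseparable of degree `ℓ` over
the Gauss valuation of level `N`.  For `b` a unit at both with `b - 1 ∈ ϖ^m V₁`, `m ≥ 1`: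

  `β (N_β b) / b - 1 ∈ ϖ^{m+1} V₂`.

Proof: `NormResidueKummer.nr_step` (abstract (NR-m) for the integral closure `C_β` of `β (G_N)`,
`π₁ = θ_{Nℓ}`, `π₂ = ev`) with the data of `N4F/E/BetaSide` and `P4/NormResidue` §β.
-/
import Mathlib
import Fermat.Agent.P4.NormResidue
import Fermat.Agent.S33.New.NormResidueKummer

set_option autoImplicit false
set_option linter.unusedSectionVars false
set_option linter.style.haveILetI false
set_option linter.style.longLine false

open ModularCurve AlgebraicCurve Polynomial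
open Fermat.Agent.S28.Gauss Fermat.Agent.N4.Setting Fermat.Agent.N4.FibreEmbedding
open Fermat.Agent.N4F.E.DegreeLevelRaise Fermat.Agent.N4F.E.GaussDVR
open Fermat.Agent.N4F.E Fermat.Agent.P3G.SecondValuation

noncomputable section

namespace Fermat.Agent.S33.New.NormResidueBeta

open Fermat.Agent.N4F.E.BetaSide Fermat.Agent.N4F.E.KummerNorm Fermat.Agent.P4.NormResidue

variable (K : Type) [Field K] [CharZero K] (N : ℕ) [NeZero N] (ℓ : ℕ) [hℓ : Fact ℓ.Prime]
  (O : Subring K) [IsDiscreteValuationRing ↥O] [IsFractionRing ↥O K]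

set_option quotPrecheck false in
local notation "κ" => IsLocalRing.ResidueField ↥O

attribute [local instance] BetaSide.algBeta BetaSide.algGL BetaSide.algGC BetaSide.commRingCβ

set_option synthInstance.maxHeartbeats 400000

variable (S : SecondVal K N ℓ O) [CharP (IsLocalRing.ResidueField ↥O) ℓ]
  (ι : K →+* ℂ) (hℓN : ¬ ℓ ∣ N)
  (hA2 : ∀ x : ↥(gaussSubalgebra K N O),
    theta K N O x ∈ modularFunctionFieldFullC (IsLocalRing.ResidueField ↥O) N)

include S ι hℓN hA2 in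
/-- `V₁` is purely inseparable along `β`: the `ℓ`-th power of a Gauss residue of `C_β` comes from
level `N` through `x ↦ x(q^ℓ)`. -/
theorem exists_pi₁_pow_eq (b : Cβ K N ℓ O) :
    ∃ c : ↥(gaussSubalgebra K N O), pi₁ K N ℓ O b ^ ℓ = qExpand κ ℓ (theta K N O c) := by
  obtain ⟨a, ha⟩ := exists_theta_eq_theta K N ℓ O S ι hℓN (Cβ_le_gauss K N ℓ O b)
    (mem_secondVal_of_mem_Cβ K N ℓ O S b)
  obtain ⟨c, hc⟩ := GaussResidue.theta_surjective K N O
    (GaussResidueQ.coeffMap_frobenius_mem_full κ N ℓ (hA2 a))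
  refine ⟨c, ?_⟩
  rw [pi₁_apply, ha, hc]
  exact pow_eq_qExpand_frob K ℓ O _

/-- the uniformiser of `G_N`, seen in `FF K (N ℓ)` through `β`, is the constant `ϖ` -/
theorem algebraMap_unif (ϖ : ↥O) :
    algebraMap ↥(gaussSubalgebra K N O) (FF K (N * ℓ)) (unif K N O ϖ) =
      algebraMap K (FF K (N * ℓ)) (ϖ : K) := by
  have h1 : algebraMap ↥(gaussSubalgebra K N O) (FF K (N * ℓ)) (unif K N O ϖ) =
      betaF K N ℓ ((unif K N O ϖ : ↥(gaussSubalgebra K N O)) : FF K N) := rfl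
  rw [h1]
  exact (betaF K N ℓ).commutes _

set_option maxHeartbeats 1600000 in
include S ι hℓN hA2 in
/-- **(NR-m) along `β`**, valuation-subring form. -/
theorem nr_beta {ϖ : ↥O} (hϖ : Irreducible ϖ) {m : ℕ} (hm : 1 ≤ m) {b : FF K (N * ℓ)}
    (hb₁ : (gaussVS K (N * ℓ) O).valuation b = 1) (hb₂ : S.V.valuation b = 1)
    (hb : ∃ w ∈ gaussVS K (N * ℓ) O, b - 1 = algebraMap K (FF K (N * ℓ)) (ϖ : K) ^ m * w) :
    ∃ w ∈ S.V, betaF K N ℓ (Algebra.norm (FF K N) b) / b - 1 =
      algebraMap K (FF K (N * ℓ)) (ϖ : K) ^ (m + 1) * w := by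
  haveI := finiteDimensional_beta K N ℓ ι hℓN
  haveI : Algebra.IsSeparable (FF K N) (FF K (N * ℓ)) := inferInstance
  haveI : CharP (LaurentSeries κ) ℓ := charP_laurent K ℓ O
  have key := NormResidueKummer.nr_step (A := ↥(gaussSubalgebra K N O)) (F := FF K N)
    (L := FF K (N * ℓ)) inferInstance (finrank_beta K N ℓ ι hℓN) (theta K N O)
    (theta_maximalIdeal K N O) (qExpand κ ℓ) (pi₁ K N ℓ O) (pi₁_algebraMap K N ℓ O)
    (x₀ K N ℓ O) (t₀ K N O) (pi₁_x₀_pow K N ℓ O) (theta_pow_ne K N ℓ O)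
    (evβ K N ℓ O S) (evβ_algebraMap K N ℓ O S) (ker_evβ_ne K N ℓ O S)
    (irreducible_unif K N O hϖ) (gaussVS K (N * ℓ) O) S.V
    (mem_secondVal_of_mem_Cβ K N ℓ O S)
    (by
      intro c hc
      have hcV : (c : FF K (N * ℓ)) ∈ S.V := mem_secondVal_of_mem_Cβ K N ℓ O S c
      have h3 := S.ram_one ϖ hϖ (c : FF K (N * ℓ)) ((S.ev_eq_zero_iff ⟨_, hcV⟩).1 hc)
      refine ⟨_, h3, ?_⟩
      rw [algebraMap_unif]
      have hϖK : ((ϖ : ↥O) : K) ≠ 0 := fun h0 => hϖ.ne_zero (Subtype.ext h0)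
      have hϖF : algebraMap K (FF K (N * ℓ)) (ϖ : K) ≠ 0 := by
        rw [Ne, map_eq_zero]
        exact hϖK
      field_simp)
    (Cβ_le_gauss K N ℓ O)
    (fun x hx₁ hx₂ => mem_Cβ K N ℓ O S hx₁ hx₂)
    (exists_pi₁_pow_eq K N ℓ O S ι hℓN hA2) hm hb₁ hb₂
    (by rw [algebraMap_unif]; exact hb)
  rw [algebraMap_unif] at key
  exact key

end Fermat.Agent.S33.New.NormResidueBeta
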