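/-
S33 / row 61, STEP B, block (B2) at a good level, `α`-side (helper22): **the contraction estimate
(NR-m) for the level norm `normAlphaK`** in the shape consumed by the abstract ping-pong
(`L/PingPongAbs`, helper10): `V₁ = gaussVS (Lvl K) (M q) O_K`, `V₂ = S₂.V`, `ϖ` a uniformiser of
`O_K = baseRing A K`.

* `nr_alphaK` : `b` a unit at both, `b - 1 ∈ ϖ^m V₂`, `m ≥ 1` ⟹ `α (N_α b) / b - 1 ∈ ϖ^{m+1} V₁`.

(The `β`-side is `New/NormResidueLevel.nr_betaK`.)
-/
import Mathlib
import Fermat.Agent.S33.New.NormResidueAlpha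
import Fermat.Agent.P4.FrobLevelStep
import Fermat.Agent.P3G.SecondValBridge
import Fermat.Agent.P3G.GammaV2
import Fermat.Agent.P3G.Assembly.LevelStep
import Fermat.Agent.N4F.C.LevelStatements
import Fermat.Agent.N4F.C.ChartReduction
import Fermat.Agent.N4F.E.NormReduction
import Fermat.Agent.N4F.E.GaussResidue

set_option autoImplicit false
set_option linter.unusedSectionVars false
set_option linter.style.haveILetI false
set_option linter.style.longLine false

open ModularCurve AlgebraicCurve IntermediateField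

noncomputable section

namespace Fermat.Agent.S33.New.NormResidueLevelAlpha

open Fermat.Agent.N4.Setting Fermat.Agent.N4.Chart Fermat.Agent.N4.BigDVR
  Fermat.Agent.P3G.Assembly.LevelStep
  Fermat.Agent.N4F.C Fermat.Agent.N4F.C.Levels Fermat.Agent.N4F.C.Galois
  Fermat.Agent.N4F.E.GaussDVR Fermat.Agent.N4F.E.DegreeLevelRaise
  Fermat.Agent.P4.FrobLevelStep

local notation "Qbar" => AlgebraicClosure ℚ
local notation "Γ" => (AlgebraicClosure ℚ ≃ₐ[ℚ] AlgebraicClosure ℚ)

set_option maxHeartbeats 1600000 in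
set_option synthInstance.maxHeartbeats 400000 in
/-- **(NR-m) along `α` at a good level**, for the level norm `normAlphaK`. -/
theorem nr_alphaK (M q : ℕ) [NeZero M] [Fact q.Prime] (hqM : ¬ q ∣ M)
    (A : ValuationSubring Qbar) (hA : A.LiesOverPrime q)
    (K : IntermediateField ℚ Qbar) (hK : IsGoodLevel A q K)
    [IsDiscreteValuationRing ↥(baseRing A K)] [IsFractionRing ↥(baseRing A K) (Lvl K)]
    (S₂ : Fermat.Agent.P3G.FibreTwo.SecondVal (Lvl K) M q (baseRing A K))
    {ϖ : ↥(baseRing A K)} (hϖ : Irreducible ϖ) {m : ℕ} (hm : 1 ≤ m)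
    {b : FF (Lvl K) (M * q)}
    (hb₁ : (gaussVS (Lvl K) (M * q) (baseRing A K)).valuation b = 1)
    (hb₂ : S₂.V.valuation b = 1)
    (hb : ∃ w ∈ S₂.V,
      b - 1 = algebraMap ↥(baseRing A K) (FF (Lvl K) (M * q)) ϖ ^ m * w) :
    ∃ w ∈ gaussVS (Lvl K) (M * q) (baseRing A K),
      alphaF (Lvl K) M q (normAlphaK K M q b) / b - 1 =
        algebraMap ↥(baseRing A K) (FF (Lvl K) (M * q)) ϖ ^ (m + 1) * w := by
  have hq : q.Prime := Fact.out
  haveI : IsAlgClosed (IsLocalRing.ResidueField ↥(baseRing A K)) := hK.algClosed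
  have hGB : GoodBase (Lvl K) M (baseRing A K) q := ⟨hq, hqM, inferInstance, hK.not_unit⟩
  haveI : CharP (IsLocalRing.ResidueField ↥(baseRing A K)) q :=
    Fermat.Agent.N4F.E.GaussResidue.charP_residueField (Lvl K) M (baseRing A K) hGB
  have hstar := LevelStatements.starStatement_lvl hq hA K hGB hK.roots
  have hred : PGI.RedMem (Lvl K) M (baseRing A K) := fun s hs =>
    ChartReduction.red_mem_full (Lvl K) M (baseRing A K) hGB hstar s hs
  have hA2 := Fermat.Agent.N4F.E.NormReduction.theta_mem_full (Lvl K) M (baseRing A K) hred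
  exact NormResidueAlpha.nr_alpha (Lvl K) M q (baseRing A K)
    (Fermat.Agent.P3G.SecondValBridge.ofTwo S₂) (Fermat.Agent.P3G.GammaV2.lvlToComplex K) hqM hA2
    hϖ hm hb₁ hb₂ hb

end Fermat.Agent.S33.New.NormResidueLevelAlpha
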