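/-
S33, `moonshots` row 61, input of STEP L (helper24): **the level data of P3G, uniformly in the
inertia element.**

`P3G.Assembly.PointsFinal.levelPointsAt_mul` provides, for ONE inertia element `σ` at a time, the
vertical data `(ϖ, W, V₁, V₂)` with `VertLevel` and (Loc-P) on both charts of a good level.  Row 61
needs the same data for two inertia elements `σ'` and `τ` simultaneously.  The data do not depend on
`σ` (only the four fields `val₁ val₂ triv₁ triv₂` and the stability clause of `LocPChart` do), so the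
proof of `levelPointsAt_mul` gives verbatim:

`levelPointsUniform_mul M q hqM` : for every place `A | q` (`q ∤ M`; `q` = the residue characteristic,
no other prime is involved) and every good level `K` there are `(ϖ, W, V₁, V₂)` such that for EVERY
`σ ∈ I_A`: `VertLevel … σ …`, `LocPChart … σ … j`, `LocPChart … σ … j⁻¹`.
-/
import Mathlib
import Fermat.Agent.P3G.Assembly.PointsFinal

set_option autoImplicit false
set_option linter.unusedSectionVars false
set_option linter.dupNamespace false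
set_option linter.style.haveILetI false
set_option linter.style.longLine false

open ModularCurve AlgebraicCurve IntermediateField

noncomputable section

namespace Fermat.Agent.S33.New.PointsUniform

open Fermat.Agent.N4.Setting Fermat.Agent.N4.Chart Fermat.Agent.N4.S18Glue Fermat.Agent.N4.BigDVR
  Fermat.Agent.P3G.Cover.Lift Fermat.Agent.P3G.Cover.OfValuations Fermat.Agent.P3G.Assembly.PowCover
  Fermat.Agent.P3G.Assembly.StepOfLevel Fermat.Agent.P3G.Assembly.LevelStep
  Fermat.Agent.P3G.Assembly.LevelGeomOfPoints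
  Fermat.Agent.P3G.Gamma Fermat.Agent.P3G.GammaAut
  Fermat.Agent.N4F.C Fermat.Agent.N4F.C.Levels Fermat.Agent.N4F.C.Galois
  Fermat.Agent.N4F.E.GaussDVR

local notation "Qbar" => AlgebraicClosure ℚ
local notation "Γ" => (AlgebraicClosure ℚ ≃ₐ[ℚ] AlgebraicClosure ℚ)

/-- **The level data, uniformly in the inertia element**: at a good level the vertical data
`(ϖ, W, V₁, V₂)` serve every `σ ∈ I_A`. -/
def LevelPointsUniformAt (N : ℕ) [NeZero N] (q : ℕ) : Prop :=
  ∀ A : ValuationSubring Qbar, A.LiesOverPrime q →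
    ∀ (K : IntermediateField ℚ Qbar) (hK : IsGoodLevel A q K),
      ∃ (ϖ : ↥(baseRing A K)) (W : Subring (FF (Lvl K) N)) (_ : IsIntegrallyClosed W)
        (_ : IsFractionRing W (FF (Lvl K) N)) (V₁ V₂ : ValuationSubring (FF (Lvl K) N)),
        ∀ σ ∈ A.inertiaSubgroupIn ℚ,
          VertLevel A K hK.stable N σ ϖ W V₁ V₂ ∧
          LocPChart A K hK.stable N σ ϖ (jF (Lvl K) N) ∧
          LocPChart A K hK.stable N σ ϖ (jF (Lvl K) N)⁻¹

set_option maxHeartbeats 1600000 in
set_option synthInstance.maxHeartbeats 400000 in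
/-- **The uniform level data at level `M q`, `q ∤ M`** (proof of `PointsFinal.levelPointsAt_mul`
with the inertia element introduced last). -/
theorem levelPointsUniform_mul (M q : ℕ) [NeZero M] [Fact q.Prime] (hqM : ¬ q ∣ M) :
    LevelPointsUniformAt (M * q) q := by
  have hq : q.Prime := Fact.out
  intro A hA K hK
  haveI := hK.dvr
  haveI : IsFractionRing ↥(baseRing A K) (Lvl K) := isFractionRing_trSubring A K
  haveI : IsAlgClosed (IsLocalRing.ResidueField ↥(baseRing A K)) := hK.algClosed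
  have hGB : GoodBase (Lvl K) M (baseRing A K) q := ⟨hq, hqM, inferInstance, hK.not_unit⟩
  haveI : CharP (IsLocalRing.ResidueField ↥(baseRing A K)) q :=
    Fermat.Agent.N4F.E.GaussResidue.charP_residueField (Lvl K) M (baseRing A K) hGB
  haveI : PerfectRing (IsLocalRing.ResidueField ↥(baseRing A K)) q := inferInstance
  have hstar := LevelStatements.starStatement_lvl hq hA K hGB hK.roots
  have hsmooth := LevelStatements.smoothStatement_lvl hq hA hqM K hGB hK.roots
  have hprime := hstar.1.isPrime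
  have hprimeInf := hstar.2.isPrime
  have hred : PGI.RedMem (Lvl K) M (baseRing A K) := fun s hs =>
    ChartReduction.red_mem_full (Lvl K) M (baseRing A K) hGB hstar s hs
  have hA2 := Fermat.Agent.N4F.E.NormReduction.theta_mem_full (Lvl K) M (baseRing A K) hred
  have hN : IsUnit ((M : ℕ) : ↥(baseRing A K)) :=
    Fermat.Agent.P3G.GammaUnits.isUnit_natCast_baseRing K hq hA hqM
  obtain ⟨S₂⟩ := Fermat.Agent.P3G.FibreTwo.nonempty_secondVal (Lvl K) M q (baseRing A K)
    (Fermat.Agent.P3G.GammaV2.lvlToComplex K) hqM hprime hA2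
  obtain ⟨ϖ, hϖ⟩ := IsDiscreteValuationRing.exists_irreducible ↥(baseRing A K)
  have hB := Fermat.Agent.P3G.FibreIdent.betaOut_of_secondVal (Lvl K) M q (baseRing A K) S₂
  have hWeq := Fermat.Agent.P3G.FibreSatBridge.W_eq_iInf (Lvl K) M q (baseRing A K)
    (Fermat.Agent.P3G.GammaV2.lvlToComplex K) hqM hprime hB S₂
  haveI := Fermat.Agent.N4.ModPolySetting.finiteDimensional_FF (Lvl K) (M * q)
  haveI : IsFractionRing ↥(Rfin (Lvl K) (M * q) (baseRing A K)) (FF (Lvl K) (M * q)) :=
    Fermat.Agent.N4.Cover.Main.isFractionRing_chartAlg (O := ↥(baseRing A K)) (K₀ := Lvl K)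
      (jF (Lvl K) (M * q)) (Fermat.Agent.N4.FFAlgebraic.transcendental_jF (Lvl K) (M * q))
  have iFR : IsFractionRing ↥(Fermat.Agent.P3G.FibreSatBridge.W (Lvl K) M q (baseRing A K) S₂)
      (FF (Lvl K) (M * q)) := by
    rw [hWeq]
    exact isFractionRing_iInfSubring (R := ↥(Rfin (Lvl K) (M * q) (baseRing A K))) _
      (Fermat.Agent.P3G.FibreSat.Rfin_le_Vpair (Lvl K) M q (baseRing A K)
        (Fermat.Agent.P3G.GammaV2.lvlToComplex K) hqM hprime hB)
  have iIC : IsIntegrallyClosed
      ↥(Fermat.Agent.P3G.FibreSatBridge.W (Lvl K) M q (baseRing A K) S₂) := by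
    rw [hWeq]
    exact isIntegrallyClosed_iInfSubring (R := ↥(Rfin (Lvl K) (M * q) (baseRing A K))) _
      (Fermat.Agent.P3G.FibreSat.Rfin_le_Vpair (Lvl K) M q (baseRing A K)
        (Fermat.Agent.P3G.GammaV2.lvlToComplex K) hqM hprime hB)
  refine ⟨ϖ, _, iIC, iFR, gaussVS (Lvl K) (M * q) (baseRing A K), S₂.V, fun σ hσ => ?_⟩
  have hσD : σ ∈ A.decompositionSubgroup ℚ := mem_decompositionSubgroup_of_mem_inertia hσ
  have hV : VertLevel A K hK.stable (M * q) σ ϖ
      (Fermat.Agent.P3G.FibreSatBridge.W (Lvl K) M q (baseRing A K) S₂)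
      (gaussVS (Lvl K) (M * q) (baseRing A K)) S₂.V :=
    ⟨hϖ,
      Fermat.Agent.P3G.FibreSatBridge.twoVal (Lvl K) M q (baseRing A K)
        (Fermat.Agent.P3G.GammaV2.lvlToComplex K) hqM hprime hB S₂ hϖ,
      Fermat.Agent.P3G.FibreSatBridge.semiP (Lvl K) M q (baseRing A K)
        (Fermat.Agent.P3G.GammaV2.lvlToComplex K) hqM hprime hB S₂ hϖ,
      Fermat.Agent.P3G.FibreSatBridge.semiM (Lvl K) M q (baseRing A K)
        (Fermat.Agent.P3G.GammaV2.lvlToComplex K) hqM hprime hB S₂ hprimeInf hϖ,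
      fun x => Fermat.Agent.P3G.GammaGauss.valuation_levelFF_gaussVS K hK.stable (M * q) hσD x,
      fun x => Fermat.Agent.P3G.GammaV2.valuation_levelFF_secondVal K hK.stable M q S₂ hqM hσD x,
      Fermat.Agent.P3G.GammaGauss.trivialOnResidue_gaussVS K hK.stable (M * q) hσ,
      Fermat.Agent.P3G.GammaV2.trivialOnResidue_secondVal K hK.stable M q S₂ hσ⟩
  exact ⟨hV,
    Fermat.Agent.G.LocPChartGlue.locPChart_fin A K hK.stable (M * q) hσD hV
      (Fermat.Agent.P3G.TwoComponentsFinal.locPRat_fin (Lvl K) M q (baseRing A K) hN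
        (Fermat.Agent.P3G.GammaV2.lvlToComplex K) hqM hprime hsmooth.1 hA2 hϖ),
    Fermat.Agent.G.LocPChartGlue.locPChart_inf A K hK.stable (M * q) hσD hV
      (Fermat.Agent.P3G.TwoComponentsInfFinal.locPRat_inf (Lvl K) M q (baseRing A K) hN
        (Fermat.Agent.P3G.GammaV2.lvlToComplex K) hqM hprime hprimeInf hsmooth.2 hA2 hϖ)⟩

/-- The uniform level data at every level `N'` with `q ∥ N'`. -/
theorem levelPointsUniform {N' : ℕ} [NeZero N'] {q : ℕ} (hq : q.Prime) (hqN : q ∣ N')
    (hq2 : ¬ q ^ 2 ∣ N') : LevelPointsUniformAt N' q := by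
  obtain ⟨M, hM⟩ := hqN
  rw [mul_comm] at hM
  subst hM
  haveI : Fact q.Prime := ⟨hq⟩
  have hM0 : M ≠ 0 := by
    rintro rfl
    exact NeZero.ne (0 * q) (zero_mul q)
  haveI : NeZero M := ⟨hM0⟩
  have hqM : ¬ q ∣ M := by
    rintro ⟨c, rfl⟩
    exact hq2 ⟨c, by ring⟩
  exact levelPointsUniform_mul M q hqM

/-- The one-element form of P3G follows. -/
theorem levelPointsAt_of_uniform {N : ℕ} [NeZero N] {q : ℕ} (h : LevelPointsUniformAt N q) :
    LevelPointsAt N q := by
  intro A hA σ hσ
  refine ⟨⊥, inferInstance, fun K hK _ => ?_⟩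
  obtain ⟨ϖ, W, i1, i2, V₁, V₂, hall⟩ := h A hA K hK
  exact ⟨ϖ, W, i1, i2, V₁, V₂, hall σ hσ⟩

end Fermat.Agent.S33.New.PointsUniform
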