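/-
S33, row 61 re-cut, block (EQV) (helper23): the two degeneracy push-forwards
`α_*, β_* : J_0(N q) → J_0(N)` of `P3G/AuxPrime` and `P4/Push`, restricted to the `p^M`-torsion in
the vocabulary `Tors`/`torsAct` of the frozen S19 (`S19/Abs/Torsion`), together with their
additivity (they are `→+`) and their equivariance for `torsAct`.

* `alphaTors N q p M, betaTors N q p M : Tors (N * q) p M →+ Tors N p M`;
* `coe_alphaTors`, `coe_betaTors` : the underlying point is `alphaPush N q y`, `betaPush N q y`;
* `alphaTors_torsAct`, `betaTors_torsAct` : equivariance;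
* `alphaTors_eq_zero_iff`, `betaTors_eq_zero_iff`, `mem_newPart_iff_tors` : the common kernel is
  `P4.Push.newPart`;
* `fsum`-form of the equivariance, for group-ring elements `a : Γ →₀ ℤ`, is in
  `alphaTors_fsum`/`betaTors_fsum` (vocabulary of `S32/Carayol/RegEmbed.fsum`).
-/
import Mathlib
import Fermat.Agent.P4.Push
import Fermat.Agent.S19.Abs.Torsion
import Fermat.Agent.S32.Carayol.RegEmbed

set_option autoImplicit false

open ModularCurve

namespace Fermat.Agent.S33.New.TorsPush

open Fermat.Agent.S19.Abs Fermat.Agent.P3G.AuxPrime Fermat.Agent.P4.Push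

local notation "Γ" => (AlgebraicClosure ℚ ≃ₐ[ℚ] AlgebraicClosure ℚ)

variable (N q : ℕ) [NeZero N] [NeZero q] (p M : ℕ)

/-- restriction of an additive map to the `p^M`-torsion -/
noncomputable def torsMap (f : JZero (N * q) →+ JZero N) : Tors (N * q) p M →+ Tors N p M where
  toFun y := ⟨f (y : JZero (N * q)), by
    have hy := (Submodule.mem_torsionBy_iff _ _).mp y.2
    rw [Submodule.mem_torsionBy_iff, ← map_zsmul, hy, map_zero]⟩
  map_zero' := Subtype.ext (map_zero f)
  map_add' x y := Subtype.ext (map_add f _ _)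

omit [NeZero N] [NeZero q] in
@[simp] theorem coe_torsMap (f : JZero (N * q) →+ JZero N) (y : Tors (N * q) p M) :
    ((torsMap N q p M f y : Tors N p M) : JZero N) = f (y : JZero (N * q)) := rfl

/-- `α_*` on the `p^M`-torsion -/
noncomputable def alphaTors : Tors (N * q) p M →+ Tors N p M := torsMap N q p M (alphaPush N q)

/-- `β_*` on the `p^M`-torsion -/
noncomputable def betaTors : Tors (N * q) p M →+ Tors N p M := torsMap N q p M (betaPush N q)

@[simp] theorem coe_alphaTors (y : Tors (N * q) p M) :
    ((alphaTors N q p M y : Tors N p M) : JZero N) = alphaPush N q (y : JZero (N * q)) := rfl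

@[simp] theorem coe_betaTors (y : Tors (N * q) p M) :
    ((betaTors N q p M y : Tors N p M) : JZero N) = betaPush N q (y : JZero (N * q)) := rfl

/-- `α_*` is equivariant for the Galois action on the torsion -/
theorem alphaTors_torsAct (σ : Γ) (y : Tors (N * q) p M) :
    alphaTors N q p M (torsAct (N * q) p M σ y) = torsAct N p M σ (alphaTors N q p M y) :=
  Subtype.ext (alphaPush_smul N q σ (y : JZero (N * q)))

/-- `β_*` is equivariant for the Galois action on the torsion -/
theorem betaTors_torsAct (σ : Γ) (y : Tors (N * q) p M) :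
    betaTors N q p M (torsAct (N * q) p M σ y) = torsAct N p M σ (betaTors N q p M y) :=
  Subtype.ext (betaPush_smul N q σ (y : JZero (N * q)))

theorem alphaTors_eq_zero_iff (y : Tors (N * q) p M) :
    alphaTors N q p M y = 0 ↔ alphaPush N q (y : JZero (N * q)) = 0 := by
  rw [Subtype.ext_iff]
  rfl

theorem betaTors_eq_zero_iff (y : Tors (N * q) p M) :
    betaTors N q p M y = 0 ↔ betaPush N q (y : JZero (N * q)) = 0 := by
  rw [Subtype.ext_iff]
  rfl

/-- the common kernel of `α_*`, `β_*` on the torsion is the `q`-new part of `P4/Push` -/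
theorem mem_newPart_iff_tors (y : Tors (N * q) p M) :
    (y : JZero (N * q)) ∈ newPart N q ↔ alphaTors N q p M y = 0 ∧ betaTors N q p M y = 0 := by
  rw [alphaTors_eq_zero_iff, betaTors_eq_zero_iff]
  exact mem_newPart_iff

/-! ### Group-ring form -/

open Fermat.Agent.S32.Carayol.RegEmbed in
/-- an additive map intertwining two actions (plain functions) intertwines the formal sums -/
theorem map_fsum {G : Type*} [Group G] {Z Z' : Type*} [AddCommGroup Z] [AddCommGroup Z']
    {act : G → Z → Z} {act' : G → Z' → Z'} (f : Z →+ Z')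
    (hf : ∀ g z, f (act g z) = act' g (f z)) (z : Z) (a : G →₀ ℤ) :
    f (fsum act z a) = fsum act' (f z) a := by
  induction a using Finsupp.induction_linear with
  | zero => simp
  | add a b ha hb => rw [map_add, map_add, map_add, ha, hb]
  | single g n => rw [fsum_single, fsum_single, map_zsmul, hf]

open Fermat.Agent.S32.Carayol.RegEmbed in
/-- `α_*(a · y) = a · α_* y` for `a ∈ ℤ[Γ]` -/
theorem alphaTors_fsum (y : Tors (N * q) p M) (a : Γ →₀ ℤ) :
    alphaTors N q p M (fsum (torsAct (N * q) p M) y a)
      = fsum (torsAct N p M) (alphaTors N q p M y) a :=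
  map_fsum (alphaTors N q p M) (alphaTors_torsAct N q p M) y a

open Fermat.Agent.S32.Carayol.RegEmbed in
/-- `β_*(a · y) = a · β_* y` for `a ∈ ℤ[Γ]` -/
theorem betaTors_fsum (y : Tors (N * q) p M) (a : Γ →₀ ℤ) :
    betaTors N q p M (fsum (torsAct (N * q) p M) y a)
      = fsum (torsAct N p M) (betaTors N q p M y) a :=
  map_fsum (betaTors N q p M) (betaTors_torsAct N q p M) y a

open Fermat.Agent.S32.Carayol.RegEmbed in
/-- **(EQV), consumer form**: if `a ∈ ℤ[Γ]` kills `J_0(N)[p^M]` then `a · y` lies in the `q`-new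
part of `J_0(N q)` for every `y ∈ J_0(N q)[p^M]`. -/
theorem fsum_mem_newPart (a : Γ →₀ ℤ) (ha : ∀ z : Tors N p M, fsum (torsAct N p M) z a = 0)
    (y : Tors (N * q) p M) :
    ((fsum (torsAct (N * q) p M) y a : Tors (N * q) p M) : JZero (N * q)) ∈ newPart N q := by
  rw [mem_newPart_iff_tors, alphaTors_fsum, betaTors_fsum, ha, ha]
  exact ⟨rfl, rfl⟩

end Fermat.Agent.S33.New.TorsPush
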