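/-
S33 / (NEW′) transfer, pure algebra (helper29).

`T` a commutative ring, `V` a `T`-module with a basis `bas`, `W ⊆ V` a submodule (in the application
`W = I • ⊤`), `Ω B : End_T V`.

* (A) `smul_apply_mem_of_forall_end` : if `Ω X B v ∈ W` for ALL `X ∈ End_T V` and all `v`, then every
  entry `r` of `B` satisfies `r • Ω w ∈ W` for all `w`;
* (B) `forall_end_of_span_eq_top` : if the `T`-span of `ρ(Γ)` is `End_T V`, it suffices to test
  `X = ρ g`;
* (C) `smul_apply_mem_of_mem_span` : pass to the ideal generated by the entries of a set of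
  endomorphisms;
* (D) `smul_eq_zero_of_forall_pow` : Krull intersection and `ℤ`-torsion-freeness:
  `k • c • Ω w ∈ 𝔪 ^ n • ⊤` for all `n`, `k ≠ 0`, gives `c • Ω = 0`;
* `smul_eq_zero_of_levels` : (A)–(D) combined.
-/
import Mathlib

set_option autoImplicit false

namespace Fermat.Agent.S33.New.TransferAlg

open Module

section Entries

variable {T : Type*} [CommRing T] {V : Type*} [AddCommGroup V] [Module T V] {ι : Type*}

/-- **(A)** If `Ω ∘ X ∘ B` has values in `W` for every endomorphism `X`, then every entry of `B`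
multiplies `Ω` into `W`. -/
theorem smul_apply_mem_of_forall_end (bas : Module.Basis ι T V) (Ω B : Module.End T V)
    (W : Submodule T V) (h : ∀ X : Module.End T V, ∀ v : V, Ω (X (B v)) ∈ W) (i j : ι) (w : V) :
    bas.repr (B (bas j)) i • Ω w ∈ W := by
  have h1 := h ((bas.coord i).smulRight w) (bas j)
  rw [LinearMap.smulRight_apply, Module.Basis.coord_apply, map_smul] at h1
  exact h1

/-- **(B)** If the span of the image of `ρ` is everything, it suffices to test `X = ρ g`. -/
theorem forall_end_of_span_eq_top {Γ : Type*} [Monoid Γ] (ρ : Γ →* Module.End T V)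
    (hspan : Submodule.span T (Set.range ρ) = ⊤) (Ω B : Module.End T V) (W : Submodule T V)
    (h : ∀ g : Γ, ∀ v : V, Ω (ρ g (B v)) ∈ W) (X : Module.End T V) (v : V) :
    Ω (X (B v)) ∈ W := by
  have hX : X ∈ Submodule.span T (Set.range ρ) := by
    rw [hspan]
    exact Submodule.mem_top
  induction hX using Submodule.span_induction with
  | mem Y hY =>
    obtain ⟨g, rfl⟩ := hY
    exact h g v
  | zero =>
    rw [LinearMap.zero_apply, map_zero]
    exact W.zero_mem
  | add Y Z _ _ hY hZ =>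
    rw [LinearMap.add_apply, map_add]
    exact W.add_mem hY hZ
  | smul r Y _ hY =>
    rw [LinearMap.smul_apply, map_smul]
    exact W.smul_mem r hY

/-- **(C)** From the entries of the members of a set `𝒮` of endomorphisms to the ideal they
generate. -/
theorem smul_apply_mem_of_mem_span (bas : Module.Basis ι T V) (Ω : Module.End T V)
    (W : Submodule T V) (𝒮 : Set (Module.End T V))
    (h : ∀ B ∈ 𝒮, ∀ (i j : ι) (w : V), bas.repr (B (bas j)) i • Ω w ∈ W) {c : T}
    (hc : c ∈ Ideal.span {r : T | ∃ B ∈ 𝒮, ∃ i j : ι, r = bas.repr (B (bas j)) i}) (w : V) :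
    c • Ω w ∈ W := by
  induction hc using Submodule.span_induction with
  | mem r hr =>
    obtain ⟨B, hB, i, j, rfl⟩ := hr
    exact h B hB i j w
  | zero =>
    rw [zero_smul]
    exact W.zero_mem
  | add r s _ _ hr hs =>
    rw [add_smul]
    exact W.add_mem hr hs
  | smul a r _ hr =>
    rw [smul_eq_mul, mul_smul]
    exact W.smul_mem a hr

/-- (A)+(B)+(C): if the span of `ρ(Γ)` is `End V` and `Ω ∘ ρ g ∘ B` has values in `W` for all `g` and
all `B ∈ 𝒮`, then every `c` in the ideal generated by the entries of the members of `𝒮` multiplies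
`Ω` into `W`. -/
theorem smul_apply_mem_of_forall_rho {Γ : Type*} [Monoid Γ] (ρ : Γ →* Module.End T V)
    (hspan : Submodule.span T (Set.range ρ) = ⊤) (bas : Module.Basis ι T V) (Ω : Module.End T V)
    (W : Submodule T V) (𝒮 : Set (Module.End T V))
    (h : ∀ B ∈ 𝒮, ∀ g : Γ, ∀ v : V, Ω (ρ g (B v)) ∈ W) {c : T}
    (hc : c ∈ Ideal.span {r : T | ∃ B ∈ 𝒮, ∃ i j : ι, r = bas.repr (B (bas j)) i}) (w : V) :
    c • Ω w ∈ W :=
  smul_apply_mem_of_mem_span bas Ω W 𝒮
    (fun B hB i j w =>
      smul_apply_mem_of_forall_end bas Ω B W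
        (forall_end_of_span_eq_top ρ hspan Ω B W (h B hB)) i j w) hc w

end Entries

section Krull

variable {T : Type*} [CommRing T] [IsLocalRing T] [IsNoetherianRing T] {V : Type*} [AddCommGroup V]
  [Module T V] [Module.Finite T V]

/-- Krull's intersection theorem for a finite module over a Noetherian local ring. -/
theorem eq_zero_of_forall_mem_pow_smul_top {x : V}
    (h : ∀ n : ℕ, x ∈ (IsLocalRing.maximalIdeal T ^ n) • (⊤ : Submodule T V)) : x = 0 := by
  have h1 : x ∈ (⨅ n : ℕ, (IsLocalRing.maximalIdeal T ^ n) • (⊤ : Submodule T V)) := by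
    rw [Submodule.mem_iInf]
    exact h
  rw [Ideal.iInf_pow_smul_eq_bot_of_isLocalRing _
    (IsLocalRing.maximalIdeal.isMaximal T).ne_top] at h1
  exact (Submodule.mem_bot T).mp h1

/-- **(D)** Krull + `ℤ`-torsion-freeness. -/
theorem smul_eq_zero_of_forall_pow [NoZeroSMulDivisors ℤ V] (Ω : Module.End T V) (c : T) (k : ℤ)
    (hk : k ≠ 0)
    (h : ∀ (n : ℕ) (w : V), k • c • Ω w ∈ (IsLocalRing.maximalIdeal T ^ n) • (⊤ : Submodule T V)) :
    c • Ω = 0 := by
  ext w
  rw [LinearMap.smul_apply, LinearMap.zero_apply]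
  have h1 : k • c • Ω w = 0 := eq_zero_of_forall_mem_pow_smul_top fun n => h n w
  rcases smul_eq_zero.mp h1 with h2 | h2
  · exact absurd h2 hk
  · exact h2

end Krull

section Combined

variable {T : Type*} [CommRing T] [IsLocalRing T] [IsNoetherianRing T] {V : Type*} [AddCommGroup V]
  [Module T V] [Module.Finite T V] [NoZeroSMulDivisors ℤ V] {ι : Type*}

/-- **The algebraic tail of (NEW′).**  `𝒮 m` a family of sets of endomorphisms (the `ρ(b)`, `b`
killing `J₀(N/p)[p^m]`), `𝔞 m` the ideal generated by their entries.  If for every `n` there is `m`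
with `k • Ω ∘ ρ g ∘ B` having values in `𝔪 ^ n • ⊤` for all `B ∈ 𝒮 m` and all `g`, then every
`c ∈ ⨅ m, 𝔞 m` kills `Ω`. -/
theorem smul_eq_zero_of_levels {Γ : Type*} [Monoid Γ] (ρ : Γ →* Module.End T V)
    (hspan : Submodule.span T (Set.range ρ) = ⊤) (bas : Module.Basis ι T V) (Ω : Module.End T V)
    (𝒮 : ℕ → Set (Module.End T V)) (k : ℤ) (hk : k ≠ 0)
    (h : ∀ n : ℕ, ∃ m : ℕ, ∀ B ∈ 𝒮 m, ∀ g : Γ, ∀ v : V,
      k • Ω (ρ g (B v)) ∈ (IsLocalRing.maximalIdeal T ^ n) • (⊤ : Submodule T V)) {c : T}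
    (hc : c ∈ ⨅ m : ℕ, Ideal.span {r : T | ∃ B ∈ 𝒮 m, ∃ i j : ι, r = bas.repr (B (bas j)) i}) :
    c • Ω = 0 := by
  refine smul_eq_zero_of_forall_pow Ω c k hk fun n w => ?_
  obtain ⟨m, hm⟩ := h n
  have hcm := (Ideal.mem_iInf.mp hc) m
  have h1 := smul_apply_mem_of_forall_rho ρ hspan bas (k • Ω)
    ((IsLocalRing.maximalIdeal T ^ n) • (⊤ : Submodule T V)) (𝒮 m)
    (fun B hB g v => by
      rw [LinearMap.smul_apply]
      exact hm B hB g v) hcm w
  rw [LinearMap.smul_apply] at h1
  rw [smul_comm]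
  exact h1

end Combined

end Fermat.Agent.S33.New.TransferAlg
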